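import Fermat.Agent.MU.S56.W2.EC.Cyclic.K0.Toolkit
import Fermat.Agent.MU.S56.W2.EC.UnitLog
import Fermat.Agent.MU.S56.W2.EC.PermMod
import Fermat.Agent.MU.S56.W2.EC.Pack
import Fermat.Agent.MU.F4.Dict.Level

section MergeWrap_S56_W2_EC_Cyclic_K0_Main -- from S56/W2/EC/Cyclic/K0/Main.lean

set_option autoImplicit false

noncomputable section

namespace Fermat.Agent.S56.EC

variable {p : ℕ} [Fact p.Prime] {Γ : Type} [Group Γ]

/-- The `K₀` input of the cyclic case. -/
structure CycK0 (ω : Γ →* (ZMod p)ˣ) where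
  /-- `Hom_sm(W, μ_p)` -/
  Hμ : FinCMod p Γ
  /-- `E_L / p` -/
  Emod : FinCMod p Γ
  /-- `(ker d_KC)^W` -/
  Z : FinCMod p Γ
  /-- the locally trivial part of `Hμ` -/
  Sha : FinCMod p Γ
  /-- `A = T_W / (E + Fˣ) ≅ C^W / pr(J^W) ≅ H¹(W, E)` -/
  A : Type
  [instA : AddCommGroup A]
  [actA : DistribMulAction Γ A]
  [finA : Finite A]
  /-- the places of `L` over `S` -/
  Ωf : Type
  /-- the archimedean places of `L` -/
  Ωi : Type
  [finf : Finite Ωf]
  [fini : Finite Ωi]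
  actf : Γ →* Equiv.Perm Ωf
  acti : Γ →* Equiv.Perm Ωi
  kummer : ∀ d : FinCMod p Γ → ℤ, IsAdditive d →
    d Hμ = d Emod + d (torObj (C := Γ) A (NeZero.ne p))
  tors : ∀ d : FinCMod p Γ → ℤ, IsAdditive d →
    d Z = d (muPermObj ω actf) - d (muObj ω) + d Sha
  recip : ∀ d : FinCMod p Γ → ℤ, IsAdditive d →
    d Sha = d (dualObj ω (modObj (C := Γ) A (NeZero.ne p)))
  units : ∀ d : FinCMod p Γ → ℤ, IsAdditive d →
    d Emod - d (muObj ω) + d (trivObj p Γ) = d (permObj p actf) + d (permObj p acti)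

attribute [instance] CycK0.instA CycK0.actA CycK0.finA CycK0.finf CycK0.fini

/-- **The cyclic case, in `K₀`.** -/
theorem CycK0.formula {ω : Γ →* (ZMod p)ˣ} (I : CycK0 ω) [Finite Γ]
    (hΓ : (Nat.card Γ).Coprime p) (X : FinCMod p Γ) :
    pairC (dualObj ω X) I.Hμ - pairC (dualObj ω X) (muObj ω) - pairC X I.Z
      - pairC (muPermObj ω I.acti) X = 0 := by
  have hp : p ≠ 0 := NeZero.ne p
  have hd1 := pairC_right_isAdditive hΓ (dualObj ω X)
  have hd2 := pairC_right_isAdditive hΓ X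
  -- conversion `d₂ (D M) = d₁ M`
  have conv : ∀ M : FinCMod p Γ, pairC X (dualObj ω M) = pairC (dualObj ω X) M := fun M => by
    rw [pairC_dualObj_swap ω X M, pairC_symm hΓ]
  have a := I.kummer _ hd1
  have b := I.units _ hd1
  have c := I.tors _ hd2
  have d' := I.recip _ hd2
  have e1 : pairC X (muPermObj ω I.actf) = pairC (dualObj ω X) (permObj p I.actf) := by
    rw [← conv]
    exact d_muPermObj_eq ω I.actf hd2
  have e2 : pairC X (muObj ω) = pairC (dualObj ω X) (trivObj p Γ) := by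
    rw [← conv]
    exact d_muObj_eq ω hd2
  have e3 : pairC (muPermObj ω I.acti) X = pairC (dualObj ω X) (permObj p I.acti) := by
    rw [pairC_symm hΓ, ← conv]
    exact d_muPermObj_eq ω I.acti hd2
  have e4 : pairC X (dualObj ω (modObj (C := Γ) I.A hp)) =
      pairC (dualObj ω X) (modObj (C := Γ) I.A hp) := conv _
  have h := hd1.d_modObj_eq_d_torObj (M := I.A) hp
  beta_reduce at a b c d' h
  rw [e1, e2] at c
  rw [e4] at d'
  rw [e3]
  linarith

end Fermat.Agent.S56.EC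
end
end MergeWrap_S56_W2_EC_Cyclic_K0_Main

section MergeWrap_S56_W2_EC_UnitIsogeny -- from S56/W2/EC/UnitIsogeny.lean

set_option autoImplicit false

noncomputable section

namespace Fermat.Agent.S56.EC

open NumberField IsDedekindDomain Fermat.Agent.S14SI

variable {L : Type} [Field L] [NumberField L] (T : GalStableSet L)

/-- The lattice `log E_T + ℤ · 1` in `ℝ^X`. -/
def logLattice : AddSubgroup (PlaceX T → ℝ) :=
  (sLog T).range ⊔ AddSubgroup.zmultiples (fun _ => (1 : ℝ))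

lemma mem_logLattice_iff (v : PlaceX T → ℝ) :
    v ∈ logLattice T ↔
      ∃ (u : Additive ↥(sUnits L T.carrier)) (n : ℤ), v = sLog T u + n • (fun _ => (1 : ℝ)) := by
  unfold logLattice
  rw [AddSubgroup.mem_sup]
  constructor
  · rintro ⟨_, ⟨u, rfl⟩, z, hz, rfl⟩
    obtain ⟨n, rfl⟩ := AddSubgroup.mem_zmultiples_iff.mp hz
    exact ⟨u, n, rfl⟩
  · rintro ⟨u, n, rfl⟩
    exact ⟨_, ⟨u, rfl⟩, _, AddSubgroup.mem_zmultiples_iff.mpr ⟨n, rfl⟩, rfl⟩

lemma span_logLattice : Submodule.span ℝ (logLattice T : Set (PlaceX T → ℝ)) = ⊤ := by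
  rw [eq_top_iff, ← logSpan_eq_top T]
  unfold logSpan
  refine Submodule.span_mono ?_
  rintro v (⟨u, rfl⟩ | hv)
  · exact (mem_logLattice_iff T _).mpr ⟨u, 0, by simp⟩
  · rw [Set.mem_singleton_iff] at hv
    subst hv
    exact (mem_logLattice_iff T _).mpr ⟨0, 1, by simp⟩

lemma permFun_const (σ : L ≃ₐ[ℚ] L) (c : ℝ) :
    permFun σ (fun _ : PlaceX T => c) = fun _ => c := rfl

lemma permFun_mem_logLattice (σ : L ≃ₐ[ℚ] L) (v : PlaceX T → ℝ) (hv : v ∈ logLattice T) :
    permFun σ v ∈ logLattice T := by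
  obtain ⟨u, n, rfl⟩ := (mem_logLattice_iff T v).mp hv
  refine (mem_logLattice_iff T _).mpr ⟨galU T σ u, n, ?_⟩
  rw [permFun_add, sLog_galU]
  rfl

/-- Uniqueness of the decomposition in `log E_T + ℤ · 1`. -/
lemma logLattice_decomp_unique (u u' : Additive ↥(sUnits L T.carrier)) (n n' : ℤ)
    (h : sLog T u + n • (fun _ => (1 : ℝ)) = sLog T u' + n' • (fun _ => (1 : ℝ))) :
    n = n' ∧ sLog T (u - u') = 0 := by
  have h1 : sLog T (u - u') = fun _ => ((n' - n : ℤ) : ℝ) := by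
    rw [map_sub]
    funext x
    have := congrFun h x
    have e : ∀ k : ℤ, (k • (fun _ : PlaceX T => (1 : ℝ))) x = (k : ℝ) := fun k => by
      rw [Pi.smul_apply, zsmul_eq_mul, mul_one]
    rw [Pi.add_apply, Pi.add_apply, e, e] at this
    simp only [Pi.sub_apply, Int.cast_sub]
    linarith
  have h2 := sLog_eq_const T _ _ h1
  have h3 : n' - n = 0 := by exact_mod_cast h2
  refine ⟨by omega, ?_⟩
  rw [h1, h2]
  rfl

/-- **Equivariant `S`-unit theorem, family form**: there are `T`-units `u x` and integers `n x`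
(`x ∈ X`), permuted by the automorphisms of `L` (up to torsion, killed by `N`), such that the
vectors `log (u x) + n x · 1` are linearly independent. -/
theorem exists_sUnit_family :
    ∃ (N : ℕ) (u : PlaceX T → Additive ↥(sUnits L T.carrier)) (n : PlaceX T → ℤ), 0 < N ∧
      (∀ u₀ : Additive ↥(sUnits L T.carrier), sLog T u₀ = 0 → N • u₀ = 0) ∧
      (∀ (σ : L ≃ₐ[ℚ] L) (x : PlaceX T), N • galU T σ (u x) = N • u (σ • x)) ∧
      (∀ (σ : L ≃ₐ[ℚ] L) (x : PlaceX T), n (σ • x) = n x) ∧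
      LinearIndependent ℝ (fun x => sLog T (u x) + n x • (fun _ : PlaceX T => (1 : ℝ))) := by
  classical
  obtain ⟨N, hN, hker⟩ := exists_nsmul_eq_zero_of_sLog_eq_zero T
  haveI : Fintype (L ≃ₐ[ℚ] L) := Fintype.ofFinite _
  obtain ⟨y, hyM, hyeq, hyli⟩ := exists_equivariant_linearIndependent (C := L ≃ₐ[ℚ] L)
    (logLattice T) (span_logLattice T) (fun σ v hv => permFun_mem_logLattice T σ v hv)
  choose u n hun using fun x => (mem_logLattice_iff T (y x)).mp (hyM x)
  have hy : y = fun x => sLog T (u x) + n x • (fun _ : PlaceX T => (1 : ℝ)) := funext hun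
  refine ⟨N, u, n, hN, hker, ?_, ?_, ?_⟩
  · intro σ x
    have h1 := hyeq σ x
    rw [hun x, hun (σ • x), permFun_add, ← sLog_galU] at h1
    have h2 : permFun σ (n x • (fun _ : PlaceX T => (1 : ℝ))) =
        n x • (fun _ : PlaceX T => (1 : ℝ)) := rfl
    rw [h2] at h1
    obtain ⟨-, h3⟩ := logLattice_decomp_unique T _ _ _ _ h1
    have := hker _ h3
    rwa [nsmul_sub, sub_eq_zero] at this
  · intro σ x
    have h1 := hyeq σ x
    rw [hun x, hun (σ • x), permFun_add, ← sLog_galU] at h1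
    have h2 : permFun σ (n x • (fun _ : PlaceX T => (1 : ℝ))) =
        n x • (fun _ : PlaceX T => (1 : ℝ)) := rfl
    rw [h2] at h1
    exact (logLattice_decomp_unique T _ _ _ _ h1).1.symm
  · rw [← hy]
    exact hyli

end Fermat.Agent.S56.EC
end
end MergeWrap_S56_W2_EC_UnitIsogeny

section MergeWrap_S56_W2_EC_UnitIsogenyMap -- from S56/W2/EC/UnitIsogenyMap.lean

set_option autoImplicit false

noncomputable section

namespace Fermat.Agent.S56.EC

open NumberField IsDedekindDomain Fermat.Agent.S14SI Module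

variable {L : Type} [Field L] [NumberField L] (T : GalStableSet L)

/-- The map `ℤ^X → E_T × ℤ` attached to a family. -/
def famMap (N : ℕ) (u : PlaceX T → Additive ↥(sUnits L T.carrier)) (n : PlaceX T → ℤ) :
    (PlaceX T → ℤ) →+ Additive ↥(sUnits L T.carrier) × ℤ where
  toFun a := (N • ∑ x, a x • u x, N * ∑ x, a x * n x)
  map_zero' := by simp
  map_add' a b := by
    refine Prod.ext ?_ ?_
    · show N • ∑ x, (a x + b x) • u x = N • ∑ x, a x • u x + N • ∑ x, b x • u x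
      simp only [add_zsmul, Finset.sum_add_distrib, nsmul_add]
    · simp only [Pi.add_apply, add_mul, Finset.sum_add_distrib, mul_add, Prod.snd_add]

lemma famMap_fst (N : ℕ) (u : PlaceX T → Additive ↥(sUnits L T.carrier)) (n : PlaceX T → ℤ)
    (a : PlaceX T → ℤ) : (famMap T N u n a).1 = N • ∑ x, a x • u x := rfl

lemma famMap_snd (N : ℕ) (u : PlaceX T → Additive ↥(sUnits L T.carrier)) (n : PlaceX T → ℤ)
    (a : PlaceX T → ℤ) : (famMap T N u n a).2 = N * ∑ x, a x * n x := rfl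

/-- The rank of `E_T × ℤ` is the number of places in `X`. -/
lemma finrank_sUnits_prod :
    Module.Finite ℤ (Additive ↥(sUnits L T.carrier) × ℤ) ∧
      finrank ℤ (Additive ↥(sUnits L T.carrier) × ℤ) = Fintype.card (PlaceX T) := by
  classical
  obtain ⟨hfin, hrank⟩ := sUnitRankZ L T.carrier T.finite
  haveI := hfin
  refine ⟨inferInstance, ?_⟩
  have h1 : finrank ℤ (Additive ↥(sUnits L T.carrier) × ℤ) =
      finrank ℤ (Additive ↥(sUnits L T.carrier)) + 1 := by
    have := Submodule.finrank_quotient_add_finrank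
      (LinearMap.ker (LinearMap.snd ℤ (Additive ↥(sUnits L T.carrier)) ℤ))
    have e1 : finrank ℤ ((Additive ↥(sUnits L T.carrier) × ℤ) ⧸
        LinearMap.ker (LinearMap.snd ℤ (Additive ↥(sUnits L T.carrier)) ℤ)) = 1 := by
      rw [LinearEquiv.finrank_eq ((LinearMap.snd ℤ (Additive ↥(sUnits L T.carrier)) ℤ).quotKerEquivOfSurjective
        LinearMap.snd_surjective)]
      exact Module.finrank_self ℤ
    have e2 : finrank ℤ (LinearMap.ker (LinearMap.snd ℤ (Additive ↥(sUnits L T.carrier)) ℤ)) =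
        finrank ℤ (Additive ↥(sUnits L T.carrier)) := by
      rw [LinearMap.ker_snd]
      exact LinearMap.finrank_range_of_inj LinearMap.inl_injective
    rw [e1, e2] at this
    omega
  haveI : Fintype ↥T.carrier := T.finite.fintype
  have h2 : Fintype.card (PlaceX T) = Fintype.card ↥T.carrier + Fintype.card (InfinitePlace L) := by
    rw [Fintype.card_congr (PlaceX.equivSum T), Fintype.card_sum]
  have h3 : T.carrier.ncard = Fintype.card ↥T.carrier := by
    rw [← Nat.card_coe_set_eq, Nat.card_eq_fintype_card]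
  rw [h1, h2, hrank, h3, Nat.card_eq_fintype_card]
  omega

/-- **Equivariant `S`-unit theorem, isogeny form.** -/
theorem exists_sUnit_isogeny :
    ∃ F : (PlaceX T → ℤ) →+ Additive ↥(sUnits L T.carrier) × ℤ,
      Function.Injective F ∧
      (∀ (σ : L ≃ₐ[ℚ] L) (a : PlaceX T → ℤ),
        F (fun x => a (σ⁻¹ • x)) = (galU T σ (F a).1, (F a).2)) ∧
      F.range.FiniteIndex := by
  classical
  obtain ⟨N, u, n, hN, hker, hu, hn, hli⟩ := exists_sUnit_family T
  have hinj : Function.Injective (famMap T N u n) := by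
    rw [injective_iff_map_eq_zero]
    intro a ha
    have h1 : N • ∑ x, a x • u x = 0 := congrArg Prod.fst ha
    have h2 : (N : ℤ) * ∑ x, a x * n x = 0 := congrArg Prod.snd ha
    have h2' : ∑ x, a x * n x = 0 := by
      rcases mul_eq_zero.mp h2 with h | h
      · exact absurd (by exact_mod_cast h) hN.ne'
      · exact h
    have h1' : ∑ x, (a x : ℝ) • sLog T (u x) = 0 := by
      have := congrArg (sLog T) h1
      rw [map_nsmul, map_sum, map_zero] at this
      simp only [map_zsmul] at this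
      have hN' : (N : ℝ) ≠ 0 := by exact_mod_cast hN.ne'
      have h3 : (N : ℝ) • ∑ x, (a x : ℝ) • sLog T (u x) = 0 := by
        rw [← this, Nat.cast_smul_eq_nsmul]
        congr 1
        refine Finset.sum_congr rfl fun x _ => ?_
        rw [Int.cast_smul_eq_zsmul]
      exact (smul_eq_zero.mp h3).resolve_left hN'
    have h3 : ∑ x, (a x : ℝ) • (sLog T (u x) + n x • (fun _ : PlaceX T => (1 : ℝ))) = 0 := by
      simp only [smul_add, Finset.sum_add_distrib, h1', zero_add]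
      have : ∀ x, (a x : ℝ) • n x • (fun _ : PlaceX T => (1 : ℝ)) =
          ((a x * n x : ℤ) : ℝ) • (fun _ : PlaceX T => (1 : ℝ)) := by
        intro x
        rw [← Int.cast_smul_eq_zsmul ℝ (n x), smul_smul, Int.cast_mul]
      simp only [this, ← Finset.sum_smul, ← Int.cast_sum, h2', Int.cast_zero, zero_smul]
    have h4 := Fintype.linearIndependent_iff.mp hli (fun x => (a x : ℝ)) h3
    funext x
    exact_mod_cast h4 x
  refine ⟨famMap T N u n, hinj, ?_, ?_⟩
  · intro σ a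
    refine Prod.ext ?_ ?_
    · show N • ∑ x, a (σ⁻¹ • x) • u x = galU T σ (N • ∑ x, a x • u x)
      rw [map_nsmul, map_sum]
      simp only [map_zsmul]
      rw [← Finset.sum_nsmul, ← Finset.sum_nsmul]
      have hcomm : ∀ (k : ℤ) (v : Additive ↥(sUnits L T.carrier)), N • (k • v) = k • (N • v) := by
        intro k v
        rw [← natCast_zsmul, ← natCast_zsmul, smul_smul, smul_smul, mul_comm]
      refine Fintype.sum_equiv (MulAction.toPerm σ⁻¹) _ _ fun x => ?_
      simp only [MulAction.toPerm_apply]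
      rw [hcomm, hcomm, hu σ (σ⁻¹ • x), smul_inv_smul]
    · show (N : ℤ) * ∑ x, a (σ⁻¹ • x) * n x = N * ∑ x, a x * n x
      congr 1
      refine Fintype.sum_equiv (MulAction.toPerm σ⁻¹) _ _ fun x => ?_
      simp only [MulAction.toPerm_apply]
      have := hn σ (σ⁻¹ • x)
      rw [smul_inv_smul] at this
      rw [this]
  · -- finite index, from the ranks
    obtain ⟨hfin, hrank⟩ := finrank_sUnits_prod T
    haveI := hfin
    set F' : (PlaceX T → ℤ) →ₗ[ℤ] Additive ↥(sUnits L T.carrier) × ℤ :=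
      (famMap T N u n).toIntLinearMap with hF'
    have hF'inj : Function.Injective F' := hinj
    have h1 : finrank ℤ (LinearMap.range F') = Fintype.card (PlaceX T) := by
      rw [LinearMap.finrank_range_of_inj hF'inj, Module.finrank_fintype_fun_eq_card]
    have h2 := Submodule.finrank_quotient_add_finrank (LinearMap.range F')
    rw [h1, hrank] at h2
    have h3 : finrank ℤ ((Additive ↥(sUnits L T.carrier) × ℤ) ⧸ LinearMap.range F') = 0 := by
      omega
    have h4 : Module.IsTorsion ℤ ((Additive ↥(sUnits L T.carrier) × ℤ) ⧸ LinearMap.range F') :=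
      Module.finrank_eq_zero_iff_isTorsion.mp h3
    have h5 : Finite ((Additive ↥(sUnits L T.carrier) × ℤ) ⧸ LinearMap.range F') :=
      Module.finite_of_fg_torsion _ h4
    have h6 : (LinearMap.range F').toAddSubgroup = (famMap T N u n).range := by
      ext y
      simp [F']
    rw [← h6]
    exact @AddSubgroup.finiteIndex_of_finite_quotient _ _ _ h5

end Fermat.Agent.S56.EC
end
end MergeWrap_S56_W2_EC_UnitIsogenyMap

section MergeWrap_S56_W2_EC_UnitClass -- from S56/W2/EC/UnitClass.lean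

set_option autoImplicit false

noncomputable section

namespace Fermat.Agent.S56.EC

open NumberField IsDedekindDomain Fermat.Agent.S14SI Module

variable {p : ℕ} {C : Type} [Group C]
variable {L : Type} [Field L] [NumberField L]

/-- The action of `C` on the places `T ⊔ S_∞(L)` through `ρ`. -/
def placeAct (T : GalStableSet L) (ρ : C →* (L ≃ₐ[ℚ] L)) : C →* Equiv.Perm (PlaceX T) :=
  (MulAction.toPermHom (L ≃ₐ[ℚ] L) (PlaceX T)).comp ρ

lemma placeAct_apply (T : GalStableSet L) (ρ : C →* (L ≃ₐ[ℚ] L)) (c : C) (x : PlaceX T) :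
    placeAct T ρ c x = ρ c • x := rfl

lemma placeAct_inv_apply (T : GalStableSet L) (ρ : C →* (L ≃ₐ[ℚ] L)) (c : C) (x : PlaceX T) :
    (placeAct T ρ c)⁻¹ x = (ρ c)⁻¹ • x := by
  rw [← map_inv, placeAct_apply, map_inv]

/-- The `T`-units of `L` as a `C`-module (written additively). -/
def UnitMod (T : GalStableSet L) (_ρ : C →* (L ≃ₐ[ℚ] L)) : Type :=
  Additive ↥(sUnits L T.carrier)

namespace UnitMod

variable (T : GalStableSet L) (ρ : C →* (L ≃ₐ[ℚ] L))

instance : AddCommGroup (UnitMod T ρ) :=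
  inferInstanceAs (AddCommGroup (Additive ↥(sUnits L T.carrier)))

/-- `E_T → UnitMod`. -/
def of : Additive ↥(sUnits L T.carrier) →+ UnitMod T ρ := AddMonoidHom.id _

/-- `UnitMod → E_T`. -/
def val : UnitMod T ρ →+ Additive ↥(sUnits L T.carrier) := AddMonoidHom.id _

variable {T ρ}

@[simp] lemma val_of (u : Additive ↥(sUnits L T.carrier)) : val T ρ (of T ρ u) = u := rfl

@[simp] lemma of_val (u : UnitMod T ρ) : of T ρ (val T ρ u) = u := rfl

lemma val_injective : Function.Injective (val T ρ) := fun _ _ h => h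

variable (T ρ)

instance : DistribMulAction C (UnitMod T ρ) where
  smul c u := of T ρ (galU T (ρ c) (val T ρ u))
  one_smul u := by
    show of T ρ (galU T (ρ 1) (val T ρ u)) = u
    rw [map_one, galU_one, of_val]
  mul_smul c c' u := by
    show of T ρ (galU T (ρ (c * c')) (val T ρ u)) =
      of T ρ (galU T (ρ c) (val T ρ (of T ρ (galU T (ρ c') (val T ρ u)))))
    rw [map_mul, galU_mul, val_of]
  smul_zero c := by
    show of T ρ (galU T (ρ c) (val T ρ 0)) = 0
    rw [map_zero, map_zero, map_zero]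
  smul_add c u v := by
    show of T ρ (galU T (ρ c) (val T ρ (u + v))) =
      of T ρ (galU T (ρ c) (val T ρ u)) + of T ρ (galU T (ρ c) (val T ρ v))
    rw [map_add, map_add, map_add]

variable {T ρ}

lemma smul_def (c : C) (u : UnitMod T ρ) : c • u = of T ρ (galU T (ρ c) (val T ρ u)) := rfl

lemma val_smul (c : C) (u : UnitMod T ρ) : val T ρ (c • u) = galU T (ρ c) (val T ρ u) := rfl

instance : Module.Finite ℤ (UnitMod T ρ) := by
  obtain ⟨hfin, -⟩ := sUnitRankZ L T.carrier T.finite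
  have h : AddGroup.FG (Additive ↥(sUnits L T.carrier)) := Module.Finite.iff_addGroup_fg.mp hfin
  exact Module.Finite.iff_addGroup_fg.mpr h

end UnitMod

/-- **Dirichlet–Herbrand modulo `p`**: `χ(E_T) + d(𝔽_p) = d(𝔽_p[T ⊔ S_∞])`. -/
theorem unit_chi [NeZero p] {d : FinCMod p C → ℤ} (hd : IsAdditive d) (hp : p ≠ 0)
    (T : GalStableSet L) (ρ : C →* (L ≃ₐ[ℚ] L)) :
    chiTop d hp (UnitMod T ρ) + d (trivObj p C) = d (permObj p (placeAct T ρ)) := by
  obtain ⟨F, hFinj, hFeq, hFidx⟩ := exists_sUnit_isogeny T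
  -- `F` as a map of `C`-modules
  let f : PermMod (placeAct T ρ) ℤ →+ UnitMod T ρ × TrivMod C ℤ :=
    ((UnitMod.of T ρ).prodMap (TrivMod.of (C := C) (R := ℤ))).comp F
  have hf : ∀ a : PermMod (placeAct T ρ) ℤ,
      f a = (UnitMod.of T ρ (F a).1, TrivMod.of (C := C) (F a).2) := fun _ => rfl
  have hfinj : Function.Injective f := hFinj
  have hfeq : ∀ (c : C) (a : PermMod (placeAct T ρ) ℤ), f (c • a) = c • f a := by
    intro c a
    have h1 : (c • a : PermMod (placeAct T ρ) ℤ) = fun x => a ((ρ c)⁻¹ • x) := by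
      funext x
      rw [PermMod.smul_apply, placeAct_inv_apply]
    rw [hf, h1, hFeq (ρ c) a]
    rfl
  have hfrange : f.range.index ≠ 0 := by
    have h2 : f.range = F.range := by
      ext y
      constructor
      · rintro ⟨a, rfl⟩
        exact ⟨a, rfl⟩
      · rintro ⟨a, rfl⟩
        exact ⟨a, rfl⟩
    have := hFidx
    have h3 : F.range.index ≠ 0 := AddSubgroup.FiniteIndex.index_ne_zero
    have h4 : f.range.index = F.range.index := by
      rw [h2]
      rfl
    rw [h4]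
    exact h3
  have key := chiTop_eq_of_injective hd hp f hfinj hfeq hfrange
  rw [chiTop_permMod hd hp, chiTop_prod hd hp, chiTop_trivMod hd hp] at key
  exact key.symm

/-- **Dirichlet–Herbrand modulo `p`, universal form.**  `A ≅ E_T / p`, `B ≅ E_T[p]`:
`d A - d B + d(𝔽_p) = d(𝔽_p[T ⊔ S_∞])`. -/
theorem unit_class [NeZero p] {d : FinCMod p C → ℤ} (hd : IsAdditive d)
    (T : GalStableSet L) (ρ : C →* (L ≃ₐ[ℚ] L)) (A B : FinCMod p C)
    (π : Additive ↥(sUnits L T.carrier) →+ A.carrier) (hπ : Function.Surjective π)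
    (hπC : ∀ (c : C) (u : Additive ↥(sUnits L T.carrier)), π (galU T (ρ c) u) = c • π u)
    (hπker : ∀ u : Additive ↥(sUnits L T.carrier), π u = 0 →
      ∃ w : Additive ↥(sUnits L T.carrier), p • w = u)
    (ι : B.carrier →+ Additive ↥(sUnits L T.carrier)) (hι : Function.Injective ι)
    (hιC : ∀ (c : C) (b : B.carrier), ι (c • b) = galU T (ρ c) (ι b))
    (hιrange : ∀ u : Additive ↥(sUnits L T.carrier), p • u = 0 → ∃ b : B.carrier, ι b = u) :
    d A - d B + d (trivObj p C) = d (permObj p (placeAct T ρ)) := by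
  have hp : p ≠ 0 := NeZero.ne p
  have h1 : d (modObj (C := C) (UnitMod T ρ) hp) = d A :=
    hd.d_modObj_eq hp A (π.comp (UnitMod.val T ρ)) (fun a => by
      obtain ⟨u, hu⟩ := hπ a
      exact ⟨UnitMod.of T ρ u, hu⟩) (fun c u => hπC c (UnitMod.val T ρ u)) (fun u hu => by
      obtain ⟨w, hw⟩ := hπker (UnitMod.val T ρ u) hu
      exact ⟨UnitMod.of T ρ w, hw⟩)
  have h2 : d (torObj (C := C) (UnitMod T ρ) hp) = d B :=
    hd.d_torObj_eq hp B ((UnitMod.of T ρ).comp ι) hι (fun c b => hιC c b) (fun u hu => by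
      obtain ⟨b, hb⟩ := hιrange (UnitMod.val T ρ u) hu
      exact ⟨b, hb⟩)
  have key := unit_chi hd hp T ρ
  rw [chiTop_eq, h1, h2] at key
  exact key

end Fermat.Agent.S56.EC
end
end MergeWrap_S56_W2_EC_UnitClass

section MergeWrap_S56_W2_EC_Cyclic_Setup -- from S56/W2/EC/Cyclic/Setup.lean

set_option autoImplicit false
set_option linter.unusedSectionVars false
set_option linter.style.haveILetI false

noncomputable section

namespace Fermat.Agent.S56.EC

open Fermat.Agent.F4 ExtCitation NumberField IsDedekindDomain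

/-- **The setting of the cyclic case**: `W ≤ U`, `W` a level fixing `μ_p`, `p ∤ [U : W]`. -/
structure CycSetup (p : ℕ) [Fact p.Prime] (S : Finset Nat.Primes) where
  W : Subgroup GQ
  U : Subgroup GQ
  hW : W ∈ (levelsS S).sets
  hWU : W ≤ U
  hω : W ≤ MonoidHom.ker (cycloChar p)
  hidx : ¬ p ∣ (W.subgroupOf U).index

namespace CycSetup

variable {p : ℕ} [Fact p.Prime] {S : Finset Nat.Primes} (𝒮 : CycSetup p S)

instance normal_W : 𝒮.W.Normal := (levelsS S).normal _ 𝒮.hW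

instance finiteIndex_W : 𝒮.W.FiniteIndex := (levelsS S).finiteIndex _ 𝒮.hW

/-- `W` as a subgroup of `U`. -/
abbrev N : Subgroup ↥𝒮.U := 𝒮.W.subgroupOf 𝒮.U

lemma mem_N (u : ↥𝒮.U) : u ∈ 𝒮.N ↔ (u : GQ) ∈ 𝒮.W := Subgroup.mem_subgroupOf

instance normal_N : 𝒮.N.Normal := Subgroup.normal_subgroupOf

instance finiteIndex_N : 𝒮.N.FiniteIndex := inferInstance

/-- **`Γ = U / W`**. -/
abbrev Γ : Type := ↥𝒮.U ⧸ 𝒮.N

instance finite_Γ : Finite 𝒮.Γ := Subgroup.finite_quotient_of_finiteIndex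

/-- The projection `U → Γ`. -/
abbrev proj : ↥𝒮.U →* 𝒮.Γ := QuotientGroup.mk' 𝒮.N

lemma proj_surjective : Function.Surjective 𝒮.proj := QuotientGroup.mk'_surjective _

lemma card_coprime : (Nat.card 𝒮.Γ).Coprime p := by
  rw [← Subgroup.index_eq_card]
  exact (((Fact.out : p.Prime).coprime_iff_not_dvd).mpr 𝒮.hidx).symm

/-- **The cyclotomic character of `Γ`**. -/
def ω : 𝒮.Γ →* (ZMod p)ˣ :=
  QuotientGroup.lift 𝒮.N ((cycloChar p).comp 𝒮.U.subtype) (fun n hn => by
    rw [MonoidHom.mem_ker]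
    exact MonoidHom.mem_ker.mp (𝒮.hω ((𝒮.mem_N n).mp hn)))

lemma ω_proj (u : ↥𝒮.U) : 𝒮.ω (𝒮.proj u) = cycloChar p (u : GQ) := rfl

/-- The level `W` as an open subgroup. -/
def L : OpenS S := ⟨𝒮.W, (levelsS S).isOpen_of_mem 𝒮.hW⟩

lemma L_U : 𝒮.L.U = 𝒮.W := rfl

instance isGalois_field : IsGalois ℚ 𝒮.L.field := by
  haveI := isGalois_Qbar
  refine (InfiniteGalois.normal_iff_isGalois 𝒮.L.field).mp ?_
  rw [𝒮.L.fixingSubgroup_field]
  exact 𝒮.normal_W

instance normal_field : Normal ℚ 𝒮.L.field := inferInstance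

/-- Restriction `G_ℚ → Gal(L/ℚ)`. -/
def res : GQ →* (𝒮.L.field ≃ₐ[ℚ] 𝒮.L.field) := AlgEquiv.restrictNormalHom 𝒮.L.field

lemma res_apply (g : GQ) (x : 𝒮.L.field) :
    ((𝒮.res g x : 𝒮.L.field) : AlgebraicClosure ℚ) = g (x : AlgebraicClosure ℚ) :=
  AlgEquiv.restrictNormal_commutes g 𝒮.L.field x

lemma res_eq_one_of_mem {g : GQ} (hg : g ∈ 𝒮.W) : 𝒮.res g = 1 := by
  refine AlgEquiv.ext fun x => Subtype.ext ?_
  rw [res_apply]
  exact (𝒮.L.mem_field_iff _).mp x.2 g hg

/-- **The action of `Γ` on `L`**. -/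
def ρ : 𝒮.Γ →* (𝒮.L.field ≃ₐ[ℚ] 𝒮.L.field) :=
  QuotientGroup.lift 𝒮.N (𝒮.res.comp 𝒮.U.subtype) (fun n hn => by
    rw [MonoidHom.mem_ker]
    exact 𝒮.res_eq_one_of_mem ((𝒮.mem_N n).mp hn))

lemma ρ_proj (u : ↥𝒮.U) : 𝒮.ρ (𝒮.proj u) = 𝒮.res (u : GQ) := rfl

end CycSetup

/-! ### The action on a Galois-stable set of primes -/

/-- The action of `Gal(L/ℚ)` on a Galois-stable set of primes. -/
def GalStableSet.finAct {L : Type} [Field L] [NumberField L] (T : GalStableSet L) :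
    (L ≃ₐ[ℚ] L) →* Equiv.Perm ↥T.carrier where
  toFun σ :=
    { toFun := fun v => ⟨galPr σ v.1, T.stable σ v.1 v.2⟩
      invFun := fun v => ⟨galPr σ⁻¹ v.1, T.stable σ⁻¹ v.1 v.2⟩
      left_inv := fun v => Subtype.ext (by
        show galPr σ⁻¹ (galPr σ v.1) = v.1
        rw [← galPr_mul, inv_mul_cancel, galPr_one])
      right_inv := fun v => Subtype.ext (by
        show galPr σ (galPr σ⁻¹ v.1) = v.1
        rw [← galPr_mul, mul_inv_cancel, galPr_one]) }
  map_one' := Equiv.ext fun v => Subtype.ext (galPr_one v.1)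
  map_mul' σ τ := Equiv.ext fun v => Subtype.ext (galPr_mul σ τ v.1)

lemma GalStableSet.finAct_apply {L : Type} [Field L] [NumberField L] (T : GalStableSet L)
    (σ : L ≃ₐ[ℚ] L) (v : ↥T.carrier) : ((T.finAct σ v : ↥T.carrier) : HeightOneSpectrum (𝓞 L)) =
      galPr σ v.1 := rfl

/-! ### Representations as `FinCMod` -/

section OfRep

variable {p : ℕ} [Fact p.Prime] {H : Type} [Group H]

/-- The carrier of `FinCMod.ofRep`. -/
def RepMod (X : Rep.{0} (ZMod p) H) : Type := X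

namespace RepMod

variable (X : Rep.{0} (ZMod p) H)

instance : AddCommGroup (RepMod X) := inferInstanceAs (AddCommGroup X)

/-- `X → RepMod X`. -/
def of : X →+ RepMod X := AddMonoidHom.id _

/-- `RepMod X → X`. -/
def val : RepMod X →+ X := AddMonoidHom.id _

variable {X}

@[simp] lemma val_of (x : X) : val X (of X x) = x := rfl

@[simp] lemma of_val (x : RepMod X) : of X (val X x) = x := rfl

lemma val_injective : Function.Injective (val X) := fun _ _ h => h

variable (X)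

instance : DistribMulAction H (RepMod X) where
  smul h x := of X (X.ρ h (val X x))
  one_smul x := by
    show of X (X.ρ 1 (val X x)) = x
    rw [map_one]
    rfl
  mul_smul g h x := by
    show of X (X.ρ (g * h) (val X x)) = of X (X.ρ g (val X (of X (X.ρ h (val X x)))))
    rw [map_mul]
    rfl
  smul_zero h := by
    show of X (X.ρ h (val X 0)) = 0
    rw [map_zero, map_zero, map_zero]
  smul_add h x y := by
    show of X (X.ρ h (val X (x + y))) = of X (X.ρ h (val X x)) + of X (X.ρ h (val X y))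
    rw [map_add, map_add, map_add]

variable {X}

lemma val_smul (h : H) (x : RepMod X) : val X (h • x) = X.ρ h (val X x) := rfl

end RepMod

/-- A finite `𝔽_p[H]`-module as a `FinCMod`. -/
def FinCMod.ofRep (X : Rep.{0} (ZMod p) H) (hfin : Module.Finite (ZMod p) X) : FinCMod p H :=
  { carrier := RepMod X
    isFinite := by
      haveI := hfin
      exact (Module.finite_of_finite (ZMod p) : Finite X)
    killed := fun x => by
      apply RepMod.val_injective
      rw [map_nsmul, map_zero, ← Nat.cast_smul_eq_nsmul (ZMod p), ZMod.natCast_self, zero_smul] }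

end OfRep

namespace CycSetup

variable {p : ℕ} [Fact p.Prime] {S : Finset Nat.Primes} (𝒮 : CycSetup p S)

/-- A finite `U`-module with trivial action of `W`, as a `Γ`-module. -/
def descObj (A : FinCMod p ↥𝒮.U)
    (htriv : ∀ (u : ↥𝒮.U), (u : GQ) ∈ 𝒮.W → ∀ a : A.carrier, u • a = a) : FinCMod p 𝒮.Γ :=
  A.descend 𝒮.N (fun n hn a => htriv n ((𝒮.mem_N n).mp hn) a)

lemma descObj_smul (A : FinCMod p ↥𝒮.U)
    (htriv : ∀ (u : ↥𝒮.U), (u : GQ) ∈ 𝒮.W → ∀ a : A.carrier, u • a = a) (u : ↥𝒮.U)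
    (a : (𝒮.descObj A htriv).carrier) :
    (𝒮.proj u) • a = DescMod.of 𝒮.N A.carrier (u • DescMod.val 𝒮.N A.carrier a) := rfl

/-- **`X̄`**: a finite `𝔽_p[U]`-module with trivial action of `W`, as a `Γ`-module. -/
def obj (X : Rep.{0} (ZMod p) ↥𝒮.U) (hfin : Module.Finite (ZMod p) X)
    (htriv : ∀ (u : ↥𝒮.U), (u : GQ) ∈ 𝒮.W → ∀ x : X, X.ρ u x = x) : FinCMod p 𝒮.Γ :=
  𝒮.descObj (FinCMod.ofRep X hfin) (fun u hu _ => htriv u hu _)

/-- The underlying element of `X`. -/
def objVal (X : Rep.{0} (ZMod p) ↥𝒮.U) (hfin : Module.Finite (ZMod p) X)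
    (htriv : ∀ (u : ↥𝒮.U), (u : GQ) ∈ 𝒮.W → ∀ x : X, X.ρ u x = x) :
    (𝒮.obj X hfin htriv).carrier →+ X :=
  (RepMod.val X).comp (DescMod.val 𝒮.N (RepMod X))

/-- The element of `X̄` attached to `x : X`. -/
def objOf (X : Rep.{0} (ZMod p) ↥𝒮.U) (hfin : Module.Finite (ZMod p) X)
    (htriv : ∀ (u : ↥𝒮.U), (u : GQ) ∈ 𝒮.W → ∀ x : X, X.ρ u x = x) :
    X →+ (𝒮.obj X hfin htriv).carrier :=
  (DescMod.of 𝒮.N (RepMod X)).comp (RepMod.of X)

lemma objVal_objOf (X : Rep.{0} (ZMod p) ↥𝒮.U) (hfin : Module.Finite (ZMod p) X)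
    (htriv : ∀ (u : ↥𝒮.U), (u : GQ) ∈ 𝒮.W → ∀ x : X, X.ρ u x = x) (x : X) :
    𝒮.objVal X hfin htriv (𝒮.objOf X hfin htriv x) = x := rfl

lemma objOf_objVal (X : Rep.{0} (ZMod p) ↥𝒮.U) (hfin : Module.Finite (ZMod p) X)
    (htriv : ∀ (u : ↥𝒮.U), (u : GQ) ∈ 𝒮.W → ∀ x : X, X.ρ u x = x)
    (x : (𝒮.obj X hfin htriv).carrier) :
    𝒮.objOf X hfin htriv (𝒮.objVal X hfin htriv x) = x := rfl

lemma objVal_smul (X : Rep.{0} (ZMod p) ↥𝒮.U) (hfin : Module.Finite (ZMod p) X)
    (htriv : ∀ (u : ↥𝒮.U), (u : GQ) ∈ 𝒮.W → ∀ x : X, X.ρ u x = x) (u : ↥𝒮.U)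
    (x : (𝒮.obj X hfin htriv).carrier) :
    𝒮.objVal X hfin htriv ((𝒮.proj u) • x) = X.ρ u (𝒮.objVal X hfin htriv x) := rfl

/-! ### Places -/

/-- The primes of `L` over `S`, as a Galois-stable set. -/
def T : GalStableSet 𝒮.L.field where
  carrier := {v | v ∈ 𝒮.L.T}
  finite := 𝒮.L.T.finite_toSet
  stable := by
    intro σ v hv
    obtain ⟨q, hq, hqv⟩ := (𝒮.L.mem_T v).mp hv
    refine (𝒮.L.mem_T _).mpr ⟨q, hq, ?_⟩
    have h0 := (HeightOneSpectrum.valuation_lt_one_iff_mem (K := 𝒮.L.field) v _).mpr hqv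
    refine (HeightOneSpectrum.valuation_lt_one_iff_mem (K := 𝒮.L.field) (galPr σ v) _).mp ?_
    have h1 : σ ((((q : ℕ) : 𝓞 𝒮.L.field) : 𝒮.L.field)) =
        ((((q : ℕ) : 𝓞 𝒮.L.field) : 𝒮.L.field)) := by
      simp
    have h2 := galPr_valuation σ v ((((q : ℕ) : 𝓞 𝒮.L.field) : 𝒮.L.field))
    rw [h1] at h2
    exact lt_of_eq_of_lt h2 h0

lemma mem_T_carrier (v : HeightOneSpectrum (𝓞 𝒮.L.field)) : v ∈ 𝒮.T.carrier ↔ v ∈ 𝒮.L.T :=
  Iff.rfl

/-- The action of `Γ` on the places `T ⊔ S_∞` of `L`. -/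
abbrev actX : 𝒮.Γ →* Equiv.Perm (PlaceX 𝒮.T) := placeAct 𝒮.T 𝒮.ρ

/-- The action of `Γ` on the primes of `L` over `S`. -/
def actf : 𝒮.Γ →* Equiv.Perm ↥𝒮.T.carrier := 𝒮.T.finAct.comp 𝒮.ρ

lemma actf_apply (γ : 𝒮.Γ) (v : ↥𝒮.T.carrier) :
    ((𝒮.actf γ v : ↥𝒮.T.carrier) : HeightOneSpectrum (𝓞 𝒮.L.field)) = galPr (𝒮.ρ γ) v.1 := rfl

instance finite_T : Finite ↥𝒮.T.carrier := 𝒮.T.finite

/-- The action of `Γ` on the infinite places of `L`. -/
def acti : 𝒮.Γ →* Equiv.Perm (InfinitePlace 𝒮.L.field) :=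
  (MulAction.toPermHom (𝒮.L.field ≃ₐ[ℚ] 𝒮.L.field) (InfinitePlace 𝒮.L.field)).comp 𝒮.ρ

lemma acti_apply (γ : 𝒮.Γ) (w : InfinitePlace 𝒮.L.field) : 𝒮.acti γ w = 𝒮.ρ γ • w := rfl

/-- **`𝔽_p[T ⊔ S_∞] = 𝔽_p[T] ⊕ 𝔽_p[S_∞]`** in `K₀`. -/
theorem d_permObj_actX {d : FinCMod p 𝒮.Γ → ℤ} (hd : IsAdditive d) :
    d (permObj p 𝒮.actX) = d (permObj p 𝒮.actf) + d (permObj p 𝒮.acti) := by
  rw [← hd.d_permObj_sum 𝒮.actf 𝒮.acti]
  refine hd.d_permObj_congr _ _ (PlaceX.equivSum 𝒮.T) ?_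
  rintro c (v | w)
  · rfl
  · rfl

end CycSetup

end Fermat.Agent.S56.EC
end
end MergeWrap_S56_W2_EC_Cyclic_Setup
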