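import Fermat.Agent.MU.F4.Dict.H90
import Fermat.Agent.MU.F4.Dict.DivFin
import Fermat.Agent.MU.F4.Dict.CapitLevel
import Fermat.Agent.MU.S17.W.Final
import Fermat.Agent.MU.S56.W2.EC.Cyclic.KummerR
import Fermat.Agent.MU.S56.W2.EC.Cyclic.Setup

section MergeWrap_S56_W2_EC_Cyclic_FinA -- from S56/W2/EC/Cyclic/FinA.lean

/-!
# S56 / W2-EC / (D) cyclic case, leaf P5 (helper14): `H¹(W, E)` is finite

`W` an open subgroup of `G_S`, `F = ℚ̄^W`, `E = EsRep S` the `S`-units of `ℚ_S`.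

* `finA_divClass` : the ideal class of a finitely supported divisor `d` on the primes of `F`;
* `finA_exists_of_divClass_eq` : equal classes ⇒ `d - d' = div a` for some `a ∈ Fˣ`;
* `finA_exists_class` : there is `Φ : T_W → Cl(𝓞 F)` with
  `Φ t = Φ t' → t - t' ∈ toQS (Fˣ) + E`  (so `T_W / (Fˣ + E)` is finite);
* `finA_exists_TU` : Hilbert 90: every smooth cocycle `c : W → E` is `g ↦ g t - t`, `t ∈ T_W`;
* `finite_H1sm_EsRep` : **`H¹_sm(W, E)` is finite** (it embeds in the class group of `F`).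
-/

set_option autoImplicit false

open CategoryTheory groupCohomology ExtCitation
open NumberField IsDedekindDomain FractionalIdeal
open scoped nonZeroDivisors

namespace Fermat.Agent.S56.EC

open Fermat.Agent.F4

section General

variable {R : Type*} [CommRing R] [IsDedekindDomain R] (K : Type*) [Field K] [Algebra R K]
  [IsFractionRing R K]

/-- The product `∏ v ^ d v` is a nonzero fractional ideal. -/
lemma finA_finprod_ne_zero (d : HeightOneSpectrum R → ℤ) :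
    (∏ᶠ v : HeightOneSpectrum R, (v.asIdeal : FractionalIdeal R⁰ K) ^ d v) ≠ 0 := by
  refine finprod_induction (fun I : FractionalIdeal R⁰ K => I ≠ 0) one_ne_zero
    (fun I J hI hJ => mul_ne_zero hI hJ) (fun v => ?_)
  exact zpow_ne_zero _ (coeIdeal_ne_zero.mpr v.ne_bot)

/-- The fractional ideal of a divisor, as a unit. -/
noncomputable def finA_divIdeal (d : HeightOneSpectrum R → ℤ) : (FractionalIdeal R⁰ K)ˣ :=
  Units.mk0 (∏ᶠ v : HeightOneSpectrum R, (v.asIdeal : FractionalIdeal R⁰ K) ^ d v)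
    (finA_finprod_ne_zero K d)

lemma finA_count_divIdeal (d : HeightOneSpectrum R → ℤ) (hd : (Function.support d).Finite)
    (v : HeightOneSpectrum R) :
    count K v ((finA_divIdeal K d : (FractionalIdeal R⁰ K)ˣ) : FractionalIdeal R⁰ K) = d v := by
  have h : ∀ᶠ v : HeightOneSpectrum R in Filter.cofinite, d v = 0 := by
    rw [Filter.eventually_cofinite]
    exact hd
  exact count_finprod K v d h

/-- The ideal class of a divisor. -/
noncomputable def finA_divClass (d : HeightOneSpectrum R → ℤ) : ClassGroup R :=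
  ClassGroup.mk K (finA_divIdeal K d)

/-- Divisors with the same class differ by a principal divisor. -/
theorem finA_exists_of_divClass_eq (d d' : HeightOneSpectrum R → ℤ)
    (hd : (Function.support d).Finite) (hd' : (Function.support d').Finite)
    (h : finA_divClass K d = finA_divClass K d') :
    ∃ a : Kˣ, ∀ v : HeightOneSpectrum R,
      d v - d' v = count K v (spanSingleton R⁰ (a : K)) := by
  have h1 : ClassGroup.mk K (finA_divIdeal K d * (finA_divIdeal K d')⁻¹) = 1 := by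
    rw [map_mul, map_inv]
    unfold finA_divClass at h
    rw [h, mul_inv_cancel]
  rw [ClassGroup.mk_eq_one_iff] at h1
  obtain ⟨x, hx⟩ := h1.principal
  have hx' : ((finA_divIdeal K d * (finA_divIdeal K d')⁻¹ : (FractionalIdeal R⁰ K)ˣ) :
      FractionalIdeal R⁰ K) = spanSingleton R⁰ x := by
    apply Subtype.coe_injective
    simp only [val_eq_coe, hx, coe_spanSingleton]
  have hx0 : x ≠ 0 := by
    intro h0
    apply Units.ne_zero (finA_divIdeal K d * (finA_divIdeal K d')⁻¹)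
    rw [hx', h0, spanSingleton_zero]
  refine ⟨Units.mk0 x hx0, fun v => ?_⟩
  rw [Units.val_mk0, ← hx', Units.val_mul, Units.val_inv_eq_inv_val,
    count_mul K v (Units.ne_zero _) (inv_ne_zero (Units.ne_zero _)), count_inv,
    finA_count_divIdeal K d hd, finA_count_divIdeal K d' hd', sub_eq_add_neg]

end General

section Level

variable {S : Finset Nat.Primes} (L : OpenS S)

/-- **The class map on `T_W`**: there is a map from `T_W` to the class group of `F = ℚ̄^W` whose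
fibres lie in cosets of `toQS (Fˣ) + E`. -/
theorem finA_exists_class :
    ∃ Φ : QSx S → ClassGroup (𝓞 L.field), ∀ t ∈ L.TU, ∀ t' ∈ L.TU, Φ t = Φ t' →
      ∃ a : (L.field)ˣ, t - t' - L.toQS a ∈ sUnitsAdd S := by
  classical
  have key : ∀ t : QSx S, ∃ d : HeightOneSpectrum (𝓞 L.field) → ℤ,
      t ∈ L.TU → (L.IsDivS t d ∧ (Function.support d).Finite) := by
    intro t
    by_cases ht : t ∈ L.TU
    · obtain ⟨d, hd, hfin, -⟩ := L.exists_isDivS_fin t ht
      exact ⟨d, fun _ => ⟨hd, hfin⟩⟩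
    · exact ⟨0, fun h => absurd h ht⟩
  choose D hD using key
  refine ⟨fun t => finA_divClass L.field (D t), fun t ht t' ht' h => ?_⟩
  obtain ⟨hd, hfin⟩ := hD t ht
  obtain ⟨hd', hfin'⟩ := hD t' ht'
  obtain ⟨a, ha⟩ := finA_exists_of_divClass_eq L.field (D t) (D t') hfin hfin' h
  refine ⟨a, ?_⟩
  have h1 : L.IsDivS (t - t' - L.toQS a)
      (D t - D t' - fun v => -(WithZero.log (v.valuation L.field (a : L.field)))) :=
    (hd.sub hd').sub (L.capit_isDivS_toQS a)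
  have h2 : L.IsDivS (t - t' - L.toQS a) 0 := by
    refine h1.congr fun q A hA _ => ?_
    generalize L.primeBelowAt q A hA = v
    show D t v - D t' v - -(WithZero.log (v.valuation L.field (a : L.field))) = 0
    rw [ha v, Fermat.Agent.S14SI.valuation_eq_exp_neg_count v a.ne_zero, WithZero.log_exp]
    ring
  exact h2.mem_sUnitsAdd

/-- **P5, subgroup form**: every subgroup `H ⊇ E + toQS (Fˣ)` has finite index in `T_W`
(`T_W / (E + Fˣ) ≅ H¹(W, E)` embeds in the class group of `F`). -/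
theorem finA_finite_quot (H : AddSubgroup (QSx S)) (hE : sUnitsAdd S ≤ H)
    (hF : ∀ a : (L.field)ˣ, L.toQS a ∈ H) :
    Finite (↥L.TU ⧸ H.addSubgroupOf L.TU) := by
  classical
  obtain ⟨Φ, hΦ⟩ := finA_exists_class L
  refine Finite.of_injective
    (fun x : ↥L.TU ⧸ H.addSubgroupOf L.TU => Φ ((Quotient.out x : ↥L.TU) : QSx S)) ?_
  intro x y hxy
  obtain ⟨a, ha⟩ := hΦ _ (Quotient.out x : ↥L.TU).2 _ (Quotient.out y : ↥L.TU).2 hxy
  have hmem : ((Quotient.out x : ↥L.TU) : QSx S) - ((Quotient.out y : ↥L.TU) : QSx S) ∈ H := by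
    have h1 := H.add_mem (hE ha) (hF a)
    rwa [sub_add_cancel] at h1
  have hq : (QuotientAddGroup.mk (Quotient.out x) : ↥L.TU ⧸ H.addSubgroupOf L.TU) =
      QuotientAddGroup.mk (Quotient.out y) := by
    rw [QuotientAddGroup.eq, AddSubgroup.mem_addSubgroupOf]
    have h2 := H.neg_mem hmem
    rw [neg_sub] at h2
    rw [AddSubgroup.coe_add, AddSubgroup.coe_neg, neg_add_eq_sub]
    exact h2
  have hx : (QuotientAddGroup.mk (Quotient.out x) : ↥L.TU ⧸ H.addSubgroupOf L.TU) = x :=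
    Quotient.out_eq x
  have hy : (QuotientAddGroup.mk (Quotient.out y) : ↥L.TU ⧸ H.addSubgroupOf L.TU) = y :=
    Quotient.out_eq y
  rw [← hx, ← hy, hq]

/-- **P5, index form.** -/
theorem finA_finiteIndex (H : AddSubgroup (QSx S)) (hE : sUnitsAdd S ≤ H)
    (hF : ∀ a : (L.field)ˣ, L.toQS a ∈ H) : (H.addSubgroupOf L.TU).FiniteIndex :=
  haveI := finA_finite_quot L H hE hF
  AddSubgroup.finiteIndex_of_finite_quotient

/-- **P5, `relIndex` form.** -/
theorem finA_relIndex_ne_zero (H : AddSubgroup (QSx S)) (hE : sUnitsAdd S ≤ H)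
    (hF : ∀ a : (L.field)ˣ, L.toQS a ∈ H) : H.relIndex L.TU ≠ 0 :=
  (finA_finiteIndex L H hE hF).index_ne_zero

/-! ### The cohomological form -/

/-- **Hilbert 90**: a smooth cocycle `c : W → E` is `g ↦ g t - t` with `t ∈ T_W`. -/
theorem finA_exists_TU
    (c : ↥L.U → EsRep S)
    (hc : c ∈ Z1 ((levelsS S).sub L.U) (Rep.res L.U.subtype (EsRep S))) :
    ∃ t ∈ L.TU, ∀ g : ↥L.U, (QSx S).ρ (g : GQ) t - t = EsIncl S (c g) := by
  have hc' : (fun g : ↥L.U => EsIncl S (c g)) ∈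
      Z1 ((levelsS S).sub L.U) (Rep.res L.U.subtype (QSx S)) := by
    refine ⟨?_, ?_⟩
    · have h1 := (mem_cocycles₁_iff (A := Rep.res L.U.subtype (EsRep S)) c).1 hc.1
      refine (mem_cocycles₁_iff (A := Rep.res L.U.subtype (QSx S)) _).2 fun g h => ?_
      show EsIncl S (c (g * h)) = (QSx S).ρ (g : GQ) (EsIncl S (c h)) + EsIncl S (c g)
      rw [h1 g h, map_add]
      rfl
    · exact IsLC₁.comp (show IsLC₁ ((levelsS S).sub L.U) c from hc.2) (EsIncl S)
  obtain ⟨t, ht⟩ := h90_QSx S L.U L.isOpen _ hc'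
  have ht' : ∀ g : ↥L.U, (QSx S).ρ (g : GQ) t - t = EsIncl S (c g) := by
    intro g
    have := congrFun ht g
    rw [← this]
    exact (d₀₁_hom_apply (A := Rep.res L.U.subtype (QSx S)) t g).symm
  refine ⟨t, fun g hg => ?_, ht'⟩
  rw [ht' ⟨g, hg⟩]
  exact (c ⟨g, hg⟩).2

/-- **P5, cohomological form: `H¹_sm(W, E)` is finite.** -/
theorem finite_H1sm_EsRep :
    Finite (H1sm ((levelsS S).sub L.U) (Rep.res L.U.subtype (EsRep S))) := by
  classical
  obtain ⟨Φ, hΦ⟩ := finA_exists_class L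
  have key : ∀ c : ↥(Z1 ((levelsS S).sub L.U) (Rep.res L.U.subtype (EsRep S))),
      ∃ t ∈ L.TU, ∀ g : ↥L.U, (QSx S).ρ (g : GQ) t - t = EsIncl S ((c : ↥L.U → EsRep S) g) :=
    fun c => finA_exists_TU L c.1 c.2
  choose T hT hTc using key
  refine Finite.of_injective
    (fun x : H1sm ((levelsS S).sub L.U) (Rep.res L.U.subtype (EsRep S)) =>
      Φ (T (Quotient.out x))) ?_
  intro x y hxy
  obtain ⟨a, ha⟩ := hΦ _ (hT (Quotient.out x)) _ (hT (Quotient.out y)) hxy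
  have hq : (Submodule.Quotient.mk (Quotient.out x) :
      H1sm ((levelsS S).sub L.U) (Rep.res L.U.subtype (EsRep S))) =
      Submodule.Quotient.mk (Quotient.out y) := by
    rw [Submodule.Quotient.eq]
    refine ⟨⟨_, ha⟩, ?_⟩
    funext g
    apply subIncl_injective (QSx S) (sUnitsAdd S) (sUnitsAdd_stable S)
    have h1 := hTc (Quotient.out x) g
    have h2 := hTc (Quotient.out y) g
    have h3 : (QSx S).ρ (g : GQ) (L.toQS a) = L.toQS a := L.toQS_fixed a g g.2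
    show (QSx S).ρ (g : GQ) (T (Quotient.out x) - T (Quotient.out y) - L.toQS a)
        - (T (Quotient.out x) - T (Quotient.out y) - L.toQS a)
      = EsIncl S (((Quotient.out x : ↥(Z1 _ _)) : ↥L.U → EsRep S) g)
        - EsIncl S (((Quotient.out y : ↥(Z1 _ _)) : ↥L.U → EsRep S) g)
    rw [← h1, ← h2, map_sub, map_sub, h3]
    abel
  have hx : (Submodule.Quotient.mk (Quotient.out x) :
      H1sm ((levelsS S).sub L.U) (Rep.res L.U.subtype (EsRep S))) = x := Quotient.out_eq x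
  have hy : (Submodule.Quotient.mk (Quotient.out y) :
      H1sm ((levelsS S).sub L.U) (Rep.res L.U.subtype (EsRep S))) = y := Quotient.out_eq y
  rw [← hx, ← hy, hq]

end Level

end Fermat.Agent.S56.EC
end MergeWrap_S56_W2_EC_Cyclic_FinA

section MergeWrap_S56_W2_EC_Cyclic_KummerA -- from S56/W2/EC/Cyclic/KummerA.lean

/-!
# S56 / W2 / EC / Cyclic / KummerA : the map `R_W → A[p]`, `A = T_W / (E + Fˣ)`
(seat CY-K = N1 of the cyclic case; helper86)

* `L.AQ = ↥L.TU ⧸ (sUnitsAdd S ⊔ L.Fx).addSubgroupOf L.TU` : the group `A ≅ H¹(W, E)`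
  (finite: helper14's `finA_finite_quot`);
* `L.kumAlpha hp : ↥(L.RW p) →+ L.AQ`, `t ↦ [t]`;
  `nsmul_kumAlpha` (values in `A[p]`), `kumAlpha_eq_zero_iff` (kernel `(R_W ∩ E) + Fˣ`),
  `exists_kumAlpha_eq` (onto `A[p]`), `kumAlpha_ρ` (equivariance for the normaliser of `W`).
-/

set_option autoImplicit false
set_option linter.unusedSectionVars false

open CategoryTheory groupCohomology ExtCitation

namespace Fermat.Agent.F4

namespace OpenS

variable {S : Finset Nat.Primes} (L : OpenS S) {p : ℕ}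

/-- `E + Fˣ`. -/
noncomputable def EF : AddSubgroup (QSx S) := sUnitsAdd S ⊔ L.Fx

lemma sUnitsAdd_le_EF : sUnitsAdd S ≤ L.EF := le_sup_left

lemma Fx_le_EF : L.Fx ≤ L.EF := le_sup_right

lemma EF_le_TU : L.EF ≤ L.TU := by
  refine sup_le L.sUnitsAdd_le_TU ?_
  rintro _ ⟨a, rfl⟩
  exact L.toQS_mem_TU a

/-- `E + Fˣ` is stable under the normaliser of `W`. -/
lemma EF_stable (u : GQ) (hu : u ∈ Subgroup.normalizer (L.U : Set GQ)) (t : QSx S)
    (ht : t ∈ L.EF) : (QSx S).ρ u t ∈ L.EF := by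
  obtain ⟨e, he, a, ha, rfl⟩ := AddSubgroup.mem_sup.1 ht
  rw [map_add]
  exact AddSubgroup.add_mem _ (L.sUnitsAdd_le_EF (sUnitsAdd_stable S u e he))
    (L.Fx_le_EF (L.Fx_stable u hu a ha))

/-- `T_W` is stable under the normaliser of `W`. -/
lemma TU_stable (u : GQ) (hu : u ∈ Subgroup.normalizer (L.U : Set GQ)) (t : QSx S)
    (ht : t ∈ L.TU) : (QSx S).ρ u t ∈ L.TU := L.ρ_mem_TU ht u hu

/-- `A = T_W / (E + Fˣ)` (`≅ H¹(W, E)`, a subgroup of the `S`-class group of `F`). -/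
abbrev AQ : Type := ↥L.TU ⧸ L.EF.addSubgroupOf L.TU

instance finite_AQ : Finite L.AQ :=
  Fermat.Agent.S56.EC.finA_finite_quot L L.EF L.sUnitsAdd_le_EF fun a => L.Fx_le_EF ⟨a, rfl⟩

/-- The class in `A` of an element of `T_W`. -/
noncomputable def clsA : ↥L.TU →+ L.AQ := QuotientAddGroup.mk' _

lemma clsA_surjective : Function.Surjective L.clsA := QuotientAddGroup.mk'_surjective _

lemma clsA_eq_zero_iff (t : ↥L.TU) : L.clsA t = 0 ↔ (t : QSx S) ∈ L.EF := by
  unfold clsA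
  rw [QuotientAddGroup.mk'_apply, QuotientAddGroup.eq_zero_iff, AddSubgroup.mem_addSubgroupOf]

/-- The map `R_W → A`, `t ↦ [t]`. -/
noncomputable def kumAlpha (hp : p ≠ 0) : ↥(L.RW p) →+ L.AQ :=
  L.clsA.comp (AddSubgroup.inclusion (L.RW_le_TU hp))

lemma kumAlpha_apply (hp : p ≠ 0) (t : ↥(L.RW p)) :
    L.kumAlpha hp t = L.clsA ⟨(t : QSx S), L.RW_le_TU hp t.2⟩ := rfl

/-- The image of `R_W` lies in `A[p]`. -/
lemma nsmul_kumAlpha (hp : p ≠ 0) (t : ↥(L.RW p)) : p • L.kumAlpha hp t = 0 := by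
  rw [← map_nsmul, kumAlpha_apply, clsA_eq_zero_iff]
  exact L.Fx_le_EF t.2

/-- The kernel of `R_W → A` is `(R_W ∩ E) + Fˣ`. -/
lemma kumAlpha_eq_zero_iff (hp : p ≠ 0) (t : ↥(L.RW p)) :
    L.kumAlpha hp t = 0 ↔ (t : QSx S) ∈ L.RE p ⊔ L.Fx := by
  rw [kumAlpha_apply, clsA_eq_zero_iff, ← L.RW_inf_sup p]
  exact ⟨fun h => ⟨t.2, h⟩, fun h => h.2⟩

/-- `R_W → A[p]` is onto. -/
lemma exists_kumAlpha_eq [Fact p.Prime] (hpS : pPrime p ∈ S) (hp : p ≠ 0) (a : L.AQ)
    (ha : p • a = 0) : ∃ t : ↥(L.RW p), L.kumAlpha hp t = a := by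
  obtain ⟨t, rfl⟩ := L.clsA_surjective a
  rw [← map_nsmul, clsA_eq_zero_iff] at ha
  obtain ⟨t₁, ht₁, e, he, hte⟩ := AddSubgroup.mem_sup.1 (L.mem_RW_sup_of_nsmul_mem hpS ha)
  refine ⟨⟨t₁, ht₁⟩, ?_⟩
  rw [kumAlpha_apply]
  have h0 : L.clsA (t - ⟨t₁, L.RW_le_TU hp ht₁⟩) = 0 := by
    rw [clsA_eq_zero_iff]
    show (t : QSx S) - t₁ ∈ L.EF
    rw [← hte, add_sub_cancel_left]
    exact L.sUnitsAdd_le_EF he
  rw [map_sub, sub_eq_zero] at h0
  exact h0.symm

end OpenS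

end Fermat.Agent.F4
end MergeWrap_S56_W2_EC_Cyclic_KummerA

section MergeWrap_S56_W2_EC_Cyclic_AObj -- from S56/W2/EC/Cyclic/AObj.lean

/-!
# S56 / W2 / EC / Cyclic / AObj : the `Γ`-module `A = T_W / (E + Fˣ)` of the cyclic case
(seat CY-K = N1; helper86)

* `OpenS.actTU u hu`, `OpenS.actAQ u hu` : the action of `u ∈ N_{G_ℚ}(W)` on `T_W` and on
  `A = L.AQ` (`KummerA.lean`); `actAQ_clsA`, `actAQ_of_mem` (`W` acts trivially);
* `𝒮.A : Type` (`= 𝒮.L.AQ`), a finite abelian group with an action of `𝒮.Γ`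
  (instances `AddCommGroup`, `Finite`, `DistribMulAction 𝒮.Γ`);
* `𝒮.clsA : ↥𝒮.L.TU →+ 𝒮.A` : the class; `clsA_surjective`, `clsA_eq_zero_iff` (kernel `E + Fˣ`),
  `proj_smul_clsA` : `𝒮.proj u • 𝒮.clsA t = 𝒮.clsA (u t)`.
-/

set_option autoImplicit false
set_option linter.unusedSectionVars false

noncomputable section

open CategoryTheory groupCohomology ExtCitation

namespace Fermat.Agent.F4

namespace OpenS

variable {S : Finset Nat.Primes} (L : OpenS S)

/-- The action of `u ∈ N(W)` on `T_W`. -/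
def actTU (u : GQ) (hu : u ∈ Subgroup.normalizer (L.U : Set GQ)) : ↥L.TU →+ ↥L.TU where
  toFun t := ⟨(QSx S).ρ u (t : QSx S), L.TU_stable u hu _ t.2⟩
  map_zero' := Subtype.ext (by
    show (QSx S).ρ u ((0 : ↥L.TU) : QSx S) = 0
    rw [AddSubgroup.coe_zero, map_zero])
  map_add' a b := Subtype.ext (by
    show (QSx S).ρ u ((a + b : ↥L.TU) : QSx S) = (QSx S).ρ u (a : QSx S) + (QSx S).ρ u (b : QSx S)
    rw [AddSubgroup.coe_add, map_add])

@[simp] lemma actTU_coe (u : GQ) (hu : u ∈ Subgroup.normalizer (L.U : Set GQ)) (t : ↥L.TU) :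
    ((L.actTU u hu t : ↥L.TU) : QSx S) = (QSx S).ρ u (t : QSx S) := rfl

/-- The action of `u ∈ N(W)` on `A = T_W / (E + Fˣ)`. -/
def actAQ (u : GQ) (hu : u ∈ Subgroup.normalizer (L.U : Set GQ)) : L.AQ →+ L.AQ :=
  QuotientAddGroup.map _ _ (L.actTU u hu) (fun t ht => by
    rw [AddSubgroup.mem_comap, AddSubgroup.mem_addSubgroupOf]
    rw [AddSubgroup.mem_addSubgroupOf] at ht
    exact L.EF_stable u hu _ ht)

lemma actAQ_clsA (u : GQ) (hu : u ∈ Subgroup.normalizer (L.U : Set GQ)) (t : ↥L.TU) :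
    L.actAQ u hu (L.clsA t) = L.clsA (L.actTU u hu t) := rfl

/-- `W` acts trivially on `A`. -/
lemma actAQ_of_mem (u : GQ) (hu : u ∈ Subgroup.normalizer (L.U : Set GQ)) (huW : u ∈ L.U)
    (a : L.AQ) : L.actAQ u hu a = a := by
  obtain ⟨t, rfl⟩ := L.clsA_surjective a
  rw [actAQ_clsA, ← sub_eq_zero]
  have h : L.clsA (L.actTU u hu t) - L.clsA t = L.clsA (L.actTU u hu t - t) :=
    (map_sub L.clsA _ _).symm
  rw [h, clsA_eq_zero_iff]
  exact L.sUnitsAdd_le_EF (t.2 u huW)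

lemma actAQ_one (hu : (1 : GQ) ∈ Subgroup.normalizer (L.U : Set GQ)) (a : L.AQ) :
    L.actAQ 1 hu a = a := by
  obtain ⟨t, rfl⟩ := L.clsA_surjective a
  rw [actAQ_clsA]
  have e : L.actTU 1 hu t = t := by
    apply Subtype.ext
    rw [actTU_coe, map_one]
    rfl
  rw [e]

lemma actAQ_mul (u v : GQ) (hu : u ∈ Subgroup.normalizer (L.U : Set GQ))
    (hv : v ∈ Subgroup.normalizer (L.U : Set GQ))
    (huv : u * v ∈ Subgroup.normalizer (L.U : Set GQ)) (a : L.AQ) :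
    L.actAQ (u * v) huv a = L.actAQ u hu (L.actAQ v hv a) := by
  obtain ⟨t, rfl⟩ := L.clsA_surjective a
  rw [actAQ_clsA, actAQ_clsA, actAQ_clsA]
  have e : L.actTU (u * v) huv t = L.actTU u hu (L.actTU v hv t) := by
    apply Subtype.ext
    rw [actTU_coe, actTU_coe, actTU_coe, map_mul]
    rfl
  rw [e]

end OpenS

end Fermat.Agent.F4

namespace Fermat.Agent.S56.EC

open Fermat.Agent.F4

namespace CycSetup

variable {p : ℕ} [Fact p.Prime] {S : Finset Nat.Primes} (𝒮 : CycSetup p S)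

/-- Every element of `G_ℚ` normalises `W`. -/
lemma mem_normalizer (u : GQ) : u ∈ Subgroup.normalizer (𝒮.L.U : Set GQ) := by
  have h : Subgroup.normalizer ((𝒮.W : Subgroup GQ) : Set GQ) = ⊤ :=
    Subgroup.normalizer_eq_top_iff.2 𝒮.normal_W
  show u ∈ Subgroup.normalizer ((𝒮.W : Subgroup GQ) : Set GQ)
  rw [h]
  exact Subgroup.mem_top u

/-- The action of `U` on `A`. -/
def actAU : ↥𝒮.U →* AddMonoid.End 𝒮.L.AQ where
  toFun u := 𝒮.L.actAQ (u : GQ) (𝒮.mem_normalizer _)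
  map_one' := AddMonoidHom.ext fun a => 𝒮.L.actAQ_one _ a
  map_mul' u v := AddMonoidHom.ext fun a =>
    𝒮.L.actAQ_mul (u : GQ) (v : GQ) (𝒮.mem_normalizer _) (𝒮.mem_normalizer _) _ a

/-- The action of `Γ` on `A`. -/
def actAΓ : 𝒮.Γ →* AddMonoid.End 𝒮.L.AQ :=
  QuotientGroup.lift 𝒮.N 𝒮.actAU (fun n hn => by
    rw [MonoidHom.mem_ker]
    refine AddMonoidHom.ext fun a => ?_
    exact 𝒮.L.actAQ_of_mem (n : GQ) (𝒮.mem_normalizer _) ((𝒮.mem_N n).mp hn) a)

/-- **`A = T_W / (E + Fˣ)`** (`≅ H¹(W, E)`), a finite `Γ`-module. -/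
def A : Type := 𝒮.L.AQ

instance instAddCommGroupA : AddCommGroup 𝒮.A := inferInstanceAs (AddCommGroup 𝒮.L.AQ)

instance instFiniteA : Finite 𝒮.A := inferInstanceAs (Finite 𝒮.L.AQ)

instance instActionA : DistribMulAction 𝒮.Γ 𝒮.A where
  smul γ a := 𝒮.actAΓ γ a
  one_smul a := by
    show 𝒮.actAΓ 1 a = a
    rw [map_one]
    rfl
  mul_smul γ γ' a := by
    show 𝒮.actAΓ (γ * γ') a = 𝒮.actAΓ γ (𝒮.actAΓ γ' a)
    rw [map_mul]
    rfl
  smul_zero γ := map_zero (𝒮.actAΓ γ)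
  smul_add γ a b := map_add (𝒮.actAΓ γ) a b

/-- The class in `A` of an element of `T_W`. -/
def clsA : ↥𝒮.L.TU →+ 𝒮.A := 𝒮.L.clsA

lemma clsA_surjective : Function.Surjective 𝒮.clsA := 𝒮.L.clsA_surjective

lemma clsA_eq_zero_iff (t : ↥𝒮.L.TU) : 𝒮.clsA t = 0 ↔ (t : QSx S) ∈ 𝒮.L.EF :=
  𝒮.L.clsA_eq_zero_iff t

/-- Equivariance of the class map. -/
lemma proj_smul_clsA (u : ↥𝒮.U) (t : ↥𝒮.L.TU) :
    𝒮.proj u • 𝒮.clsA t = 𝒮.clsA (𝒮.L.actTU (u : GQ) (𝒮.mem_normalizer _) t) := rfl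

lemma proj_smul_clsA' (u : ↥𝒮.U) (t t' : ↥𝒮.L.TU)
    (h : (t' : QSx S) = (QSx S).ρ (u : GQ) (t : QSx S)) :
    𝒮.clsA t' = 𝒮.proj u • 𝒮.clsA t := by
  rw [proj_smul_clsA]
  congr 1
  exact Subtype.ext h

end CycSetup

end Fermat.Agent.S56.EC
end
end MergeWrap_S56_W2_EC_Cyclic_AObj
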