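import Fermat.Agent.MU.S56.W2.EC.Pack

section MergeWrap_S56_W2_EC_Cyclic_TorsDefs -- from S56/W2/EC/Cyclic/TorsDefs.lean

set_option autoImplicit false

namespace Fermat.Agent.S56.EC

open Fermat.Agent.F4 Fermat.Agent.F4Cf ExtCitation

variable {p : ℕ} [Fact p.Prime] {S : Finset Nat.Primes} {hpS : pPrime p ∈ S}
  (Pk : ECPack p S hpS) (W : Subgroup GQ)

/-- `ε = f⁰ : μ_p → KJ⁰`. -/
noncomputable abbrev cyEps : Fp1 p →ₗ[ZMod p] Pk.KJ.K0 :=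
  (coindF Pk.loc (isSmooth_Fp1 S hpS)).f0

lemma cyEps_injective : Function.Injective (cyEps Pk) :=
  coindF_injective Pk.loc (isSmooth_Fp1 S hpS)
    ⟨⟨pPrime p, hpS⟩, (Pk.loc ⟨pPrime p, hpS⟩).ε_inj⟩

lemma cyEps_comm (g : GQ) (m : Fp1 p) :
    cyEps Pk ((Fp1 p).ρ g m) = Pk.KJ.K0.ρ g (cyEps Pk m) :=
  (coindF Pk.loc (isSmooth_Fp1 S hpS)).comm0 g m

lemma cyEps_d (m : Fp1 p) : Pk.KJ.d (cyEps Pk m) = 0 :=
  ((coindF Pk.loc (isSmooth_Fp1 S hpS)).commd m).symm.trans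
    (map_zero (coindF Pk.loc (isSmooth_Fp1 S hpS)).f1)

/-- `(ker d_J)^W`. -/
def cyJW : AddSubgroup Pk.KJ.K0 where
  carrier := {j | Pk.KJ.d j = 0 ∧ ∀ w ∈ W, Pk.KJ.K0.ρ w j = j}
  zero_mem' := ⟨map_zero _, fun w _ => map_zero _⟩
  add_mem' := fun {a b} ha hb => ⟨by rw [map_add, ha.1, hb.1, add_zero],
    fun w hw => by rw [map_add, ha.2 w hw, hb.2 w hw]⟩
  neg_mem' := fun {a} ha => ⟨by rw [map_neg, ha.1, neg_zero],
    fun w hw => by rw [map_neg, ha.2 w hw]⟩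

/-- The lifts of `(ker d_C)^W` to `KJ⁰`. -/
def cyZt : AddSubgroup Pk.KJ.K0 where
  carrier := {j | Pk.KJ.d j = 0 ∧ ∀ w ∈ W, ∃ m : Fp1 p, cyEps Pk m = Pk.KJ.K0.ρ w j - j}
  zero_mem' := ⟨map_zero _, fun w _ => ⟨0, by rw [map_zero, map_zero, sub_zero]⟩⟩
  add_mem' := fun {a b} ha hb => ⟨by rw [map_add, ha.1, hb.1, add_zero], fun w hw => by
    obtain ⟨m, hm⟩ := ha.2 w hw
    obtain ⟨m', hm'⟩ := hb.2 w hw
    refine ⟨m + m', ?_⟩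
    rw [map_add, map_add, hm, hm']
    abel⟩
  neg_mem' := fun {a} ha => ⟨by rw [map_neg, ha.1, neg_zero], fun w hw => by
    obtain ⟨m, hm⟩ := ha.2 w hw
    refine ⟨-m, ?_⟩
    rw [map_neg, map_neg, hm]
    abel⟩

/-- `(ker d_C)^W`. -/
def cyZ : AddSubgroup Pk.KC.K0 where
  carrier := {z | Pk.KC.d z = 0 ∧ ∀ w ∈ W, Pk.KC.K0.ρ w z = z}
  zero_mem' := ⟨map_zero _, fun w _ => map_zero _⟩
  add_mem' := fun {a b} ha hb => ⟨by rw [map_add, ha.1, hb.1, add_zero],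
    fun w hw => by rw [map_add, ha.2 w hw, hb.2 w hw]⟩
  neg_mem' := fun {a} ha => ⟨by rw [map_neg, ha.1, neg_zero],
    fun w hw => by rw [map_neg, ha.2 w hw]⟩

lemma mem_cyJW (j : Pk.KJ.K0) :
    j ∈ cyJW Pk W ↔ Pk.KJ.d j = 0 ∧ ∀ w ∈ W, Pk.KJ.K0.ρ w j = j := Iff.rfl

lemma mem_cyZt (j : Pk.KJ.K0) :
    j ∈ cyZt Pk W ↔ Pk.KJ.d j = 0 ∧
      ∀ w ∈ W, ∃ m : Fp1 p, cyEps Pk m = Pk.KJ.K0.ρ w j - j := Iff.rfl

lemma mem_cyZ (z : Pk.KC.K0) :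
    z ∈ cyZ Pk W ↔ Pk.KC.d z = 0 ∧ ∀ w ∈ W, Pk.KC.K0.ρ w z = z := Iff.rfl

lemma cyJW_le_cyZt : cyJW Pk W ≤ cyZt Pk W := fun j hj =>
  ⟨hj.1, fun w hw => ⟨0, by rw [map_zero, hj.2 w hw, sub_self]⟩⟩

/-- The quotient map `KJ⁰ → KC⁰`. -/
noncomputable abbrev cyMk : Pk.KJ.K0 →ₗ[ZMod p] Pk.KC.K0 :=
  (coindG Pk.loc (isSmooth_Fp1 S hpS)).f0

lemma cyMk_surjective : Function.Surjective (cyMk Pk) :=
  Submodule.mkQ_surjective _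

lemma cyMk_eq_zero_iff (j : Pk.KJ.K0) : cyMk Pk j = 0 ↔ ∃ m : Fp1 p, cyEps Pk m = j := by
  show (LinearMap.range (cyEps Pk)).mkQ j = 0 ↔ _
  rw [Submodule.mkQ_apply, Submodule.Quotient.mk_eq_zero, LinearMap.mem_range]

lemma cyMk_comm (g : GQ) (j : Pk.KJ.K0) :
    cyMk Pk (Pk.KJ.K0.ρ g j) = Pk.KC.K0.ρ g (cyMk Pk j) :=
  (coindG Pk.loc (isSmooth_Fp1 S hpS)).comm0 g j

lemma cyMk_d (j : Pk.KJ.K0) : Pk.KC.d (cyMk Pk j) = Pk.KJ.d j := rfl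

/-- `j ∈ cyZt ↔ mk j ∈ cyZ`. -/
lemma cyMk_mem_cyZ_iff (j : Pk.KJ.K0) : cyMk Pk j ∈ cyZ Pk W ↔ j ∈ cyZt Pk W := by
  rw [mem_cyZ, mem_cyZt, cyMk_d]
  refine and_congr_right fun _ => forall₂_congr fun w _ => ?_
  rw [← cyMk_comm, ← sub_eq_zero, ← map_sub, cyMk_eq_zero_iff]


/-! ### Stability -/

lemma cyZt_stable (hWn : W.Normal) (g : GQ) (j : Pk.KJ.K0) (hj : j ∈ cyZt Pk W) :
    Pk.KJ.K0.ρ g j ∈ cyZt Pk W := by
  refine ⟨?_, fun w hw => ?_⟩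
  · rw [Pk.KJ.comm, hj.1, map_zero]
  · have hw' : g⁻¹ * w * g ∈ W := by
      have := hWn.conj_mem w hw g⁻¹
      rwa [inv_inv] at this
    obtain ⟨m, hm⟩ := hj.2 _ hw'
    refine ⟨(Fp1 p).ρ g m, ?_⟩
    rw [cyEps_comm, hm, map_sub]
    congr 1
    rw [← Module.End.mul_apply, ← map_mul, ← Module.End.mul_apply, ← map_mul]
    congr 2
    group

lemma cyJW_stable (hWn : W.Normal) (g : GQ) (j : Pk.KJ.K0) (hj : j ∈ cyJW Pk W) :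
    Pk.KJ.K0.ρ g j ∈ cyJW Pk W := by
  refine ⟨?_, fun w hw => ?_⟩
  · rw [Pk.KJ.comm, hj.1, map_zero]
  · have hw' : g⁻¹ * w * g ∈ W := by
      have := hWn.conj_mem w hw g⁻¹
      rwa [inv_inv] at this
    have h := hj.2 _ hw'
    calc Pk.KJ.K0.ρ w (Pk.KJ.K0.ρ g j)
        = Pk.KJ.K0.ρ g (Pk.KJ.K0.ρ (g⁻¹ * w * g) j) := by
          rw [← Module.End.mul_apply, ← map_mul, ← Module.End.mul_apply, ← map_mul]
          congr 2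
          group
      _ = Pk.KJ.K0.ρ g j := by rw [h]

/-- `W ≤ ker ω` acts trivially on `μ_p`. -/
lemma cy_Fp1_fixed (hWω : W ≤ MonoidHom.ker (cycloChar p)) (w : GQ) (hw : w ∈ W) (m : Fp1 p) :
    (Fp1 p).ρ w m = m := by
  rw [br_smooth_Fp1_ρ, MonoidHom.mem_ker.1 (hWω hw), Units.val_one, one_smul]

lemma cyEps_mem_cyJW (hWω : W ≤ MonoidHom.ker (cycloChar p)) (m : Fp1 p) :
    cyEps Pk m ∈ cyJW Pk W :=
  ⟨cyEps_d Pk m, fun w hw => by rw [← cyEps_comm, cy_Fp1_fixed W hWω w hw]⟩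

/-! ### The connecting map -/

/-- The connecting map `δ j : W → μ_p`, `ε (δ j w) = w j - j`. -/
noncomputable def cyDelta (j : ↥(cyZt Pk W)) (w : ↥W) : Fp1 p := (j.2.2 w w.2).choose

lemma cyDelta_spec (j : ↥(cyZt Pk W)) (w : ↥W) :
    cyEps Pk (cyDelta Pk W j w) = Pk.KJ.K0.ρ (w : GQ) (j : Pk.KJ.K0) - (j : Pk.KJ.K0) :=
  (j.2.2 w w.2).choose_spec

lemma cyDelta_eq_iff (j : ↥(cyZt Pk W)) (w : ↥W) (m : Fp1 p) :
    cyDelta Pk W j w = m ↔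
      cyEps Pk m = Pk.KJ.K0.ρ (w : GQ) (j : Pk.KJ.K0) - (j : Pk.KJ.K0) := by
  constructor
  · rintro rfl
    exact cyDelta_spec Pk W j w
  · intro h
    exact cyEps_injective Pk ((cyDelta_spec Pk W j w).trans h.symm)

lemma cyDelta_add (j j' : ↥(cyZt Pk W)) (w : ↥W) :
    cyDelta Pk W (j + j') w = cyDelta Pk W j w + cyDelta Pk W j' w := by
  rw [cyDelta_eq_iff, map_add, cyDelta_spec, cyDelta_spec, AddSubgroup.coe_add, map_add]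
  abel

lemma cyDelta_zero (w : ↥W) : cyDelta Pk W 0 w = 0 := by
  rw [cyDelta_eq_iff, map_zero, AddSubgroup.coe_zero, map_zero, sub_zero]

/-- The connecting map as an additive map `cyZt → (W → μ_p)`. -/
noncomputable def cyDeltaHom : ↥(cyZt Pk W) →+ (↥W → Fp1 p) where
  toFun j := cyDelta Pk W j
  map_zero' := funext fun w => cyDelta_zero Pk W w
  map_add' j j' := funext fun w => cyDelta_add Pk W j j' w

@[simp] lemma cyDeltaHom_apply (j : ↥(cyZt Pk W)) (w : ↥W) :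
    cyDeltaHom Pk W j w = cyDelta Pk W j w := rfl

lemma cyDelta_eq_zero_iff (j : ↥(cyZt Pk W)) :
    cyDeltaHom Pk W j = 0 ↔ (j : Pk.KJ.K0) ∈ cyJW Pk W := by
  constructor
  · intro h
    refine ⟨j.2.1, fun w hw => ?_⟩
    have h1 : cyDelta Pk W j ⟨w, hw⟩ = 0 := congrFun h ⟨w, hw⟩
    have h2 := cyDelta_spec Pk W j ⟨w, hw⟩
    rw [h1, map_zero] at h2
    exact (sub_eq_zero.1 h2.symm)
  · intro h
    funext w
    show cyDelta Pk W j w = 0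
    rw [cyDelta_eq_iff, map_zero, h.2 w w.2, sub_self]

/-- `δ j` is a homomorphism `W → μ_p`. -/
lemma cyDelta_mul (hWω : W ≤ MonoidHom.ker (cycloChar p)) (j : ↥(cyZt Pk W)) (w w' : ↥W) :
    cyDelta Pk W j (w * w') = cyDelta Pk W j w + cyDelta Pk W j w' := by
  rw [cyDelta_eq_iff, map_add, cyDelta_spec, cyDelta_spec]
  have h1 : Pk.KJ.K0.ρ ((w * w' : ↥W) : GQ) (j : Pk.KJ.K0) =
      Pk.KJ.K0.ρ (w : GQ) (Pk.KJ.K0.ρ (w' : GQ) (j : Pk.KJ.K0)) := by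
    rw [Subgroup.coe_mul, map_mul]
    rfl
  have h2 := cyDelta_spec Pk W j w'
  have h3 : Pk.KJ.K0.ρ (w : GQ) (cyEps Pk (cyDelta Pk W j w')) = cyEps Pk (cyDelta Pk W j w') := by
    rw [← cyEps_comm, cy_Fp1_fixed W hWω w w.2]
  rw [h2, map_sub] at h3
  rw [h1]
  have h4 : Pk.KJ.K0.ρ (w : GQ) (Pk.KJ.K0.ρ (w' : GQ) (j : Pk.KJ.K0)) =
      Pk.KJ.K0.ρ (w' : GQ) (j : Pk.KJ.K0) - (j : Pk.KJ.K0) + Pk.KJ.K0.ρ (w : GQ) (j : Pk.KJ.K0) :=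
    eq_add_of_sub_eq h3
  rw [h4]
  abel

/-- `δ j` is smooth. -/
lemma cyDelta_smooth (j : ↥(cyZt Pk W)) :
    ∃ V ∈ (levelsS S).sets, ∀ w : ↥W, (w : GQ) ∈ V → cyDelta Pk W j w = 0 := by
  obtain ⟨V, hV, h⟩ := (coind_smoothJ Pk.loc).1 (j : Pk.KJ.K0)
  refine ⟨V, hV, fun w hw => ?_⟩
  rw [cyDelta_eq_iff, map_zero, h _ hw, sub_self]

/-- Equivariance of the connecting map. -/
lemma cyDelta_conj (g : GQ) (j j' : ↥(cyZt Pk W)) (w w' : ↥W)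
    (hj : (j' : Pk.KJ.K0) = Pk.KJ.K0.ρ g (j : Pk.KJ.K0)) (hw : (w' : GQ) = g * w * g⁻¹) :
    cyDelta Pk W j' w' = (Fp1 p).ρ g (cyDelta Pk W j w) := by
  rw [cyDelta_eq_iff, cyEps_comm, cyDelta_spec, map_sub, hj, hw]
  congr 1
  rw [← Module.End.mul_apply, ← map_mul, ← Module.End.mul_apply, ← map_mul]
  congr 2
  group

/-- The locally trivial characters (coboundary form): the image of the connecting map. -/
noncomputable def cyShaJ : AddSubgroup (↥W → Fp1 p) := (cyDeltaHom Pk W).range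

lemma mem_cyShaJ (χ : ↥W → Fp1 p) :
    χ ∈ cyShaJ Pk W ↔ ∃ j : Pk.KJ.K0, Pk.KJ.d j = 0 ∧
      ∀ w : ↥W, cyEps Pk (χ w) = Pk.KJ.K0.ρ (w : GQ) j - j := by
  constructor
  · rintro ⟨j, rfl⟩
    exact ⟨j, j.2.1, fun w => cyDelta_spec Pk W j w⟩
  · rintro ⟨j, hj, h⟩
    refine ⟨⟨j, hj, fun w hw => ⟨χ ⟨w, hw⟩, h ⟨w, hw⟩⟩⟩, funext fun w => ?_⟩
    show cyDelta Pk W _ w = χ w
    rw [cyDelta_eq_iff]
    exact h w

end Fermat.Agent.S56.EC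
end MergeWrap_S56_W2_EC_Cyclic_TorsDefs
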