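import Fermat.Agent.MU.F4.Coind.Prod
import Fermat.Agent.MU.F4.Cf.RecipDefs
import Fermat.Agent.F4.HyperLES
import Fermat.Agent.MU.S56.W2.EC.Cyclic.TorsDefs
import Fermat.Agent.MU.S56.W2.EC.Cyclic.Setup
import Fermat.Agent.MU.F4.Dict.PlacesB
import Fermat.Agent.S56.W2.EC.FinCMod
import Fermat.Agent.MU.S56.W2.EC.Pack
import Fermat.Agent.MU.S56.W2.EC.Cyclic.ShaDefs
import Fermat.Agent.MU.S56.W2.EC.Cyclic.HmuObj

section MergeWrap_S56_W2_EC_Cyclic_TorsPermAbs -- from S56/W2/EC/Cyclic/TorsPermAbs.lean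

set_option autoImplicit false

noncomputable section

namespace Fermat.Agent.S56.EC

open Fermat.Agent.F4

variable {p : ℕ} [Fact p.Prime] {G : Type} [Group G] {ι : Type} {D : ι → Type}
  [∀ i, Group (D i)]

/-- The data of the finite places. -/
structure FinPlSetup (𝓤 : Levels G) (W : Subgroup G) (ω : G →* (ZMod p)ˣ)
    (r : ∀ i, D i →* G) (K : ∀ i, Cx (ZMod p) (D i)) (Ω : Type) where
  hW : W ∈ 𝓤.sets
  hωW : ∀ w ∈ W, ω w = 1
  ε : ∀ i, ZMod p →ₗ[ZMod p] (K i).K0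
  ε_inj : ∀ i, Function.Injective (ε i)
  ε_ρ : ∀ (i : ι) (d : D i) (m : ZMod p),
    (K i).K0.ρ d (ε i m) = ε i (((ω (r i d) : (ZMod p)ˣ) : ZMod p) * m)
  ε_ker : ∀ (i : ι) (t : (K i).K0), (K i).d t = 0 → ∃ m, ε i m = t
  ε_d : ∀ (i : ι) (m : ZMod p), (K i).d (ε i m) = 0
  π : ∀ _ : ι, G → Ω
  π_surj : ∀ y, ∃ i g, π i g = y
  π_idx : ∀ i i' g g', π i g = π i' g' → i = i'
  π_eq : ∀ i g g', π i g = π i g' ↔ ∃ (d : D i) (u : G), u ∈ W ∧ g' = r i d * g * u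

namespace FinPlSetup

variable {𝓤 : Levels G} {W : Subgroup G} {ω : G →* (ZMod p)ˣ} {r : ∀ i, D i →* G}
  {K : ∀ i, Cx (ZMod p) (D i)} {Ω : Type}

/-! ### The components of an element of `KJ⁰` -/

lemma pf_ρ (γ : G) (j : (coindPiCx r 𝓤 K).K0) (i : ι) (g : G) :
    coindPiFun0 r 𝓤 K ((coindPiCx r 𝓤 K).K0.ρ γ j) i g = coindPiFun0 r 𝓤 K j i (g * γ) := rfl

lemma pf_d (j : (coindPiCx r 𝓤 K).K0) (i : ι) (g : G) :
    coindPiFun1 r 𝓤 K ((coindPiCx r 𝓤 K).d j) i g = (K i).d (coindPiFun0 r 𝓤 K j i g) := rfl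

lemma pf_add (j j' : (coindPiCx r 𝓤 K).K0) (i : ι) (g : G) :
    coindPiFun0 r 𝓤 K (j + j') i g = coindPiFun0 r 𝓤 K j i g + coindPiFun0 r 𝓤 K j' i g := rfl

lemma pf_zero (i : ι) (g : G) : coindPiFun0 r 𝓤 K 0 i g = 0 := rfl

lemma pf_mul_left (j : (coindPiCx r 𝓤 K).K0) (i : ι) (d : D i) (g : G) :
    coindPiFun0 r 𝓤 K j i (r i d * g) = (K i).K0.ρ d (coindPiFun0 r 𝓤 K j i g) :=
  coIndSub_equivariant ((show ∀ j, ((K j).coInd (r j) 𝓤).K0 from j) i) d g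

lemma pf_ext {j j' : (coindPiCx r 𝓤 K).K0}
    (h : ∀ i g, coindPiFun0 r 𝓤 K j i g = coindPiFun0 r 𝓤 K j' i g) : j = j' :=
  funext fun i => Subtype.ext (funext fun g => h i g)

lemma pf_d_eq_zero {j : (coindPiCx r 𝓤 K).K0} (hj : (coindPiCx r 𝓤 K).d j = 0) (i : ι)
    (g : G) : (K i).d (coindPiFun0 r 𝓤 K j i g) = 0 := by
  rw [← pf_d, hj]
  rfl

lemma d_eq_zero_of_pf {j : (coindPiCx r 𝓤 K).K0}
    (h : ∀ i g, (K i).d (coindPiFun0 r 𝓤 K j i g) = 0) : (coindPiCx r 𝓤 K).d j = 0 :=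
  funext fun i => Subtype.ext (funext fun g => h i g)

lemma pf_mul_W {j : (coindPiCx r 𝓤 K).K0} (hj : ∀ w ∈ W, (coindPiCx r 𝓤 K).K0.ρ w j = j)
    (i : ι) (g : G) {w : G} (hw : w ∈ W) :
    coindPiFun0 r 𝓤 K j i (g * w) = coindPiFun0 r 𝓤 K j i g := by
  rw [← pf_ρ, hj w hw]

/-- An element of `KJ⁰` from its components. -/
def mkJ (f : ∀ i, G → (K i).K0) (hf : ∀ i, f i ∈ coIndSub (r i) 𝓤 (K i).K0) :
    (coindPiCx r 𝓤 K).K0 :=
  fun i => ⟨f i, hf i⟩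

lemma pf_mkJ (f : ∀ i, G → (K i).K0) (hf : ∀ i, f i ∈ coIndSub (r i) 𝓤 (K i).K0) (i : ι)
    (g : G) : coindPiFun0 r 𝓤 K (mkJ f hf) i g = f i g := rfl

/-! ### The map `Θ` -/

/-- A linear left inverse of `ε i`. -/
def sec (T : FinPlSetup 𝓤 W ω r K Ω) (i : ι) : (K i).K0 →ₗ[ZMod p] ZMod p :=
  Classical.choose ((T.ε i).exists_leftInverse_of_injective
    (LinearMap.ker_eq_bot.2 (T.ε_inj i)))

lemma sec_ε (T : FinPlSetup 𝓤 W ω r K Ω) (i : ι) (m : ZMod p) : T.sec i (T.ε i m) = m :=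
  LinearMap.congr_fun (Classical.choose_spec ((T.ε i).exists_leftInverse_of_injective
    (LinearMap.ker_eq_bot.2 (T.ε_inj i)))) m

lemma ε_sec (T : FinPlSetup 𝓤 W ω r K Ω) (i : ι) {t : (K i).K0} (ht : (K i).d t = 0) :
    T.ε i (T.sec i t) = t := by
  obtain ⟨m, rfl⟩ := T.ε_ker i t ht
  rw [T.sec_ε]

/-- `ω(g)⁻¹ ε⁻¹ (j_i g)`. -/
def valAt (T : FinPlSetup 𝓤 W ω r K Ω) (j : (coindPiCx r 𝓤 K).K0) (i : ι) (g : G) : ZMod p :=
  (((ω g)⁻¹ : (ZMod p)ˣ) : ZMod p) * T.sec i (coindPiFun0 r 𝓤 K j i g)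

lemma valAt_add (T : FinPlSetup 𝓤 W ω r K Ω) (j j' : (coindPiCx r 𝓤 K).K0) (i : ι) (g : G) :
    T.valAt (j + j') i g = T.valAt j i g + T.valAt j' i g := by
  unfold valAt
  rw [pf_add, map_add, mul_add]

lemma valAt_zero (T : FinPlSetup 𝓤 W ω r K Ω) (i : ι) (g : G) :
    T.valAt (0 : (coindPiCx r 𝓤 K).K0) i g = 0 := by
  unfold valAt
  rw [pf_zero, map_zero, mul_zero]

lemma ε_valAt (T : FinPlSetup 𝓤 W ω r K Ω) {j : (coindPiCx r 𝓤 K).K0}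
    (hd : (coindPiCx r 𝓤 K).d j = 0) (i : ι) (g : G) :
    T.ε i (((ω g : (ZMod p)ˣ) : ZMod p) * T.valAt j i g) = coindPiFun0 r 𝓤 K j i g := by
  unfold valAt
  rw [← mul_assoc, ← Units.val_mul, mul_inv_cancel, Units.val_one, one_mul]
  exact T.ε_sec i (pf_d_eq_zero hd i g)

/-- `valAt` is constant on the double cosets `D_i g W`. -/
lemma valAt_dc (T : FinPlSetup 𝓤 W ω r K Ω) {j : (coindPiCx r 𝓤 K).K0}
    (hd : (coindPiCx r 𝓤 K).d j = 0) (hW : ∀ w ∈ W, (coindPiCx r 𝓤 K).K0.ρ w j = j)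
    (i : ι) (d : D i) (g : G) {u : G} (hu : u ∈ W) :
    T.valAt j i (r i d * g * u) = T.valAt j i g := by
  have h1 : coindPiFun0 r 𝓤 K j i (r i d * g * u) =
      T.ε i (((ω (r i d) : (ZMod p)ˣ) : ZMod p) * T.sec i (coindPiFun0 r 𝓤 K j i g)) := by
    rw [pf_mul_W hW i _ hu, pf_mul_left, ← T.ε_ρ, T.ε_sec i (pf_d_eq_zero hd i g)]
  unfold valAt
  rw [h1, T.sec_ε, map_mul ω, map_mul ω, T.hωW u hu, mul_one, mul_inv_rev, Units.val_mul,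
    ← mul_assoc, mul_assoc _ _ (((ω (r i d) : (ZMod p)ˣ) : ZMod p)), ← Units.val_mul,
    inv_mul_cancel, Units.val_one, mul_one]

/-- The index of a chosen representative. -/
def idxOf (T : FinPlSetup 𝓤 W ω r K Ω) (y : Ω) : ι := (T.π_surj y).choose

/-- A chosen representative. -/
def repOf (T : FinPlSetup 𝓤 W ω r K Ω) (y : Ω) : G := (T.π_surj y).choose_spec.choose

lemma π_repOf (T : FinPlSetup 𝓤 W ω r K Ω) (y : Ω) : T.π (T.idxOf y) (T.repOf y) = y :=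
  (T.π_surj y).choose_spec.choose_spec

/-- **`Θ`** `: KJ⁰ → (Ω → 𝔽_p)`. -/
def theta (T : FinPlSetup 𝓤 W ω r K Ω) : (coindPiCx r 𝓤 K).K0 →+ (Ω → ZMod p) where
  toFun j y := T.valAt j (T.idxOf y) (T.repOf y)
  map_zero' := funext fun y => T.valAt_zero _ _
  map_add' j j' := funext fun y => T.valAt_add j j' _ _

lemma theta_apply (T : FinPlSetup 𝓤 W ω r K Ω) (j : (coindPiCx r 𝓤 K).K0) (y : Ω) :
    T.theta j y = T.valAt j (T.idxOf y) (T.repOf y) := rfl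

/-- `Θ j (π i g) = ω(g)⁻¹ ε⁻¹ (j_i g)` on `(ker d_J)^W`. -/
lemma theta_π (T : FinPlSetup 𝓤 W ω r K Ω) {j : (coindPiCx r 𝓤 K).K0}
    (hd : (coindPiCx r 𝓤 K).d j = 0) (hW : ∀ w ∈ W, (coindPiCx r 𝓤 K).K0.ρ w j = j)
    (i : ι) (g : G) : T.theta j (T.π i g) = T.valAt j i g := by
  rw [theta_apply]
  have h := T.π_repOf (T.π i g)
  generalize T.repOf (T.π i g) = g' at h ⊢
  generalize T.idxOf (T.π i g) = i' at h ⊢
  obtain rfl := T.π_idx _ _ _ _ h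
  obtain ⟨d, u, hu, rfl⟩ := (T.π_eq i' g' g).1 h
  exact (T.valAt_dc hd hW i' d g' hu).symm

/-- `ε (ω(g) Θ j (π i g)) = j_i g`. -/
lemma ε_theta (T : FinPlSetup 𝓤 W ω r K Ω) {j : (coindPiCx r 𝓤 K).K0}
    (hd : (coindPiCx r 𝓤 K).d j = 0) (hW : ∀ w ∈ W, (coindPiCx r 𝓤 K).K0.ρ w j = j)
    (i : ι) (g : G) :
    T.ε i (((ω g : (ZMod p)ˣ) : ZMod p) * T.theta j (T.π i g)) = coindPiFun0 r 𝓤 K j i g := by
  rw [T.theta_π hd hW, T.ε_valAt hd]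

/-- **Injectivity** of `Θ` on `(ker d_J)^W`. -/
theorem theta_eq_zero (T : FinPlSetup 𝓤 W ω r K Ω) {j : (coindPiCx r 𝓤 K).K0}
    (hd : (coindPiCx r 𝓤 K).d j = 0) (hW : ∀ w ∈ W, (coindPiCx r 𝓤 K).K0.ρ w j = j)
    (h : T.theta j = 0) : j = 0 := by
  refine pf_ext fun i g => ?_
  rw [← T.ε_theta hd hW i g, h, Pi.zero_apply, mul_zero, map_zero]
  rfl

/-- The family of functions attached to `x : Ω → 𝔽_p`. -/
def ofFun (T : FinPlSetup 𝓤 W ω r K Ω) (x : Ω → ZMod p) (i : ι) (g : G) : (K i).K0 :=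
  T.ε i (((ω g : (ZMod p)ˣ) : ZMod p) * x (T.π i g))

lemma π_mul_left (T : FinPlSetup 𝓤 W ω r K Ω) (i : ι) (d : D i) (g : G) :
    T.π i (r i d * g) = T.π i g :=
  ((T.π_eq i g (r i d * g)).2 ⟨d, 1, W.one_mem, (mul_one _).symm⟩).symm

lemma π_mul_W (T : FinPlSetup 𝓤 W ω r K Ω) (i : ι) (g : G) {u : G} (hu : u ∈ W) :
    T.π i (g * u) = T.π i g :=
  ((T.π_eq i g (g * u)).2 ⟨1, u, hu, by rw [map_one, one_mul]⟩).symm

lemma ofFun_mem (T : FinPlSetup 𝓤 W ω r K Ω) (x : Ω → ZMod p) (i : ι) :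
    T.ofFun x i ∈ coIndSub (r i) 𝓤 (K i).K0 := by
  refine ⟨fun d g => ?_, W, T.hW, fun g u hu => ?_⟩
  · show T.ε i (((ω (r i d * g) : (ZMod p)ˣ) : ZMod p) * x (T.π i (r i d * g))) =
      (K i).K0.ρ d (T.ε i (((ω g : (ZMod p)ˣ) : ZMod p) * x (T.π i g)))
    rw [T.ε_ρ, T.π_mul_left, map_mul ω, Units.val_mul, mul_assoc]
  · show T.ε i (((ω (g * u) : (ZMod p)ˣ) : ZMod p) * x (T.π i (g * u))) =
      T.ε i (((ω g : (ZMod p)ˣ) : ZMod p) * x (T.π i g))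
    rw [T.π_mul_W i g hu, map_mul ω, T.hωW u hu, mul_one]

/-- The element of `KJ⁰` attached to `x : Ω → 𝔽_p`. -/
def ofFunJ (T : FinPlSetup 𝓤 W ω r K Ω) (x : Ω → ZMod p) : (coindPiCx r 𝓤 K).K0 :=
  mkJ (T.ofFun x) (T.ofFun_mem x)

lemma ofFunJ_d (T : FinPlSetup 𝓤 W ω r K Ω) (x : Ω → ZMod p) :
    (coindPiCx r 𝓤 K).d (T.ofFunJ x) = 0 :=
  d_eq_zero_of_pf fun i g => T.ε_d i _

lemma ofFunJ_fixed (T : FinPlSetup 𝓤 W ω r K Ω) (x : Ω → ZMod p) (w : G) (hw : w ∈ W) :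
    (coindPiCx r 𝓤 K).K0.ρ w (T.ofFunJ x) = T.ofFunJ x := by
  refine pf_ext fun i g => ?_
  rw [pf_ρ]
  show T.ε i (((ω (g * w) : (ZMod p)ˣ) : ZMod p) * x (T.π i (g * w))) =
    T.ε i (((ω g : (ZMod p)ˣ) : ZMod p) * x (T.π i g))
  rw [T.π_mul_W i g hw, map_mul ω, T.hωW w hw, mul_one]

/-- **Surjectivity** of `Θ` on `(ker d_J)^W`. -/
theorem theta_ofFunJ (T : FinPlSetup 𝓤 W ω r K Ω) (x : Ω → ZMod p) :
    T.theta (T.ofFunJ x) = x := by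
  funext y
  obtain ⟨i, g, rfl⟩ := T.π_surj y
  rw [T.theta_π (T.ofFunJ_d x) (T.ofFunJ_fixed x)]
  unfold valAt
  show (((ω g)⁻¹ : (ZMod p)ˣ) : ZMod p) *
    T.sec i (T.ε i (((ω g : (ZMod p)ˣ) : ZMod p) * x (T.π i g))) = x (T.π i g)
  rw [T.sec_ε, ← mul_assoc, ← Units.val_mul, inv_mul_cancel, Units.val_one, one_mul]

/-- `ker d_J` is stable. -/
lemma d_ρ_eq_zero {j : (coindPiCx r 𝓤 K).K0} (hd : (coindPiCx r 𝓤 K).d j = 0) (γ : G) :
    (coindPiCx r 𝓤 K).d ((coindPiCx r 𝓤 K).K0.ρ γ j) = 0 := by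
  rw [(coindPiCx r 𝓤 K).comm, hd, map_zero]

/-- The `W`-invariants are stable (`W` is normal). -/
lemma fixed_ρ (T : FinPlSetup 𝓤 W ω r K Ω) {j : (coindPiCx r 𝓤 K).K0}
    (hW : ∀ w ∈ W, (coindPiCx r 𝓤 K).K0.ρ w j = j) (γ : G) (w : G) (hw : w ∈ W) :
    (coindPiCx r 𝓤 K).K0.ρ w ((coindPiCx r 𝓤 K).K0.ρ γ j) = (coindPiCx r 𝓤 K).K0.ρ γ j := by
  have hn : W.Normal := 𝓤.normal W T.hW
  have hw' : γ⁻¹ * w * γ ∈ W := by
    have := hn.conj_mem w hw γ⁻¹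
    rwa [inv_inv] at this
  refine pf_ext fun i g => ?_
  rw [pf_ρ, pf_ρ, pf_ρ]
  have e : g * w * γ = g * γ * (γ⁻¹ * w * γ) := by group
  rw [e, pf_mul_W hW i _ hw']

/-- **Equivariance**: `Θ (γ j) (π i g) = ω(γ) Θ j (π i (g γ))`. -/
theorem theta_ρ (T : FinPlSetup 𝓤 W ω r K Ω) {j : (coindPiCx r 𝓤 K).K0}
    (hd : (coindPiCx r 𝓤 K).d j = 0) (hW : ∀ w ∈ W, (coindPiCx r 𝓤 K).K0.ρ w j = j)
    (γ : G) (i : ι) (g : G) :
    T.theta ((coindPiCx r 𝓤 K).K0.ρ γ j) (T.π i g) =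
      ((ω γ : (ZMod p)ˣ) : ZMod p) * T.theta j (T.π i (g * γ)) := by
  rw [T.theta_π (d_ρ_eq_zero hd γ) (T.fixed_ρ hW γ), T.theta_π hd hW]
  unfold valAt
  rw [pf_ρ, map_mul ω, mul_inv_rev, ← mul_assoc, ← Units.val_mul, ← mul_assoc,
    mul_inv_cancel, one_mul]

end FinPlSetup

end Fermat.Agent.S56.EC
end
end MergeWrap_S56_W2_EC_Cyclic_TorsPermAbs

section MergeWrap_S56_W2_EC_Rich_LocH0 -- from S56/W2/EC/Rich/LocH0.lean

/-!
# S56 / W2 / EC / Rich / LocH0 : (R3) the local `H⁰` of the complex `K_q` (helper48)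

For a local pack `P : LocPack p S φ q` (`φ` a root map), `K_q = P.loc.K = [I[p] → (I/L_q)[p]]`:

* `ecR3_torsion_surj` : every `p`-torsion element of `L_q` is `ι (φ m)` for some `m ∈ μ_p`;
* `ecR3_ker_d`        : `ker (K_q.d) = ε (μ_p)`;
* `ecR3_hh0_bijective`: `HH⁰(Hom(N, μ_p)) → HH⁰(Hom(N, K_q))` (composition with `ε`) is bijective
  for every module `N` over the local group.
-/

set_option autoImplicit false
set_option linter.unusedSectionVars false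

open CategoryTheory groupCohomology ExtCitation

namespace Fermat.Agent.F4

open Fermat.Agent.F4Cf

variable {p : ℕ} [Fact p.Prime] {S : Finset Nat.Primes}

section Torsion

variable (S) (q : Nat.Primes) {φ : Fp1 p →+ EsRep S}

/-- The root map into `L_q`. -/
noncomputable def ecR3Root (φ : Fp1 p →+ EsRep S) : Fp1 p →+ LqS S q :=
  (locUnit S q).comp ((EsIncl S).comp φ)

lemma ecR3Root_apply (m : Fp1 p) : ecR3Root S q φ m = locUnit S q (EsIncl S (φ m)) := rfl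

lemma ecR3Root_injective (hφ : IsRootMap φ) : Function.Injective (ecR3Root S q φ) :=
  (locUnit_injective S q).comp ((subIncl_injective _ _ _).comp hφ.inj)

lemma ecR3_nsmul_Fp1 (m : Fp1 p) : p • m = 0 := by
  show p • (show ZMod p from m) = 0
  rw [nsmul_eq_mul, ZMod.natCast_self, zero_mul]

lemma ecR3Root_torsion (m : Fp1 p) : p • ecR3Root S q φ m = 0 := by
  rw [← map_nsmul, ecR3_nsmul_Fp1, map_zero]

/-- The unit of `PadicAlgCl q` underlying a `p`-torsion element of `L_q` is a `p`-th root of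
unity. -/
lemma ecR3_val_mem (c : LqS S q) (hc : p • c = 0) :
    smUnits.val c ∈ rootsOfUnity p (@PadicAlgCl (q : ℕ) ⟨q.2⟩) := by
  rw [mem_rootsOfUnity, ← smUnits.val_nsmul, hc]
  rfl

/-- **Every `p`-torsion element of `L_q` comes from `μ_p`.** -/
theorem ecR3_torsion_surj (hφ : IsRootMap φ) (c : LqS S q) (hc : p • c = 0) :
    ∃ m : Fp1 p, ecR3Root S q φ m = c := by
  classical
  let _ : Fact (q : ℕ).Prime := ⟨q.2⟩
  have hp : p.Prime := Fact.out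
  have : NeZero p := ⟨hp.ne_zero⟩
  -- the map into the roots of unity
  let F : Fp1 p → ↥(rootsOfUnity p (PadicAlgCl (q : ℕ))) := fun m =>
    ⟨smUnits.val (ecR3Root S q φ m), ecR3_val_mem S q _ (ecR3Root_torsion S q m)⟩
  have hF : Function.Injective F := by
    intro m m' h
    have h2 := Subtype.mk.inj h
    exact ecR3Root_injective S q hφ (smUnits.val_injective h2)
  have hfin : Finite ↥(rootsOfUnity p (PadicAlgCl (q : ℕ))) := inferInstance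
  have hcard : Nat.card (Fp1 p) = p := by
    show Nat.card (ZMod p) = p
    simp
  have hle : Nat.card ↥(rootsOfUnity p (PadicAlgCl (q : ℕ))) ≤ Nat.card (Fp1 p) := by
    rw [hcard]
    exact card_rootsOfUnity _ p
  have hfinF : Finite (Fp1 p) := by
    show Finite (ZMod p)
    infer_instance
  have hsurj : Function.Surjective F :=
    (Function.Injective.bijective_of_nat_card_le hF hle).2
  obtain ⟨m, hm⟩ := hsurj ⟨smUnits.val c, ecR3_val_mem S q c hc⟩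
  have h2 := Subtype.mk.inj hm
  exact ⟨m, smUnits.val_injective h2⟩

end Torsion

section Ker

variable {q : Nat.Primes} {φ : Fp1 p →+ EsRep S}

lemma ecR3_d_eps (P : LocPack p S φ q) (m : Fp1 p) : P.loc.K.d (P.loc.ε.f0 m) = 0 := by
  have h := P.loc.ε.commd (show (locMu p q).K0 from m)
  have h0 : P.loc.ε.f1 ((locMu p q).d (show (locMu p q).K0 from m)) = 0 := map_zero _
  rw [h] at h0
  exact h0

/-- **(R3)** `ker (K_q.d) = ε (μ_p)`. -/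
theorem ecR3_ker_d (hφ : IsRootMap φ) (P : LocPack p S φ q) (t : P.loc.K.K0)
    (ht : P.loc.K.d t = 0) : ∃ m : Fp1 p, P.loc.ε.f0 m = t := by
  have h1 : P.dat.π (P.dat.i0 t) = 0 := by
    rw [P.dat.comm, ht, map_zero]
  obtain ⟨c, hc⟩ := (P.dat.exact _).1 h1
  have hpt : p • t = 0 := by
    rw [← Nat.cast_smul_eq_nsmul (ZMod p), ZMod.natCast_self, zero_smul]
  have hc0 : p • c = 0 := by
    apply P.dat.ι_inj
    rw [map_nsmul, hc, ← map_nsmul, hpt, map_zero, map_zero]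
  obtain ⟨m, hm⟩ := ecR3_torsion_surj S q hφ c hc0
  refine ⟨m, P.dat.i0_inj ?_⟩
  rw [P.compat, ← hc, ← hm]
  rfl

end Ker

end Fermat.Agent.F4

namespace Fermat.Agent.F4

open Fermat.Agent.F4Cf

variable {p : ℕ} [Fact p.Prime] {S : Finset Nat.Primes}

section HH0

variable {q : Nat.Primes} {φ : Fp1 p →+ EsRep S}
  (N : Rep.{0} (ZMod p) (primeLocalGaloisGroup q))

lemma ecR3_hh0_injective (P : LocPack p S φ q) :
    Function.Injective (homCxPost N P.loc.ε).hh0 := by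
  intro f g h
  apply Subtype.ext
  have h1 : (homCxPost N P.loc.ε).f0 f.1 = (homCxPost N P.loc.ε).f0 g.1 :=
    congrArg Subtype.val h
  refine LinearMap.ext fun n => P.loc.ε_inj ?_
  exact congrArg (fun u : N →ₗ[ZMod p] P.loc.K.K0 => u n) h1

/-- **(R3)** on `HH⁰`: `Hom_{G_q}(N, μ_p) ≃ HH⁰(Hom(N, K_q))`. -/
theorem ecR3_hh0_bijective (hφ : IsRootMap φ) (P : LocPack p S φ q) :
    Function.Bijective (homCxPost N P.loc.ε).hh0 := by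
  refine ⟨ecR3_hh0_injective N P, fun f => ?_⟩
  have hf : ∀ n : N, P.loc.K.d ((f.1 : N →ₗ[ZMod p] P.loc.K.K0) n) = 0 := by
    intro n
    have h2 : (homCx N P.loc.K).d f.1 = 0 := by
      have h : D0 (homCx N P.loc.K) f.1 = 0 := f.2
      rw [D0_apply, Prod.mk_eq_zero] at h
      exact h.2
    exact congrArg (fun u : N →ₗ[ZMod p] P.loc.K.K1 => u n) h2
  have hfix : ∀ g : primeLocalGaloisGroup q, (homCx N P.loc.K).K0.ρ g f.1 = f.1 := by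
    intro g
    have h : D0 (homCx N P.loc.K) f.1 = 0 := f.2
    rw [D0_apply, Prod.mk_eq_zero] at h
    have h3 := congrFun h.1 g
    rw [δ0_apply, Pi.zero_apply, sub_eq_zero] at h3
    exact h3
  -- the inverse of `ε` on its range
  let e := LinearEquiv.ofInjective P.loc.ε.f0 P.loc.ε_inj
  have hmem : ∀ n : N, (f.1 : N →ₗ[ZMod p] P.loc.K.K0) n ∈ LinearMap.range P.loc.ε.f0 := by
    intro n
    obtain ⟨m, hm⟩ := ecR3_ker_d hφ P _ (hf n)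
    exact ⟨m, hm⟩
  let g0 : N →ₗ[ZMod p] (locMu p q).K0 :=
    e.symm.toLinearMap ∘ₗ (LinearMap.codRestrict (LinearMap.range P.loc.ε.f0)
      (f.1 : N →ₗ[ZMod p] P.loc.K.K0) hmem)
  have hg0 : ∀ n : N, P.loc.ε.f0 (g0 n) = (f.1 : N →ₗ[ZMod p] P.loc.K.K0) n := by
    intro n
    have := e.apply_symm_apply ⟨_, hmem n⟩
    exact congrArg Subtype.val this
  have hg0mem : (show (homCx N (locMu p q)).K0 from g0) ∈ HH0 (homCx N (locMu p q)) := by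
    show D0 (homCx N (locMu p q)) _ = 0
    rw [D0_apply, Prod.mk_eq_zero]
    refine ⟨?_, ?_⟩
    · funext g
      rw [δ0_apply, Pi.zero_apply, sub_eq_zero]
      refine LinearMap.ext fun n => P.loc.ε_inj ?_
      rw [homRep_ρ_apply, P.loc.ε.comm0]
      show P.loc.K.K0.ρ g (P.loc.ε.f0 (g0 (N.ρ g⁻¹ n))) = P.loc.ε.f0 (g0 n)
      rw [hg0, hg0]
      have := congrArg (fun u : N →ₗ[ZMod p] P.loc.K.K0 => u n) (hfix g)
      exact this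
    · exact LinearMap.ext fun n => rfl
  refine ⟨⟨_, hg0mem⟩, Subtype.ext (LinearMap.ext fun n => ?_)⟩
  exact hg0 n

end HH0

end Fermat.Agent.F4
end MergeWrap_S56_W2_EC_Rich_LocH0

section MergeWrap_S56_W2_EC_Cyclic_TorsPerm -- from S56/W2/EC/Cyclic/TorsPerm.lean

set_option autoImplicit false

noncomputable section

open NumberField IsDedekindDomain

namespace Fermat.Agent.S56.EC

open Fermat.Agent.F4 Fermat.Agent.F4Cf ExtCitation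

variable {p : ℕ} [Fact p.Prime] {S : Finset Nat.Primes}

/-! ### The primes of `F` over `S` -/

/-- The prime of `F = L.field` cut out by `a ↦ ι_q (g a)`. -/
def prAt (L : OpenS S) (q : Nat.Primes) (g : GQ) : HeightOneSpectrum (𝓞 L.field) :=
  letI : Fact (q : ℕ).Prime := ⟨q.2⟩
  F4G.primeOf (L.emb q g)

lemma prAt_mem_T (L : OpenS S) {q : Nat.Primes} (hq : q ∈ S) (g : GQ) : prAt L q g ∈ L.T :=
  L.primeOf_emb_mem_T_of_mem q hq g

lemma exists_prAt_eq (L : OpenS S) (v : HeightOneSpectrum (𝓞 L.field)) (hv : v ∈ L.T) :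
    ∃ q ∈ S, ∃ g : GQ, prAt L q g = v :=
  L.exists_primeOf_emb_eq v hv

lemma prAt_eq_iff (L : OpenS S) (q : Nat.Primes) (g g' : GQ) :
    prAt L q g = prAt L q g' ↔ L.InDC q g g' :=
  L.primeOf_emb_eq_iff q g g'

lemma natCast_mem_prAt (L : OpenS S) (q : Nat.Primes) (g : GQ) :
    (((q : ℕ) : ℕ) : 𝓞 L.field) ∈ (prAt L q g).asIdeal := by
  letI : Fact (q : ℕ).Prime := ⟨q.2⟩
  exact F4G.natCast_mem_primeOf (L.emb q g)

lemma valuation_lt_one_prAt_iff (L : OpenS S) (q : Nat.Primes) (g : GQ) (x : L.field) :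
    (prAt L q g).valuation L.field x < 1 ↔
      ‖(L.emb q g x : @PadicAlgCl (q : ℕ) ⟨q.2⟩)‖ < 1 := by
  letI : Fact (q : ℕ).Prime := ⟨q.2⟩
  exact (F4G.norm_lt_one_iff (L.emb q g) x).symm

/-- Primes over different rational primes are different. -/
lemma prAt_idx (L : OpenS S) {q q' : Nat.Primes} {g g' : GQ} (h : prAt L q g = prAt L q' g') :
    q = q' := by
  by_contra hne
  have h1 := natCast_mem_prAt L q g
  have h2 := natCast_mem_prAt L q' g'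
  rw [← h] at h2
  have hcop : Nat.Coprime (q : ℕ) (q' : ℕ) :=
    (Nat.coprime_primes q.2 q'.2).2 fun e => hne (Subtype.ext e)
  have hZ : IsCoprime ((q : ℕ) : ℤ) ((q' : ℕ) : ℤ) := Nat.isCoprime_iff_coprime.2 hcop
  obtain ⟨a, b, hab⟩ := hZ
  have h3 : ((a : 𝓞 L.field) * (((q : ℕ) : ℕ) : 𝓞 L.field) +
      (b : 𝓞 L.field) * (((q' : ℕ) : ℕ) : 𝓞 L.field)) = 1 := by
    have := congrArg (Int.cast : ℤ → 𝓞 L.field) hab
    push_cast at this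
    exact this
  have h4 : (1 : 𝓞 L.field) ∈ (prAt L q g).asIdeal := by
    rw [← h3]
    exact Ideal.add_mem _ (Ideal.mul_mem_left _ _ h1) (Ideal.mul_mem_left _ _ h2)
  exact (prAt L q g).isPrime.ne_top ((Ideal.eq_top_iff_one _).2 h4)

/-- The action of `G_ℚ` on the primes: `γ|_F (L.prAt q g) = L.prAt q (g γ⁻¹)`. -/
theorem galPr_prAt (L : OpenS S) [Normal ℚ L.field] (γ : GQ) (q : Nat.Primes) (g : GQ) :
    galPr (AlgEquiv.restrictNormalHom L.field γ) (prAt L q g) = prAt L q (g * γ⁻¹) := by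
  apply HeightOneSpectrum.ext
  ext x
  rw [← HeightOneSpectrum.valuation_lt_one_iff_mem (K := L.field),
    ← HeightOneSpectrum.valuation_lt_one_iff_mem (K := L.field), galPr_valuation',
    valuation_lt_one_prAt_iff, valuation_lt_one_prAt_iff, OpenS.emb_apply, OpenS.emb_apply]
  have h1 : ((AlgEquiv.restrictNormalHom L.field γ).symm (x : L.field) : L.field) =
      AlgEquiv.restrictNormalHom L.field γ⁻¹ (x : L.field) := by
    rw [map_inv]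
    rfl
  have h2 : (((AlgEquiv.restrictNormalHom L.field γ).symm (x : L.field) : L.field) :
      AlgebraicClosure ℚ) = γ⁻¹ ((x : L.field) : AlgebraicClosure ℚ) := by
    rw [h1]
    exact AlgEquiv.restrictNormal_commutes γ⁻¹ L.field (x : L.field)
  rw [h2]
  rfl

/-! ### The setup -/

variable {hpS : pPrime p ∈ S}

/-- The finite-place setup of a level `W = L.U`. -/
def finPlSetup (Pk : ECPack p S hpS) (L : OpenS S) (hL : L.U ∈ (levelsS S).sets)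
    (hWω : L.U ≤ MonoidHom.ker (cycloChar p)) :
    FinPlSetup (levelsS S) L.U (cycloChar p) (fun q : ↥S => primeLocalToGlobal q.1)
      (fun q : ↥S => (Pk.loc q).K) ↥({v | v ∈ L.T} : Set (HeightOneSpectrum (𝓞 L.field))) where
  hW := hL
  hωW := fun w hw => MonoidHom.mem_ker.1 (hWω hw)
  ε := fun q => (Pk.loc q).ε.f0
  ε_inj := fun q => (Pk.loc q).ε_inj
  ε_ρ := fun q d m => ((Pk.loc q).ε.comm0 d m).symm
  ε_ker := fun q t ht => ecR3_ker_d Pk.hφ (Pk.P q) t ht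
  ε_d := fun q m => ecR3_d_eps (Pk.P q) m
  π := fun q g => ⟨prAt L q.1 g, prAt_mem_T L q.2 g⟩
  π_surj := fun y => by
    obtain ⟨q, hq, g, hg⟩ := exists_prAt_eq L y.1 y.2
    exact ⟨⟨q, hq⟩, g, Subtype.ext hg⟩
  π_idx := fun q q' g g' h => Subtype.ext (prAt_idx L (congrArg Subtype.val h))
  π_eq := fun q g g' => by
    rw [Subtype.mk.injEq]
    exact prAt_eq_iff L q.1 g g'

lemma finPlSetup_π (Pk : ECPack p S hpS) (L : OpenS S) (hL : L.U ∈ (levelsS S).sets)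
    (hWω : L.U ≤ MonoidHom.ker (cycloChar p)) (q : ↥S) (g : GQ) :
    (((finPlSetup Pk L hL hWω).π q g : ↥({v | v ∈ L.T} : Set (HeightOneSpectrum (𝓞 L.field)))) :
      HeightOneSpectrum (𝓞 L.field)) = prAt L q.1 g := rfl

namespace CycSetup

variable (𝒮 : CycSetup p S) (Pk : ECPack p S hpS)

/-- The finite-place setup of `𝒮`. -/
def finPl : FinPlSetup (levelsS S) 𝒮.W (cycloChar p) (fun q : ↥S => primeLocalToGlobal q.1)
    (fun q : ↥S => (Pk.loc q).K) ↥𝒮.T.carrier :=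
  finPlSetup Pk 𝒮.L 𝒮.hW 𝒮.hω

lemma finPl_π (q : ↥S) (g : GQ) :
    (((𝒮.finPl Pk).π q g : ↥𝒮.T.carrier) : HeightOneSpectrum (𝓞 𝒮.L.field)) =
      prAt 𝒮.L q.1 g := rfl

/-- The action of `u ∈ U` on the primes: `(actf ū)⁻¹ (π q g) = π q (g u)`. -/
lemma actf_inv_π (u : ↥𝒮.U) (q : ↥S) (g : GQ) :
    (𝒮.actf (𝒮.proj u))⁻¹ ((𝒮.finPl Pk).π q g) = (𝒮.finPl Pk).π q (g * (u : GQ)) := by
  rw [← map_inv]
  apply Subtype.ext
  rw [actf_apply, finPl_π, finPl_π, ← map_inv]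
  show galPr (AlgEquiv.restrictNormalHom 𝒮.L.field ((u⁻¹ : ↥𝒮.U) : GQ)) (prAt 𝒮.L q.1 g) = _
  rw [galPr_prAt]
  congr 1

/-- **`Θ`** `: (ker d_J)^W → μ_p[S_f(L)]`. -/
def thetaJ : ↥(cyJW Pk 𝒮.W) →+ (muPermObj 𝒮.ω 𝒮.actf).carrier :=
  (𝒮.finPl Pk).theta.comp (cyJW Pk 𝒮.W).subtype

lemma thetaJ_apply (j : ↥(cyJW Pk 𝒮.W)) (x : ↥𝒮.T.carrier) :
    (𝒮.thetaJ Pk j : ↥𝒮.T.carrier → ZMod p) x = (𝒮.finPl Pk).theta (j : Pk.KJ.K0) x := rfl

/-- `ε_q (ω(g) Θ j (prime of (q, g))) = j_q g`. -/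
theorem eps_thetaJ (j : ↥(cyJW Pk 𝒮.W)) (q : ↥S) (g : GQ) :
    (Pk.loc q).ε.f0 (((cycloChar p g : (ZMod p)ˣ) : ZMod p) *
        (𝒮.thetaJ Pk j : ↥𝒮.T.carrier → ZMod p) ((𝒮.finPl Pk).π q g)) =
      coindPiFun0 (fun q : ↥S => primeLocalToGlobal q.1) (levelsS S)
        (fun q : ↥S => (Pk.loc q).K) (j : Pk.KJ.K0) q g :=
  (𝒮.finPl Pk).ε_theta j.2.1 j.2.2 q g

theorem thetaJ_injective : Function.Injective (𝒮.thetaJ Pk) := by
  rw [injective_iff_map_eq_zero]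
  intro j hj
  apply Subtype.ext
  exact (𝒮.finPl Pk).theta_eq_zero j.2.1 j.2.2 hj

theorem thetaJ_surjective : Function.Surjective (𝒮.thetaJ Pk) := fun x =>
  ⟨⟨(𝒮.finPl Pk).ofFunJ x, (𝒮.finPl Pk).ofFunJ_d x, (𝒮.finPl Pk).ofFunJ_fixed x⟩,
    (𝒮.finPl Pk).theta_ofFunJ x⟩

theorem thetaJ_bijective : Function.Bijective (𝒮.thetaJ Pk) :=
  ⟨𝒮.thetaJ_injective Pk, 𝒮.thetaJ_surjective Pk⟩

/-- **Equivariance**: `Θ (u j) = ū • Θ j` in `μ_p[S_f(L)]`. -/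
theorem thetaJ_smul (u : ↥𝒮.U) (j j' : ↥(cyJW Pk 𝒮.W))
    (h : (j' : Pk.KJ.K0) = Pk.KJ.K0.ρ (u : GQ) (j : Pk.KJ.K0)) :
    𝒮.thetaJ Pk j' = 𝒮.proj u • 𝒮.thetaJ Pk j := by
  funext x
  obtain ⟨q, g, rfl⟩ := (𝒮.finPl Pk).π_surj x
  show (𝒮.finPl Pk).theta (j' : Pk.KJ.K0) ((𝒮.finPl Pk).π q g) =
    ((𝒮.ω (𝒮.proj u) : (ZMod p)ˣ) : ZMod p) *
      (𝒮.finPl Pk).theta (j : Pk.KJ.K0) ((𝒮.actf (𝒮.proj u))⁻¹ ((𝒮.finPl Pk).π q g))
  rw [𝒮.actf_inv_π Pk, h, 𝒮.ω_proj]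
  exact (𝒮.finPl Pk).theta_ρ j.2.1 j.2.2 (u : GQ) q g

/-- **(CL)** `(ker d_J)^W ≅ μ_p[S_f(L)]`, equivariantly. -/
theorem exists_cyJW_equiv :
    ∃ Θ : ↥(cyJW Pk 𝒮.W) →+ (muPermObj 𝒮.ω 𝒮.actf).carrier, Function.Bijective Θ ∧
      ∀ (u : ↥𝒮.U) (j j' : ↥(cyJW Pk 𝒮.W)),
        (j' : Pk.KJ.K0) = Pk.KJ.K0.ρ (u : GQ) (j : Pk.KJ.K0) → Θ j' = 𝒮.proj u • Θ j :=
  ⟨𝒮.thetaJ Pk, 𝒮.thetaJ_bijective Pk, 𝒮.thetaJ_smul Pk⟩

end CycSetup

end Fermat.Agent.S56.EC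
end
end MergeWrap_S56_W2_EC_Cyclic_TorsPerm

section MergeWrap_S56_W2_EC_Cyclic_Tors -- from S56/W2/EC/Cyclic/Tors.lean

set_option autoImplicit false

namespace Fermat.Agent.S56.EC

open Fermat.Agent.F4 Fermat.Agent.F4Cf ExtCitation

variable {p : ℕ} [Fact p.Prime] {S : Finset Nat.Primes} {hpS : pPrime p ∈ S}
  (Pk : ECPack p S hpS) (W : Subgroup GQ) {C : Type} [Group C]

/-- A `C`-stable subgroup of a finite module, as a finite module. -/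
noncomputable def FinCMod.subObj (A : FinCMod p C) (B : AddSubgroup A.carrier)
    (hB : ∀ (c : C) (x : A.carrier), x ∈ B → c • x ∈ B) : FinCMod p C :=
  letI : DistribMulAction C ↥B :=
    { smul := fun c x => ⟨c • (x : A.carrier), hB c _ x.2⟩
      one_smul := fun x => Subtype.ext (one_smul C (x : A.carrier))
      mul_smul := fun c c' x => Subtype.ext (mul_smul c c' (x : A.carrier))
      smul_zero := fun c => Subtype.ext (smul_zero c)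
      smul_add := fun c x y => Subtype.ext (smul_add c (x : A.carrier) (y : A.carrier)) }
  { carrier := ↥B
    isFinite := inferInstance
    killed := fun x => Subtype.ext (by
      rw [AddSubgroup.coe_nsmul, AddSubgroup.coe_zero]
      exact A.killed _) }

/-- **The torsion sequence in `K₀`, universal form.** -/
theorem tors_universal (hWω : W ≤ MonoidHom.ker (cycloChar p)) (r : C →* GQ)
    (Zobj Jobj Mobj Sobj : FinCMod p C)
    (ζ : ↥(cyZt Pk W) →+ Zobj.carrier) (hζs : Function.Surjective ζ)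
    (hζk : ∀ j : ↥(cyZt Pk W), ζ j = 0 ↔ ∃ m : Fp1 p, cyEps Pk m = (j : Pk.KJ.K0))
    (hζe : ∀ (c : C) (j j' : ↥(cyZt Pk W)),
      (j' : Pk.KJ.K0) = Pk.KJ.K0.ρ (r c) (j : Pk.KJ.K0) → ζ j' = c • ζ j)
    (jb : ↥(cyJW Pk W) →+ Jobj.carrier) (hjb : Function.Bijective jb)
    (hje : ∀ (c : C) (j j' : ↥(cyJW Pk W)),
      (j' : Pk.KJ.K0) = Pk.KJ.K0.ρ (r c) (j : Pk.KJ.K0) → jb j' = c • jb j)
    (μ : Fp1 p →+ Mobj.carrier) (hμb : Function.Bijective μ)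
    (hμe : ∀ (c : C) (m : Fp1 p), μ ((Fp1 p).ρ (r c) m) = c • μ m)
    (σ : ↥(cyZt Pk W) →+ Sobj.carrier) (hσs : Function.Surjective σ)
    (hσk : ∀ j : ↥(cyZt Pk W), σ j = 0 ↔ (j : Pk.KJ.K0) ∈ cyJW Pk W)
    (hσe : ∀ (c : C) (j j' : ↥(cyZt Pk W)),
      (j' : Pk.KJ.K0) = Pk.KJ.K0.ρ (r c) (j : Pk.KJ.K0) → σ j' = c • σ j)
    (hstabZ : ∀ (c : C) (j : Pk.KJ.K0), j ∈ cyZt Pk W → Pk.KJ.K0.ρ (r c) j ∈ cyZt Pk W)
    (hstabJ : ∀ (c : C) (j : Pk.KJ.K0), j ∈ cyJW Pk W → Pk.KJ.K0.ρ (r c) j ∈ cyJW Pk W)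
    {d : FinCMod p C → ℤ} (hd : IsAdditive d) : d Zobj + d Mobj = d Jobj + d Sobj := by
  classical
  -- the inclusion `cyJW → cyZt`
  let incl : ↥(cyJW Pk W) →+ ↥(cyZt Pk W) := AddSubgroup.inclusion (cyJW_le_cyZt Pk W)
  have hincl : ∀ j : ↥(cyJW Pk W), ((incl j : ↥(cyZt Pk W)) : Pk.KJ.K0) = (j : Pk.KJ.K0) :=
    fun _ => rfl
  -- the image `B` of `cyJW` in `Zobj`
  let B : AddSubgroup Zobj.carrier := (ζ.comp incl).range
  have hB : ∀ (c : C) (x : Zobj.carrier), x ∈ B → c • x ∈ B := by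
    rintro c _ ⟨j, rfl⟩
    refine ⟨⟨Pk.KJ.K0.ρ (r c) (j : Pk.KJ.K0), hstabJ c _ j.2⟩, ?_⟩
    exact hζe c (incl j) _ rfl
  let Bobj : FinCMod p C := Zobj.subObj B hB
  -- (b) `0 → B → Zobj → Sobj → 0`
  have hker : ζ.ker ≤ σ.ker := by
    intro j hj
    rw [AddMonoidHom.mem_ker] at hj ⊢
    obtain ⟨m, hm⟩ := (hζk j).1 hj
    rw [hσk, ← hm]
    exact cyEps_mem_cyJW Pk W hWω m
  let q : Zobj.carrier →+ Sobj.carrier := ζ.liftOfSurjective hζs ⟨σ, hker⟩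
  have hq : ∀ j : ↥(cyZt Pk W), q (ζ j) = σ j := fun j =>
    AddMonoidHom.liftOfRightInverse_comp_apply _ _ _ ⟨σ, hker⟩ j
  have hb : d Zobj = d Bobj + d Sobj := by
    refine hd Bobj Zobj Sobj B.subtype q (fun c x => rfl) ?_ Subtype.val_injective ?_ ?_
    · intro c x
      obtain ⟨j, rfl⟩ := hζs x
      have h1 : ζ ⟨Pk.KJ.K0.ρ (r c) (j : Pk.KJ.K0), hstabZ c _ j.2⟩ = c • ζ j := hζe c j _ rfl
      rw [← h1, hq, hq]
      exact hσe c j _ rfl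
    · intro s
      obtain ⟨j, rfl⟩ := hσs s
      exact ⟨ζ j, hq j⟩
    · intro x
      obtain ⟨j, rfl⟩ := hζs x
      rw [hq, hσk]
      constructor
      · intro hj
        exact ⟨⟨ζ j, ⟨⟨(j : Pk.KJ.K0), hj⟩, rfl⟩⟩, rfl⟩
      · rintro ⟨⟨_, ⟨j', rfl⟩⟩, hj'⟩
        have h0 : ζ (j - incl j') = 0 := by
          rw [map_sub, sub_eq_zero]
          exact hj'.symm
        obtain ⟨m, hm⟩ := (hζk _).1 h0
        have e : (j : Pk.KJ.K0) = cyEps Pk m + (j' : Pk.KJ.K0) := by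
          rw [hm]
          show (j : Pk.KJ.K0) = ((j : Pk.KJ.K0) - (j' : Pk.KJ.K0)) + (j' : Pk.KJ.K0)
          abel
        rw [e]
        exact (cyJW Pk W).add_mem (cyEps_mem_cyJW Pk W hWω m) j'.2
  -- (a) `0 → Mobj → Jobj → B → 0`
  let eJ : ↥(cyJW Pk W) ≃+ Jobj.carrier := AddEquiv.ofBijective jb hjb
  let eM : Fp1 p ≃+ Mobj.carrier := AddEquiv.ofBijective μ hμb
  let εJ : Fp1 p →+ ↥(cyJW Pk W) :=
    { toFun := fun m => ⟨cyEps Pk m, cyEps_mem_cyJW Pk W hWω m⟩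
      map_zero' := Subtype.ext (map_zero _)
      map_add' := fun a b => Subtype.ext (map_add _ a b) }
  let i : Mobj.carrier →+ Jobj.carrier := (jb.comp εJ).comp eM.symm.toAddMonoidHom
  let πB : ↥(cyJW Pk W) →+ ↥B :=
    { toFun := fun j => ⟨ζ (incl j), ⟨j, rfl⟩⟩
      map_zero' := Subtype.ext (by simp)
      map_add' := fun a b => Subtype.ext (by simp) }
  let π : Jobj.carrier →+ Bobj.carrier := πB.comp eJ.symm.toAddMonoidHom
  have hi : ∀ m : Fp1 p, i (μ m) = jb (εJ m) := fun m => by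
    show jb (εJ (eM.symm (μ m))) = jb (εJ m)
    rw [show eM.symm (μ m) = m from eM.symm_apply_apply m]
  have hπ : ∀ j : ↥(cyJW Pk W), π (jb j) = πB j := fun j => by
    show πB (eJ.symm (jb j)) = πB j
    rw [show eJ.symm (jb j) = j from eJ.symm_apply_apply j]
  have ha : d Jobj = d Mobj + d Bobj := by
    refine hd Mobj Jobj Bobj i π ?_ ?_ ?_ ?_ ?_
    · intro c x
      obtain ⟨m, rfl⟩ := hμb.2 x
      rw [← hμe, hi, hi]
      refine hje c _ _ ?_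
      exact cyEps_comm Pk (r c) m
    · intro c x
      obtain ⟨j, rfl⟩ := hjb.2 x
      have h1 : jb ⟨Pk.KJ.K0.ρ (r c) (j : Pk.KJ.K0), hstabJ c _ j.2⟩ = c • jb j := hje c j _ rfl
      rw [← h1, hπ, hπ]
      refine Subtype.ext ?_
      exact hζe c (incl j) _ rfl
    · intro x y hxy
      obtain ⟨m, rfl⟩ := hμb.2 x
      obtain ⟨m', rfl⟩ := hμb.2 y
      rw [hi, hi] at hxy
      have h1 := hjb.1 hxy
      have h2 : cyEps Pk m = cyEps Pk m' := congrArg Subtype.val h1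
      rw [cyEps_injective Pk h2]
    · rintro ⟨_, ⟨j, rfl⟩⟩
      exact ⟨jb j, hπ j⟩
    · intro x
      obtain ⟨j, rfl⟩ := hjb.2 x
      rw [hπ]
      constructor
      · intro h
        have h1 : ζ (incl j) = 0 := congrArg Subtype.val h
        obtain ⟨m, hm⟩ := (hζk _).1 h1
        refine ⟨μ m, ?_⟩
        rw [hi]
        congr 1
        exact Subtype.ext hm
      · rintro ⟨y, hy⟩
        obtain ⟨m, rfl⟩ := hμb.2 y
        rw [hi] at hy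
        have h1 := hjb.1 hy
        refine Subtype.ext ?_
        show ζ (incl j) = 0
        rw [hζk]
        exact ⟨m, congrArg Subtype.val h1⟩
  rw [hb, ha]
  ring

/-- **The torsion sequence in `K₀`, universal form over a quotient**: `C` is a quotient
`pr : H → C` of a group `H` acting through `r : H →* G_ℚ` (final use: `H = ↥U`, `C = U / W`). -/
theorem tors_universalQ (hWω : W ≤ MonoidHom.ker (cycloChar p)) {H : Type} [Group H]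
    (pr : H →* C) (hpr : Function.Surjective pr) (r : H →* GQ)
    (Zobj Jobj Mobj Sobj : FinCMod p C)
    (ζ : ↥(cyZt Pk W) →+ Zobj.carrier) (hζs : Function.Surjective ζ)
    (hζk : ∀ j : ↥(cyZt Pk W), ζ j = 0 ↔ ∃ m : Fp1 p, cyEps Pk m = (j : Pk.KJ.K0))
    (hζe : ∀ (h : H) (j j' : ↥(cyZt Pk W)),
      (j' : Pk.KJ.K0) = Pk.KJ.K0.ρ (r h) (j : Pk.KJ.K0) → ζ j' = pr h • ζ j)
    (jb : ↥(cyJW Pk W) →+ Jobj.carrier) (hjb : Function.Bijective jb)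
    (hje : ∀ (h : H) (j j' : ↥(cyJW Pk W)),
      (j' : Pk.KJ.K0) = Pk.KJ.K0.ρ (r h) (j : Pk.KJ.K0) → jb j' = pr h • jb j)
    (μ : Fp1 p →+ Mobj.carrier) (hμb : Function.Bijective μ)
    (hμe : ∀ (h : H) (m : Fp1 p), μ ((Fp1 p).ρ (r h) m) = pr h • μ m)
    (σ : ↥(cyZt Pk W) →+ Sobj.carrier) (hσs : Function.Surjective σ)
    (hσk : ∀ j : ↥(cyZt Pk W), σ j = 0 ↔ (j : Pk.KJ.K0) ∈ cyJW Pk W)
    (hσe : ∀ (h : H) (j j' : ↥(cyZt Pk W)),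
      (j' : Pk.KJ.K0) = Pk.KJ.K0.ρ (r h) (j : Pk.KJ.K0) → σ j' = pr h • σ j)
    (hstabZ : ∀ (h : H) (j : Pk.KJ.K0), j ∈ cyZt Pk W → Pk.KJ.K0.ρ (r h) j ∈ cyZt Pk W)
    (hstabJ : ∀ (h : H) (j : Pk.KJ.K0), j ∈ cyJW Pk W → Pk.KJ.K0.ρ (r h) j ∈ cyJW Pk W)
    {d : FinCMod p C → ℤ} (hd : IsAdditive d) : d Zobj + d Mobj = d Jobj + d Sobj := by
  classical
  -- the inclusion `cyJW → cyZt`
  let incl : ↥(cyJW Pk W) →+ ↥(cyZt Pk W) := AddSubgroup.inclusion (cyJW_le_cyZt Pk W)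
  have hincl : ∀ j : ↥(cyJW Pk W), ((incl j : ↥(cyZt Pk W)) : Pk.KJ.K0) = (j : Pk.KJ.K0) :=
    fun _ => rfl
  -- the image `B` of `cyJW` in `Zobj`
  let B : AddSubgroup Zobj.carrier := (ζ.comp incl).range
  have hB : ∀ (c : C) (x : Zobj.carrier), x ∈ B → c • x ∈ B := by
    rintro c _ ⟨j, rfl⟩
    obtain ⟨h, rfl⟩ := hpr c
    refine ⟨⟨Pk.KJ.K0.ρ (r h) (j : Pk.KJ.K0), hstabJ h _ j.2⟩, ?_⟩
    exact hζe h (incl j) _ rfl
  let Bobj : FinCMod p C := Zobj.subObj B hB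
  -- (b) `0 → B → Zobj → Sobj → 0`
  have hker : ζ.ker ≤ σ.ker := by
    intro j hj
    rw [AddMonoidHom.mem_ker] at hj ⊢
    obtain ⟨m, hm⟩ := (hζk j).1 hj
    rw [hσk, ← hm]
    exact cyEps_mem_cyJW Pk W hWω m
  let qS : Zobj.carrier →+ Sobj.carrier := ζ.liftOfSurjective hζs ⟨σ, hker⟩
  have hq : ∀ j : ↥(cyZt Pk W), qS (ζ j) = σ j := fun j =>
    AddMonoidHom.liftOfRightInverse_comp_apply _ _ _ ⟨σ, hker⟩ j
  have hb : d Zobj = d Bobj + d Sobj := by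
    refine hd Bobj Zobj Sobj B.subtype qS (fun c x => rfl) ?_ Subtype.val_injective ?_ ?_
    · intro c x
      obtain ⟨h, rfl⟩ := hpr c
      obtain ⟨j, rfl⟩ := hζs x
      have h1 : ζ ⟨Pk.KJ.K0.ρ (r h) (j : Pk.KJ.K0), hstabZ h _ j.2⟩ = pr h • ζ j := hζe h j _ rfl
      rw [← h1, hq, hq]
      exact hσe h j _ rfl
    · intro s
      obtain ⟨j, rfl⟩ := hσs s
      exact ⟨ζ j, hq j⟩
    · intro x
      obtain ⟨j, rfl⟩ := hζs x
      rw [hq, hσk]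
      constructor
      · intro hj
        exact ⟨⟨ζ j, ⟨⟨(j : Pk.KJ.K0), hj⟩, rfl⟩⟩, rfl⟩
      · rintro ⟨⟨_, ⟨j', rfl⟩⟩, hj'⟩
        have h0 : ζ (j - incl j') = 0 := by
          rw [map_sub, sub_eq_zero]
          exact hj'.symm
        obtain ⟨m, hm⟩ := (hζk _).1 h0
        have e : (j : Pk.KJ.K0) = cyEps Pk m + (j' : Pk.KJ.K0) := by
          rw [hm]
          show (j : Pk.KJ.K0) = ((j : Pk.KJ.K0) - (j' : Pk.KJ.K0)) + (j' : Pk.KJ.K0)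
          abel
        rw [e]
        exact (cyJW Pk W).add_mem (cyEps_mem_cyJW Pk W hWω m) j'.2
  -- (a) `0 → Mobj → Jobj → B → 0`
  let eJ : ↥(cyJW Pk W) ≃+ Jobj.carrier := AddEquiv.ofBijective jb hjb
  let eM : Fp1 p ≃+ Mobj.carrier := AddEquiv.ofBijective μ hμb
  let εJ : Fp1 p →+ ↥(cyJW Pk W) :=
    { toFun := fun m => ⟨cyEps Pk m, cyEps_mem_cyJW Pk W hWω m⟩
      map_zero' := Subtype.ext (map_zero _)
      map_add' := fun a b => Subtype.ext (map_add _ a b) }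
  let i : Mobj.carrier →+ Jobj.carrier := (jb.comp εJ).comp eM.symm.toAddMonoidHom
  let πB : ↥(cyJW Pk W) →+ ↥B :=
    { toFun := fun j => ⟨ζ (incl j), ⟨j, rfl⟩⟩
      map_zero' := Subtype.ext (by simp)
      map_add' := fun a b => Subtype.ext (by simp) }
  let π : Jobj.carrier →+ Bobj.carrier := πB.comp eJ.symm.toAddMonoidHom
  have hi : ∀ m : Fp1 p, i (μ m) = jb (εJ m) := fun m => by
    show jb (εJ (eM.symm (μ m))) = jb (εJ m)
    rw [show eM.symm (μ m) = m from eM.symm_apply_apply m]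
  have hπ : ∀ j : ↥(cyJW Pk W), π (jb j) = πB j := fun j => by
    show πB (eJ.symm (jb j)) = πB j
    rw [show eJ.symm (jb j) = j from eJ.symm_apply_apply j]
  have ha : d Jobj = d Mobj + d Bobj := by
    refine hd Mobj Jobj Bobj i π ?_ ?_ ?_ ?_ ?_
    · intro c x
      obtain ⟨h, rfl⟩ := hpr c
      obtain ⟨m, rfl⟩ := hμb.2 x
      rw [← hμe, hi, hi]
      refine hje h _ _ ?_
      exact cyEps_comm Pk (r h) m
    · intro c x
      obtain ⟨h, rfl⟩ := hpr c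
      obtain ⟨j, rfl⟩ := hjb.2 x
      have h1 : jb ⟨Pk.KJ.K0.ρ (r h) (j : Pk.KJ.K0), hstabJ h _ j.2⟩ = pr h • jb j :=
        hje h j _ rfl
      rw [← h1, hπ, hπ]
      refine Subtype.ext ?_
      exact hζe h (incl j) _ rfl
    · intro x y hxy
      obtain ⟨m, rfl⟩ := hμb.2 x
      obtain ⟨m', rfl⟩ := hμb.2 y
      rw [hi, hi] at hxy
      have h1 := hjb.1 hxy
      have h2 : cyEps Pk m = cyEps Pk m' := congrArg Subtype.val h1
      rw [cyEps_injective Pk h2]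
    · rintro ⟨_, ⟨j, rfl⟩⟩
      exact ⟨jb j, hπ j⟩
    · intro x
      obtain ⟨j, rfl⟩ := hjb.2 x
      rw [hπ]
      constructor
      · intro h
        have h1 : ζ (incl j) = 0 := congrArg Subtype.val h
        obtain ⟨m, hm⟩ := (hζk _).1 h1
        refine ⟨μ m, ?_⟩
        rw [hi]
        congr 1
        exact Subtype.ext hm
      · rintro ⟨y, hy⟩
        obtain ⟨m, rfl⟩ := hμb.2 y
        rw [hi] at hy
        have h1 := hjb.1 hy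
        refine Subtype.ext ?_
        show ζ (incl j) = 0
        rw [hζk]
        exact ⟨m, congrArg Subtype.val h1⟩
  rw [hb, ha]
  ring


end Fermat.Agent.S56.EC
end MergeWrap_S56_W2_EC_Cyclic_Tors

section MergeWrap_S56_W2_EC_Cyclic_ShaJV -- from S56/W2/EC/Cyclic/ShaJV.lean

set_option autoImplicit false

namespace Fermat.Agent.S56.EC

open Fermat.Agent.F4 Fermat.Agent.F4Cf ExtCitation

section Abstract

variable {k G D : Type} [CommRing k] [Group G] [Group D]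

/-- **Primitive of a locally trivial character** (double cosets `r(D) \ G / W`).  For a
homomorphism `χ : W → A` (`W` acting trivially on `A`) which vanishes on `W ∩ g r(D) g⁻¹` for all
`g`, there is `m : G → A` with `m (r d x) = r d • m x` and `m (x w) = m x + x • χ w`. -/
theorem shaJV_exists_primitive (r : D →* G) (W : Subgroup G) {A : Type} [AddCommGroup A]
    [Module k A] (ρ : Representation k G A) (χ : ↥W → A)
    (hχ : ∀ w w' : ↥W, χ (w * w') = χ w + χ w')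
    (hW : ∀ (w : ↥W) (a : A), ρ (w : G) a = a)
    (hvan : ∀ (g : G) (d : D) (h : g * r d * g⁻¹ ∈ W), χ ⟨_, h⟩ = 0) :
    ∃ m : G → A, (∀ d x, m (r d * x) = ρ (r d) (m x)) ∧
      ∀ (x : G) (w : ↥W), m (x * w) = m x + ρ x (χ w) := by
  classical
  let rep : G → G := fun x => (DoubleCoset.mk r.range W x).out
  have hrep : ∀ x, ∃ d : D, ∃ w : ↥W, x = r d * rep x * w := by
    intro x
    obtain ⟨h, hh, k', hk, e⟩ :=
      (DoubleCoset.eq r.range W (rep x) x).1 (DoubleCoset.out_eq' r.range W _)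
    obtain ⟨d, rfl⟩ := hh
    exact ⟨d, ⟨k', hk⟩, e⟩
  choose dx wx hx using hrep
  have hrep1 : ∀ d x, rep (r d * x) = rep x := by
    intro d x
    have : DoubleCoset.mk r.range W (r d * x) = DoubleCoset.mk r.range W x :=
      ((DoubleCoset.eq r.range W x (r d * x)).2
        ⟨r d, ⟨d, rfl⟩, 1, W.one_mem, by rw [mul_one]⟩).symm
    show (DoubleCoset.mk r.range W (r d * x)).out = (DoubleCoset.mk r.range W x).out
    rw [this]
  have hrep2 : ∀ (x : G) (w : ↥W), rep (x * w) = rep x := by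
    intro x w
    have : DoubleCoset.mk r.range W (x * w) = DoubleCoset.mk r.range W x :=
      ((DoubleCoset.eq r.range W x (x * w)).2
        ⟨1, (r.range).one_mem, w, w.2, by rw [one_mul]⟩).symm
    show (DoubleCoset.mk r.range W (x * w)).out = (DoubleCoset.mk r.range W x).out
    rw [this]
  -- well-definedness
  have key : ∀ (g₀ : G) (d d' : D) (w w' : ↥W),
      r d * g₀ * w = r d' * g₀ * w' → χ w = χ w' := by
    intro g₀ d d' w w' e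
    have h1 : g₀⁻¹ * r (d'⁻¹ * d) * g₀⁻¹⁻¹ = ((w' * w⁻¹ : ↥W) : G) := by
      rw [inv_inv, map_mul, map_inv, Subgroup.coe_mul, Subgroup.coe_inv]
      have e2 : r d * g₀ = r d' * g₀ * w' * (w : G)⁻¹ := by
        rw [← e, mul_inv_cancel_right]
      calc g₀⁻¹ * ((r d')⁻¹ * r d) * g₀ = g₀⁻¹ * ((r d')⁻¹ * (r d * g₀)) := by group
        _ = g₀⁻¹ * ((r d')⁻¹ * (r d' * g₀ * w' * (w : G)⁻¹)) := by rw [e2]
        _ = w' * (w : G)⁻¹ := by group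
    have h2 : g₀⁻¹ * r (d'⁻¹ * d) * g₀⁻¹⁻¹ ∈ W := h1 ▸ (w' * w⁻¹).2
    have h3 := hvan g₀⁻¹ (d'⁻¹ * d) h2
    have h4 : (⟨_, h2⟩ : ↥W) = w' * w⁻¹ := Subtype.ext h1
    rw [h4] at h3
    have h5 : χ w' = χ (w' * w⁻¹ * w) := by rw [inv_mul_cancel_right]
    rw [h5, hχ, h3, zero_add]
  refine ⟨fun x => ρ x (χ (wx x)), ?_, ?_⟩
  · intro d x
    have e : r (dx (r d * x)) * rep x * wx (r d * x) = r (d * dx x) * rep x * wx x := by
      have h1 := hx (r d * x)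
      rw [hrep1 d x] at h1
      rw [← h1, map_mul, mul_assoc (r d), mul_assoc (r d), ← hx x]
    show ρ (r d * x) (χ (wx (r d * x))) = ρ (r d) (ρ x (χ (wx x)))
    rw [key _ _ _ _ _ e, map_mul]
    rfl
  · intro x w
    have e : r (dx (x * w)) * rep x * wx (x * w) = r (dx x) * rep x * (wx x * w : ↥W) := by
      have h1 := hx (x * w)
      rw [hrep2 x w] at h1
      rw [← h1, Subgroup.coe_mul, ← mul_assoc, ← hx x]
    show ρ (x * w) (χ (wx (x * w))) = ρ x (χ (wx x)) + ρ x (χ w)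
    rw [key _ _ _ _ _ e, hχ, map_mul, Module.End.mul_apply, hW w, map_add]

end Abstract

variable {p : ℕ} [Fact p.Prime] {S : Finset Nat.Primes} {hpS : pPrime p ∈ S}

/-- The `q`-component of an element of `KJ⁰`, as a function on `G_ℚ`. -/
noncomputable abbrev shaJVFun (Pk : ECPack p S hpS) (j : Pk.KJ.K0) (q : ↥S) :
    GQ → (Pk.loc q).K.K0 :=
  coindPiFun0 (fun q : ↥S => primeLocalToGlobal q.1) (levelsS S) (fun q => (Pk.loc q).K) j q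

section Lemmas

variable (Pk : ECPack p S hpS)

/-- `ε_q : μ_p → K_q⁰`. -/
noncomputable def shaJVEpsQ (q : ↥S) : Fp1 p →ₗ[ZMod p] (Pk.loc q).K.K0 := (Pk.loc q).ε.f0

lemma shaJVEpsQ_injective (q : ↥S) : Function.Injective (shaJVEpsQ Pk q) := (Pk.loc q).ε_inj

lemma shaJVEpsQ_comm (q : ↥S) (d : primeLocalGaloisGroup q.1) (m : Fp1 p) :
    shaJVEpsQ Pk q ((Fp1 p).ρ (primeLocalToGlobal q.1 d) m) =
      (Pk.loc q).K.K0.ρ d (shaJVEpsQ Pk q m) := (Pk.loc q).ε.comm0 d m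

lemma shaJVEpsQ_d (q : ↥S) (m : Fp1 p) : (Pk.loc q).K.d (shaJVEpsQ Pk q m) = 0 :=
  ecR3_d_eps (Pk.P q) m

lemma shaJVEpsQ_surj (q : ↥S) (t : (Pk.loc q).K.K0) (ht : (Pk.loc q).K.d t = 0) :
    ∃ m : Fp1 p, shaJVEpsQ Pk q m = t := ecR3_ker_d Pk.hφ (Pk.P q) t ht

lemma shaJVFun_eps (x : Fp1 p) (q : ↥S) (g : GQ) :
    shaJVFun Pk (cyEps Pk x) q g = shaJVEpsQ Pk q ((Fp1 p).ρ g x) := rfl

lemma shaJVFun_ρ (j : Pk.KJ.K0) (w : GQ) (q : ↥S) (g : GQ) :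
    shaJVFun Pk (Pk.KJ.K0.ρ w j) q g = shaJVFun Pk j q (g * w) := rfl

lemma shaJVFun_sub (j j' : Pk.KJ.K0) (q : ↥S) (g : GQ) :
    shaJVFun Pk (j - j') q g = shaJVFun Pk j q g - shaJVFun Pk j' q g := rfl

lemma shaJVFun_equivariant (j : Pk.KJ.K0) (q : ↥S) (d : primeLocalGaloisGroup q.1) (g : GQ) :
    shaJVFun Pk j q (primeLocalToGlobal q.1 d * g) = (Pk.loc q).K.K0.ρ d (shaJVFun Pk j q g) :=
  coIndSub_equivariant
    ((show ∀ q : ↥S, ↥(coIndSub (primeLocalToGlobal q.1) (levelsS S) (Pk.loc q).K.K0) from j) q)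
    d g

lemma shaJVFun_d {j : Pk.KJ.K0} (hj : Pk.KJ.d j = 0) (q : ↥S) (g : GQ) :
    (Pk.loc q).K.d (shaJVFun Pk j q g) = 0 :=
  congrFun (congrArg Subtype.val (congrFun hj q)) g

lemma shaJV_ext {j j' : Pk.KJ.K0} (h : ∀ q g, shaJVFun Pk j q g = shaJVFun Pk j' q g) :
    j = j' :=
  funext fun q => Subtype.ext (funext fun g => h q g)

/-- `W ≤ ker ω` acts trivially on `μ_p`. -/
lemma shaJV_ρ_of_mem_ker {g : GQ} (hg : g ∈ MonoidHom.ker (cycloChar p)) (m : Fp1 p) :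
    (Fp1 p).ρ g m = m := by
  rw [br_smooth_Fp1_ρ, MonoidHom.mem_ker.1 hg, Units.val_one, one_smul]

/-- The action of `G_ℚ` on `μ_p` is injective. -/
lemma shaJV_ρ_injective (g : GQ) : Function.Injective ((Fp1 p).ρ g) := by
  intro a b h
  have := congrArg ((Fp1 p).ρ g⁻¹) h
  rwa [← Module.End.mul_apply, ← Module.End.mul_apply, ← map_mul, inv_mul_cancel, map_one] at this

end Lemmas

/-- **(SV-J), `⇒`.** -/
theorem cyShaV_of_mem_cyShaJ (Pk : ECPack p S hpS) (W : Subgroup GQ)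
    (hWω : W ≤ MonoidHom.ker (cycloChar p)) {χ : ↥W → Fp1 p} (h : χ ∈ cyShaJ Pk W) :
    χ ∈ cyShaV S W := by
  obtain ⟨j, hd, hj⟩ := (mem_cyShaJ Pk W χ).1 h
  -- the relation in components
  have hrel : ∀ (q : ↥S) (g : GQ) (w : ↥W),
      shaJVEpsQ Pk q ((Fp1 p).ρ g (χ w)) = shaJVFun Pk j q (g * w) - shaJVFun Pk j q g := by
    intro q g w
    rw [← shaJVFun_eps, hj w, shaJVFun_sub, shaJVFun_ρ]
  let q₀ : ↥S := ⟨pPrime p, hpS⟩
  have hone : ∀ m : Fp1 p, (Fp1 p).ρ 1 m = m := fun m => by rw [map_one]; rfl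
  refine ⟨⟨fun w w' => ?_, ?_⟩, fun q g d h => ?_⟩
  · -- additivity
    apply shaJVEpsQ_injective Pk q₀
    have h1 := hrel q₀ 1 (w * w')
    have h2 := hrel q₀ (w : GQ) w'
    have h3 := hrel q₀ 1 w
    rw [hone] at h1 h3
    rw [shaJV_ρ_of_mem_ker (hWω w.2)] at h2
    rw [map_add, h1, h2, h3, Subgroup.coe_mul, one_mul, one_mul]
    abel
  · -- smoothness
    obtain ⟨V, hV, hVj⟩ := (coind_smoothJ Pk.loc).1 j
    refine ⟨V, hV, fun w hw => ?_⟩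
    apply shaJVEpsQ_injective Pk q₀
    have h3 := hrel q₀ 1 w
    rw [hone, one_mul] at h3
    rw [h3, ← one_mul (w : GQ), ← shaJVFun_ρ, hVj _ hw, sub_self, map_zero]
  · -- local triviality
    have h1 := hrel q g⁻¹ ⟨_, h⟩
    have e : g⁻¹ * (g * primeLocalToGlobal q.1 d * g⁻¹) = primeLocalToGlobal q.1 d * g⁻¹ := by
      group
    rw [show ((⟨g * primeLocalToGlobal q.1 d * g⁻¹, h⟩ : ↥W) : GQ) =
      g * primeLocalToGlobal q.1 d * g⁻¹ from rfl, e, shaJVFun_equivariant] at h1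
    obtain ⟨m, hm⟩ := shaJVEpsQ_surj Pk q _ (shaJVFun_d Pk hd q g⁻¹)
    have hker : primeLocalToGlobal q.1 d ∈ MonoidHom.ker (cycloChar p) := by
      have h2 := hWω h
      rw [MonoidHom.mem_ker] at h2 ⊢
      rw [map_mul, map_mul, map_inv, mul_comm (cycloChar p g), mul_assoc, mul_inv_cancel,
        mul_one] at h2
      exact h2
    have h4 : (Pk.loc q).K.K0.ρ d (shaJVFun Pk j q g⁻¹) = shaJVFun Pk j q g⁻¹ := by
      rw [← hm, ← shaJVEpsQ_comm, shaJV_ρ_of_mem_ker hker m]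
    rw [h4, sub_self] at h1
    have h5 : (Fp1 p).ρ g⁻¹ (χ ⟨_, h⟩) = 0 :=
      shaJVEpsQ_injective Pk q (h1.trans (map_zero _).symm)
    exact shaJV_ρ_injective g⁻¹ (h5.trans (map_zero _).symm)

/-- **(SV-J), `⇐`.** -/
theorem mem_cyShaJ_of_cyShaV (Pk : ECPack p S hpS) (W : Subgroup GQ)
    (hW : W ∈ (levelsS S).sets) (hWω : W ≤ MonoidHom.ker (cycloChar p)) {χ : ↥W → Fp1 p}
    (h : χ ∈ cyShaV S W) : χ ∈ cyShaJ Pk W := by
  rw [mem_cyShaJ]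
  obtain ⟨⟨hadd, V, hV, hVχ⟩, hvan⟩ := h
  -- the primitives
  have hprim : ∀ q : ↥S, ∃ m : GQ → Fp1 p,
      (∀ d x, m (primeLocalToGlobal q.1 d * x) =
        (Fp1 p).ρ (primeLocalToGlobal q.1 d) (m x)) ∧
      ∀ (x : GQ) (w : ↥W), m (x * w) = m x + (Fp1 p).ρ x (χ w) := fun q =>
    shaJV_exists_primitive (primeLocalToGlobal q.1) W (Fp1 p).ρ χ hadd
      (fun w a => shaJV_ρ_of_mem_ker (hWω w.2) a) (fun g d h => hvan q g d h)
  choose m hm1 hm2 using hprim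
  -- a common level
  obtain ⟨U, hU, hUle⟩ := (levelsS S).directed W hW V hV
  have hmU : ∀ (q : ↥S) (x s : GQ), s ∈ U → m q (x * s) = m q x := by
    intro q x s hs
    have := hm2 q x ⟨s, (hUle hs).1⟩
    rw [hVχ ⟨s, (hUle hs).1⟩ (hUle hs).2, map_zero, add_zero] at this
    exact this
  -- the element `j`
  let j : Pk.KJ.K0 := fun q => ⟨fun x => shaJVEpsQ Pk q (m q x), ⟨fun d x => by
      show shaJVEpsQ Pk q (m q (primeLocalToGlobal q.1 d * x)) = _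
      rw [hm1, shaJVEpsQ_comm], ⟨U, hU, fun x s hs => by
      show shaJVEpsQ Pk q (m q (x * s)) = shaJVEpsQ Pk q (m q x)
      rw [hmU q x s hs]⟩⟩⟩
  have hjfun : ∀ q g, shaJVFun Pk j q g = shaJVEpsQ Pk q (m q g) := fun _ _ => rfl
  refine ⟨j, ?_, fun w => ?_⟩
  · funext q
    apply Subtype.ext
    funext x
    exact shaJVEpsQ_d Pk q (m q x)
  · apply shaJV_ext Pk
    intro q g
    rw [shaJVFun_eps, shaJVFun_sub, shaJVFun_ρ, hjfun, hjfun, hm2, map_add, add_sub_cancel_left]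

/-- **(SV-J)**: the `J`-form and the `V`-form of the locally trivial characters agree. -/
theorem cyShaJ_eq_cyShaV (Pk : ECPack p S hpS) (W : Subgroup GQ) (hW : W ∈ (levelsS S).sets)
    (hWω : W ≤ MonoidHom.ker (cycloChar p)) : cyShaJ Pk W = cyShaV S W :=
  le_antisymm (fun _ h => cyShaV_of_mem_cyShaJ Pk W hWω h)
    (fun _ h => mem_cyShaJ_of_cyShaV Pk W hW hWω h)

end Fermat.Agent.S56.EC
end MergeWrap_S56_W2_EC_Cyclic_ShaJV

section MergeWrap_S56_W2_EC_Cyclic_TorsObj -- from S56/W2/EC/Cyclic/TorsObj.lean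

set_option autoImplicit false
set_option linter.unusedSectionVars false
set_option linter.style.haveILetI false

noncomputable section

namespace Fermat.Agent.S56.EC

open Fermat.Agent.F4 Fermat.Agent.F4Cf ExtCitation

variable {p : ℕ} [Fact p.Prime] {S : Finset Nat.Primes}

/-! ### A finite module from a stable finite subgroup -/

section OfSub

variable {H : Type} [Group H] {M : Type} [AddCommGroup M]

/-- A finite subgroup `B` of an abelian group `M`, killed by `p`, stable under a family of maps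
`a h : M → M` which is an action by additive maps on `B`, as a `FinCMod`. -/
def FinCMod.ofSub (B : AddSubgroup M) (hfin : Finite ↥B) (hp : ∀ x ∈ B, p • x = 0)
    (a : H → M → M) (ha_mem : ∀ h x, x ∈ B → a h x ∈ B) (ha_one : ∀ x ∈ B, a 1 x = x)
    (ha_mul : ∀ g h x, x ∈ B → a (g * h) x = a g (a h x)) (ha_zero : ∀ h, a h 0 = 0)
    (ha_add : ∀ h x y, x ∈ B → y ∈ B → a h (x + y) = a h x + a h y) : FinCMod p H :=
  letI : DistribMulAction H ↥B :=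
    { smul := fun h x => ⟨a h (x : M), ha_mem h _ x.2⟩
      one_smul := fun x => Subtype.ext (ha_one _ x.2)
      mul_smul := fun g h x => Subtype.ext (ha_mul g h _ x.2)
      smul_zero := fun h => Subtype.ext (ha_zero h)
      smul_add := fun h x y => Subtype.ext (ha_add h _ _ x.2 y.2) }
  { carrier := ↥B
    isFinite := hfin
    killed := fun x => Subtype.ext (by
      rw [AddSubgroup.coe_nsmul, AddSubgroup.coe_zero]
      exact hp _ x.2) }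

end OfSub

/-! ### The twisted conjugation -/

section Conj

variable (W : Subgroup GQ) (hWn : W.Normal)

/-- The locally trivial characters are stable under the twisted conjugation. -/
lemma cyConj_mem_cyShaV (γ : GQ) {χ : ↥W → Fp1 p} (hχ : χ ∈ cyShaV S W) :
    cyConj W hWn γ χ ∈ cyShaV S W := by
  refine ⟨cyConj_mem_cyHomW S W hWn γ hχ.1, fun q g d h => ?_⟩
  show (Fp1 p).ρ γ (χ _) = 0
  have e : γ⁻¹ * (g * primeLocalToGlobal q.1 d * g⁻¹) * γ =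
      (γ⁻¹ * g) * primeLocalToGlobal q.1 d * (γ⁻¹ * g)⁻¹ := by group
  have h' : (γ⁻¹ * g) * primeLocalToGlobal q.1 d * (γ⁻¹ * g)⁻¹ ∈ W := by
    rw [← e]
    have := hWn.conj_mem _ h γ⁻¹
    rwa [inv_inv] at this
  have h2 := hχ.2 q (γ⁻¹ * g) d h'
  have h3 : χ ⟨γ⁻¹ * (g * primeLocalToGlobal q.1 d * g⁻¹) * γ, by rw [e]; exact h'⟩ = 0 := by
    rw [← h2]
    exact congrArg χ (Subtype.ext e)
  rw [h3, map_zero]

end Conj

/-! ### Finiteness -/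

lemma finite_cyShaV (W : Subgroup GQ) (hW : W ∈ (levelsS S).sets) :
    Finite ↥(cyShaV (p := p) S W) := by
  haveI := finite_cyHomW (p := p) S W hW
  refine Finite.of_injective (fun χ : ↥(cyShaV (p := p) S W) =>
    (⟨χ.1, cyShaV_le S W χ.2⟩ : ↥(cyHomW (p := p) S W))) (fun a b h => ?_)
  have h1 : (a : ↥W → Fp1 p) = (b : ↥W → Fp1 p) :=
    congrArg (fun t : ↥(cyHomW (p := p) S W) => (t : ↥W → Fp1 p)) h
  exact Subtype.ext h1

namespace CycSetup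

variable (𝒮 : CycSetup p S)

/-! ### `Sha` -/

/-- The locally trivial characters as a `U`-module (twisted conjugation). -/
def ShaU : FinCMod p ↥𝒮.U :=
  FinCMod.ofSub (H := ↥𝒮.U) (cyShaV (p := p) S 𝒮.W) (finite_cyShaV 𝒮.W 𝒮.hW)
    (fun χ _ => funext fun w => by
      show p • (χ w : Fp1 p) = 0
      rw [← Nat.cast_smul_eq_nsmul (ZMod p), ZMod.natCast_self, zero_smul])
    (fun u χ => cyConj 𝒮.W 𝒮.normal_W (u : GQ) χ)
    (fun u _ hχ => cyConj_mem_cyShaV 𝒮.W 𝒮.normal_W (u : GQ) hχ)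
    (fun χ _ => cyConj_one 𝒮.W 𝒮.normal_W χ)
    (fun u u' χ _ => cyConj_mul 𝒮.W 𝒮.normal_W (u : GQ) (u' : GQ) χ)
    (fun u => cyConj_zero 𝒮.W 𝒮.normal_W (u : GQ))
    (fun u χ χ' _ _ => cyConj_add 𝒮.W 𝒮.normal_W (u : GQ) χ χ')

/-- The underlying character. -/
def shaUVal : (𝒮.ShaU).carrier ≃+ ↥(cyShaV (p := p) S 𝒮.W) := AddEquiv.refl _

lemma shaUVal_smul (u : ↥𝒮.U) (χ : (𝒮.ShaU).carrier) :
    ((𝒮.shaUVal (u • χ) : ↥(cyShaV (p := p) S 𝒮.W)) : ↥𝒮.W → Fp1 p) =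
      cyConj 𝒮.W 𝒮.normal_W (u : GQ)
        ((𝒮.shaUVal χ : ↥(cyShaV (p := p) S 𝒮.W)) : ↥𝒮.W → Fp1 p) := rfl

lemma ShaU_triv (u : ↥𝒮.U) (hu : (u : GQ) ∈ 𝒮.W) (χ : (𝒮.ShaU).carrier) : u • χ = χ :=
  𝒮.shaUVal.injective
    (Subtype.ext (cyConj_of_mem S 𝒮.W 𝒮.normal_W 𝒮.hω hu (𝒮.shaUVal χ).2.1))

/-- **`Sha`**: the locally trivial characters of `W`, as a `Γ`-module. -/
def ShaObj : FinCMod p 𝒮.Γ := 𝒮.descObj 𝒮.ShaU 𝒮.ShaU_triv

/-- `Sha ≃ cyShaV S W`. -/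
def shaVal : (𝒮.ShaObj).carrier ≃+ ↥(cyShaV (p := p) S 𝒮.W) :=
  AddEquiv.trans
    { DescMod.val 𝒮.N (𝒮.ShaU).carrier with
      invFun := DescMod.of 𝒮.N (𝒮.ShaU).carrier
      left_inv := fun _ => rfl
      right_inv := fun _ => rfl }
    𝒮.shaUVal

lemma shaVal_smul (u : ↥𝒮.U) (s : (𝒮.ShaObj).carrier) :
    ((𝒮.shaVal (𝒮.proj u • s) : ↥(cyShaV (p := p) S 𝒮.W)) : ↥𝒮.W → Fp1 p) =
      cyConj 𝒮.W 𝒮.normal_W (u : GQ) ((𝒮.shaVal s : ↥(cyShaV (p := p) S 𝒮.W)) :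
        ↥𝒮.W → Fp1 p) := rfl

end CycSetup

/-! ### `(ker d_C)^W` -/

section Z

variable {hpS : pPrime p ∈ S} (Pk : ECPack p S hpS)

lemma cyZ_stable (W : Subgroup GQ) (hWn : W.Normal) (g : GQ) (z : Pk.KC.K0)
    (hz : z ∈ cyZ Pk W) : Pk.KC.K0.ρ g z ∈ cyZ Pk W := by
  refine ⟨?_, fun w hw => ?_⟩
  · rw [Pk.KC.comm, hz.1, map_zero]
  · have hw' : g⁻¹ * w * g ∈ W := by
      have := hWn.conj_mem w hw g⁻¹
      rwa [inv_inv] at this
    have h := hz.2 _ hw'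
    calc Pk.KC.K0.ρ w (Pk.KC.K0.ρ g z)
        = Pk.KC.K0.ρ g (Pk.KC.K0.ρ (g⁻¹ * w * g) z) := by
          rw [← Module.End.mul_apply, ← map_mul, ← Module.End.mul_apply, ← map_mul]
          congr 2
          group
      _ = Pk.KC.K0.ρ g z := by rw [h]

/-- `cyZt → cyZ`, `j ↦ [j]`. -/
def cyMkZ (W : Subgroup GQ) : ↥(cyZt Pk W) →+ ↥(cyZ Pk W) where
  toFun j := ⟨cyMk Pk (j : Pk.KJ.K0), (cyMk_mem_cyZ_iff Pk W _).2 j.2⟩
  map_zero' := Subtype.ext (map_zero (cyMk Pk))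
  map_add' a b := Subtype.ext (map_add (cyMk Pk) _ _)

lemma cyMkZ_coe (W : Subgroup GQ) (j : ↥(cyZt Pk W)) :
    ((cyMkZ Pk W j : ↥(cyZ Pk W)) : Pk.KC.K0) = cyMk Pk (j : Pk.KJ.K0) := rfl

lemma cyMkZ_surjective (W : Subgroup GQ) : Function.Surjective (cyMkZ Pk W) := by
  intro z
  obtain ⟨j, hj⟩ := cyMk_surjective Pk (z : Pk.KC.K0)
  have hj' : j ∈ cyZt Pk W := by
    rw [← cyMk_mem_cyZ_iff, hj]
    exact z.2
  exact ⟨⟨j, hj'⟩, Subtype.ext hj⟩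

end Z

namespace CycSetup

variable (𝒮 : CycSetup p S) {hpS : pPrime p ∈ S} (Pk : ECPack p S hpS)

lemma finite_cyJW : Finite ↥(cyJW Pk 𝒮.W) :=
  Finite.of_injective (𝒮.thetaJ Pk) (𝒮.thetaJ_injective Pk)

lemma finite_cyZt : Finite ↥(cyZt Pk 𝒮.W) := by
  rw [(cyDeltaHom Pk 𝒮.W).finite_iff_finite_ker_range]
  constructor
  · haveI := 𝒮.finite_cyJW Pk
    refine Finite.of_injective (fun j : ↥(cyDeltaHom Pk 𝒮.W).ker =>
      (⟨((j : ↥(cyZt Pk 𝒮.W)) : Pk.KJ.K0),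
        (cyDelta_eq_zero_iff Pk 𝒮.W _).1 j.2⟩ : ↥(cyJW Pk 𝒮.W))) (fun a b h => ?_)
    have h1 : (((a : ↥(cyZt Pk 𝒮.W)) : Pk.KJ.K0)) = (((b : ↥(cyZt Pk 𝒮.W)) : Pk.KJ.K0)) :=
      congrArg (fun t : ↥(cyJW Pk 𝒮.W) => (t : Pk.KJ.K0)) h
    exact Subtype.ext (Subtype.ext h1)
  · have h : (cyDeltaHom Pk 𝒮.W).range = cyShaV S 𝒮.W := cyShaJ_eq_cyShaV Pk 𝒮.W 𝒮.hW 𝒮.hω
    rw [h]
    exact finite_cyShaV 𝒮.W 𝒮.hW

lemma finite_cyZ : Finite ↥(cyZ Pk 𝒮.W) := by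
  haveI := 𝒮.finite_cyZt Pk
  exact Finite.of_surjective _ (cyMkZ_surjective Pk 𝒮.W)

/-- `(ker d_C)^W` as a `U`-module. -/
def ZU : FinCMod p ↥𝒮.U :=
  FinCMod.ofSub (H := ↥𝒮.U) (cyZ Pk 𝒮.W) (𝒮.finite_cyZ Pk)
    (fun z _ => by
      rw [← Nat.cast_smul_eq_nsmul (ZMod p), ZMod.natCast_self, zero_smul])
    (fun u z => Pk.KC.K0.ρ (u : GQ) z)
    (fun u z hz => cyZ_stable Pk 𝒮.W 𝒮.normal_W (u : GQ) z hz)
    (fun z _ => by
      show Pk.KC.K0.ρ ((1 : ↥𝒮.U) : GQ) z = z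
      rw [Subgroup.coe_one, map_one]
      rfl)
    (fun u u' z _ => by
      show Pk.KC.K0.ρ ((u * u' : ↥𝒮.U) : GQ) z = Pk.KC.K0.ρ (u : GQ) (Pk.KC.K0.ρ (u' : GQ) z)
      rw [Subgroup.coe_mul, map_mul]
      rfl)
    (fun u => map_zero _)
    (fun u z z' _ _ => map_add _ _ _)

/-- The underlying element of `(ker d_C)^W`. -/
def zUVal : (𝒮.ZU Pk).carrier ≃+ ↥(cyZ Pk 𝒮.W) := AddEquiv.refl _

lemma zUVal_smul (u : ↥𝒮.U) (z : (𝒮.ZU Pk).carrier) :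
    ((𝒮.zUVal Pk (u • z) : ↥(cyZ Pk 𝒮.W)) : Pk.KC.K0) =
      Pk.KC.K0.ρ (u : GQ) ((𝒮.zUVal Pk z : ↥(cyZ Pk 𝒮.W)) : Pk.KC.K0) := rfl

lemma ZU_triv (u : ↥𝒮.U) (hu : (u : GQ) ∈ 𝒮.W) (z : (𝒮.ZU Pk).carrier) : u • z = z :=
  (𝒮.zUVal Pk).injective (Subtype.ext ((𝒮.zUVal Pk z).2.2 (u : GQ) hu))

/-- **`Z = (ker d_C)^W`** as a `Γ`-module. -/
def ZObj : FinCMod p 𝒮.Γ := 𝒮.descObj (𝒮.ZU Pk) (𝒮.ZU_triv Pk)

/-- `Z ≃ cyZ Pk W`. -/
def zVal : (𝒮.ZObj Pk).carrier ≃+ ↥(cyZ Pk 𝒮.W) :=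
  AddEquiv.trans
    { DescMod.val 𝒮.N (𝒮.ZU Pk).carrier with
      invFun := DescMod.of 𝒮.N (𝒮.ZU Pk).carrier
      left_inv := fun _ => rfl
      right_inv := fun _ => rfl }
    (𝒮.zUVal Pk)

lemma zVal_smul (u : ↥𝒮.U) (a : (𝒮.ZObj Pk).carrier) :
    ((𝒮.zVal Pk (𝒮.proj u • a) : ↥(cyZ Pk 𝒮.W)) : Pk.KC.K0) =
      Pk.KC.K0.ρ (u : GQ) ((𝒮.zVal Pk a : ↥(cyZ Pk 𝒮.W)) : Pk.KC.K0) := rfl

/-! ### The presentations -/

/-- `ζ : cyZt → Z`, `j ↦ [j]`. -/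
def zeta : ↥(cyZt Pk 𝒮.W) →+ (𝒮.ZObj Pk).carrier :=
  (𝒮.zVal Pk).symm.toAddMonoidHom.comp (cyMkZ Pk 𝒮.W)

lemma zVal_zeta (j : ↥(cyZt Pk 𝒮.W)) :
    ((𝒮.zVal Pk (𝒮.zeta Pk j) : ↥(cyZ Pk 𝒮.W)) : Pk.KC.K0) = cyMk Pk (j : Pk.KJ.K0) := by
  show ((𝒮.zVal Pk ((𝒮.zVal Pk).symm (cyMkZ Pk 𝒮.W j)) : ↥(cyZ Pk 𝒮.W)) : Pk.KC.K0) = _
  rw [AddEquiv.apply_symm_apply]
  rfl

lemma zeta_surjective : Function.Surjective (𝒮.zeta Pk) :=
  (𝒮.zVal Pk).symm.surjective.comp (cyMkZ_surjective Pk 𝒮.W)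

lemma zeta_eq_zero_iff (j : ↥(cyZt Pk 𝒮.W)) :
    𝒮.zeta Pk j = 0 ↔ ∃ m : Fp1 p, cyEps Pk m = (j : Pk.KJ.K0) := by
  rw [← cyMk_eq_zero_iff, ← 𝒮.zVal_zeta Pk j]
  constructor
  · intro h
    rw [h, map_zero]
    rfl
  · intro h
    apply (𝒮.zVal Pk).injective
    rw [map_zero]
    exact Subtype.ext h

lemma zeta_smul (u : ↥𝒮.U) (j j' : ↥(cyZt Pk 𝒮.W))
    (h : (j' : Pk.KJ.K0) = Pk.KJ.K0.ρ (u : GQ) (j : Pk.KJ.K0)) :
    𝒮.zeta Pk j' = 𝒮.proj u • 𝒮.zeta Pk j := by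
  apply (𝒮.zVal Pk).injective
  apply Subtype.ext
  rw [𝒮.zVal_smul Pk, 𝒮.zVal_zeta Pk, 𝒮.zVal_zeta Pk, h, cyMk_comm]

/-- `σ : cyZt → Sha`, the connecting map. -/
def sigma : ↥(cyZt Pk 𝒮.W) →+ (𝒮.ShaObj).carrier :=
  𝒮.shaVal.symm.toAddMonoidHom.comp
    { toFun := fun j => (⟨cyDeltaHom Pk 𝒮.W j, by
        rw [← cyShaJ_eq_cyShaV Pk 𝒮.W 𝒮.hW 𝒮.hω]
        exact ⟨j, rfl⟩⟩ : ↥(cyShaV (p := p) S 𝒮.W))
      map_zero' := Subtype.ext (map_zero (cyDeltaHom Pk 𝒮.W))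
      map_add' := fun a b => Subtype.ext (map_add (cyDeltaHom Pk 𝒮.W) a b) }

lemma shaVal_sigma (j : ↥(cyZt Pk 𝒮.W)) :
    ((𝒮.shaVal (𝒮.sigma Pk j) : ↥(cyShaV (p := p) S 𝒮.W)) : ↥𝒮.W → Fp1 p) =
      cyDeltaHom Pk 𝒮.W j := by
  show ((𝒮.shaVal (𝒮.shaVal.symm _) : ↥(cyShaV (p := p) S 𝒮.W)) : ↥𝒮.W → Fp1 p) = _
  rw [AddEquiv.apply_symm_apply]
  rfl

lemma sigma_surjective : Function.Surjective (𝒮.sigma Pk) := by
  intro s
  have h : ((𝒮.shaVal s : ↥(cyShaV (p := p) S 𝒮.W)) : ↥𝒮.W → Fp1 p) ∈ cyShaJ Pk 𝒮.W := by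
    rw [cyShaJ_eq_cyShaV Pk 𝒮.W 𝒮.hW 𝒮.hω]
    exact (𝒮.shaVal s).2
  obtain ⟨j, hj⟩ := h
  refine ⟨j, 𝒮.shaVal.injective (Subtype.ext ?_)⟩
  rw [𝒮.shaVal_sigma Pk]
  exact hj

lemma sigma_eq_zero_iff (j : ↥(cyZt Pk 𝒮.W)) :
    𝒮.sigma Pk j = 0 ↔ (j : Pk.KJ.K0) ∈ cyJW Pk 𝒮.W := by
  rw [← cyDelta_eq_zero_iff, ← 𝒮.shaVal_sigma Pk j]
  constructor
  · intro h
    rw [h, map_zero]
    rfl
  · intro h
    apply 𝒮.shaVal.injective
    rw [map_zero]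
    exact Subtype.ext h

lemma sigma_smul (u : ↥𝒮.U) (j j' : ↥(cyZt Pk 𝒮.W))
    (h : (j' : Pk.KJ.K0) = Pk.KJ.K0.ρ (u : GQ) (j : Pk.KJ.K0)) :
    𝒮.sigma Pk j' = 𝒮.proj u • 𝒮.sigma Pk j := by
  apply 𝒮.shaVal.injective
  apply Subtype.ext
  rw [𝒮.shaVal_smul, 𝒮.shaVal_sigma Pk, 𝒮.shaVal_sigma Pk]
  funext w
  have hw : (u : GQ)⁻¹ * (w : GQ) * (u : GQ) ∈ 𝒮.W := by
    have := 𝒮.normal_W.conj_mem w w.2 (u : GQ)⁻¹
    rwa [inv_inv] at this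
  rw [cyConj_apply 𝒮.W 𝒮.normal_W (u : GQ) _ w hw]
  refine cyDelta_conj Pk 𝒮.W (u : GQ) j j' ⟨_, hw⟩ w h ?_
  show (w : GQ) = (u : GQ) * ((u : GQ)⁻¹ * (w : GQ) * (u : GQ)) * (u : GQ)⁻¹
  group

/-- `μ_p → muObj`. -/
def muMap : Fp1 p →+ (muObj 𝒮.ω).carrier := MuMod.of 𝒮.ω

lemma muMap_bijective : Function.Bijective 𝒮.muMap :=
  ⟨fun _ _ h => h, fun x => ⟨x, rfl⟩⟩

lemma muMap_smul (u : ↥𝒮.U) (m : Fp1 p) :
    𝒮.muMap ((Fp1 p).ρ (u : GQ) m) = 𝒮.proj u • 𝒮.muMap m := rfl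

/-! ### The `tors` field -/

/-- **(N3)** `d Z = d μ_p[S_f(L)] - d μ_p + d Sha`. -/
theorem tors_field (d : FinCMod p 𝒮.Γ → ℤ) (hd : IsAdditive d) :
    d (𝒮.ZObj Pk) = d (muPermObj 𝒮.ω 𝒮.actf) - d (muObj 𝒮.ω) + d 𝒮.ShaObj := by
  have h := tors_universalQ Pk 𝒮.W 𝒮.hω 𝒮.proj 𝒮.proj_surjective 𝒮.U.subtype
    (𝒮.ZObj Pk) (muPermObj 𝒮.ω 𝒮.actf) (muObj 𝒮.ω) 𝒮.ShaObj
    (𝒮.zeta Pk) (𝒮.zeta_surjective Pk) (𝒮.zeta_eq_zero_iff Pk) (𝒮.zeta_smul Pk)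
    (𝒮.thetaJ Pk) (𝒮.thetaJ_bijective Pk) (𝒮.thetaJ_smul Pk)
    𝒮.muMap 𝒮.muMap_bijective 𝒮.muMap_smul
    (𝒮.sigma Pk) (𝒮.sigma_surjective Pk) (𝒮.sigma_eq_zero_iff Pk) (𝒮.sigma_smul Pk)
    (fun u j hj => cyZt_stable Pk 𝒮.W 𝒮.normal_W (u : GQ) j hj)
    (fun u j hj => cyJW_stable Pk 𝒮.W 𝒮.normal_W (u : GQ) j hj) hd
  linarith

end CycSetup

end Fermat.Agent.S56.EC
end
end MergeWrap_S56_W2_EC_Cyclic_TorsObj
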