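import Fermat.Agent.MU.S56.W2.EC.Cyclic.K0.Defs
import Fermat.Agent.S56.W2.EC.Sh.H1
import Fermat.Agent.MU.S56.W2.EC.Cyclic.Setup
import Fermat.Agent.F4.Shapiro.Core
import Fermat.Agent.MU.S56.W2.EC.Cyclic.ShaDefs
import Fermat.Agent.MU.S56.W2.EC.Sh.Hom
import Fermat.Agent.MU.S56.W2.EC.Cyclic.TorsDefs
import Fermat.Agent.MU.S56.W2.EC.Cyclic.HmuObj
import Fermat.Agent.F4.Coind.Basic
import Fermat.Agent.MU.F4.Datum
import Fermat.Agent.Lib.Cyclo.ModCharGlobal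
import Fermat.Agent.MU.S56.W2.EC.Defs
import Fermat.Agent.MU.F4.Dict.Level
import Fermat.Agent.MU.S56.W2.EC.Cyclic.KummerR
import Fermat.Agent.S56.W2.EC.FinCMod
import Fermat.Agent.MU.F4.Cf.RecipDefs
import Fermat.Agent.MU.S17.W.Final
import Fermat.Agent.MU.S56.W2.EC.UnitLog
import Fermat.Agent.MU.S56.W2.EC.Cyclic.AObj
import Fermat.Agent.MU.F4.Dict.TwoNT
import Fermat.Agent.MU.F4.Kum.Level
import Fermat.Agent.MU.S56.W2.EC.Cyclic.TorsObj

section MergeWrap_S56_W2_EC_Cyclic_Glue_DD -- from S56/W2/EC/Cyclic/Glue/DD.lean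

/-!
# S56 / W2 / EC / Cyclic / Glue / DD : double duality for finite elementary abelian `p`-groups
(helper48; generic algebra for the glue seats (G1)–(G3))

* `ecG_exists_functional` : additive characters `M → ZMod p` separate the points of `M`;
* `ecG_exists_eval` : every additive map `(M →+ ZMod p) → ZMod p` is an evaluation;
* `ecG_log_card` : `log_p #V = dim V` for a finite `𝔽_p`-vector space;
* `ecG_pairC_dual_mu` : `⟨D M, μ_p⟩ = log_p #M^Γ`.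
-/

set_option autoImplicit false
set_option linter.unusedSectionVars false
set_option linter.style.haveILetI false

noncomputable section

namespace Fermat.Agent.S56.EC

variable {p : ℕ} [Fact p.Prime]

section DD

/-- Linear forms separate points (instance version). -/
lemma ecG_exists_functional_aux (M : Type) [AddCommGroup M] [Module (ZMod p) M]
    (m : M) (hm : m ≠ 0) :
    ∃ φ : M →+ ZMod p, φ m ≠ 0 := by
  by_contra h
  push Not at h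
  refine hm ((Module.forall_dual_apply_eq_zero_iff (ZMod p) (V := M) m).1 fun φ => ?_)
  exact h φ.toAddMonoidHom

/-- Double duality (instance version). -/
lemma ecG_exists_eval_aux (M : Type) [AddCommGroup M] [Module (ZMod p) M] [Finite M]
    (e : (M →+ ZMod p) →+ ZMod p) :
    ∃ m : M, ∀ φ : M →+ ZMod p, e φ = φ m := by
  haveI : Module.Finite (ZMod p) M := Module.Finite.of_finite
  let e' : Module.Dual (ZMod p) M →+ ZMod p :=
    e.comp (LinearMap.toAddMonoidHom' : (M →ₗ[ZMod p] ZMod p) →+ (M →+ ZMod p))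
  let e'' : Module.Dual (ZMod p) (Module.Dual (ZMod p) M) := AddMonoidHom.toZModLinearMap p e'
  obtain ⟨m, hm⟩ := (Module.evalEquiv (ZMod p) M).surjective e''
  refine ⟨m, fun φ => ?_⟩
  have h1 := congrArg (fun u : Module.Dual (ZMod p) (Module.Dual (ZMod p) M) =>
    u (AddMonoidHom.toZModLinearMap p φ)) hm
  simp only [Module.evalEquiv_apply, Module.Dual.eval_apply] at h1
  exact h1.symm

variable {M : Type} [AddCommGroup M] [Finite M]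

/-- Additive characters separate points. -/
lemma ecG_exists_functional (hM : ∀ x : M, p • x = 0) (m : M) (hm : m ≠ 0) :
    ∃ φ : M →+ ZMod p, φ m ≠ 0 :=
  @ecG_exists_functional_aux p _ M _ (AddCommGroup.zmodModule hM) m hm

/-- Every additive map on the characters is an evaluation. -/
lemma ecG_exists_eval (hM : ∀ x : M, p • x = 0) (e : (M →+ ZMod p) →+ ZMod p) :
    ∃ m : M, ∀ φ : M →+ ZMod p, e φ = φ m :=
  @ecG_exists_eval_aux p _ M _ (AddCommGroup.zmodModule hM) _ e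

/-- Two points with the same values under all characters are equal. -/
lemma ecG_eq_of_forall (hM : ∀ x : M, p • x = 0) {a b : M}
    (h : ∀ φ : M →+ ZMod p, φ a = φ b) : a = b := by
  by_contra hne
  obtain ⟨φ, hφ⟩ := ecG_exists_functional hM (a - b) (sub_ne_zero.2 hne)
  apply hφ
  rw [map_sub, sub_eq_zero]
  exact h φ

/-- Double duality with parameters: an additive family of functions on `N` indexed by the
characters of `M` is `φ ↦ φ ∘ f` for a unique `f : N → M`. -/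
lemma ecG_exists_repr (hM : ∀ x : M, p • x = 0) {N : Type}
    (F : (M →+ ZMod p) →+ (N → ZMod p)) :
    ∃ f : N → M, ∀ (φ : M →+ ZMod p) (n : N), F φ n = φ (f n) := by
  have h : ∀ n : N, ∃ m : M, ∀ φ : M →+ ZMod p, F φ n = φ m := fun n =>
    ecG_exists_eval hM ((Pi.evalAddMonoidHom (fun _ : N => ZMod p) n).comp F)
  choose f hf using h
  exact ⟨f, fun φ n => hf n φ⟩

end DD

/-- `log_p #V = dim V`. -/
lemma ecG_log_card (V : Type) [AddCommGroup V] [Module (ZMod p) V] [Finite V] :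
    Nat.log p (Nat.card V) = Module.finrank (ZMod p) V := by
  have hp : p.Prime := Fact.out
  have : Fintype V := Fintype.ofFinite V
  rw [Nat.card_eq_fintype_card, Module.card_eq_pow_finrank (K := ZMod p) (V := V), ZMod.card,
    Nat.log_pow hp.one_lt]

section G2

variable {Γ : Type} [Group Γ] (ω : Γ →* (ZMod p)ˣ) (M : FinCMod p Γ)

/-- The invariants of a `FinCMod`. -/
def ecGInv : AddSubgroup M.carrier where
  carrier := {m | ∀ γ : Γ, γ • m = m}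
  zero_mem' := fun γ => smul_zero γ
  add_mem' := fun {a b} ha hb γ => by rw [smul_add, ha γ, hb γ]
  neg_mem' := fun {a} ha γ => by rw [smul_neg, ha γ]

lemma mem_ecGInv (m : M.carrier) : m ∈ ecGInv M ↔ ∀ γ : Γ, γ • m = m := Iff.rfl

/-- Evaluation at `m`, `D M → μ_p`. -/
def ecGEval (m : M.carrier) : (dualObj ω M).carrier →+ (muObj ω).carrier where
  toFun φ := MuMod.of ω (DualMod.val ω M φ m)
  map_zero' := rfl
  map_add' _ _ := rfl

lemma ecGEval_apply (m : M.carrier) (φ : (dualObj ω M).carrier) :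
    MuMod.val ω (ecGEval ω M m φ) = DualMod.val ω M φ m := rfl

lemma ecGEval_mem_iff (m : M.carrier) : ecGEval ω M m ∈ homC (dualObj ω M) (muObj ω) ↔
    m ∈ ecGInv M := by
  constructor
  · intro h γ
    by_contra hne
    have hne' : γ • m - m ≠ 0 := sub_ne_zero.2 hne
    obtain ⟨φ, hφ⟩ := ecG_exists_functional M.killed (γ • m - m) hne'
    apply hφ
    rw [map_sub, sub_eq_zero]
    -- apply equivariance to `γ • φ`
    have h1 := h γ⁻¹ (DualMod.of ω M φ)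
    have h2 : ((ω γ⁻¹ : (ZMod p)ˣ) : ZMod p) * φ (γ⁻¹⁻¹ • m)
        = ((ω γ⁻¹ : (ZMod p)ˣ) : ZMod p) * φ m := congrArg (MuMod.val ω) h1
    rw [inv_inv] at h2
    have hu : IsUnit ((ω γ⁻¹ : (ZMod p)ˣ) : ZMod p) := (ω γ⁻¹).isUnit
    exact hu.mul_left_cancel h2
  · intro h γ φ
    apply MuMod.val_injective (ω := ω)
    show ((ω γ : (ZMod p)ˣ) : ZMod p) * DualMod.val ω M φ (γ⁻¹ • m)
      = ((ω γ : (ZMod p)ˣ) : ZMod p) * DualMod.val ω M φ m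
    have : γ⁻¹ • m = m := h γ⁻¹
    rw [this]

/-- `M^Γ ≃ Hom_Γ(D M, μ_p)`. -/
def ecGEvalEquiv : ↥(ecGInv M) ≃ ↥(homC (dualObj ω M) (muObj ω)) :=
  Equiv.ofBijective (fun m => ⟨ecGEval ω M m.1, (ecGEval_mem_iff ω M m.1).2 m.2⟩) (by
    constructor
    · intro m m' h
      apply Subtype.ext
      by_contra hne
      obtain ⟨φ, hφ⟩ := ecG_exists_functional M.killed (m.1 - m'.1) (sub_ne_zero.2 hne)
      apply hφ
      rw [map_sub, sub_eq_zero]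
      have h1 := congrArg (fun e : ↥(homC (dualObj ω M) (muObj ω)) =>
        MuMod.val ω (e.1 (DualMod.of ω M φ))) h
      exact h1
    · intro e
      let e0 : (M.carrier →+ ZMod p) →+ ZMod p :=
        (MuMod.val ω).comp (e.1.comp (DualMod.of ω M))
      obtain ⟨m, hm⟩ := ecG_exists_eval M.killed e0
      have he : ecGEval ω M m = e.1 := by
        refine AddMonoidHom.ext fun φ => ?_
        apply MuMod.val_injective (ω := ω)
        rw [ecGEval_apply]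
        exact (hm (DualMod.val ω M φ)).symm
      have hmem : m ∈ ecGInv M := (ecGEval_mem_iff ω M m).1 (he ▸ e.2)
      exact ⟨⟨m, hmem⟩, Subtype.ext he⟩)

/-- **(G2), generic form**: `⟨D M, μ_p⟩ = log_p #M^Γ`. -/
theorem ecG_pairC_dual_mu :
    pairC (dualObj ω M) (muObj ω) = (Nat.log p (Nat.card ↥(ecGInv M)) : ℤ) := by
  unfold pairC
  rw [Nat.card_congr (ecGEvalEquiv ω M)]

end G2

end Fermat.Agent.S56.EC
end
end MergeWrap_S56_W2_EC_Cyclic_Glue_DD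

section MergeWrap_S56_W2_EC_Sh_H0 -- from S56/W2/EC/Sh/H0.lean

/-!
# S56 / W2 / EC / Sh / H0 : Shapiro's lemma in degree 0 for smooth coinduction (helper48)

* `ecShInv Y` : the invariants of a representation, as a submodule;
* `ecShH0`   : `(coInd r 𝓤 X)^G ≃ X^D`  (SH0), `φ ↦ φ 1`, for any `r : D →* G`.
-/

set_option autoImplicit false

open CategoryTheory groupCohomology

namespace Fermat.Agent.F4

variable {k D G : Type} [CommRing k] [Group D] [Group G]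

/-- The invariants of a representation. -/
def ecShInv {H : Type} [Group H] (Y : Rep.{0} k H) : Submodule k Y where
  carrier := {y | ∀ h : H, Y.ρ h y = y}
  add_mem' := fun ha hb h => by rw [map_add, ha h, hb h]
  zero_mem' := fun h => map_zero _
  smul_mem' := fun c _ ha h => by rw [map_smul, ha h]

lemma mem_ecShInv {H : Type} [Group H] (Y : Rep.{0} k H) (y : Y) :
    y ∈ ecShInv Y ↔ ∀ h : H, Y.ρ h y = y := Iff.rfl

section H0

variable (r : D →* G) (𝓤 : Levels G) (X : Rep.{0} k D)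

lemma ecShEv_mem_inv (φ : ecShInd r 𝓤 X) (hφ : φ ∈ ecShInv (ecShInd r 𝓤 X)) :
    ecShEv r 𝓤 X φ ∈ ecShInv X := fun d => by
  rw [← ecShEv_ρ, hφ (r d)]

lemma ecShFun_of_inv (φ : ecShInd r 𝓤 X) (hφ : φ ∈ ecShInv (ecShInd r 𝓤 X)) (g : G) :
    ecShFun r 𝓤 X φ g = ecShEv r 𝓤 X φ := by
  rw [← ecShEv_ρ_apply, hφ g]

lemma ecSh_const_mem (x : X) (hx : x ∈ ecShInv X) : (fun _ : G => x) ∈ coIndSub r 𝓤 X :=
  ⟨fun d _ => (hx d).symm, isLC₁_const 𝓤 x⟩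

/-- The constant function with an invariant value. -/
def ecShConst (x : X) (hx : x ∈ ecShInv X) : ecShInd r 𝓤 X :=
  ecShMk r 𝓤 X (fun _ => x) (ecSh_const_mem r 𝓤 X x hx)

lemma ecShConst_mem (x : X) (hx : x ∈ ecShInv X) :
    ecShConst r 𝓤 X x hx ∈ ecShInv (ecShInd r 𝓤 X) := fun g =>
  ecShFun_ext fun y => by
    rw [ecShFun_ρ]
    rfl

/-- **(SH0)** `(coInd r 𝓤 X)^G ≃ X^D`. -/
def ecShH0 : ↥(ecShInv (ecShInd r 𝓤 X)) ≃ₗ[k] ↥(ecShInv X) where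
  toFun φ := ⟨ecShEv r 𝓤 X φ.1, ecShEv_mem_inv r 𝓤 X φ.1 φ.2⟩
  map_add' _ _ := rfl
  map_smul' _ _ := rfl
  invFun x := ⟨ecShConst r 𝓤 X x.1 x.2, ecShConst_mem r 𝓤 X x.1 x.2⟩
  left_inv φ := Subtype.ext (ecShFun_ext fun g => by
    show ecShEv r 𝓤 X φ.1 = ecShFun r 𝓤 X φ.1 g
    rw [ecShFun_of_inv r 𝓤 X φ.1 φ.2])
  right_inv _ := rfl

@[simp] lemma ecShH0_apply (φ : ↥(ecShInv (ecShInd r 𝓤 X))) :
    ((ecShH0 r 𝓤 X φ : ↥(ecShInv X)) : X) = ecShEv r 𝓤 X φ.1 := rfl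

lemma ecSh_finrank_inv :
    Module.finrank k ↥(ecShInv (ecShInd r 𝓤 X)) = Module.finrank k ↥(ecShInv X) :=
  (ecShH0 r 𝓤 X).finrank_eq

end H0

end Fermat.Agent.F4
end MergeWrap_S56_W2_EC_Sh_H0

section MergeWrap_S56_W2_EC_Cyclic_Glue_G2 -- from S56/W2/EC/Cyclic/Glue/G2.lean

/-!
# S56 / W2 / EC / Cyclic / Glue / G2 : `h⁰(U, X) = ⟨D X̄, μ_p⟩` (helper48)

`𝒮 : CycSetup p S`, `X` a finite `𝔽_p[U]`-module with trivial action of `W`,
`X̄ = 𝒮.obj X hfin htriv`.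

* `ecGInvEquiv` : `X̄^Γ ≃ X^U`;
* `ecG2_h0` : **(G2)** `dim X^U = ⟨D X̄, μ_p⟩`.
-/

set_option autoImplicit false
set_option linter.unusedSectionVars false
set_option linter.style.haveILetI false

noncomputable section

namespace Fermat.Agent.S56.EC

open Fermat.Agent.F4 ExtCitation

variable {p : ℕ} [Fact p.Prime] {S : Finset Nat.Primes} (𝒮 : CycSetup p S)
  (X : Rep.{0} (ZMod p) ↥𝒮.U) (hfin : Module.Finite (ZMod p) X)
  (htriv : ∀ (u : ↥𝒮.U), (u : GQ) ∈ 𝒮.W → ∀ x : X, X.ρ u x = x)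

/-- A finite-dimensional `𝔽_p`-vector space is finite. -/
lemma ecG_finite_of_moduleFinite (V : Type) [AddCommGroup V] [Module (ZMod p) V]
    (h : Module.Finite (ZMod p) V) : Finite V := by
  haveI := h
  exact Module.finite_of_finite (ZMod p)

/-- `X̄^Γ ≃ X^U`. -/
def ecGInvEquiv : ↥(ecGInv (𝒮.obj X hfin htriv)) ≃ ↥(ecShInv X) where
  toFun m := ⟨𝒮.objVal X hfin htriv m.1, fun u => by
    rw [← 𝒮.objVal_smul X hfin htriv u m.1, m.2 (𝒮.proj u)]⟩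
  invFun x := ⟨𝒮.objOf X hfin htriv x.1, fun γ => by
    obtain ⟨u, rfl⟩ := 𝒮.proj_surjective γ
    have h1 : 𝒮.objVal X hfin htriv ((𝒮.proj u) • 𝒮.objOf X hfin htriv x.1) =
        𝒮.objVal X hfin htriv (𝒮.objOf X hfin htriv x.1) := by
      rw [𝒮.objVal_smul X hfin htriv u, 𝒮.objVal_objOf]
      exact x.2 u
    have h2 := congrArg (𝒮.objOf X hfin htriv) h1
    rwa [𝒮.objOf_objVal, 𝒮.objOf_objVal] at h2⟩
  left_inv _ := rfl
  right_inv _ := rfl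

/-- **(G2)** `h⁰(U, X) = ⟨D X̄, μ_p⟩`. -/
theorem ecG2_h0 :
    (Module.finrank (ZMod p) ↥(ecShInv X) : ℤ) =
      pairC (dualObj 𝒮.ω (𝒮.obj X hfin htriv)) (muObj 𝒮.ω) := by
  haveI : Finite X := ecG_finite_of_moduleFinite X hfin
  haveI : Finite ↥(ecShInv X) := inferInstance
  rw [ecG_pairC_dual_mu, Nat.card_congr (ecGInvEquiv 𝒮 X hfin htriv), ecG_log_card]

end Fermat.Agent.S56.EC
end
end MergeWrap_S56_W2_EC_Cyclic_Glue_G2

section MergeWrap_S56_W2_EC_Sh_InfRes -- from S56/W2/EC/Sh/InfRes.lean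

/-!
# S56 / W2 / EC / Sh / InfRes : inflation–restriction for a quotient of invertible order (helper48)

`H` a group with a level structure `𝓥`, `N ≤ H` a normal subgroup of finite index `m`, open for
`𝓥`, with `m` invertible in `k`; `X` a `k[H]`-module on which `N` acts trivially.  Then
restriction to `N` is an isomorphism

  `H¹_sm(H, X) ≃ Hom_sm(N, X)^H`          (SHS)

onto the smooth homomorphisms `f : N → X` with `f (h n h⁻¹) = h • f n`.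

* `ecShHomInv 𝓥 N X` : the target, a submodule of `N → X`;
* `ecShCor` : the corestriction `f ↦ (h ↦ ∑ₓ s(x) • f (w(x, h)))`;
* `ecShInfRes` : the isomorphism.
-/

set_option autoImplicit false
set_option linter.unusedSectionVars false

open CategoryTheory groupCohomology

namespace Fermat.Agent.F4

variable {k H : Type} [CommRing k] [Group H]

section Target

variable (𝓥 : Levels H) (N : Subgroup H) [hN : N.Normal] (X : Rep.{0} k H)

/-- The smooth `H`-invariant homomorphisms `N → X`. -/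
def ecShHomInv : Submodule k (N → X) where
  carrier := {f | (∀ n n' : N, f (n * n') = f n + f n') ∧
    (∀ (h : H) (n : N), f ⟨h * n * h⁻¹, hN.conj_mem n n.2 h⟩ = X.ρ h (f n)) ∧
    ∃ V ∈ 𝓥.sets, ∀ n : N, (n : H) ∈ V → f n = 0}
  add_mem' := by
    rintro f f' ⟨h1, h2, V, hV, h3⟩ ⟨h1', h2', V', hV', h3'⟩
    refine ⟨fun n n' => ?_, fun h n => ?_, ?_⟩
    · simp only [Pi.add_apply, h1, h1']
      abel
    · simp only [Pi.add_apply, h2, h2', map_add]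
    · obtain ⟨W, hW, hWle⟩ := 𝓥.directed V hV V' hV'
      refine ⟨W, hW, fun n hn => ?_⟩
      simp only [Pi.add_apply, h3 n (hWle hn).1, h3' n (hWle hn).2, add_zero]
  zero_mem' := by
    obtain ⟨V, hV⟩ := 𝓥.nonempty
    exact ⟨fun _ _ => by simp, fun _ _ => by simp, V, hV, fun _ _ => rfl⟩
  smul_mem' := by
    rintro c f ⟨h1, h2, V, hV, h3⟩
    refine ⟨fun n n' => ?_, fun h n => ?_, V, hV, fun n hn => ?_⟩
    · simp only [Pi.smul_apply, h1, smul_add]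
    · simp only [Pi.smul_apply, h2, map_smul]
    · simp only [Pi.smul_apply, h3 n hn, smul_zero]

lemma mem_ecShHomInv_iff (f : N → X) :
    f ∈ ecShHomInv 𝓥 N X ↔ (∀ n n' : N, f (n * n') = f n + f n') ∧
      (∀ (h : H) (n : N), f ⟨h * n * h⁻¹, hN.conj_mem n n.2 h⟩ = X.ρ h (f n)) ∧
      ∃ V ∈ 𝓥.sets, ∀ n : N, (n : H) ∈ V → f n = 0 := Iff.rfl

end Target

section Res

variable (𝓥 : Levels H) (N : Subgroup H) [hN : N.Normal] (X : Rep.{0} k H)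
  (htriv : ∀ n ∈ N, ∀ x : X, X.ρ n x = x)

include htriv in
lemma ecShRes_mem (z : H → X) (hz : z ∈ Z1 𝓥 X) :
    (fun n : N => z (n : H)) ∈ ecShHomInv 𝓥 N X := by
  obtain ⟨h1, V, hV, h2⟩ := (ecSh_mem_Z1_iff 𝓥 X z).1 hz
  have hz1 : z 1 = 0 := by
    have := h1 1 1
    rw [mul_one, map_one, Module.End.one_apply] at this
    exact left_eq_add.1 this
  refine ⟨fun n n' => ?_, fun h n => ?_, V, hV, fun n hn => ?_⟩
  · show z ((n : H) * (n' : H)) = z n + z n'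
    rw [h1, htriv n n.2, add_comm]
  · show z (h * n * h⁻¹) = X.ρ h (z n)
    have h3 : X.ρ h (z h⁻¹) + z h = 0 := by
      rw [← h1, mul_inv_cancel, hz1]
    rw [h1, h1, map_mul, Module.End.mul_apply, htriv n n.2, eq_neg_of_add_eq_zero_left h3]
    abel
  · have := h2 1 n hn
    rw [one_mul, hz1] at this
    exact this

/-- Restriction of smooth 1-cocycles to `N`. -/
def ecShResZ1 : ↥(Z1 𝓥 X) →ₗ[k] ↥(ecShHomInv 𝓥 N X) where
  toFun z := ⟨fun n : N => z.1 (n : H), ecShRes_mem 𝓥 N X htriv z.1 z.2⟩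
  map_add' _ _ := rfl
  map_smul' _ _ := rfl

@[simp] lemma ecShResZ1_coe (z : ↥(Z1 𝓥 X)) (n : N) :
    ((ecShResZ1 𝓥 N X htriv z : ↥(ecShHomInv 𝓥 N X)) : N → X) n = z.1 (n : H) := rfl

/-- Restriction `H¹_sm(H, X) → Hom_sm(N, X)^H`. -/
def ecShResH1 : H1sm 𝓥 X →ₗ[k] ↥(ecShHomInv 𝓥 N X) :=
  Submodule.liftQ _ (ecShResZ1 𝓥 N X htriv) (by
    rintro z hz
    rw [Submodule.mem_comap, Submodule.subtype_apply] at hz
    obtain ⟨x, hx⟩ := (ecSh_mem_B1_iff X _).1 hz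
    rw [LinearMap.mem_ker]
    refine Subtype.ext (funext fun n => ?_)
    rw [ecShResZ1_coe, ← hx, δ0_apply, htriv n n.2, sub_self]
    rfl)

@[simp] lemma ecShResH1_mk (z : ↥(Z1 𝓥 X)) :
    ecShResH1 𝓥 N X htriv (H1smπ 𝓥 X z) = ecShResZ1 𝓥 N X htriv z := rfl

end Res

section Inj

variable (𝓥 : Levels H) (N : Subgroup H) [hN : N.Normal] (X : Rep.{0} k H)
  (htriv : ∀ n ∈ N, ∀ x : X, X.ρ n x = x) [Fintype (H ⧸ N)]

include htriv in
/-- A cocycle vanishing on `N` is constant on the cosets of `N`. -/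
lemma ecSh_const_coset (z : H → X) (h1 : ∀ g h : H, z (g * h) = X.ρ g (z h) + z g)
    (h0 : ∀ n : N, z n = 0) (h : H) (x : H ⧸ N) :
    z (h * shSec N x) = z (shSec N (h • x)) := by
  have hmem : (shSec N (h • x))⁻¹ * (h * shSec N x) ∈ N := by
    rw [← QuotientGroup.eq, mk_shSec, mk_mul_shSec]
  have : h * shSec N x = shSec N (h • x) * ((shSec N (h • x))⁻¹ * (h * shSec N x)) := by group
  rw [this, h1, h0 ⟨_, hmem⟩, map_zero, zero_add]

include htriv in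
/-- **Injectivity of restriction** when `[H : N]` is invertible in `k`. -/
theorem ecShResH1_injective (m' : k) (hm : (Fintype.card (H ⧸ N) : k) * m' = 1) :
    Function.Injective (ecShResH1 𝓥 N X htriv) := by
  rw [injective_iff_map_eq_zero]
  intro c hc
  obtain ⟨z, rfl⟩ := ecSh_H1smπ_surjective 𝓥 X c
  rw [ecShResH1_mk] at hc
  have h0 : ∀ n : N, z.1 (n : H) = 0 := fun n => congrFun (congrArg Subtype.val hc) n
  obtain ⟨h1, -⟩ := (ecSh_mem_Z1_iff 𝓥 X z.1).1 z.2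
  rw [ecSh_H1smπ_eq_zero_iff]
  refine ⟨-(m' • ∑ x : H ⧸ N, z.1 (shSec N x)), ?_⟩
  funext h
  rw [δ0_apply, map_neg, map_smul, map_sum]
  have hsum : ∑ x : H ⧸ N, X.ρ h (z.1 (shSec N x))
      = ∑ x : H ⧸ N, z.1 (shSec N x) - (Fintype.card (H ⧸ N) : k) • z.1 h := by
    have e1 : ∀ x : H ⧸ N, X.ρ h (z.1 (shSec N x)) = z.1 (shSec N (h • x)) - z.1 h := by
      intro x
      rw [← ecSh_const_coset N X htriv z.1 h1 h0 h x, h1]
      abel
    rw [Finset.sum_congr rfl fun x _ => e1 x, Finset.sum_sub_distrib, Finset.sum_const,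
      Finset.card_univ, ← Nat.cast_smul_eq_nsmul k]
    congr 1
    exact Fintype.sum_equiv (MulAction.toPerm h) _ _ fun x => rfl
  rw [hsum, smul_sub, smul_smul, mul_comm, hm, one_smul]
  abel

end Inj

section Cor

variable (𝓥 : Levels H) (N : Subgroup H) [hN : N.Normal] (X : Rep.{0} k H)
  (htriv : ∀ n ∈ N, ∀ x : X, X.ρ n x = x) [Fintype (H ⧸ N)]

/-- The corestriction of a function on `N`: `h ↦ ∑ₓ s(x) • f (w(x, h))`. -/
noncomputable def ecShCor (f : N → X) (h : H) : X :=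
  ∑ x : H ⧸ N, X.ρ (shSec N x) (f (shW N x h))

include htriv in
lemma ecShCor_mul (f : N → X) (hf : ∀ n n' : N, f (n * n') = f n + f n') (g h : H) :
    ecShCor N X f (g * h) = X.ρ g (ecShCor N X f h) + ecShCor N X f g := by
  unfold ecShCor
  rw [map_sum, add_comm, ← Finset.sum_add_distrib]
  have e1 : ∀ x : H ⧸ N, X.ρ (shSec N x) (f (shW N x (g * h)))
      = X.ρ (shSec N x) (f (shW N x g)) + X.ρ g (X.ρ (shSec N (g⁻¹ • x)) (f (shW N (g⁻¹ • x) h))) := by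
    intro x
    rw [shW_mul, hf, map_add]
    congr 1
    rw [← Module.End.mul_apply, ← map_mul, ← shSec_mul_shW, map_mul, Module.End.mul_apply,
      htriv _ (shW N x g).2]
  rw [Finset.sum_congr rfl fun x _ => e1 x, Finset.sum_add_distrib, Finset.sum_add_distrib]
  congr 1
  exact Fintype.sum_equiv (MulAction.toPerm g⁻¹) _ _ fun x => rfl

lemma ecSh_inv_smul_of_mem (n : N) (x : H ⧸ N) : (n : H)⁻¹ • x = x :=
  smul_eq_of_mem_normal N hN le_rfl (N.inv_mem n.2) x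

lemma ecShCor_res (f : N → X)
    (hinv : ∀ (h : H) (n : N), f ⟨h * n * h⁻¹, hN.conj_mem n n.2 h⟩ = X.ρ h (f n)) (n : N) :
    ecShCor N X f (n : H) = (Fintype.card (H ⧸ N) : k) • f n := by
  unfold ecShCor
  have e1 : ∀ x : H ⧸ N, X.ρ (shSec N x) (f (shW N x n)) = f n := by
    intro x
    have h2 : shW N x (n : H) = ⟨(shSec N x)⁻¹ * n * ((shSec N x)⁻¹)⁻¹,
        hN.conj_mem n n.2 (shSec N x)⁻¹⟩ := by
      apply Subtype.ext
      show (shSec N x)⁻¹ * n * shSec N ((n : H)⁻¹ • x) = (shSec N x)⁻¹ * n * ((shSec N x)⁻¹)⁻¹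
      rw [ecSh_inv_smul_of_mem N n x, inv_inv]
    rw [h2, hinv, ← Module.End.mul_apply, ← map_mul, mul_inv_cancel, map_one,
      Module.End.one_apply]
  rw [Finset.sum_congr rfl fun x _ => e1 x, Finset.sum_const, Finset.card_univ,
    Nat.cast_smul_eq_nsmul]

include htriv in
lemma ecShCor_mem (hNo : ∃ V₀ ∈ 𝓥.sets, V₀ ≤ N) (f : N → X) (hf : f ∈ ecShHomInv 𝓥 N X) :
    ecShCor N X f ∈ Z1 𝓥 X := by
  obtain ⟨h1, h2, V, hV, h3⟩ := hf
  refine (ecSh_mem_Z1_iff 𝓥 X _).2 ⟨ecShCor_mul N X htriv f h1, ?_⟩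
  obtain ⟨V₀, hV₀, hV₀N⟩ := hNo
  obtain ⟨V', hV', hle⟩ := 𝓥.directed V₀ hV₀ V hV
  refine ⟨V', hV', fun g s hs => ?_⟩
  rw [ecShCor_mul N X htriv f h1, ecShCor_res N X f h2 ⟨s, hV₀N (hle hs).1⟩,
    h3 ⟨s, hV₀N (hle hs).1⟩ (hle hs).2, smul_zero, map_zero, zero_add]

include htriv in
/-- **Surjectivity of restriction** when `[H : N]` is invertible in `k`. -/
theorem ecShResH1_surjective (hNo : ∃ V₀ ∈ 𝓥.sets, V₀ ≤ N) (m' : k)
    (hm : (Fintype.card (H ⧸ N) : k) * m' = 1) :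
    Function.Surjective (ecShResH1 𝓥 N X htriv) := by
  intro f
  have hmem : m' • ecShCor N X f.1 ∈ Z1 𝓥 X :=
    (Z1 𝓥 X).smul_mem m' (ecShCor_mem 𝓥 N X htriv hNo f.1 f.2)
  refine ⟨H1smπ 𝓥 X ⟨_, hmem⟩, ?_⟩
  rw [ecShResH1_mk]
  refine Subtype.ext (funext fun n => ?_)
  rw [ecShResZ1_coe]
  show m' • ecShCor N X f.1 (n : H) = f.1 n
  rw [ecShCor_res N X f.1 f.2.2.1 n, smul_smul, mul_comm, hm, one_smul]

/-- **(SHS) inflation–restriction**: `H¹_sm(H, X) ≃ Hom_sm(N, X)^H` for `[H : N]` invertible. -/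
noncomputable def ecShInfRes (hNo : ∃ V₀ ∈ 𝓥.sets, V₀ ≤ N) (m' : k)
    (hm : (Fintype.card (H ⧸ N) : k) * m' = 1) :
    H1sm 𝓥 X ≃ₗ[k] ↥(ecShHomInv 𝓥 N X) :=
  LinearEquiv.ofBijective (ecShResH1 𝓥 N X htriv)
    ⟨ecShResH1_injective 𝓥 N X htriv m' hm, ecShResH1_surjective 𝓥 N X htriv hNo m' hm⟩

@[simp] lemma ecShInfRes_mk (hNo : ∃ V₀ ∈ 𝓥.sets, V₀ ≤ N) (m' : k)
    (hm : (Fintype.card (H ⧸ N) : k) * m' = 1) (z : ↥(Z1 𝓥 X)) (n : N) :
    ((ecShInfRes 𝓥 N X htriv hNo m' hm (H1smπ 𝓥 X z) : ↥(ecShHomInv 𝓥 N X)) : N → X) n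
      = z.1 (n : H) := rfl

end Cor

end Fermat.Agent.F4

namespace Fermat.Agent.F4

/-- (SHS) over `𝔽_p`, in the form used by the cyclic case: `N` open normal of index prime to
`p`, acting trivially on `X`. -/
noncomputable def ecShInfResZMod {p : ℕ} [Fact p.Prime] {H : Type} [Group H] (𝓥 : Levels H)
    (N : Subgroup H) [N.Normal] (X : Rep.{0} (ZMod p) H)
    (htriv : ∀ n ∈ N, ∀ x : X, X.ρ n x = x) (hNo : ∃ V₀ ∈ 𝓥.sets, V₀ ≤ N)
    (hp : ¬ p ∣ N.index) :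
    H1sm 𝓥 X ≃ₗ[ZMod p] ↥(ecShHomInv 𝓥 N X) := by
  have hfi : N.FiniteIndex := by
    obtain ⟨V₀, hV₀, hle⟩ := hNo
    have := 𝓥.finiteIndex V₀ hV₀
    exact Subgroup.finiteIndex_of_le hle
  have : Finite (H ⧸ N) := Subgroup.finite_quotient_of_finiteIndex
  letI : Fintype (H ⧸ N) := Fintype.ofFinite _
  have hcard : Fintype.card (H ⧸ N) = N.index := by
    rw [Subgroup.index_eq_card, Nat.card_eq_fintype_card]
  have hne : ((Fintype.card (H ⧸ N) : ℕ) : ZMod p) ≠ 0 := by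
    rw [hcard, Ne, ZMod.natCast_eq_zero_iff]
    exact hp
  exact ecShInfRes 𝓥 N X htriv hNo ((Fintype.card (H ⧸ N) : ZMod p))⁻¹ (mul_inv_cancel₀ hne)

lemma ecShInfResZMod_mk {p : ℕ} [Fact p.Prime] {H : Type} [Group H] (𝓥 : Levels H)
    (N : Subgroup H) [N.Normal] (X : Rep.{0} (ZMod p) H)
    (htriv : ∀ n ∈ N, ∀ x : X, X.ρ n x = x) (hNo : ∃ V₀ ∈ 𝓥.sets, V₀ ≤ N)
    (hp : ¬ p ∣ N.index) (z : ↥(Z1 𝓥 X)) (n : N) :
    ((ecShInfResZMod 𝓥 N X htriv hNo hp (H1smπ 𝓥 X z) : ↥(ecShHomInv 𝓥 N X)) : N → X) n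
      = z.1 (n : H) := rfl

end Fermat.Agent.F4
end MergeWrap_S56_W2_EC_Sh_InfRes

section MergeWrap_S56_W2_EC_Cyclic_Glue_G1 -- from S56/W2/EC/Cyclic/Glue/G1.lean

/-!
# S56 / W2 / EC / Cyclic / Glue / G1 : `h¹(U, X) = ⟨D X̄, Hμ⟩` (helper48)

`𝒮 : CycSetup p S`, `X` a finite `𝔽_p[U]`-module with trivial action of `W`,
`X̄ = 𝒮.obj X hfin htriv`.  Universal form: for **any** finite `𝔽_p[Γ]`-module `Hobj` presented as
`ν : Hobj → (W → μ_p)`, injective, with image the smooth characters `cyHomW S W`, equivariant for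
the twisted conjugation `cyConj`,

  `dim H¹_sm(U, X) = ⟨D X̄, Hobj⟩`        (`ecG1_h1`).

Proof: inflation–restriction `H¹_sm(U, X) ≃ Hom_sm(N, X)^U` (`ecShInfResZMod`) and double duality
`Hom_sm(N, X)^U ≃ Hom_Γ(D X̄, Hom_sm(W, μ_p))`, `f ↦ (φ ↦ φ ∘ f)`.
-/

set_option autoImplicit false
set_option linter.unusedSectionVars false
set_option linter.style.haveILetI false

noncomputable section

namespace Fermat.Agent.S56.EC

open Fermat.Agent.F4 ExtCitation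

variable {p : ℕ} [Fact p.Prime] {S : Finset Nat.Primes} (𝒮 : CycSetup p S)
  (X : Rep.{0} (ZMod p) ↥𝒮.U) (hfin : Module.Finite (ZMod p) X)
  (htriv : ∀ (u : ↥𝒮.U), (u : GQ) ∈ 𝒮.W → ∀ x : X, X.ρ u x = x)

/-- `ZMod p → μ_p`. -/
def ecG1In : ZMod p →+ Fp1 p := AddMonoidHom.id _

/-- `μ_p → ZMod p`. -/
def ecG1Out : Fp1 p →+ ZMod p := AddMonoidHom.id _

lemma ecG1Out_in (x : ZMod p) : ecG1Out (ecG1In x) = x := rfl

lemma ecG1In_out (x : Fp1 p) : ecG1In (ecG1Out x) = x := rfl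

lemma ecG1In_injective : Function.Injective (ecG1In (p := p)) := fun _ _ h => h

lemma ecG1Out_injective : Function.Injective (ecG1Out (p := p)) := fun _ _ h => h

lemma ecG1Out_ρ (g : GQ) (m : Fp1 p) :
    ecG1Out ((Fp1 p).ρ g m) = ((cycloChar p g : (ZMod p)ˣ) : ZMod p) * ecG1Out m := rfl

section Acc

variable {Γ : Type} [Group Γ] (ω : Γ →* (ZMod p)ˣ) (M : FinCMod p Γ)

/-- The underlying character of an element of `D M`. -/
def ecGDVal : (dualObj ω M).carrier →+ (M.carrier →+ ZMod p) := DualMod.val ω M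

/-- A character as an element of `D M`. -/
def ecGDOf : (M.carrier →+ ZMod p) →+ (dualObj ω M).carrier := DualMod.of ω M

lemma ecGDVal_of (φ : M.carrier →+ ZMod p) : ecGDVal ω M (ecGDOf ω M φ) = φ := rfl

lemma ecGDOf_val (φ : (dualObj ω M).carrier) : ecGDOf ω M (ecGDVal ω M φ) = φ := rfl

lemma ecGDVal_smul (γ : Γ) (φ : (dualObj ω M).carrier) (m : M.carrier) :
    ecGDVal ω M (γ • φ) m = ((ω γ : (ZMod p)ˣ) : ZMod p) * ecGDVal ω M φ (γ⁻¹ • m) := rfl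

end Acc

/-- The levels of `U`. -/
abbrev ecG1Lev : Levels ↥𝒮.U := (levelsS S).comap 𝒮.U.subtype

/-- `W → N`. -/
def ecG1toN (w : ↥𝒮.W) : ↥𝒮.N := ⟨⟨(w : GQ), 𝒮.hWU w.2⟩, (𝒮.mem_N _).2 w.2⟩

lemma ecG1toN_coe (w : ↥𝒮.W) : (((ecG1toN 𝒮 w : ↥𝒮.N) : ↥𝒮.U) : GQ) = (w : GQ) := rfl

lemma ecG1toN_mul (w w' : ↥𝒮.W) : ecG1toN 𝒮 (w * w') = ecG1toN 𝒮 w * ecG1toN 𝒮 w' := rfl

/-- `N → W`. -/
def ecG1toW (n : ↥𝒮.N) : ↥𝒮.W := ⟨((n : ↥𝒮.U) : GQ), (𝒮.mem_N _).1 n.2⟩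

lemma ecG1toN_toW (n : ↥𝒮.N) : ecG1toN 𝒮 (ecG1toW 𝒮 n) = n := rfl

lemma ecG1toW_toN (w : ↥𝒮.W) : ecG1toW 𝒮 (ecG1toN 𝒮 w) = w := rfl

lemma ecG1toW_mul (n n' : ↥𝒮.N) : ecG1toW 𝒮 (n * n') = ecG1toW 𝒮 n * ecG1toW 𝒮 n' := rfl

/-- The character `w ↦ φ (f w)`. -/
def ecG1Chi (f : ↥𝒮.N → X) (φ : (dualObj 𝒮.ω (𝒮.obj X hfin htriv)).carrier) : ↥𝒮.W → Fp1 p :=
  fun w => ecG1In (ecGDVal 𝒮.ω (𝒮.obj X hfin htriv) φ
    (𝒮.objOf X hfin htriv (f (ecG1toN 𝒮 w))))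

lemma ecG1Chi_apply (f : ↥𝒮.N → X) (φ : (dualObj 𝒮.ω (𝒮.obj X hfin htriv)).carrier) (w : ↥𝒮.W) :
    ecG1Chi 𝒮 X hfin htriv f φ w = ecG1In (ecGDVal 𝒮.ω (𝒮.obj X hfin htriv) φ
      (𝒮.objOf X hfin htriv (f (ecG1toN 𝒮 w)))) := rfl

lemma ecG1Chi_add (f : ↥𝒮.N → X) (φ ψ : (dualObj 𝒮.ω (𝒮.obj X hfin htriv)).carrier) :
    ecG1Chi 𝒮 X hfin htriv f (φ + ψ) =
      ecG1Chi 𝒮 X hfin htriv f φ + ecG1Chi 𝒮 X hfin htriv f ψ := by
  funext w
  rw [Pi.add_apply, ecG1Chi_apply, ecG1Chi_apply, ecG1Chi_apply, map_add, AddMonoidHom.add_apply,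
    map_add]

lemma ecG1Chi_zero (f : ↥𝒮.N → X) :
    ecG1Chi 𝒮 X hfin htriv f 0 = 0 := by
  funext w
  rw [Pi.zero_apply, ecG1Chi_apply, map_zero, AddMonoidHom.zero_apply, map_zero]

lemma ecG1Chi_mem (f : ↥𝒮.N → X) (hf : f ∈ ecShHomInv (ecG1Lev 𝒮) 𝒮.N X)
    (φ : (dualObj 𝒮.ω (𝒮.obj X hfin htriv)).carrier) :
    ecG1Chi 𝒮 X hfin htriv f φ ∈ cyHomW S 𝒮.W := by
  obtain ⟨h1, -, V', ⟨V, hV, rfl⟩, h3⟩ := hf
  refine ⟨fun w w' => ?_, V, hV, fun w hw => ?_⟩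
  · rw [ecG1Chi_apply, ecG1Chi_apply, ecG1Chi_apply, ecG1toN_mul, h1, map_add, map_add, map_add]
  · have hw' : ((ecG1toN 𝒮 w : ↥𝒮.N) : ↥𝒮.U) ∈ V.comap 𝒮.U.subtype := hw
    rw [ecG1Chi_apply, h3 _ hw', map_zero, map_zero, map_zero]

lemma ecG1_smul_objOf (u : ↥𝒮.U) (x : X) :
    (𝒮.proj u) • 𝒮.objOf X hfin htriv x = 𝒮.objOf X hfin htriv (X.ρ u x) := rfl

lemma ecG1Chi_smul (f : ↥𝒮.N → X) (hf : f ∈ ecShHomInv (ecG1Lev 𝒮) 𝒮.N X) (u : ↥𝒮.U)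
    (φ : (dualObj 𝒮.ω (𝒮.obj X hfin htriv)).carrier) :
    ecG1Chi 𝒮 X hfin htriv f ((𝒮.proj u) • φ) =
      cyConj 𝒮.W 𝒮.normal_W (u : GQ) (ecG1Chi 𝒮 X hfin htriv f φ) := by
  funext w
  have hmem : (u : GQ)⁻¹ * (w : GQ) * (u : GQ) ∈ 𝒮.W := by
    have := 𝒮.normal_W.conj_mem w w.2 (u : GQ)⁻¹
    rwa [inv_inv] at this
  rw [cyConj_apply 𝒮.W 𝒮.normal_W (u : GQ) _ w hmem, ecG1Chi_apply, ecG1Chi_apply,
    ecGDVal_smul, ← map_inv, ecG1_smul_objOf]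
  have h2 := hf.2.1 u⁻¹ (ecG1toN 𝒮 w)
  have h3 : (⟨u⁻¹ * ((ecG1toN 𝒮 w : ↥𝒮.N) : ↥𝒮.U) * u⁻¹⁻¹,
      𝒮.normal_N.conj_mem (ecG1toN 𝒮 w) (ecG1toN 𝒮 w).2 u⁻¹⟩ : ↥𝒮.N) =
      ecG1toN 𝒮 ⟨(u : GQ)⁻¹ * (w : GQ) * (u : GQ), hmem⟩ := by
    apply Subtype.ext
    apply Subtype.ext
    show ((u⁻¹ * ((ecG1toN 𝒮 w : ↥𝒮.N) : ↥𝒮.U) * u⁻¹⁻¹ : ↥𝒮.U) : GQ) = _
    rw [inv_inv]
    rfl
  rw [h3] at h2
  rw [← h2]
  rfl

section Pres

variable (Hobj : FinCMod p 𝒮.Γ) (ν : Hobj.carrier →+ (↥𝒮.W → Fp1 p))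
  (hν : Function.Injective ν)
  (hr : ∀ χ : ↥𝒮.W → Fp1 p, (∃ h, ν h = χ) ↔ χ ∈ cyHomW S 𝒮.W)
  (he : ∀ (u : ↥𝒮.U) (h : Hobj.carrier),
    ν (𝒮.proj u • h) = cyConj 𝒮.W 𝒮.normal_W (u : GQ) (ν h))

/-- The element of `Hobj` with character `w ↦ φ (f w)`. -/
def ecG1Pre (f : ↥(ecShHomInv (ecG1Lev 𝒮) 𝒮.N X))
    (φ : (dualObj 𝒮.ω (𝒮.obj X hfin htriv)).carrier) : Hobj.carrier :=
  ((hr _).2 (ecG1Chi_mem 𝒮 X hfin htriv f.1 f.2 φ)).choose

lemma ecG1Pre_spec (f : ↥(ecShHomInv (ecG1Lev 𝒮) 𝒮.N X))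
    (φ : (dualObj 𝒮.ω (𝒮.obj X hfin htriv)).carrier) :
    ν (ecG1Pre 𝒮 X hfin htriv Hobj ν hr f φ) = ecG1Chi 𝒮 X hfin htriv f.1 φ :=
  ((hr _).2 (ecG1Chi_mem 𝒮 X hfin htriv f.1 f.2 φ)).choose_spec

include hν in
/-- `f ↦ (φ ↦ φ ∘ f)`, as an additive map `D X̄ → Hobj`. -/
def ecG1Hom (f : ↥(ecShHomInv (ecG1Lev 𝒮) 𝒮.N X)) :
    (dualObj 𝒮.ω (𝒮.obj X hfin htriv)).carrier →+ Hobj.carrier where
  toFun φ := ecG1Pre 𝒮 X hfin htriv Hobj ν hr f φ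
  map_zero' := hν (by rw [ecG1Pre_spec, map_zero, ecG1Chi_zero])
  map_add' φ ψ := hν (by rw [ecG1Pre_spec, map_add, ecG1Pre_spec, ecG1Pre_spec, ecG1Chi_add])

lemma ecG1Hom_spec (f : ↥(ecShHomInv (ecG1Lev 𝒮) 𝒮.N X))
    (φ : (dualObj 𝒮.ω (𝒮.obj X hfin htriv)).carrier) :
    ν (ecG1Hom 𝒮 X hfin htriv Hobj ν hν hr f φ) = ecG1Chi 𝒮 X hfin htriv f.1 φ :=
  ecG1Pre_spec 𝒮 X hfin htriv Hobj ν hr f φ

include he in
lemma ecG1Hom_mem (f : ↥(ecShHomInv (ecG1Lev 𝒮) 𝒮.N X)) :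
    ecG1Hom 𝒮 X hfin htriv Hobj ν hν hr f ∈ homC (dualObj 𝒮.ω (𝒮.obj X hfin htriv)) Hobj := by
  intro γ φ
  obtain ⟨u, rfl⟩ := 𝒮.proj_surjective γ
  apply hν
  rw [he, ecG1Hom_spec, ecG1Hom_spec, ecG1Chi_smul 𝒮 X hfin htriv f.1 f.2]

/-- `Hom_sm(N, X)^U → Hom_Γ(D X̄, Hobj)`. -/
def ecG1Map (f : ↥(ecShHomInv (ecG1Lev 𝒮) 𝒮.N X)) :
    ↥(homC (dualObj 𝒮.ω (𝒮.obj X hfin htriv)) Hobj) :=
  ⟨ecG1Hom 𝒮 X hfin htriv Hobj ν hν hr f, ecG1Hom_mem 𝒮 X hfin htriv Hobj ν hν hr he f⟩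

lemma ecG1Map_spec (f : ↥(ecShHomInv (ecG1Lev 𝒮) 𝒮.N X))
    (φ : (dualObj 𝒮.ω (𝒮.obj X hfin htriv)).carrier) (w : ↥𝒮.W) :
    ν ((ecG1Map 𝒮 X hfin htriv Hobj ν hν hr he f).1 φ) w =
      ecG1In (ecGDVal 𝒮.ω (𝒮.obj X hfin htriv) φ
        (𝒮.objOf X hfin htriv (f.1 (ecG1toN 𝒮 w)))) :=
  congrFun (ecG1Hom_spec 𝒮 X hfin htriv Hobj ν hν hr f φ) w

lemma ecG1Map_injective : Function.Injective (ecG1Map 𝒮 X hfin htriv Hobj ν hν hr he) := by
  intro f f' h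
  apply Subtype.ext
  funext n
  have h0 : ∀ x y : X, 𝒮.objOf X hfin htriv x = 𝒮.objOf X hfin htriv y → x = y := fun x y hxy => by
    have := congrArg (𝒮.objVal X hfin htriv) hxy
    rwa [𝒮.objVal_objOf, 𝒮.objVal_objOf] at this
  apply h0
  refine ecG_eq_of_forall (𝒮.obj X hfin htriv).killed fun φ => ?_
  have h1 := ecG1Map_spec 𝒮 X hfin htriv Hobj ν hν hr he f
    (ecGDOf 𝒮.ω (𝒮.obj X hfin htriv) φ) (ecG1toW 𝒮 n)
  have h2 := ecG1Map_spec 𝒮 X hfin htriv Hobj ν hν hr he f'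
    (ecGDOf 𝒮.ω (𝒮.obj X hfin htriv) φ) (ecG1toW 𝒮 n)
  rw [h] at h1
  rw [h1] at h2
  exact ecG1In_injective h2

include hν hr he in
lemma ecG1Map_surjective : Function.Surjective (ecG1Map 𝒮 X hfin htriv Hobj ν hν hr he) := by
  intro F
  -- the family of characters
  let G : ((𝒮.obj X hfin htriv).carrier →+ ZMod p) →+ (↥𝒮.W → ZMod p) :=
    ((AddMonoidHom.compLeft (ecG1Out (p := p)) ↥𝒮.W).comp (ν.comp F.1)).comp
      (ecGDOf 𝒮.ω (𝒮.obj X hfin htriv))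
  obtain ⟨f₀, hf₀⟩ := ecG_exists_repr (𝒮.obj X hfin htriv).killed G
  have hG : ∀ (φ : (𝒮.obj X hfin htriv).carrier →+ ZMod p) (w : ↥𝒮.W),
      ecG1Out (ν (F.1 (ecGDOf 𝒮.ω (𝒮.obj X hfin htriv) φ)) w) = φ (f₀ w) := hf₀
  have hcy : ∀ φ : (𝒮.obj X hfin htriv).carrier →+ ZMod p,
      ν (F.1 (ecGDOf 𝒮.ω (𝒮.obj X hfin htriv) φ)) ∈ cyHomW S 𝒮.W :=
    fun φ => (hr _).1 ⟨_, rfl⟩
  -- additivity
  have hadd : ∀ w w' : ↥𝒮.W, f₀ (w * w') = f₀ w + f₀ w' := by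
    intro w w'
    refine ecG_eq_of_forall (𝒮.obj X hfin htriv).killed fun φ => ?_
    rw [map_add, ← hG, ← hG, ← hG, (hcy φ).1 w w', map_add]
  -- smoothness
  have hsm : ∃ V ∈ (levelsS S).sets, ∀ w : ↥𝒮.W, (w : GQ) ∈ V → f₀ w = 0 := by
    haveI : Finite ((𝒮.obj X hfin htriv).carrier →+ ZMod p) :=
      Finite.of_injective (fun φ => (φ : (𝒮.obj X hfin htriv).carrier → ZMod p))
        DFunLike.coe_injective
    obtain ⟨V, hV, h⟩ := (levelsS S).coind_exists_le_of_finite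
      (Set.univ : Set ((𝒮.obj X hfin htriv).carrier →+ ZMod p)) Set.finite_univ
      (fun φ V => ∀ w : ↥𝒮.W, (w : GQ) ∈ V →
        ν (F.1 (ecGDOf 𝒮.ω (𝒮.obj X hfin htriv) φ)) w = 0)
      (fun φ _ => (hcy φ).2) (fun φ U V hVU hP w hw => hP w (hVU hw))
    refine ⟨V, hV, fun w hw => ?_⟩
    refine ecG_eq_of_forall (𝒮.obj X hfin htriv).killed fun φ => ?_
    rw [map_zero, ← hG, h φ (Set.mem_univ _) w hw, map_zero]
  -- equivariance
  have hconj : ∀ (u : ↥𝒮.U) (w : ↥𝒮.W) (hmem : (u : GQ) * (w : GQ) * (u : GQ)⁻¹ ∈ 𝒮.W),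
      f₀ ⟨_, hmem⟩ = 𝒮.proj u • f₀ w := by
    intro u w hmem
    refine ecG_eq_of_forall (𝒮.obj X hfin htriv).killed fun φ => ?_
    have h1 := F.2 (𝒮.proj u⁻¹) (ecGDOf 𝒮.ω (𝒮.obj X hfin htriv) φ)
    have h2 := congrArg ν h1
    rw [he] at h2
    have h3 := congrFun h2 w
    have hmem' : ((u⁻¹ : ↥𝒮.U) : GQ)⁻¹ * (w : GQ) * ((u⁻¹ : ↥𝒮.U) : GQ) ∈ 𝒮.W := by
      rw [Subgroup.coe_inv, inv_inv]
      exact hmem
    rw [cyConj_apply 𝒮.W 𝒮.normal_W _ _ w hmem'] at h3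
    have h4 := congrArg (ecG1Out (p := p)) h3
    rw [ecG1Out_ρ] at h4
    have h5 := hG (ecGDVal 𝒮.ω (𝒮.obj X hfin htriv)
      (𝒮.proj u⁻¹ • ecGDOf 𝒮.ω (𝒮.obj X hfin htriv) φ)) w
    rw [ecGDOf_val] at h5
    rw [h5, ecGDVal_smul, ecGDVal_of, hG, 𝒮.ω_proj] at h4
    have h6 := (Units.isUnit _).mul_left_cancel h4
    rw [map_inv, inv_inv] at h6
    rw [h6]
    congr 2
  -- the homomorphism
  let f : ↥𝒮.N → X := fun n => 𝒮.objVal X hfin htriv (f₀ (ecG1toW 𝒮 n))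
  have hf : f ∈ ecShHomInv (ecG1Lev 𝒮) 𝒮.N X := by
    refine ⟨fun n n' => ?_, fun h n => ?_, ?_⟩
    · show 𝒮.objVal X hfin htriv (f₀ (ecG1toW 𝒮 (n * n'))) =
        𝒮.objVal X hfin htriv (f₀ (ecG1toW 𝒮 n)) + 𝒮.objVal X hfin htriv (f₀ (ecG1toW 𝒮 n'))
      rw [ecG1toW_mul, hadd, map_add]
    · have hmem : (h : GQ) * ((ecG1toW 𝒮 n : ↥𝒮.W) : GQ) * (h : GQ)⁻¹ ∈ 𝒮.W :=
        𝒮.normal_W.conj_mem _ (ecG1toW 𝒮 n).2 _
      show 𝒮.objVal X hfin htriv (f₀ (ecG1toW 𝒮 ⟨h * n * h⁻¹, _⟩)) =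
        X.ρ h (𝒮.objVal X hfin htriv (f₀ (ecG1toW 𝒮 n)))
      rw [← 𝒮.objVal_smul X hfin htriv h, ← hconj h (ecG1toW 𝒮 n) hmem]
      rfl
    · obtain ⟨V, hV, h⟩ := hsm
      refine ⟨V.comap 𝒮.U.subtype, ⟨V, hV, rfl⟩, fun n hn => ?_⟩
      show 𝒮.objVal X hfin htriv (f₀ (ecG1toW 𝒮 n)) = 0
      rw [h (ecG1toW 𝒮 n) hn, map_zero]
  refine ⟨⟨f, hf⟩, Subtype.ext ?_⟩
  refine AddMonoidHom.ext fun φ => ?_
  apply hν
  funext w
  rw [ecG1Map_spec]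
  have h7 := hG (ecGDVal 𝒮.ω (𝒮.obj X hfin htriv) φ) w
  exact (congrArg (ecG1In (p := p)) h7).symm

include hν hr he in
/-- **(G1)**, universal form: `dim H¹_sm(U, X) = ⟨D X̄, Hobj⟩`. -/
theorem ecG1_h1 :
    (Module.finrank (ZMod p) (H1sm ((levelsS S).comap 𝒮.U.subtype) X) : ℤ) =
      pairC (dualObj 𝒮.ω (𝒮.obj X hfin htriv)) Hobj := by
  have hbij : Function.Bijective (ecG1Map 𝒮 X hfin htriv Hobj ν hν hr he) :=
    ⟨ecG1Map_injective 𝒮 X hfin htriv Hobj ν hν hr he,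
      ecG1Map_surjective 𝒮 X hfin htriv Hobj ν hν hr he⟩
  haveI : Finite ↥(ecShHomInv (ecG1Lev 𝒮) 𝒮.N X) := Finite.of_injective _ hbij.1
  have e := ecShInfResZMod (ecG1Lev 𝒮) 𝒮.N X (fun n hn x => htriv n ((𝒮.mem_N n).1 hn) x)
    ⟨𝒮.N, ⟨𝒮.W, 𝒮.hW, rfl⟩, le_rfl⟩ 𝒮.hidx
  rw [e.finrank_eq]
  unfold pairC
  rw [← Nat.card_congr (Equiv.ofBijective _ hbij), ecG_log_card]

end Pres

end Fermat.Agent.S56.EC
end
end MergeWrap_S56_W2_EC_Cyclic_Glue_G1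

section MergeWrap_S56_W2_EC_Cyclic_Glue_G3 -- from S56/W2/EC/Cyclic/Glue/G3.lean

/-!
# S56 / W2 / EC / Cyclic / Glue / G3 : `dim Hom_U(X, K) = ⟨X̄, Z⟩` (helper48)

`𝒮 : CycSetup p S`, `X` a finite `𝔽_p[U]`-module with trivial action of `W`,
`X̄ = 𝒮.obj X hfin htriv`, `K` a 2-term complex of `𝔽_p[G_ℚ]`-modules.  Universal form: for **any**
finite `𝔽_p[Γ]`-module `Zobj` presented as `ι : Zobj → K⁰`, injective, equivariant, with image
`(ker d)^W`,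

  `dim HH⁰(U, Hom(X, K|_U)) = ⟨X̄, Zobj⟩`        (`ecG3_hom`).

`ecG3_hom_of_zeta` : the same for `K = K_C` and `Zobj` presented as in `tors_universal`
(`ζ : cyZt → Zobj` surjective with kernel `ε(μ_p)`, equivariant).
-/

set_option autoImplicit false
set_option linter.unusedSectionVars false
set_option linter.style.haveILetI false

noncomputable section

namespace Fermat.Agent.S56.EC

open Fermat.Agent.F4 ExtCitation

variable {p : ℕ} [Fact p.Prime] {S : Finset Nat.Primes} (𝒮 : CycSetup p S)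
  (X : Rep.{0} (ZMod p) ↥𝒮.U) (hfin : Module.Finite (ZMod p) X)
  (htriv : ∀ (u : ↥𝒮.U), (u : GQ) ∈ 𝒮.W → ∀ x : X, X.ρ u x = x)
  (K : Cx (ZMod p) GQ) (Zobj : FinCMod p 𝒮.Γ) (ι : Zobj.carrier →+ K.K0)

/-- The linear map `X → K⁰` attached to `g : X̄ → Zobj`. -/
def ecG3Lin (g : (𝒮.obj X hfin htriv).carrier →+ Zobj.carrier) : X →ₗ[ZMod p] K.K0 :=
  AddMonoidHom.toZModLinearMap p ((ι.comp g).comp (𝒮.objOf X hfin htriv))

lemma ecG3Lin_apply (g : (𝒮.obj X hfin htriv).carrier →+ Zobj.carrier) (x : X) :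
    ecG3Lin 𝒮 X hfin htriv K Zobj ι g x = ι (g (𝒮.objOf X hfin htriv x)) := rfl

variable (hι : Function.Injective ι)
  (hr : ∀ z : K.K0, (∃ a, ι a = z) ↔ (K.d z = 0 ∧ ∀ w ∈ 𝒮.W, K.K0.ρ w z = z))
  (he : ∀ (u : ↥𝒮.U) (a : Zobj.carrier), ι (𝒮.proj u • a) = K.K0.ρ (u : GQ) (ι a))

include hr he in
lemma ecG3Lin_mem (g : (𝒮.obj X hfin htriv).carrier →+ Zobj.carrier)
    (hg : g ∈ homC (𝒮.obj X hfin htriv) Zobj) :
    ecShToHom X (K.res 𝒮.U.subtype) (ecShResIn K (ecG3Lin 𝒮 X hfin htriv K Zobj ι g))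
      ∈ HH0 (homCx X (K.res 𝒮.U.subtype)) := by
  refine (ecSh_mem_HH0_iff X (K.res 𝒮.U.subtype) _).2 ⟨fun u x => ?_, fun x => ?_⟩
  · show ι (g (𝒮.objOf X hfin htriv (X.ρ u x))) = K.K0.ρ (u : GQ) (ι (g (𝒮.objOf X hfin htriv x)))
    rw [← he, ← hg (𝒮.proj u)]
    rfl
  · show K.d (ι (g (𝒮.objOf X hfin htriv x))) = 0
    exact ((hr _).1 ⟨_, rfl⟩).1

/-- `Hom_Γ(X̄, Zobj) → HH⁰(U, Hom(X, K|_U))`. -/
def ecG3Map (g : ↥(homC (𝒮.obj X hfin htriv) Zobj)) :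
    ↥(HH0 (homCx X (K.res 𝒮.U.subtype))) :=
  ⟨ecShToHom X (K.res 𝒮.U.subtype) (ecShResIn K (ecG3Lin 𝒮 X hfin htriv K Zobj ι g.1)),
    ecG3Lin_mem 𝒮 X hfin htriv K Zobj ι hr he g.1 g.2⟩

lemma ecG3Map_apply (g : ↥(homC (𝒮.obj X hfin htriv) Zobj)) (x : X) :
    ecShOfHom X (K.res 𝒮.U.subtype) (ecG3Map 𝒮 X hfin htriv K Zobj ι hr he g).1 x
      = ι (g.1 (𝒮.objOf X hfin htriv x)) := rfl

include hι in
lemma ecG3Map_injective : Function.Injective (ecG3Map 𝒮 X hfin htriv K Zobj ι hr he) := by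
  intro g g' h
  apply Subtype.ext
  refine AddMonoidHom.ext fun x => ?_
  apply hι
  have h1 := congrArg (fun F : ↥(HH0 (homCx X (K.res 𝒮.U.subtype))) =>
    ecShOfHom X (K.res 𝒮.U.subtype) F.1 (𝒮.objVal X hfin htriv x)) h
  exact h1

include hι in
lemma ecG3Map_surjective : Function.Surjective (ecG3Map 𝒮 X hfin htriv K Zobj ι hr he) := by
  intro F
  obtain ⟨h1, h2⟩ := (ecSh_mem_HH0_iff X (K.res 𝒮.U.subtype) F.1).1 F.2
  set f : X →ₗ[ZMod p] K.K0 := ecShResOut K (ecShOfHom X (K.res 𝒮.U.subtype) F.1) with hf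
  have h1' : ∀ (u : ↥𝒮.U) (x : X), f (X.ρ u x) = K.K0.ρ (u : GQ) (f x) := h1
  have h2' : ∀ x : X, K.d (f x) = 0 := h2
  -- the values lie in `(ker d)^W`
  have hmem : ∀ x : X, ∃ a : Zobj.carrier, ι a = f x := by
    intro x
    refine (hr _).2 ⟨h2' x, fun w hw => ?_⟩
    have := h1' ⟨w, 𝒮.hWU hw⟩ x
    rw [htriv ⟨w, 𝒮.hWU hw⟩ hw] at this
    exact this.symm
  choose a ha using hmem
  let g : (𝒮.obj X hfin htriv).carrier →+ Zobj.carrier :=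
    { toFun := fun x => a (𝒮.objVal X hfin htriv x)
      map_zero' := by
        apply hι
        rw [ha, map_zero, map_zero, map_zero]
      map_add' := fun x y => by
        apply hι
        rw [ha, map_add, map_add, map_add, ha, ha] }
  have hg : g ∈ homC (𝒮.obj X hfin htriv) Zobj := by
    intro γ x
    obtain ⟨u, rfl⟩ := 𝒮.proj_surjective γ
    apply hι
    show ι (a (𝒮.objVal X hfin htriv ((𝒮.proj u) • x))) = ι ((𝒮.proj u) • a (𝒮.objVal X hfin htriv x))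
    rw [he, ha, ha, 𝒮.objVal_smul, h1']
  refine ⟨⟨g, hg⟩, Subtype.ext ?_⟩
  refine LinearMap.ext fun x => ?_
  show ι (a (𝒮.objVal X hfin htriv (𝒮.objOf X hfin htriv x))) = f x
  rw [ha, 𝒮.objVal_objOf]

include hι hr he in
/-- **(G3)**, universal form: `dim HH⁰(U, Hom(X, K|_U)) = ⟨X̄, Zobj⟩`. -/
theorem ecG3_hom :
    (Module.finrank (ZMod p) ↥(HH0 (homCx X (K.res 𝒮.U.subtype))) : ℤ) =
      pairC (𝒮.obj X hfin htriv) Zobj := by
  have hbij : Function.Bijective (ecG3Map 𝒮 X hfin htriv K Zobj ι hr he) :=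
    ⟨ecG3Map_injective 𝒮 X hfin htriv K Zobj ι hι hr he,
      ecG3Map_surjective 𝒮 X hfin htriv K Zobj ι hι hr he⟩
  haveI : Finite ↥(HH0 (homCx X (K.res 𝒮.U.subtype))) :=
    Finite.of_surjective _ hbij.2
  unfold pairC
  rw [Nat.card_congr (Equiv.ofBijective _ hbij), ecG_log_card]

section Zeta

open Fermat.Agent.F4Cf

variable {hpS : pPrime p ∈ S} (Pk : ECPack p S hpS)
  (ζ : ↥(cyZt Pk 𝒮.W) →+ Zobj.carrier) (hζs : Function.Surjective ζ)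
  (hζk : ∀ j : ↥(cyZt Pk 𝒮.W), ζ j = 0 ↔ ∃ m : Fp1 p, cyEps Pk m = (j : Pk.KJ.K0))
  (hζe : ∀ (u : ↥𝒮.U) (j j' : ↥(cyZt Pk 𝒮.W)),
    (j' : Pk.KJ.K0) = Pk.KJ.K0.ρ (u : GQ) (j : Pk.KJ.K0) → ζ j' = 𝒮.proj u • ζ j)

/-- `cyZt → KC⁰`, `j ↦ [j]`. -/
def ecG3MkZt : ↥(cyZt Pk 𝒮.W) →+ Pk.KC.K0 :=
  (cyMk Pk).toAddMonoidHom.comp (cyZt Pk 𝒮.W).subtype

lemma ecG3MkZt_apply (j : ↥(cyZt Pk 𝒮.W)) : ecG3MkZt 𝒮 Pk j = cyMk Pk (j : Pk.KJ.K0) := rfl

include hζk in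
lemma ecG3_ker_le : ζ.ker ≤ (ecG3MkZt 𝒮 Pk).ker := by
  intro j hj
  rw [AddMonoidHom.mem_ker] at hj ⊢
  rw [ecG3MkZt_apply, cyMk_eq_zero_iff]
  exact (hζk j).1 hj

/-- The embedding `Zobj → KC⁰` attached to a presentation `ζ`. -/
def ecG3Iota : Zobj.carrier →+ Pk.KC.K0 :=
  ζ.liftOfSurjective hζs ⟨ecG3MkZt 𝒮 Pk, ecG3_ker_le 𝒮 Zobj Pk ζ hζk⟩

lemma ecG3Iota_zeta (j : ↥(cyZt Pk 𝒮.W)) :
    ecG3Iota 𝒮 Zobj Pk ζ hζs hζk (ζ j) = cyMk Pk (j : Pk.KJ.K0) :=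
  AddMonoidHom.liftOfRightInverse_comp_apply _ _ _ ⟨ecG3MkZt 𝒮 Pk, ecG3_ker_le 𝒮 Zobj Pk ζ hζk⟩ j

lemma ecG3Iota_injective : Function.Injective (ecG3Iota 𝒮 Zobj Pk ζ hζs hζk) := by
  rw [injective_iff_map_eq_zero]
  intro a ha
  obtain ⟨j, rfl⟩ := hζs a
  rw [ecG3Iota_zeta, cyMk_eq_zero_iff] at ha
  exact (hζk j).2 ha

lemma ecG3Iota_range (z : Pk.KC.K0) :
    (∃ a, ecG3Iota 𝒮 Zobj Pk ζ hζs hζk a = z) ↔
      (Pk.KC.d z = 0 ∧ ∀ w ∈ 𝒮.W, Pk.KC.K0.ρ w z = z) := by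
  rw [← mem_cyZ]
  constructor
  · rintro ⟨a, rfl⟩
    obtain ⟨j, rfl⟩ := hζs a
    rw [ecG3Iota_zeta, cyMk_mem_cyZ_iff]
    exact j.2
  · intro hz
    obtain ⟨j, rfl⟩ := cyMk_surjective Pk z
    have hj : j ∈ cyZt Pk 𝒮.W := (cyMk_mem_cyZ_iff Pk 𝒮.W j).1 hz
    exact ⟨ζ ⟨j, hj⟩, ecG3Iota_zeta 𝒮 Zobj Pk ζ hζs hζk ⟨j, hj⟩⟩

include hζe in
lemma ecG3Iota_smul (u : ↥𝒮.U) (a : Zobj.carrier) :
    ecG3Iota 𝒮 Zobj Pk ζ hζs hζk (𝒮.proj u • a) =
      Pk.KC.K0.ρ (u : GQ) (ecG3Iota 𝒮 Zobj Pk ζ hζs hζk a) := by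
  obtain ⟨j, rfl⟩ := hζs a
  have hj' : Pk.KJ.K0.ρ (u : GQ) (j : Pk.KJ.K0) ∈ cyZt Pk 𝒮.W :=
    cyZt_stable Pk 𝒮.W 𝒮.normal_W (u : GQ) _ j.2
  rw [← hζe u j ⟨_, hj'⟩ rfl, ecG3Iota_zeta, ecG3Iota_zeta, cyMk_comm]

include hζs hζk hζe in
/-- **(G3)** for `K_C`, with `Z` presented as in `tors_universal`. -/
theorem ecG3_hom_of_zeta :
    (Module.finrank (ZMod p) ↥(HH0 (homCx X (Pk.KC.res 𝒮.U.subtype))) : ℤ) =
      pairC (𝒮.obj X hfin htriv) Zobj :=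
  ecG3_hom 𝒮 X hfin htriv Pk.KC Zobj (ecG3Iota 𝒮 Zobj Pk ζ hζs hζk)
    (ecG3Iota_injective 𝒮 Zobj Pk ζ hζs hζk) (ecG3Iota_range 𝒮 Zobj Pk ζ hζs hζk)
    (ecG3Iota_smul 𝒮 Zobj Pk ζ hζs hζk hζe)

end Zeta

end Fermat.Agent.S56.EC
end
end MergeWrap_S56_W2_EC_Cyclic_Glue_G3

section MergeWrap_S56_W2_EC_Cyclic_Glue_Conc -- from S56/W2/EC/Cyclic/Glue/Conc.lean

/-!
# S56 / W2 / EC / Cyclic / Glue / Conc : the glue for the concrete objects (helper48)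

* `CycSetup.glueG1` : `dim H¹_sm(U, X) = ⟨D X̄, 𝒮.Hmu⟩`  (`𝒮.Hmu` of `Cyclic/HmuObj.lean`);
* `CycSetup.glueG2` : `dim X^U = ⟨D X̄, μ_p⟩`;
* `CycSetup.glueG3` : `dim HH⁰(U, Hom(X, K_C|_U)) = ⟨X̄, Zobj⟩` for any `Zobj` with an equivariant
  additive bijection onto `cyZ Pk 𝒮.W`.
-/

set_option autoImplicit false
set_option linter.unusedSectionVars false

noncomputable section

namespace Fermat.Agent.S56.EC

open Fermat.Agent.F4 ExtCitation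

namespace CycSetup

variable {p : ℕ} [Fact p.Prime] {S : Finset Nat.Primes} (𝒮 : CycSetup p S)
  (X : Rep.{0} (ZMod p) ↥𝒮.U) (hfin : Module.Finite (ZMod p) X)
  (htriv : ∀ (u : ↥𝒮.U), (u : GQ) ∈ 𝒮.W → ∀ x : X, X.ρ u x = x)

/-- **(G1)** for the concrete `Hμ`. -/
theorem glueG1 :
    (Module.finrank (ZMod p) (H1sm ((levelsS S).comap 𝒮.U.subtype) X) : ℤ) =
      pairC (dualObj 𝒮.ω (𝒮.obj X hfin htriv)) 𝒮.Hmu :=
  ecG1_h1 𝒮 X hfin htriv 𝒮.Hmu 𝒮.hmuVal 𝒮.hmuVal_injective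
    (fun _ => ⟨fun ⟨h, hh⟩ => hh ▸ 𝒮.hmuVal_mem h, fun hχ => 𝒮.exists_hmuVal_eq hχ⟩)
    (fun u h => 𝒮.hmuVal_smul u h)

/-- **(G2)**. -/
theorem glueG2 :
    (Module.finrank (ZMod p) ↥(ecShInv X) : ℤ) =
      pairC (dualObj 𝒮.ω (𝒮.obj X hfin htriv)) (muObj 𝒮.ω) :=
  ecG2_h0 𝒮 X hfin htriv

/-- **(G3)** for any object `Zobj` with an equivariant additive bijection onto
`cyZ Pk W = (ker d_C)^W`. -/
theorem glueG3 {hpS : pPrime p ∈ S} (Pk : ECPack p S hpS) (Zobj : FinCMod p 𝒮.Γ)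
    (zVal : Zobj.carrier ≃+ ↥(cyZ Pk 𝒮.W))
    (hz : ∀ (u : ↥𝒮.U) (a : Zobj.carrier),
      ((zVal (𝒮.proj u • a) : ↥(cyZ Pk 𝒮.W)) : Pk.KC.K0) =
        Pk.KC.K0.ρ (u : GQ) ((zVal a : ↥(cyZ Pk 𝒮.W)) : Pk.KC.K0)) :
    (Module.finrank (ZMod p) ↥(HH0 (homCx X (Pk.KC.res 𝒮.U.subtype))) : ℤ) =
      pairC (𝒮.obj X hfin htriv) Zobj :=
  ecG3_hom 𝒮 X hfin htriv Pk.KC Zobj ((cyZ Pk 𝒮.W).subtype.comp zVal.toAddMonoidHom)
    (fun _ _ h => zVal.injective (Subtype.ext h))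
    (fun z => ⟨fun ⟨a, ha⟩ => ha ▸ (zVal a).2, fun hz' => ⟨zVal.symm ⟨z, hz'⟩, by
      show ((zVal (zVal.symm ⟨z, hz'⟩) : ↥(cyZ Pk 𝒮.W)) : Pk.KC.K0) = z
      rw [AddEquiv.apply_symm_apply]⟩⟩)
    hz

end CycSetup

end Fermat.Agent.S56.EC
end
end MergeWrap_S56_W2_EC_Cyclic_Glue_Conc

section MergeWrap_S56_W2_EC_Cyclic_Arch -- from S56/W2/EC/Cyclic/Arch.lean

set_option autoImplicit false

noncomputable section

namespace Fermat.Agent.S56.EC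

open Fermat.Agent.F4

variable {p : ℕ} [Fact p.Prime] {G : Type} [Group G]

/-- `N^{c = -1}`: the `(-1)`-eigenspace of an element `c`. -/
def negEig (c : G) (N : Rep.{0} (ZMod p) G) : Submodule (ZMod p) N where
  carrier := {n | N.ρ c n = -n}
  add_mem' := fun {a b} ha hb => by
    show N.ρ c (a + b) = -(a + b)
    rw [map_add, show N.ρ c a = -a from ha, show N.ρ c b = -b from hb, neg_add]
  zero_mem' := by
    show N.ρ c 0 = -0
    rw [map_zero, neg_zero]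
  smul_mem' := fun r a ha => by
    show N.ρ c (r • a) = -(r • a)
    rw [map_smul, show N.ρ c a = -a from ha, smul_neg]

lemma mem_negEig {c : G} {N : Rep.{0} (ZMod p) G} (n : N) :
    n ∈ negEig c N ↔ N.ρ c n = -n := Iff.rfl

/-- The data of the archimedean term. -/
structure ArchSetup (𝓤 : Levels G) (U W : Subgroup G) (c : G) (ω : G →* (ZMod p)ˣ)
    (X : Rep.{0} (ZMod p) ↥U) (Ω : Type) (Γ : Type) [Group Γ] where
  hW : W ∈ 𝓤.sets
  hWU : W ≤ U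
  hX : ∀ u : ↥U, (u : G) ∈ W → ∀ x : X, X.ρ u x = x
  hc : c * c = 1
  hωc : ω c = -1
  hωW : ∀ w ∈ W, ω w = 1
  π : G → Ω
  π_surj : Function.Surjective π
  π_eq : ∀ g g', π g = π g' ↔ g⁻¹ * g' ∈ W ∨ g⁻¹ * c * g' ∈ W
  q : ↥U →* Γ
  q_surj : Function.Surjective q
  ωb : Γ →* (ZMod p)ˣ
  ωb_q : ∀ u : ↥U, ωb (q u) = ω (u : G)
  act : Γ →* Equiv.Perm Ω
  act_π : ∀ (u : ↥U) (g : G), act (q u) (π g) = π (g * (u : G)⁻¹)

namespace ArchSetup

variable {𝓤 : Levels G} {U W : Subgroup G} {c : G} {ω : G →* (ZMod p)ˣ}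
  {X : Rep.{0} (ZMod p) ↥U} {Ω : Type} {Γ : Type} [Group Γ]

/-- The twisted equivariant families on `Ω`. -/
def fam (T : ArchSetup 𝓤 U W c ω X Ω Γ) : Set (Ω → X) :=
  {x | ∀ (u : ↥U) (y : Ω), x (T.act (T.q u) y) = ((ω (u : G))⁻¹ : (ZMod p)ˣ).1 • X.ρ u (x y)}

lemma normalW (T : ArchSetup 𝓤 U W c ω X Ω Γ) : W.Normal := 𝓤.normal W T.hW

lemma coe_ω_c (T : ArchSetup 𝓤 U W c ω X Ω Γ) : ((ω c : (ZMod p)ˣ) : ZMod p) = -1 := by
  rw [T.hωc, Units.val_neg, Units.val_one]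

lemma c_inv (T : ArchSetup 𝓤 U W c ω X Ω Γ) : c⁻¹ = c := inv_eq_of_mul_eq_one_right T.hc

/-- An element of the `(-1)`-eigenspace changes sign under right translation by `c`. -/
lemma negEig_apply (_T : ArchSetup 𝓤 U W c ω X Ω Γ) {φ : ↥(coIndSub U.subtype 𝓤 X)}
    (hφ : φ ∈ negEig c (coInd U.subtype 𝓤 X)) (g : G) :
    (φ : G → X) (g * c) = -(φ : G → X) g := by
  have h : (coInd U.subtype 𝓤 X).ρ c φ = -φ := hφ
  have h2 := congrArg (fun ψ : ↥(coIndSub U.subtype 𝓤 X) => (ψ : G → X) g) h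
  exact h2

/-- A coinduced function is right invariant under `W`. -/
lemma coInd_mul_W (T : ArchSetup 𝓤 U W c ω X Ω Γ) (φ : ↥(coIndSub U.subtype 𝓤 X)) (g : G)
    {w : G} (hw : w ∈ W) : (φ : G → X) (g * w) = (φ : G → X) g := by
  have hn := T.normalW
  have hmem : g * w * g⁻¹ ∈ W := hn.conj_mem w hw g
  have e : g * w = (U.subtype ⟨g * w * g⁻¹, T.hWU hmem⟩) * g := by
    show g * w = g * w * g⁻¹ * g
    group
  rw [e, coIndSub_equivariant φ ⟨g * w * g⁻¹, T.hWU hmem⟩ g]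
  exact T.hX _ hmem _

/-- The value `ω(h) φ(h⁻¹)` depends only on `π h`. -/
lemma negEig_wd (T : ArchSetup 𝓤 U W c ω X Ω Γ) {φ : ↥(coIndSub U.subtype 𝓤 X)}
    (hφ : φ ∈ negEig c (coInd U.subtype 𝓤 X)) {h h' : G} (hh : T.π h = T.π h') :
    ((ω h : (ZMod p)ˣ) : ZMod p) • (φ : G → X) h⁻¹ =
      ((ω h' : (ZMod p)ˣ) : ZMod p) • (φ : G → X) h'⁻¹ := by
  have hn := T.normalW
  rcases (T.π_eq h h').1 hh with hw | hw
  · -- `h' = h w`
    have e : h' = h * (h⁻¹ * h') := by group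
    have hw' : (h⁻¹ * h')⁻¹ ∈ W := W.inv_mem hw
    have e2 : h'⁻¹ = h⁻¹ * (h⁻¹⁻¹ * (h⁻¹ * h')⁻¹ * h⁻¹) := by group
    have hw'' : h⁻¹⁻¹ * (h⁻¹ * h')⁻¹ * h⁻¹ ∈ W := by
      have := hn.conj_mem _ hw' h
      simpa using this
    have hω : ω h' = ω h := by
      rw [e, map_mul, T.hωW _ hw, mul_one]
    rw [hω, e2, T.coInd_mul_W φ _ hw'']
  · -- `h' = c h w`
    set w := h⁻¹ * c * h' with hwdef
    have hcinv : c⁻¹ = c := T.c_inv
    have e : h' = c * h * w := by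
      rw [hwdef]
      have : c * h * (h⁻¹ * c * h') = c * c * h' := by group
      rw [this, T.hc, one_mul]
    have hω : ((ω h' : (ZMod p)ˣ) : ZMod p) = -((ω h : (ZMod p)ˣ) : ZMod p) := by
      rw [e, map_mul, map_mul, T.hωW _ hw, mul_one, Units.val_mul, T.coe_ω_c]
      ring
    have e2 : h'⁻¹ = h⁻¹ * c * ((h⁻¹ * c)⁻¹ * w⁻¹ * (h⁻¹ * c)) := by
      rw [e]
      have : (c * h * w)⁻¹ = w⁻¹ * h⁻¹ * c⁻¹ := by group
      rw [this, hcinv]
      group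
    have hw'' : (h⁻¹ * c)⁻¹ * w⁻¹ * (h⁻¹ * c) ∈ W := by
      have := hn.conj_mem _ (W.inv_mem hw) (h⁻¹ * c)⁻¹
      simpa using this
    rw [hω, e2, T.coInd_mul_W φ _ hw'', T.negEig_apply hφ, neg_smul, smul_neg, neg_neg]

/-! ### (I) the `(-1)`-eigenspace as twisted families on `Ω` -/

/-- The family attached to a coinduced function: `π h ↦ ω(h) φ(h⁻¹)`. -/
def toFamFun (T : ArchSetup 𝓤 U W c ω X Ω Γ) (φ : ↥(coIndSub U.subtype 𝓤 X)) (y : Ω) : X :=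
  ((ω (Function.surjInv T.π_surj y) : (ZMod p)ˣ) : ZMod p) •
    (φ : G → X) (Function.surjInv T.π_surj y)⁻¹

lemma toFamFun_π (T : ArchSetup 𝓤 U W c ω X Ω Γ) {φ : ↥(coIndSub U.subtype 𝓤 X)}
    (hφ : φ ∈ negEig c (coInd U.subtype 𝓤 X)) (h : G) :
    T.toFamFun φ (T.π h) = ((ω h : (ZMod p)ˣ) : ZMod p) • (φ : G → X) h⁻¹ :=
  T.negEig_wd hφ (Function.surjInv_eq T.π_surj (T.π h))

lemma toFamFun_mem (T : ArchSetup 𝓤 U W c ω X Ω Γ) {φ : ↥(coIndSub U.subtype 𝓤 X)}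
    (hφ : φ ∈ negEig c (coInd U.subtype 𝓤 X)) : T.toFamFun φ ∈ T.fam := by
  intro u y
  obtain ⟨h, rfl⟩ := T.π_surj y
  rw [T.act_π, T.toFamFun_π hφ, T.toFamFun_π hφ]
  have e : (h * (u : G)⁻¹)⁻¹ = U.subtype u * h⁻¹ := by
    show (h * (u : G)⁻¹)⁻¹ = (u : G) * h⁻¹
    group
  rw [e, coIndSub_equivariant φ u h⁻¹, map_mul, map_inv, map_smul, smul_smul, Units.val_mul,
    mul_comm]

/-- The coinduced function attached to a family: `g ↦ ω(g) x(π g⁻¹)`. -/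
def ofFamFun (T : ArchSetup 𝓤 U W c ω X Ω Γ) (x : Ω → X) (g : G) : X :=
  ((ω g : (ZMod p)ˣ) : ZMod p) • x (T.π g⁻¹)

lemma ofFamFun_mem (T : ArchSetup 𝓤 U W c ω X Ω Γ) {x : Ω → X} (hx : x ∈ T.fam) :
    T.ofFamFun x ∈ coIndSub U.subtype 𝓤 X := by
  have hn := T.normalW
  refine ⟨fun u g => ?_, W, T.hW, fun g w hw => ?_⟩
  · show ((ω (U.subtype u * g) : (ZMod p)ˣ) : ZMod p) • x (T.π (U.subtype u * g)⁻¹) =
      X.ρ u (((ω g : (ZMod p)ˣ) : ZMod p) • x (T.π g⁻¹))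
    have e : (U.subtype u * g)⁻¹ = g⁻¹ * (u : G)⁻¹ := by
      show ((u : G) * g)⁻¹ = g⁻¹ * (u : G)⁻¹
      group
    rw [e, ← T.act_π u g⁻¹, hx u, map_smul, smul_smul]
    congr 1
    show ((ω ((u : G) * g) : (ZMod p)ˣ) : ZMod p) * (((ω (u : G))⁻¹ : (ZMod p)ˣ) : ZMod p) = _
    rw [← Units.val_mul]
    congr 1
    rw [map_mul, mul_comm (ω (u : G)), mul_assoc, mul_inv_cancel, mul_one]
  · show ((ω (g * w) : (ZMod p)ˣ) : ZMod p) • x (T.π (g * w)⁻¹) =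
      ((ω g : (ZMod p)ˣ) : ZMod p) • x (T.π g⁻¹)
    have h1 : T.π (g * w)⁻¹ = T.π g⁻¹ := by
      refine (T.π_eq _ _).2 (Or.inl ?_)
      have := hn.conj_mem w hw g
      have e : ((g * w)⁻¹)⁻¹ * g⁻¹ = g * w * g⁻¹ := by group
      rw [e]
      exact this
    rw [h1, map_mul, T.hωW w hw, mul_one]

lemma ofFamFun_neg (T : ArchSetup 𝓤 U W c ω X Ω Γ) (x : Ω → X) (g : G) :
    T.ofFamFun x (g * c) = -T.ofFamFun x g := by
  show ((ω (g * c) : (ZMod p)ˣ) : ZMod p) • x (T.π (g * c)⁻¹) =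
    -(((ω g : (ZMod p)ˣ) : ZMod p) • x (T.π g⁻¹))
  have h1 : T.π (g * c)⁻¹ = T.π g⁻¹ := by
    refine (T.π_eq _ _).2 (Or.inr ?_)
    have e : ((g * c)⁻¹)⁻¹ * c * g⁻¹ = g * (c * c) * g⁻¹ := by group
    rw [e, T.hc, mul_one, mul_inv_cancel]
    exact W.one_mem
  rw [h1, map_mul, Units.val_mul, T.coe_ω_c, mul_neg, mul_one, neg_smul]

/-- **(I)** `(coInd_U X)^{c = -1} ≃ {twisted equivariant families on Ω}`. -/
def famEquiv (T : ArchSetup 𝓤 U W c ω X Ω Γ) :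
    ↥(negEig c (coInd U.subtype 𝓤 X)) ≃ ↥T.fam where
  toFun φ := ⟨T.toFamFun φ.1, T.toFamFun_mem φ.2⟩
  invFun x := ⟨⟨T.ofFamFun x.1, T.ofFamFun_mem x.2⟩, by
    rw [mem_negEig]
    refine Subtype.ext (funext fun g => ?_)
    exact T.ofFamFun_neg x.1 g⟩
  left_inv φ := by
    refine Subtype.ext (Subtype.ext (funext fun g => ?_))
    show ((ω g : (ZMod p)ˣ) : ZMod p) • T.toFamFun φ.1 (T.π g⁻¹) = (φ.1 : G → X) g
    rw [T.toFamFun_π φ.2, smul_smul, ← Units.val_mul, ← map_mul, mul_inv_cancel, map_one,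
      Units.val_one, one_smul, inv_inv]
  right_inv x := by
    refine Subtype.ext (funext fun y => ?_)
    obtain ⟨h, rfl⟩ := T.π_surj y
    have hmem : (⟨T.ofFamFun x.1, T.ofFamFun_mem x.2⟩ : ↥(coIndSub U.subtype 𝓤 X)) ∈
        negEig c (coInd U.subtype 𝓤 X) := by
      rw [mem_negEig]
      refine Subtype.ext (funext fun g => ?_)
      exact T.ofFamFun_neg x.1 g
    show T.toFamFun ⟨T.ofFamFun x.1, T.ofFamFun_mem x.2⟩ (T.π h) = x.1 (T.π h)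
    rw [T.toFamFun_π hmem]
    show ((ω h : (ZMod p)ˣ) : ZMod p) • (((ω h⁻¹ : (ZMod p)ˣ) : ZMod p) • x.1 (T.π h⁻¹⁻¹)) = _
    rw [smul_smul, ← Units.val_mul, ← map_mul, mul_inv_cancel, map_one, Units.val_one, one_smul,
      inv_inv]

/-! ### (II) twisted families as `Γ`-maps out of `μ_p[Ω]` -/

/-- `Ω → ZMod p` as the carrier of `μ_p[Ω]`. -/
def muOf (ωb : Γ →* (ZMod p)ˣ) (act : Γ →* Equiv.Perm Ω) : (Ω → ZMod p) →+ MuPermMod ωb act :=
  AddMonoidHom.id _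

/-- The carrier of `μ_p[Ω]` as `Ω → ZMod p`. -/
def muVal (ωb : Γ →* (ZMod p)ˣ) (act : Γ →* Equiv.Perm Ω) : MuPermMod ωb act →+ (Ω → ZMod p) :=
  AddMonoidHom.id _

@[simp] lemma muVal_muOf (ωb : Γ →* (ZMod p)ˣ) (act : Γ →* Equiv.Perm Ω) (f : Ω → ZMod p) :
    muVal ωb act (muOf ωb act f) = f := rfl

@[simp] lemma muOf_muVal (ωb : Γ →* (ZMod p)ˣ) (act : Γ →* Equiv.Perm Ω) (f : MuPermMod ωb act) :
    muOf ωb act (muVal ωb act f) = f := rfl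

lemma muVal_smul (ωb : Γ →* (ZMod p)ˣ) (act : Γ →* Equiv.Perm Ω) (γ : Γ) (f : MuPermMod ωb act)
    (z : Ω) : muVal ωb act (γ • f) z = (ωb γ : ZMod p) * muVal ωb act f ((act γ)⁻¹ z) := rfl

section Hom

variable [Fintype Ω]

/-- `f ↦ ∑ f(y) x(y)`. -/
def sumHom (x : Ω → X) : (Ω → ZMod p) →+ X where
  toFun f := ∑ y, f y • x y
  map_zero' := by simp
  map_add' f g := by simp [add_smul, Finset.sum_add_distrib]

lemma sumHom_apply (x : Ω → X) (f : Ω → ZMod p) :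
    sumHom (X := X) x f = ∑ y, f y • x y := rfl

/-- The additive map `μ_p[Ω] → X̄` of a family. -/
def famHom (T : ArchSetup 𝓤 U W c ω X Ω Γ) (Xb : FinCMod p Γ) (e : Xb.carrier ≃+ X)
    (x : Ω → X) : (muPermObj T.ωb T.act).carrier →+ Xb.carrier :=
  (e.symm.toAddMonoidHom.comp (sumHom x)).comp (muVal T.ωb T.act)

lemma famHom_apply (T : ArchSetup 𝓤 U W c ω X Ω Γ) (Xb : FinCMod p Γ) (e : Xb.carrier ≃+ X)
    (x : Ω → X) (f : (muPermObj T.ωb T.act).carrier) :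
    e (T.famHom Xb e x f) = ∑ y, muVal T.ωb T.act f y • x y := by
  show e (e.symm _) = _
  rw [e.apply_symm_apply]
  rfl

lemma famHom_mem (T : ArchSetup 𝓤 U W c ω X Ω Γ) (Xb : FinCMod p Γ) (e : Xb.carrier ≃+ X)
    (he : ∀ (u : ↥U) (a : Xb.carrier), e (T.q u • a) = X.ρ u (e a)) {x : Ω → X}
    (hx : x ∈ T.fam) : T.famHom Xb e x ∈ homC (muPermObj T.ωb T.act) Xb := by
  intro γ f
  obtain ⟨u, rfl⟩ := T.q_surj γ
  apply e.injective
  rw [he, T.famHom_apply, T.famHom_apply, map_sum, ← Equiv.sum_comp (T.act (T.q u))]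
  refine Finset.sum_congr rfl fun z _ => ?_
  have h1 : muVal T.ωb T.act (T.q u • f) (T.act (T.q u) z) =
      (T.ωb (T.q u) : ZMod p) * muVal T.ωb T.act f z := by
    have h2 := muVal_smul T.ωb T.act (T.q u) f (T.act (T.q u) z)
    rw [Equiv.Perm.inv_def, Equiv.symm_apply_apply] at h2
    exact h2
  rw [h1, hx u z, map_smul, smul_smul, T.ωb_q]
  congr 1
  rw [mul_comm, ← mul_assoc, ← Units.val_mul, inv_mul_cancel, Units.val_one, one_mul]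

variable [DecidableEq Ω]

/-- The family of an additive map: `y ↦ Φ(δ_y)`. -/
def homFam (T : ArchSetup 𝓤 U W c ω X Ω Γ) (Xb : FinCMod p Γ) (e : Xb.carrier ≃+ X)
    (Φ : (muPermObj T.ωb T.act).carrier →+ Xb.carrier) (y : Ω) : X :=
  e (Φ (muOf T.ωb T.act (Pi.single y 1)))

/-- `e ∘ Φ` as an additive map on `Ω → ZMod p`. -/
def homPsi (T : ArchSetup 𝓤 U W c ω X Ω Γ) (Xb : FinCMod p Γ) (e : Xb.carrier ≃+ X)
    (Φ : (muPermObj T.ωb T.act).carrier →+ Xb.carrier) : (Ω → ZMod p) →+ X :=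
  (e.toAddMonoidHom.comp Φ).comp (muOf T.ωb T.act)

lemma homPsi_apply (T : ArchSetup 𝓤 U W c ω X Ω Γ) (Xb : FinCMod p Γ) (e : Xb.carrier ≃+ X)
    (Φ : (muPermObj T.ωb T.act).carrier →+ Xb.carrier) (f : Ω → ZMod p) :
    T.homPsi Xb e Φ f = e (Φ (muOf T.ωb T.act f)) := rfl

lemma homPsi_smul (T : ArchSetup 𝓤 U W c ω X Ω Γ) (Xb : FinCMod p Γ) (e : Xb.carrier ≃+ X)
    (Φ : (muPermObj T.ωb T.act).carrier →+ Xb.carrier) (a : ZMod p) (f : Ω → ZMod p) :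
    T.homPsi Xb e Φ (a • f) = a • T.homPsi Xb e Φ f :=
  ZMod.map_smul (T.homPsi Xb e Φ) a f

omit [Fintype Ω] in
lemma smul_delta (ωb : Γ →* (ZMod p)ˣ) (act : Γ →* Equiv.Perm Ω) (γ : Γ) (y : Ω) :
    (γ • muOf ωb act (Pi.single y 1) : MuPermMod ωb act) =
      muOf ωb act ((ωb γ : ZMod p) • Pi.single (act γ y) 1) := by
  funext z
  show (ωb γ : ZMod p) * (Pi.single y (1 : ZMod p) : Ω → ZMod p) ((act γ)⁻¹ z) =
    (ωb γ : ZMod p) * (Pi.single (act γ y) (1 : ZMod p) : Ω → ZMod p) z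
  rw [Pi.single_apply, Pi.single_apply]
  have : ((act γ)⁻¹ z = y) ↔ (z = act γ y) := by
    rw [Equiv.Perm.inv_def, Equiv.symm_apply_eq]
  simp only [this]

lemma homFam_mem (T : ArchSetup 𝓤 U W c ω X Ω Γ) (Xb : FinCMod p Γ) (e : Xb.carrier ≃+ X)
    (he : ∀ (u : ↥U) (a : Xb.carrier), e (T.q u • a) = X.ρ u (e a))
    {Φ : (muPermObj T.ωb T.act).carrier →+ Xb.carrier}
    (hΦ : Φ ∈ homC (muPermObj T.ωb T.act) Xb) : T.homFam Xb e Φ ∈ T.fam := by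
  intro u y
  have h1 := smul_delta T.ωb T.act (T.q u) y
  have h2 : e (Φ (T.q u • muOf T.ωb T.act (Pi.single y 1))) =
      e (Φ (muOf T.ωb T.act ((T.ωb (T.q u) : ZMod p) • Pi.single (T.act (T.q u) y) 1))) :=
    congrArg (fun t => e (Φ t)) h1
  have h3 : X.ρ u (e (Φ (muOf T.ωb T.act (Pi.single y 1)))) =
      T.homPsi Xb e Φ ((T.ωb (T.q u) : ZMod p) • Pi.single (T.act (T.q u) y) 1) := by
    rw [← he, ← hΦ (T.q u)]
    exact h2
  show T.homPsi Xb e Φ (Pi.single (T.act (T.q u) y) 1) =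
    ((ω (u : G))⁻¹ : (ZMod p)ˣ).1 • X.ρ u (e (Φ (muOf T.ωb T.act (Pi.single y 1))))
  rw [h3, T.homPsi_smul, smul_smul, T.ωb_q, ← Units.val_mul, inv_mul_cancel, Units.val_one,
    one_smul]

lemma homFam_famHom (T : ArchSetup 𝓤 U W c ω X Ω Γ) (Xb : FinCMod p Γ) (e : Xb.carrier ≃+ X)
    (x : Ω → X) : T.homFam Xb e (T.famHom Xb e x) = x := by
  funext y
  show e (T.famHom Xb e x (muOf T.ωb T.act (Pi.single y 1))) = x y
  rw [T.famHom_apply, muVal_muOf]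
  simp [Pi.single_apply, ite_smul]

lemma sum_smul_single (f : Ω → ZMod p) :
    ∑ y, f y • (Pi.single y (1 : ZMod p) : Ω → ZMod p) = f := by
  funext z
  rw [Finset.sum_apply]
  simp [Pi.single_apply]

lemma famHom_homFam (T : ArchSetup 𝓤 U W c ω X Ω Γ) (Xb : FinCMod p Γ) (e : Xb.carrier ≃+ X)
    (Φ : (muPermObj T.ωb T.act).carrier →+ Xb.carrier) :
    T.famHom Xb e (T.homFam Xb e Φ) = Φ := by
  refine AddMonoidHom.ext fun f => ?_
  apply e.injective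
  rw [T.famHom_apply]
  have h1 : ∀ y, muVal T.ωb T.act f y • T.homFam Xb e Φ y =
      T.homPsi Xb e Φ (muVal T.ωb T.act f y • Pi.single y 1) := by
    intro y
    rw [T.homPsi_smul]
    rfl
  rw [Finset.sum_congr rfl (fun y _ => h1 y), ← map_sum, sum_smul_single, T.homPsi_apply,
    muOf_muVal]

/-- **(II)** `{twisted equivariant families on Ω} ≃ Hom_Γ(μ_p[Ω], X̄)`. -/
def homEquiv (T : ArchSetup 𝓤 U W c ω X Ω Γ) (Xb : FinCMod p Γ) (e : Xb.carrier ≃+ X)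
    (he : ∀ (u : ↥U) (a : Xb.carrier), e (T.q u • a) = X.ρ u (e a)) :
    ↥T.fam ≃ ↥(homC (muPermObj T.ωb T.act) Xb) where
  toFun x := ⟨T.famHom Xb e x.1, T.famHom_mem Xb e he x.2⟩
  invFun Φ := ⟨T.homFam Xb e Φ.1, T.homFam_mem Xb e he Φ.2⟩
  left_inv x := Subtype.ext (T.homFam_famHom Xb e x.1)
  right_inv Φ := Subtype.ext (T.famHom_homFam Xb e Φ.1)

end Hom

/-! ### (III) the dimension -/

/-- **G4, abstract form**: `dim (coInd_U X)^{c = -1} = ⟨μ_p[Ω], X̄⟩`, `Ω = ⟨c⟩ \ G / W`. -/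
theorem finrank_negEig [Finite Ω] (T : ArchSetup 𝓤 U W c ω X Ω Γ) (Xb : FinCMod p Γ)
    (e : Xb.carrier ≃+ X) (he : ∀ (u : ↥U) (a : Xb.carrier), e (T.q u • a) = X.ρ u (e a)) :
    (Module.finrank (ZMod p) ↥(negEig c (coInd U.subtype 𝓤 X)) : ℤ) =
      pairC (muPermObj T.ωb T.act) Xb := by
  classical
  let _ : Fintype Ω := Fintype.ofFinite Ω
  have E : ↥(negEig c (coInd U.subtype 𝓤 X)) ≃ ↥(homC (muPermObj T.ωb T.act) Xb) :=
    T.famEquiv.trans (T.homEquiv Xb e he)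
  have : Finite ↥(negEig c (coInd U.subtype 𝓤 X)) := Finite.of_equiv _ E.symm
  have : Module.Finite (ZMod p) ↥(negEig c (coInd U.subtype 𝓤 X)) := Module.Finite.of_finite
  have h := Module.natCard_eq_pow_finrank (K := ZMod p)
    (V := ↥(negEig c (coInd U.subtype 𝓤 X)))
  rw [Nat.card_zmod] at h
  unfold pairC
  rw [← Nat.card_congr E, h, Nat.log_pow (Fact.out : p.Prime).one_lt]

end ArchSetup

end Fermat.Agent.S56.EC
end
end MergeWrap_S56_W2_EC_Cyclic_Arch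

section MergeWrap_S56_W2_EC_Cyclic_ArchChar -- from S56/W2/EC/Cyclic/ArchChar.lean

set_option autoImplicit false

namespace Fermat.Agent.S56.EC

open Fermat.Agent.F4 ExtCitation

variable (p : ℕ) [Fact p.Prime]

/-- **Complex conjugation**: `ω(c) = -1`. -/
theorem cycloChar_complexConjugation : cycloChar p complexConjugation = -1 := by
  have hp : p.Prime := Fact.out
  haveI : NeZero p := ⟨hp.ne_zero⟩
  apply Units.ext
  rw [Units.val_neg, Units.val_one]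
  symm
  apply modularCyclotomicCharacter.unique (AlgebraicClosure ℚ) (card_rootsOfUnity_eq_self p)
    ((complexConjugation : AlgebraicClosure ℚ ≃ₐ[ℚ] AlgebraicClosure ℚ) :
      AlgebraicClosure ℚ ≃+* AlgebraicClosure ℚ)
  intro t ht
  have ht' : (t : AlgebraicClosure ℚ) ^ p = 1 := by
    have := (mem_rootsOfUnity p t).mp ht
    rw [← Units.val_pow_eq_pow_val, this, Units.val_one]
  show complexConjugation (t : AlgebraicClosure ℚ) = _
  rw [Fermat.Agent.Cyclo.complexConjugation_root p ht']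
  obtain ⟨m, hm⟩ := Nat.exists_eq_succ_of_ne_zero hp.ne_zero
  have hv : (-1 : ZMod p).val = m := by
    subst hm
    exact ZMod.val_neg_one m
  rw [hv]
  have ht'' : (t : AlgebraicClosure ℚ) ^ m * t = 1 := by
    rw [← pow_succ, ← Nat.succ_eq_add_one, ← hm]
    exact ht'
  exact inv_eq_of_mul_eq_one_left ht''

/-- `ω(c) = -1` in `ZMod p`. -/
theorem coe_cycloChar_complexConjugation :
    ((cycloChar p complexConjugation : (ZMod p)ˣ) : ZMod p) = -1 := by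
  rw [cycloChar_complexConjugation, Units.val_neg, Units.val_one]

end Fermat.Agent.S56.EC
end MergeWrap_S56_W2_EC_Cyclic_ArchChar

section MergeWrap_S56_W2_EC_Cyclic_InfPlace -- from S56/W2/EC/Cyclic/InfPlace.lean

set_option autoImplicit false

open NumberField

namespace Fermat.Agent.S56.EC

open Fermat.Agent.F4

variable (F : IntermediateField ℚ (AlgebraicClosure ℚ))

/-- The complex embedding `ι₀ ∘ g|_F` of `F`. -/
noncomputable def cxEmbAt (g : GQ) : F →+* ℂ :=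
  (complexEmbedding : AlgebraicClosure ℚ →+* ℂ).comp
    (((g : AlgebraicClosure ℚ →ₐ[ℚ] AlgebraicClosure ℚ) : AlgebraicClosure ℚ →+*
      AlgebraicClosure ℚ).comp (algebraMap F (AlgebraicClosure ℚ)))

lemma cxEmbAt_apply (g : GQ) (x : F) :
    cxEmbAt F g x = complexEmbedding (g (x : AlgebraicClosure ℚ)) := rfl

/-- The infinite place of `F` attached to `g ∈ G_ℚ`. -/
noncomputable def infPlaceAt [NumberField F] (g : GQ) : InfinitePlace F :=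
  InfinitePlace.mk (cxEmbAt F g)

/-- Two elements of `G_ℚ` give the same embedding of `F` iff they agree on `F`. -/
theorem cxEmbAt_eq_iff (g g' : GQ) :
    cxEmbAt F g = cxEmbAt F g' ↔ g⁻¹ * g' ∈ F.fixingSubgroup := by
  rw [IntermediateField.mem_fixingSubgroup_iff]
  constructor
  · intro h x hx
    have h1 := congrArg (fun φ : F →+* ℂ => φ ⟨x, hx⟩) h
    simp only [cxEmbAt_apply] at h1
    have h2 : g x = g' x := complexEmbedding.toRingHom.injective h1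
    show g⁻¹ (g' x) = x
    rw [← h2]
    exact g.symm_apply_apply x
  · intro h
    ext x
    rw [cxEmbAt_apply, cxEmbAt_apply]
    congr 1
    have h1 : g⁻¹ (g' (x : AlgebraicClosure ℚ)) = x := h x x.2
    have h2 : g (g⁻¹ (g' (x : AlgebraicClosure ℚ))) = g' (x : AlgebraicClosure ℚ) :=
      g.apply_symm_apply _
    rw [← h2, h1]

/-- The conjugate of `ι₀ ∘ g` is `ι₀ ∘ c g`. -/
theorem conjugate_cxEmbAt (g : GQ) :
    ComplexEmbedding.conjugate (cxEmbAt F g) = cxEmbAt F (complexConjugation * g) := by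
  ext x
  rw [ComplexEmbedding.conjugate_coe_eq, cxEmbAt_apply, cxEmbAt_apply]
  exact (complexEmbedding_complexConjugation _).symm

section Surj

/-- Every embedding of `ℚ̄` into `ℂ` is `ι₀ ∘ g` for some `g ∈ G_ℚ`. -/
theorem ip_exists_of_algHom (ψ : AlgebraicClosure ℚ →ₐ[ℚ] ℂ) :
    ∃ g : GQ, ∀ x : AlgebraicClosure ℚ, complexEmbedding (g x) = ψ x := by
  letI : Algebra (AlgebraicClosure ℚ) ℂ := complexEmbedding.toRingHom.toAlgebra
  have : IsScalarTower ℚ (AlgebraicClosure ℚ) ℂ :=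
    IsScalarTower.of_algebraMap_eq' (Subsingleton.elim _ _)
  have : Algebra.IsAlgebraic ℚ (AlgebraicClosure ℚ) := AlgebraicClosure.isAlgebraic ℚ
  have : IsAlgClosure ℚ (AlgebraicClosure ℚ) := ⟨inferInstance, inferInstance⟩
  have : Normal ℚ (AlgebraicClosure ℚ) := IsAlgClosure.normal ℚ (AlgebraicClosure ℚ)
  let e := Normal.algHomEquivAut ℚ ℂ (AlgebraicClosure ℚ)
  refine ⟨e ψ, fun x => ?_⟩
  have h := e.left_inv ψ
  have h1 := congrArg (fun f : AlgebraicClosure ℚ →ₐ[ℚ] ℂ => f x) h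
  exact h1

variable [NumberField F]

/-- Every complex embedding of `F` is `ι₀ ∘ g|_F` for some `g ∈ G_ℚ`. -/
theorem cxEmbAt_surjective (φ : F →+* ℂ) : ∃ g : GQ, cxEmbAt F g = φ := by
  letI : Algebra F ℂ := φ.toAlgebra
  have : Algebra.IsAlgebraic ℚ (AlgebraicClosure ℚ) := AlgebraicClosure.isAlgebraic ℚ
  have : Algebra.IsAlgebraic F (AlgebraicClosure ℚ) :=
    Algebra.IsAlgebraic.tower_top (K := ℚ) F
  let ψ₀ : AlgebraicClosure ℚ →ₐ[F] ℂ := IsAlgClosed.lift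
  obtain ⟨g, hg⟩ := ip_exists_of_algHom (ψ₀ : AlgebraicClosure ℚ →+* ℂ).toRatAlgHom
  refine ⟨g, ?_⟩
  ext x
  rw [cxEmbAt_apply, hg]
  exact ψ₀.commutes x

/-- Every infinite place of `F` is `infPlaceAt F g` for some `g ∈ G_ℚ`. -/
theorem infPlaceAt_surjective (w : InfinitePlace F) : ∃ g : GQ, infPlaceAt F g = w := by
  obtain ⟨g, hg⟩ := cxEmbAt_surjective F w.embedding
  refine ⟨g, ?_⟩
  unfold infPlaceAt
  rw [hg, InfinitePlace.mk_embedding]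

/-- `S_∞(F) = ⟨c⟩ \ G_ℚ / Fix(F)`. -/
theorem infPlaceAt_eq_iff (g g' : GQ) :
    infPlaceAt F g = infPlaceAt F g' ↔
      g⁻¹ * g' ∈ F.fixingSubgroup ∨ g⁻¹ * complexConjugation * g' ∈ F.fixingSubgroup := by
  unfold infPlaceAt
  rw [InfinitePlace.mk_eq_iff, conjugate_cxEmbAt, cxEmbAt_eq_iff, cxEmbAt_eq_iff]
  have hc : (complexConjugation : GQ)⁻¹ = complexConjugation :=
    inv_eq_of_mul_eq_one_right complexConjugation_mul_self
  rw [mul_inv_rev, hc]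

/-- The action of `G_ℚ` on the infinite places of a normal `F`: `u|_F • w_g = w_{g u⁻¹}`. -/
theorem smul_infPlaceAt [Normal ℚ F] (u g : GQ) :
    (AlgEquiv.restrictNormalHom F u) • infPlaceAt F g = infPlaceAt F (g * u⁻¹) := by
  unfold infPlaceAt
  rw [InfinitePlace.smul_mk]
  congr 1
  ext x
  rw [RingHom.comp_apply, cxEmbAt_apply, cxEmbAt_apply]
  congr 1
  have h1 : ((AlgEquiv.restrictNormalHom F u).symm x : F) =
      AlgEquiv.restrictNormalHom F u⁻¹ x := by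
    rw [map_inv]
    rfl
  have h2 : (((AlgEquiv.restrictNormalHom F u).symm : F →+* F) x : AlgebraicClosure ℚ) =
      u⁻¹ (x : AlgebraicClosure ℚ) := by
    show (((AlgEquiv.restrictNormalHom F u).symm x : F) : AlgebraicClosure ℚ) = _
    rw [h1]
    exact AlgEquiv.restrictNormal_commutes u⁻¹ F x
  rw [h2]
  rfl

end Surj

end Fermat.Agent.S56.EC
end MergeWrap_S56_W2_EC_Cyclic_InfPlace

section MergeWrap_S56_W2_EC_Cyclic_ArchQ -- from S56/W2/EC/Cyclic/ArchQ.lean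

set_option autoImplicit false

noncomputable section

open NumberField

namespace Fermat.Agent.S56.EC

open Fermat.Agent.F4 ExtCitation

variable {p : ℕ} [Fact p.Prime]

lemma negArch_eq_negEig (N : Rep.{0} (ZMod p) GQ) :
    negArch N = negEig complexConjugation N := rfl

/-- The archimedean setup for `G_ℚ`, `c` = complex conjugation, `ω` = the mod `p` cyclotomic
character, `Ω = S_∞(F)`. -/
def archSetupQ {S : Finset Nat.Primes} {U W : Subgroup GQ} (hW : W ∈ (levelsS S).sets)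
    (hWU : W ≤ U) (hWω : W ≤ MonoidHom.ker (cycloChar p)) {X : Rep.{0} (ZMod p) ↥U}
    (hX : ∀ u : ↥U, (u : GQ) ∈ W → ∀ x : X, X.ρ u x = x)
    (F : IntermediateField ℚ (AlgebraicClosure ℚ)) [NumberField F] [Normal ℚ F]
    (hF : F.fixingSubgroup = W) {Γ : Type} [Group Γ] (q : ↥U →* Γ)
    (hq : Function.Surjective q) (ωb : Γ →* (ZMod p)ˣ)
    (hωb : ∀ u : ↥U, ωb (q u) = cycloChar p (u : GQ))
    (act : Γ →* Equiv.Perm (InfinitePlace F))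
    (hact : ∀ (u : ↥U) (v : InfinitePlace F),
      act (q u) v = (AlgEquiv.restrictNormalHom F (u : GQ)) • v) :
    ArchSetup (levelsS S) U W complexConjugation (cycloChar p) X (InfinitePlace F) Γ where
  hW := hW
  hWU := hWU
  hX := hX
  hc := complexConjugation_mul_self
  hωc := cycloChar_complexConjugation p
  hωW := fun w hw => MonoidHom.mem_ker.1 (hWω hw)
  π := infPlaceAt F
  π_surj := infPlaceAt_surjective F
  π_eq := fun g g' => by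
    rw [← hF]
    exact infPlaceAt_eq_iff F g g'
  q := q
  q_surj := hq
  ωb := ωb
  ωb_q := hωb
  act := act
  act_π := fun u g => by
    rw [hact]
    exact smul_infPlaceAt F (u : GQ) g

/-- **G4** (`F` a number field with `Fix(F) = W`):
`dim (coInd_U X)^{c = -1} = ⟨μ_p[S_∞(F)], X̄⟩`. -/
theorem finrank_negArch_coInd {S : Finset Nat.Primes} {U W : Subgroup GQ}
    (hW : W ∈ (levelsS S).sets) (hWU : W ≤ U) (hWω : W ≤ MonoidHom.ker (cycloChar p))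
    {X : Rep.{0} (ZMod p) ↥U} (hX : ∀ u : ↥U, (u : GQ) ∈ W → ∀ x : X, X.ρ u x = x)
    (F : IntermediateField ℚ (AlgebraicClosure ℚ)) [NumberField F] [Normal ℚ F]
    (hF : F.fixingSubgroup = W) {Γ : Type} [Group Γ] (q : ↥U →* Γ)
    (hq : Function.Surjective q) (ωb : Γ →* (ZMod p)ˣ)
    (hωb : ∀ u : ↥U, ωb (q u) = cycloChar p (u : GQ))
    (act : Γ →* Equiv.Perm (InfinitePlace F))
    (hact : ∀ (u : ↥U) (v : InfinitePlace F),
      act (q u) v = (AlgEquiv.restrictNormalHom F (u : GQ)) • v)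
    (Xb : FinCMod p Γ) (e : Xb.carrier ≃+ X)
    (he : ∀ (u : ↥U) (a : Xb.carrier), e (q u • a) = X.ρ u (e a)) :
    (Module.finrank (ZMod p) ↥(negArch (coInd U.subtype (levelsS S) X)) : ℤ) =
      pairC (muPermObj ωb act) Xb :=
  (archSetupQ hW hWU hWω hX F hF q hq ωb hωb act hact).finrank_negEig Xb e he

/-- The fixed field of a level is normal over `ℚ`. -/
lemma OpenS.normal_field {S : Finset Nat.Primes} (L : OpenS S) (hL : L.U ∈ (levelsS S).sets) :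
    Normal ℚ L.field := by
  haveI := isGalois_Qbar
  haveI : L.U.Normal := (levelsS S).normal L.U hL
  exact (IsGalois.of_fixedField_normal_subgroup L.U).to_normal

/-- **G4** (`F = L.field`, `L.U = W` a level). -/
theorem OpenS.finrank_negArch_coInd {S : Finset Nat.Primes} (L : OpenS S) {U : Subgroup GQ}
    (hW : L.U ∈ (levelsS S).sets) (hWU : L.U ≤ U) (hWω : L.U ≤ MonoidHom.ker (cycloChar p))
    {X : Rep.{0} (ZMod p) ↥U} (hX : ∀ u : ↥U, (u : GQ) ∈ L.U → ∀ x : X, X.ρ u x = x)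
    [Normal ℚ L.field] {Γ : Type} [Group Γ] (q : ↥U →* Γ)
    (hq : Function.Surjective q) (ωb : Γ →* (ZMod p)ˣ)
    (hωb : ∀ u : ↥U, ωb (q u) = cycloChar p (u : GQ))
    (act : Γ →* Equiv.Perm (InfinitePlace L.field))
    (hact : ∀ (u : ↥U) (v : InfinitePlace L.field),
      act (q u) v = (AlgEquiv.restrictNormalHom L.field (u : GQ)) • v)
    (Xb : FinCMod p Γ) (e : Xb.carrier ≃+ X)
    (he : ∀ (u : ↥U) (a : Xb.carrier), e (q u • a) = X.ρ u (e a)) :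
    (Module.finrank (ZMod p) ↥(negArch (coInd U.subtype (levelsS S) X)) : ℤ) =
      pairC (muPermObj ωb act) Xb :=
  Fermat.Agent.S56.EC.finrank_negArch_coInd hW hWU hWω hX L.field L.fixingSubgroup_field q hq ωb
    hωb act hact Xb e he

end Fermat.Agent.S56.EC
end
end MergeWrap_S56_W2_EC_Cyclic_ArchQ

section MergeWrap_S56_W2_EC_Cyclic_ArchGlue -- from S56/W2/EC/Cyclic/ArchGlue.lean

set_option autoImplicit false

noncomputable section

open NumberField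

namespace Fermat.Agent.S56.EC

open Fermat.Agent.F4 ExtCitation

namespace CycSetup

variable {p : ℕ} [Fact p.Prime] {S : Finset Nat.Primes} (𝒮 : CycSetup p S)

/-- `X̄ ≃ X`. -/
def objEquiv (X : Rep.{0} (ZMod p) ↥𝒮.U) (hfin : Module.Finite (ZMod p) X)
    (htriv : ∀ (u : ↥𝒮.U), (u : GQ) ∈ 𝒮.W → ∀ x : X, X.ρ u x = x) :
    (𝒮.obj X hfin htriv).carrier ≃+ X :=
  { 𝒮.objVal X hfin htriv with
    invFun := 𝒮.objOf X hfin htriv
    left_inv := fun x => 𝒮.objOf_objVal X hfin htriv x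
    right_inv := fun x => 𝒮.objVal_objOf X hfin htriv x }

lemma objEquiv_apply (X : Rep.{0} (ZMod p) ↥𝒮.U) (hfin : Module.Finite (ZMod p) X)
    (htriv : ∀ (u : ↥𝒮.U), (u : GQ) ∈ 𝒮.W → ∀ x : X, X.ρ u x = x)
    (x : (𝒮.obj X hfin htriv).carrier) :
    𝒮.objEquiv X hfin htriv x = 𝒮.objVal X hfin htriv x := rfl

/-- **(G4)** `dim (coInd_U X)^{c = -1} = ⟨μ_p[S_∞(L)], X̄⟩`. -/
theorem finrank_negArch (X : Rep.{0} (ZMod p) ↥𝒮.U) (hfin : Module.Finite (ZMod p) X)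
    (htriv : ∀ (u : ↥𝒮.U), (u : GQ) ∈ 𝒮.W → ∀ x : X, X.ρ u x = x) :
    (Module.finrank (ZMod p) ↥(negArch (coInd 𝒮.U.subtype (levelsS S) X)) : ℤ) =
      pairC (muPermObj 𝒮.ω 𝒮.acti) (𝒮.obj X hfin htriv) :=
  OpenS.finrank_negArch_coInd 𝒮.L 𝒮.hW 𝒮.hWU 𝒮.hω htriv 𝒮.proj 𝒮.proj_surjective 𝒮.ω
    𝒮.ω_proj 𝒮.acti (fun _ _ => rfl) (𝒮.obj X hfin htriv) (𝒮.objEquiv X hfin htriv)
    (fun u a => 𝒮.objVal_smul X hfin htriv u a)

end CycSetup

end Fermat.Agent.S56.EC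
end
end MergeWrap_S56_W2_EC_Cyclic_ArchGlue

section MergeWrap_S56_W2_EC_Sh_Psi -- from S56/W2/EC/Sh/Psi.lean

/-!
# S56 / W2 / EC / Sh / Psi : `Ψ` of a module coinduced from an open subgroup (helper48)

Step (C) of W2-EC: for `U` open in `G_S` and a smooth `𝔽_p[U]`-module `X`,

  `Ψ(coInd_U X) = h¹(U, X) - h⁰(U, X) - dim HH⁰(U, Hom(X, K_C|_U)) - dim (coInd_U X)^{c = -1}`.
-/

set_option autoImplicit false

open CategoryTheory groupCohomology ExtCitation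

namespace Fermat.Agent.S56.EC

open Fermat.Agent.F4

variable {p : ℕ} [Fact p.Prime]

lemma ecSh_H0glob_eq (N : Rep.{0} (ZMod p) GQ) : H0glob N = ecShInv N := rfl

/-- **Step (C)**: `Ψ` of a coinduced module in terms of the subgroup. -/
theorem ecSh_psiK_coInd (S : Finset Nat.Primes) (KC : Cx (ZMod p) GQ) {U : Subgroup GQ}
    (hU : (levelsS S).IsOpen U) (X : Rep.{0} (ZMod p) ↥U)
    (hX : IsSmooth ((levelsS S).comap U.subtype) X) :
    psiK S KC (coInd U.subtype (levelsS S) X)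
      = (Module.finrank (ZMod p) (H1sm ((levelsS S).comap U.subtype) X) : ℤ)
        - (Module.finrank (ZMod p) ↥(ecShInv X) : ℤ)
        - (Module.finrank (ZMod p) ↥(HH0 (homCx X (KC.res U.subtype))) : ℤ)
        - (Module.finrank (ZMod p) ↥(negArch (coInd U.subtype (levelsS S) X)) : ℤ) := by
  unfold psiK
  rw [ecSh_H0glob_eq, (ecShH1 U.subtype (levelsS S) X hX).finrank_eq,
    ecSh_finrank_inv U.subtype (levelsS S) X,
    ecSh_finrank_HH0_hom_of_isOpen hU hX KC]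

end Fermat.Agent.S56.EC
end MergeWrap_S56_W2_EC_Sh_Psi

section MergeWrap_S56_W2_EC_Cyclic_Glue_Asm -- from S56/W2/EC/Cyclic/Glue/Asm.lean

/-!
# S56 / W2 / EC / Cyclic / Glue / Asm : the cyclic case from the `K₀` identities (helper48)

`CycSetup.psiK_coInd_eq_zero` : for `𝒮 : CycSetup p S`, from the four `K₀` identities (N1) Kummer,
(N3) torsion, (N4) reciprocity, (N6) units for the concrete objects `𝒮.Hmu`, `Zobj ≃ cyZ Pk W`,

  `Ψ(coInd_U X) = 0`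

for every finite `𝔽_p[U]`-module `X` with trivial action of `W`
(`ecSh_psiK_coInd` + (G1)–(G4) + `CycK0.formula`).
-/

set_option autoImplicit false
set_option linter.unusedSectionVars false

noncomputable section

namespace Fermat.Agent.S56.EC

open Fermat.Agent.F4 ExtCitation NumberField

namespace CycSetup

variable {p : ℕ} [Fact p.Prime] {S : Finset Nat.Primes} (𝒮 : CycSetup p S)

lemma isOpen_U : (levelsS S).IsOpen 𝒮.U := ⟨𝒮.W, 𝒮.hW, 𝒮.hWU⟩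

lemma isSmooth_of_triv (X : Rep.{0} (ZMod p) ↥𝒮.U)
    (htriv : ∀ (u : ↥𝒮.U), (u : GQ) ∈ 𝒮.W → ∀ x : X, X.ρ u x = x) :
    IsSmooth ((levelsS S).comap 𝒮.U.subtype) X := fun x =>
  ⟨𝒮.W.comap 𝒮.U.subtype, ⟨𝒮.W, 𝒮.hW, rfl⟩, fun u hu => htriv u hu x⟩

/-- **The cyclic case from the `K₀` identities.** -/
theorem psiK_coInd_eq_zero {hpS : pPrime p ∈ S} (Pk : ECPack p S hpS)
    (Emod Zobj Sha : FinCMod p 𝒮.Γ)
    (A : Type) [AddCommGroup A] [DistribMulAction 𝒮.Γ A] [Finite A]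
    (zVal : Zobj.carrier ≃+ ↥(cyZ Pk 𝒮.W))
    (hz : ∀ (u : ↥𝒮.U) (a : Zobj.carrier),
      ((zVal (𝒮.proj u • a) : ↥(cyZ Pk 𝒮.W)) : Pk.KC.K0) =
        Pk.KC.K0.ρ (u : GQ) ((zVal a : ↥(cyZ Pk 𝒮.W)) : Pk.KC.K0))
    (kummer : ∀ d : FinCMod p 𝒮.Γ → ℤ, IsAdditive d →
      d 𝒮.Hmu = d Emod + d (torObj (C := 𝒮.Γ) A (NeZero.ne p)))
    (tors : ∀ d : FinCMod p 𝒮.Γ → ℤ, IsAdditive d →
      d Zobj = d (muPermObj 𝒮.ω 𝒮.actf) - d (muObj 𝒮.ω) + d Sha)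
    (recip : ∀ d : FinCMod p 𝒮.Γ → ℤ, IsAdditive d →
      d Sha = d (dualObj 𝒮.ω (modObj (C := 𝒮.Γ) A (NeZero.ne p))))
    (units : ∀ d : FinCMod p 𝒮.Γ → ℤ, IsAdditive d →
      d Emod - d (muObj 𝒮.ω) + d (trivObj p 𝒮.Γ) = d (permObj p 𝒮.actf) + d (permObj p 𝒮.acti))
    (X : Rep.{0} (ZMod p) ↥𝒮.U) (hfin : Module.Finite (ZMod p) X)
    (htriv : ∀ (u : ↥𝒮.U), (u : GQ) ∈ 𝒮.W → ∀ x : X, X.ρ u x = x) :
    psiK S Pk.KC (coInd 𝒮.U.subtype (levelsS S) X) = 0 := by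
  let I : CycK0 𝒮.ω :=
    { Hμ := 𝒮.Hmu
      Emod := Emod
      Z := Zobj
      Sha := Sha
      A := A
      Ωf := ↥𝒮.T.carrier
      Ωi := InfinitePlace 𝒮.L.field
      actf := 𝒮.actf
      acti := 𝒮.acti
      kummer := kummer
      tors := tors
      recip := recip
      units := units }
  rw [ecSh_psiK_coInd S Pk.KC 𝒮.isOpen_U X (𝒮.isSmooth_of_triv X htriv),
    𝒮.glueG1 X hfin htriv, 𝒮.glueG2 X hfin htriv, 𝒮.glueG3 X hfin htriv Pk Zobj zVal hz,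
    𝒮.finrank_negArch X hfin htriv]
  exact CycK0.formula I 𝒮.card_coprime (𝒮.obj X hfin htriv)

end CycSetup

/-- **(C) + (D)** from the `K₀` identities of every cyclic setting. -/
theorem psiCoindZero_of_fields {p : ℕ} [Fact p.Prime] {S : Finset Nat.Primes}
    {hpS : pPrime p ∈ S} (Pk : ECPack p S hpS)
    (h : ∀ 𝒮 : CycSetup p S, ∃ (Emod Zobj Sha : FinCMod p 𝒮.Γ) (A : Type) (_ : AddCommGroup A)
      (_ : DistribMulAction 𝒮.Γ A) (_ : Finite A) (zVal : Zobj.carrier ≃+ ↥(cyZ Pk 𝒮.W)),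
      (∀ (u : ↥𝒮.U) (a : Zobj.carrier),
        ((zVal (𝒮.proj u • a) : ↥(cyZ Pk 𝒮.W)) : Pk.KC.K0) =
          Pk.KC.K0.ρ (u : GQ) ((zVal a : ↥(cyZ Pk 𝒮.W)) : Pk.KC.K0)) ∧
      (∀ d : FinCMod p 𝒮.Γ → ℤ, IsAdditive d →
        d 𝒮.Hmu = d Emod + d (torObj (C := 𝒮.Γ) A (NeZero.ne p))) ∧
      (∀ d : FinCMod p 𝒮.Γ → ℤ, IsAdditive d →
        d Zobj = d (muPermObj 𝒮.ω 𝒮.actf) - d (muObj 𝒮.ω) + d Sha) ∧
      (∀ d : FinCMod p 𝒮.Γ → ℤ, IsAdditive d →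
        d Sha = d (dualObj 𝒮.ω (modObj (C := 𝒮.Γ) A (NeZero.ne p)))) ∧
      (∀ d : FinCMod p 𝒮.Γ → ℤ, IsAdditive d →
        d Emod - d (muObj 𝒮.ω) + d (trivObj p 𝒮.Γ) =
          d (permObj p 𝒮.actf) + d (permObj p 𝒮.acti))) :
    PsiCoindZero S Pk.KC := by
  intro W U hW hWU hω hidx X hfin htriv
  obtain ⟨Emod, Zobj, Sha, A, iA, iB, iC, zVal, hz, h1, h2, h3, h4⟩ :=
    h ⟨W, U, hW, hWU, hω, hidx⟩
  exact CycSetup.psiK_coInd_eq_zero ⟨W, U, hW, hWU, hω, hidx⟩ Pk Emod Zobj Sha A zVal hz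
    h1 h2 h3 h4 X hfin htriv

end Fermat.Agent.S56.EC
end
end MergeWrap_S56_W2_EC_Cyclic_Glue_Asm

section MergeWrap_S56_W2_EC_Cyclic_KummerK0 -- from S56/W2/EC/Cyclic/KummerK0.lean

/-!
# S56 / W2 / EC / Cyclic / KummerK0 : the Kummer sequence in `K₀`, universal form
(seat CY-K = N1 of the cyclic case; helper86)

`L : OpenS S` (`W = L.U`), `p ∈ S`, `W` fixes `μ_p`.  `C` a group acting on `(ℚ_S)ˣ` through
`r : C →* G_ℚ` with values in the normaliser of `W`.  For **any** finite `𝔽_p[C]`-modules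
`Hobj`, `Eobj`, `Aobj` presented as

* `κ : R_W → Hobj` surjective with kernel `Fˣ`                (`Hobj ≅ R_W / Fˣ ≅ Hom_sm(W, μ_p)`),
* `πE : E^W → Eobj` surjective with kernel `p • E^W`          (`Eobj ≅ E^W / p`),
* `α : R_W → Aobj` surjective with kernel `(R_W ∩ E) + Fˣ`    (`Aobj ≅ A[p]`, `A = T_W/(E + Fˣ)`),

all equivariant, every additive function `d` satisfies `d Hobj = d Eobj + d Aobj`
(`kummer_universal`): the maps `i : Eobj → Hobj`, `e = p • t ↦ κ t`, and `q : Hobj → Aobj`,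
`κ t ↦ α t`, form a short exact sequence.
-/

set_option autoImplicit false
set_option linter.unusedSectionVars false

open CategoryTheory groupCohomology ExtCitation

namespace Fermat.Agent.S56.EC

open Fermat.Agent.F4

variable {S : Finset Nat.Primes} (L : OpenS S) {p : ℕ} [Fact p.Prime] {C : Type} [Group C]

/-- Multiplication by `p`, `R_W ∩ E → E^W`. -/
noncomputable def kumMulP (p : ℕ) : ↥(L.RE p) →+ ↥L.EW where
  toFun t := ⟨p • (t : QSx S), L.nsmul_mem_EW t.2⟩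
  map_zero' := Subtype.ext (by
    show p • ((0 : ↥(L.RE p)) : QSx S) = 0
    rw [AddSubgroup.coe_zero, nsmul_zero])
  map_add' a b := Subtype.ext (by
    show p • ((a + b : ↥(L.RE p)) : QSx S) = p • (a : QSx S) + p • (b : QSx S)
    rw [AddSubgroup.coe_add, nsmul_add])

@[simp] lemma kumMulP_coe (t : ↥(L.RE p)) : ((kumMulP L p t : ↥L.EW) : QSx S) = p • (t : QSx S) :=
  rfl

lemma kumMulP_surjective (hpS : pPrime p ∈ S) : Function.Surjective (kumMulP L p) := by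
  intro e
  obtain ⟨t, ht, hte⟩ := L.exists_nsmul_eq_of_mem_EW hpS e.2
  exact ⟨⟨t, ht⟩, Subtype.ext hte⟩

/-- **The Kummer sequence in `K₀`, universal form.** -/
theorem kummer_universal (hpS : pPrime p ∈ S)
    (hμ : ∀ g ∈ L.U, ∀ t : AlgebraicClosure ℚ, t ^ p = 1 → g t = t)
    (r : C →* GQ) (hstab : ∀ c : C, r c ∈ Subgroup.normalizer (L.U : Set GQ))
    (Hobj Eobj Aobj : FinCMod p C)
    (κ : ↥(L.RW p) →+ Hobj.carrier) (hκs : Function.Surjective κ)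
    (hκk : ∀ t : ↥(L.RW p), κ t = 0 ↔ (t : QSx S) ∈ L.Fx)
    (hκe : ∀ (c : C) (t t' : ↥(L.RW p)), (t' : QSx S) = (QSx S).ρ (r c) t → κ t' = c • κ t)
    (πE : ↥L.EW →+ Eobj.carrier) (hπs : Function.Surjective πE)
    (hπk : ∀ e : ↥L.EW, πE e = 0 ↔ ∃ e' ∈ L.EW, p • e' = (e : QSx S))
    (hπe : ∀ (c : C) (e e' : ↥L.EW), (e' : QSx S) = (QSx S).ρ (r c) e → πE e' = c • πE e)
    (α : ↥(L.RW p) →+ Aobj.carrier) (hαs : Function.Surjective α)
    (hαk : ∀ t : ↥(L.RW p), α t = 0 ↔ (t : QSx S) ∈ L.RE p ⊔ L.Fx)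
    (hαe : ∀ (c : C) (t t' : ↥(L.RW p)), (t' : QSx S) = (QSx S).ρ (r c) t → α t' = c • α t)
    {d : FinCMod p C → ℤ} (hd : IsAdditive d) : d Hobj = d Eobj + d Aobj := by
  have hp : p.Prime := Fact.out
  -- the two maps out of `R_W ∩ E`
  let incl : ↥(L.RE p) →+ ↥(L.RW p) := AddSubgroup.inclusion inf_le_left
  have hincl : ∀ t : ↥(L.RE p), ((incl t : ↥(L.RW p)) : QSx S) = (t : QSx S) := fun _ => rfl
  let fE : ↥(L.RE p) →+ Eobj.carrier := πE.comp (kumMulP L p)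
  let gE : ↥(L.RE p) →+ Hobj.carrier := κ.comp incl
  have hfE : Function.Surjective fE := hπs.comp (kumMulP_surjective L hpS)
  have hfE0 : ∀ t : ↥(L.RE p), fE t = 0 ↔ (t : QSx S) ∈ L.EW := by
    intro t
    show πE (kumMulP L p t) = 0 ↔ _
    rw [hπk]
    constructor
    · rintro ⟨e', he', h⟩
      exact L.mem_EW_of_nsmul_eq hμ t.2.2 he' h.symm
    · intro h
      exact ⟨(t : QSx S), h, rfl⟩
  have hker : fE.ker ≤ gE.ker := by
    intro t ht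
    rw [AddMonoidHom.mem_ker] at ht ⊢
    show κ (incl t) = 0
    rw [hκk, hincl]
    exact ((hfE0 t).1 ht).2
  let i : Eobj.carrier →+ Hobj.carrier := fE.liftOfSurjective hfE ⟨gE, hker⟩
  have hi : ∀ t : ↥(L.RE p), i (fE t) = κ (incl t) := fun t =>
    AddMonoidHom.liftOfRightInverse_comp_apply _ _ _ ⟨gE, hker⟩ t
  -- the map `Hobj → Aobj`
  have hker' : κ.ker ≤ α.ker := by
    intro t ht
    rw [AddMonoidHom.mem_ker] at ht ⊢
    rw [hαk]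
    exact AddSubgroup.mem_sup_right ((hκk t).1 ht)
  let q : Hobj.carrier →+ Aobj.carrier := κ.liftOfSurjective hκs ⟨α, hker'⟩
  have hq : ∀ t : ↥(L.RW p), q (κ t) = α t := fun t =>
    AddMonoidHom.liftOfRightInverse_comp_apply _ _ _ ⟨α, hker'⟩ t
  -- stability
  have hRE : ∀ (c : C) (t : QSx S), t ∈ L.RE p → (QSx S).ρ (r c) t ∈ L.RE p := fun c t ht =>
    ⟨L.RW_stable p (r c) (hstab c) t ht.1, sUnitsAdd_stable S (r c) t ht.2⟩
  refine hd Eobj Hobj Aobj i q ?_ ?_ ?_ ?_ ?_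
  · -- `i` equivariant
    intro c x
    obtain ⟨t, rfl⟩ := hfE x
    let t' : ↥(L.RE p) := ⟨(QSx S).ρ (r c) (t : QSx S), hRE c _ t.2⟩
    have h1 : fE t' = c • fE t := by
      show πE (kumMulP L p t') = c • πE (kumMulP L p t)
      refine hπe c _ _ ?_
      show p • (QSx S).ρ (r c) (t : QSx S) = (QSx S).ρ (r c) (p • (t : QSx S))
      rw [map_nsmul]
    rw [← h1, hi, hi]
    exact hκe c _ _ rfl
  · -- `q` equivariant
    intro c h
    obtain ⟨t, rfl⟩ := hκs h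
    let t' : ↥(L.RW p) := ⟨(QSx S).ρ (r c) (t : QSx S), L.RW_stable p (r c) (hstab c) _ t.2⟩
    have h1 : κ t' = c • κ t := hκe c _ _ rfl
    rw [← h1, hq, hq]
    exact hαe c _ _ rfl
  · -- `i` injective
    rw [injective_iff_map_eq_zero]
    intro x hx
    obtain ⟨t, rfl⟩ := hfE x
    rw [hi, hκk, hincl] at hx
    exact (hfE0 t).2 ⟨t.2.2, hx⟩
  · -- `q` surjective
    intro a
    obtain ⟨t, rfl⟩ := hαs a
    exact ⟨κ t, hq t⟩
  · -- exactness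
    intro h
    obtain ⟨t, rfl⟩ := hκs h
    rw [hq, hαk]
    constructor
    · intro ht
      obtain ⟨t₁, ht₁, a, ha, hta⟩ := AddSubgroup.mem_sup.1 ht
      refine ⟨fE ⟨t₁, ht₁⟩, ?_⟩
      rw [hi]
      have h0 : κ (t - incl ⟨t₁, ht₁⟩) = 0 := by
        rw [hκk]
        show (t : QSx S) - t₁ ∈ L.Fx
        rw [← hta, add_sub_cancel_left]
        exact ha
      rw [map_sub, sub_eq_zero] at h0
      exact h0.symm
    · rintro ⟨x, hx⟩
      obtain ⟨t₁, rfl⟩ := hfE x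
      rw [hi] at hx
      have h0 : κ (t - incl t₁) = 0 := by rw [map_sub, hx, sub_self]
      rw [hκk] at h0
      have e : (t : QSx S) = (t₁ : QSx S) + ((t : QSx S) - (t₁ : QSx S)) := by abel
      rw [e]
      exact AddSubgroup.add_mem _ (AddSubgroup.mem_sup_left t₁.2) (AddSubgroup.mem_sup_right h0)

end Fermat.Agent.S56.EC
end MergeWrap_S56_W2_EC_Cyclic_KummerK0

section MergeWrap_S56_W2_EC_Cyclic_KummerK0Q -- from S56/W2/EC/Cyclic/KummerK0Q.lean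

/-!
# S56 / W2 / EC / Cyclic / KummerK0Q : the Kummer sequence in `K₀`, universal form over a quotient
(seat CY-K = N1 of the cyclic case; helper86)

Same as `kummer_universal` (`KummerK0.lean`), for modules over a quotient `qH : H ↠ C` of the group
`H` which acts on `(ℚ_S)ˣ` through `r : H →* G_ℚ` (application: `H = ↥U`, `C = Γ = U ⧸ W`,
`qH = 𝒮.proj`, `r = U.subtype`).
-/

set_option autoImplicit false
set_option linter.unusedSectionVars false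

open CategoryTheory groupCohomology ExtCitation

namespace Fermat.Agent.S56.EC

open Fermat.Agent.F4

variable {S : Finset Nat.Primes} (L : OpenS S) {p : ℕ} [Fact p.Prime] {C : Type} [Group C]

/-- **The Kummer sequence in `K₀`, universal form**, for a quotient `qH : H ↠ C` of a group
`H` acting through `r : H →* G_ℚ` (in the application `H = ↥U`, `C = Γ = U ⧸ W`). -/
theorem kummer_universalQ (hpS : pPrime p ∈ S)
    (hμ : ∀ g ∈ L.U, ∀ t : AlgebraicClosure ℚ, t ^ p = 1 → g t = t)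
    {H : Type} [Group H] (qH : H →* C) (hqH : Function.Surjective qH)
    (r : H →* GQ) (hstab : ∀ c : H, r c ∈ Subgroup.normalizer (L.U : Set GQ))
    (Hobj Eobj Aobj : FinCMod p C)
    (κ : ↥(L.RW p) →+ Hobj.carrier) (hκs : Function.Surjective κ)
    (hκk : ∀ t : ↥(L.RW p), κ t = 0 ↔ (t : QSx S) ∈ L.Fx)
    (hκe : ∀ (c : H) (t t' : ↥(L.RW p)), (t' : QSx S) = (QSx S).ρ (r c) t → κ t' = qH c • κ t)
    (πE : ↥L.EW →+ Eobj.carrier) (hπs : Function.Surjective πE)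
    (hπk : ∀ e : ↥L.EW, πE e = 0 ↔ ∃ e' ∈ L.EW, p • e' = (e : QSx S))
    (hπe : ∀ (c : H) (e e' : ↥L.EW), (e' : QSx S) = (QSx S).ρ (r c) e → πE e' = qH c • πE e)
    (α : ↥(L.RW p) →+ Aobj.carrier) (hαs : Function.Surjective α)
    (hαk : ∀ t : ↥(L.RW p), α t = 0 ↔ (t : QSx S) ∈ L.RE p ⊔ L.Fx)
    (hαe : ∀ (c : H) (t t' : ↥(L.RW p)), (t' : QSx S) = (QSx S).ρ (r c) t → α t' = qH c • α t)
    {d : FinCMod p C → ℤ} (hd : IsAdditive d) : d Hobj = d Eobj + d Aobj := by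
  have hp : p.Prime := Fact.out
  -- the two maps out of `R_W ∩ E`
  let incl : ↥(L.RE p) →+ ↥(L.RW p) := AddSubgroup.inclusion inf_le_left
  have hincl : ∀ t : ↥(L.RE p), ((incl t : ↥(L.RW p)) : QSx S) = (t : QSx S) := fun _ => rfl
  let fE : ↥(L.RE p) →+ Eobj.carrier := πE.comp (kumMulP L p)
  let gE : ↥(L.RE p) →+ Hobj.carrier := κ.comp incl
  have hfE : Function.Surjective fE := hπs.comp (kumMulP_surjective L hpS)
  have hfE0 : ∀ t : ↥(L.RE p), fE t = 0 ↔ (t : QSx S) ∈ L.EW := by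
    intro t
    show πE (kumMulP L p t) = 0 ↔ _
    rw [hπk]
    constructor
    · rintro ⟨e', he', h⟩
      exact L.mem_EW_of_nsmul_eq hμ t.2.2 he' h.symm
    · intro h
      exact ⟨(t : QSx S), h, rfl⟩
  have hker : fE.ker ≤ gE.ker := by
    intro t ht
    rw [AddMonoidHom.mem_ker] at ht ⊢
    show κ (incl t) = 0
    rw [hκk, hincl]
    exact ((hfE0 t).1 ht).2
  let i : Eobj.carrier →+ Hobj.carrier := fE.liftOfSurjective hfE ⟨gE, hker⟩
  have hi : ∀ t : ↥(L.RE p), i (fE t) = κ (incl t) := fun t =>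
    AddMonoidHom.liftOfRightInverse_comp_apply _ _ _ ⟨gE, hker⟩ t
  -- the map `Hobj → Aobj`
  have hker' : κ.ker ≤ α.ker := by
    intro t ht
    rw [AddMonoidHom.mem_ker] at ht ⊢
    rw [hαk]
    exact AddSubgroup.mem_sup_right ((hκk t).1 ht)
  let q : Hobj.carrier →+ Aobj.carrier := κ.liftOfSurjective hκs ⟨α, hker'⟩
  have hq : ∀ t : ↥(L.RW p), q (κ t) = α t := fun t =>
    AddMonoidHom.liftOfRightInverse_comp_apply _ _ _ ⟨α, hker'⟩ t
  -- stability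
  have hRE : ∀ (c : H) (t : QSx S), t ∈ L.RE p → (QSx S).ρ (r c) t ∈ L.RE p := fun c t ht =>
    ⟨L.RW_stable p (r c) (hstab c) t ht.1, sUnitsAdd_stable S (r c) t ht.2⟩
  refine hd Eobj Hobj Aobj i q ?_ ?_ ?_ ?_ ?_
  · -- `i` equivariant
    intro c' x
    obtain ⟨c, rfl⟩ := hqH c'
    obtain ⟨t, rfl⟩ := hfE x
    let t' : ↥(L.RE p) := ⟨(QSx S).ρ (r c) (t : QSx S), hRE c _ t.2⟩
    have h1 : fE t' = qH c • fE t := by
      show πE (kumMulP L p t') = qH c • πE (kumMulP L p t)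
      refine hπe c _ _ ?_
      show p • (QSx S).ρ (r c) (t : QSx S) = (QSx S).ρ (r c) (p • (t : QSx S))
      rw [map_nsmul]
    rw [← h1, hi, hi]
    exact hκe c _ _ rfl
  · -- `q` equivariant
    intro c' h
    obtain ⟨c, rfl⟩ := hqH c'
    obtain ⟨t, rfl⟩ := hκs h
    let t' : ↥(L.RW p) := ⟨(QSx S).ρ (r c) (t : QSx S), L.RW_stable p (r c) (hstab c) _ t.2⟩
    have h1 : κ t' = qH c • κ t := hκe c _ _ rfl
    rw [← h1, hq, hq]
    exact hαe c _ _ rfl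
  · -- `i` injective
    rw [injective_iff_map_eq_zero]
    intro x hx
    obtain ⟨t, rfl⟩ := hfE x
    rw [hi, hκk, hincl] at hx
    exact (hfE0 t).2 ⟨t.2.2, hx⟩
  · -- `q` surjective
    intro a
    obtain ⟨t, rfl⟩ := hαs a
    exact ⟨κ t, hq t⟩
  · -- exactness
    intro h
    obtain ⟨t, rfl⟩ := hκs h
    rw [hq, hαk]
    constructor
    · intro ht
      obtain ⟨t₁, ht₁, a, ha, hta⟩ := AddSubgroup.mem_sup.1 ht
      refine ⟨fE ⟨t₁, ht₁⟩, ?_⟩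
      rw [hi]
      have h0 : κ (t - incl ⟨t₁, ht₁⟩) = 0 := by
        rw [hκk]
        show (t : QSx S) - t₁ ∈ L.Fx
        rw [← hta, add_sub_cancel_left]
        exact ha
      rw [map_sub, sub_eq_zero] at h0
      exact h0.symm
    · rintro ⟨x, hx⟩
      obtain ⟨t₁, rfl⟩ := hfE x
      rw [hi] at hx
      have h0 : κ (t - incl t₁) = 0 := by rw [map_sub, hx, sub_self]
      rw [hκk] at h0
      have e : (t : QSx S) = (t₁ : QSx S) + ((t : QSx S) - (t₁ : QSx S)) := by abel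
      rw [e]
      exact AddSubgroup.add_mem _ (AddSubgroup.mem_sup_left t₁.2) (AddSubgroup.mem_sup_right h0)

end Fermat.Agent.S56.EC
end MergeWrap_S56_W2_EC_Cyclic_KummerK0Q

section MergeWrap_S56_W2_EC_Cyclic_KummerLog -- from S56/W2/EC/Cyclic/KummerLog.lean

/-!
# S56 / W2 / EC / Cyclic / KummerLog : the Kummer symbol with values in `𝔽_p`
(seat CY-K = N1 of the cyclic case; helper86)

`φ : Fp1 p →+ EsRep S` a root map (`IsRootMap φ`: injective, equivariant, onto `E[p]`).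

* `kumLog φ x` : the logarithm of `x ∈ (ℚ_S)ˣ[p]` with respect to `φ` (`0` outside `(ℚ_S)ˣ[p]`);
  `kumLog_spec`, `kumLog_add`, `kumLog_ρ` (`kumLog (g x) = ω(g) * kumLog x`), `kumLog_eq_zero_iff`;
* `kumZ φ t g = kumLog φ (kum t g)` : the `𝔽_p`-valued Kummer symbol;
  `kumZ_add` (additive in `t ∈ R_W`), `kumZ_mul` (a homomorphism on `W`), `kumZ_smooth`,
  `kumZ_eq_zero_iff` (kernel `Fˣ`), `kumZ_conj` (`kumZ (u t) (u g u⁻¹) = ω(u) * kumZ t g`),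
  `exists_kumZ_eq` (**surjectivity** onto the smooth homomorphisms `W → 𝔽_p`).
-/

set_option autoImplicit false
set_option linter.unusedSectionVars false

open CategoryTheory groupCohomology ExtCitation

namespace Fermat.Agent.F4

open Fermat.Agent.F4Cf

variable {S : Finset Nat.Primes} {p : ℕ} [Fact p.Prime]

/-- The logarithm `(ℚ_S)ˣ[p] → 𝔽_p` attached to a root map. -/
noncomputable def kumLog (φ : Fp1 p →+ EsRep S) (x : QSx S) : ZMod p :=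
  open Classical in
  if h : ∃ z : Fp1 p, ((φ z : EsRep S) : QSx S) = x then (h.choose : ZMod p) else 0

section Log

variable {φ : Fp1 p →+ EsRep S} (hφ : IsRootMap φ)

include hφ

lemma kumLog_apply (z : Fp1 p) : kumLog φ ((φ z : EsRep S) : QSx S) = (z : ZMod p) := by
  have h : ∃ z' : Fp1 p, ((φ z' : EsRep S) : QSx S) = ((φ z : EsRep S) : QSx S) := ⟨z, rfl⟩
  unfold kumLog
  rw [dif_pos h]
  exact hφ.inj (Subtype.ext h.choose_spec)

lemma exists_eq_of_nsmul_eq_zero {x : QSx S} (hx : p • x = 0) :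
    ∃ z : Fp1 p, ((φ z : EsRep S) : QSx S) = x := by
  have hp : p.Prime := Fact.out
  have hxE : x ∈ sUnitsAdd S := OpenS.mem_sUnitsAdd_of_nsmul_eq_zero hp.ne_zero hx
  have h0 : (p : ℤ) • (⟨x, hxE⟩ : EsRep S) = 0 := by
    apply Subtype.ext
    show (p : ℤ) • x = 0
    rw [natCast_zsmul, hx]
  obtain ⟨z, hz⟩ := hφ.surj _ h0
  exact ⟨z, congrArg Subtype.val hz⟩

lemma kumLog_spec {x : QSx S} (hx : p • x = 0) :
    ((φ (kumLog φ x : Fp1 p) : EsRep S) : QSx S) = x := by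
  obtain ⟨z, rfl⟩ := exists_eq_of_nsmul_eq_zero hφ hx
  rw [kumLog_apply hφ]

lemma kumLog_zero : kumLog φ (0 : QSx S) = 0 := by
  have h := kumLog_apply hφ (0 : Fp1 p)
  rw [map_zero] at h
  exact h

lemma kumLog_add {x y : QSx S} (hx : p • x = 0) (hy : p • y = 0) :
    kumLog φ (x + y) = kumLog φ x + kumLog φ y := by
  obtain ⟨z, rfl⟩ := exists_eq_of_nsmul_eq_zero hφ hx
  obtain ⟨z', rfl⟩ := exists_eq_of_nsmul_eq_zero hφ hy
  have e : ((φ z : EsRep S) : QSx S) + ((φ z' : EsRep S) : QSx S) =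
      ((φ (z + z') : EsRep S) : QSx S) := by
    rw [map_add]
    rfl
  rw [e, kumLog_apply hφ, kumLog_apply hφ, kumLog_apply hφ]

lemma kumLog_eq_zero_iff {x : QSx S} (hx : p • x = 0) : kumLog φ x = 0 ↔ x = 0 := by
  constructor
  · intro h
    have := kumLog_spec hφ hx
    rw [h] at this
    rw [← this]
    show ((φ (0 : Fp1 p) : EsRep S) : QSx S) = 0
    rw [map_zero]
    rfl
  · rintro rfl
    exact kumLog_zero hφ

/-- Equivariance of the logarithm: `log (g x) = ω(g) * log x`. -/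
lemma kumLog_ρ (g : GQ) {x : QSx S} (hx : p • x = 0) :
    kumLog φ ((QSx S).ρ g x) = ((cycloChar p g : (ZMod p)ˣ) : ZMod p) * kumLog φ x := by
  obtain ⟨z, rfl⟩ := exists_eq_of_nsmul_eq_zero hφ hx
  have e : (QSx S).ρ g ((φ z : EsRep S) : QSx S) = ((φ ((Fp1 p).ρ g z) : EsRep S) : QSx S) := by
    rw [hφ.comm]
    rfl
  rw [e, kumLog_apply hφ, kumLog_apply hφ, br_smooth_Fp1_ρ]
  rfl

end Log

/-- The `𝔽_p`-valued Kummer symbol. -/
noncomputable def kumZ (φ : Fp1 p →+ EsRep S) (t : QSx S) (g : GQ) : ZMod p :=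
  kumLog φ (OpenS.kum t g)

namespace OpenS

variable (L : OpenS S) {φ : Fp1 p →+ EsRep S} (hφ : IsRootMap φ)

include hφ

lemma kumZ_add {t t' : QSx S} (ht : t ∈ L.RW p) (ht' : t' ∈ L.RW p) {g : GQ} (hg : g ∈ L.U) :
    kumZ φ (t + t') g = kumZ φ t g + kumZ φ t' g := by
  unfold kumZ
  rw [kum_add, kumLog_add hφ (L.kum_p_smul ht hg) (L.kum_p_smul ht' hg)]

lemma kumZ_mul (hμ : ∀ g ∈ L.U, ∀ t : AlgebraicClosure ℚ, t ^ p = 1 → g t = t)
    {t : QSx S} (ht : t ∈ L.RW p) {g h : GQ} (hg : g ∈ L.U) (hh : h ∈ L.U) :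
    kumZ φ t (g * h) = kumZ φ t g + kumZ φ t h := by
  unfold kumZ
  rw [L.kum_mul hμ ht hg hh, kumLog_add hφ (L.kum_p_smul ht hg) (L.kum_p_smul ht hh)]

lemma kumZ_eq_zero_iff {t : QSx S} (ht : t ∈ L.RW p) :
    (∀ g ∈ L.U, kumZ φ t g = 0) ↔ t ∈ L.Fx := by
  rw [← L.kum_eq_zero_iff]
  refine forall₂_congr fun g hg => ?_
  unfold kumZ
  exact kumLog_eq_zero_iff hφ (L.kum_p_smul ht hg)

lemma kumZ_smooth (t : QSx S) : ∃ V ∈ (levelsS S).sets, ∀ g ∈ V, kumZ φ t g = 0 := by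
  obtain ⟨V, hV, h⟩ := kum_smooth t
  refine ⟨V, hV, fun g hg => ?_⟩
  unfold kumZ
  rw [h g hg]
  exact kumLog_zero hφ

/-- Equivariance: `kumZ (u t) (u g u⁻¹) = ω(u) * kumZ t g`. -/
lemma kumZ_conj {t : QSx S} (ht : t ∈ L.RW p) (u : GQ) {g : GQ} (hg : g ∈ L.U) :
    kumZ φ ((QSx S).ρ u t) (u * g * u⁻¹) =
      ((cycloChar p u : (ZMod p)ˣ) : ZMod p) * kumZ φ t g := by
  unfold kumZ
  rw [kum_conj, kumLog_ρ hφ u (L.kum_p_smul ht hg)]

/-- **Surjectivity**: every smooth homomorphism `f : W → 𝔽_p` is the symbol of some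
`t ∈ R_W`. -/
theorem exists_kumZ_eq (hμ : ∀ g ∈ L.U, ∀ t : AlgebraicClosure ℚ, t ^ p = 1 → g t = t)
    (f : GQ → ZMod p) (hmul : ∀ g ∈ L.U, ∀ h ∈ L.U, f (g * h) = f g + f h)
    (hsm : ∃ V ∈ (levelsS S).sets, ∀ g ∈ V, g ∈ L.U → f g = 0) :
    ∃ t ∈ L.RW p, ∀ g ∈ L.U, f g = kumZ φ t g := by
  have hp : p.Prime := Fact.out
  let χ : GQ → QSx S := fun g => ((φ (f g : Fp1 p) : EsRep S) : QSx S)
  have hχp : ∀ g, p • χ g = 0 := by
    intro g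
    have h1 : (p : ℤ) • (φ (f g : Fp1 p) : EsRep S) = 0 := by
      rw [← map_zsmul]
      have : (p : ℤ) • (f g : Fp1 p) = 0 := by
        show (p : ℤ) • (f g : ZMod p) = 0
        rw [zsmul_eq_mul]
        have : ((p : ℤ) : ZMod p) = 0 := by
          rw [Int.cast_natCast]
          exact ZMod.natCast_self p
        rw [this, zero_mul]
      rw [this, map_zero]
    have h2 := congrArg (fun z : EsRep S => (z : QSx S)) h1
    beta_reduce at h2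
    rw [← natCast_zsmul]
    exact h2
  obtain ⟨t, ht, hk⟩ := L.exists_kum_eq hμ χ (fun g hg h hh => by
      show ((φ (f (g * h) : Fp1 p) : EsRep S) : QSx S) = _
      rw [hmul g hg h hh, map_add]
      rfl) (fun g _ => hχp g) (by
      obtain ⟨V, hV, h⟩ := hsm
      refine ⟨V, hV, fun g hg hgU => ?_⟩
      show ((φ (f g : Fp1 p) : EsRep S) : QSx S) = 0
      rw [h g hg hgU, map_zero]
      rfl)
  refine ⟨t, ht, fun g hg => ?_⟩
  unfold kumZ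
  rw [← hk g hg]
  exact (kumLog_apply hφ _).symm

end OpenS

end Fermat.Agent.F4
end MergeWrap_S56_W2_EC_Cyclic_KummerLog

section MergeWrap_S56_W2_EC_Cyclic_UnitBridge -- from S56/W2/EC/Cyclic/UnitBridge.lean

/-!
# S56 / W2 / EC / Cyclic / UnitBridge : `E^W` is the group of `T`-units of `F`
(seat CY-U = N6 of the cyclic case, the units bridge; helper86, spec of helper54)

`L : OpenS S`, `F = L.field`, `T = L.T` the primes of `F` over `S`.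

* `OpenS.toQS_mem_sUnitsAdd_iff` : `a ∈ Fˣ` is an `S`-unit of `ℚ_S` iff it is a `T`-unit of `F`
  (`a ∈ S14SI.sUnits F T`);
* `cyT L : GalStableSet L.field`, carrier `= ↑L.T` (`cyT_carrier`, by `rfl`);
* `cyBeta L : Additive ↥(sUnits L.field (cyT L).carrier) →+ QSx S`, `a ↦ L.toQS a`
  (`cyBeta_apply`), injective (`cyBeta_injective`), with range
  `{t ∈ sUnitsAdd S | ∀ g ∈ L.U, ρ g t = t} = L.EW` (`mem_range_cyBeta_iff`, `range_cyBeta`);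
* `cyBeta_galU` : `ρ u (cyBeta L a) = cyBeta L (galU (cyT L) (u|_F) a)` for `F/ℚ` normal;
* `cyUnitsEquiv L : Additive ↥(sUnits L.field (cyT L).carrier) ≃+ ↥L.EW`;
* `OpenS.moduleFinite_EW` : `E^W` is a finitely generated abelian group (the `S`-unit theorem).
-/

set_option autoImplicit false
set_option linter.unusedSectionVars false

open CategoryTheory groupCohomology ExtCitation
open NumberField IsDedekindDomain

namespace Fermat.Agent.F4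

namespace OpenS

variable {S : Finset Nat.Primes} (L : OpenS S)

/-- `a ∈ Fˣ` is an `S`-unit of `ℚ_S` iff it is a `T`-unit of `F`. -/
theorem toQS_mem_sUnitsAdd_iff (a : (L.field)ˣ) :
    L.toQS a ∈ sUnitsAdd S ↔
      a ∈ S14SI.sUnits L.field (L.T : Set (HeightOneSpectrum (𝓞 L.field))) := by
  have hdiv := L.capit_isDivS_toQS a
  constructor
  · intro h v hv
    have hvT : v ∉ L.T := fun h' => hv (Finset.mem_coe.2 h')
    obtain ⟨q, hq, A, hA, rfl⟩ := L.exists_primeBelowAt v hvT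
    have h0 : L.IsDivS (L.toQS a) 0 := L.isDivS_of_mem_sUnitsAdd h
    have e := hdiv.eq_of_primeBelow h0 q hq A hA (L.primeBelowAt q A hA) rfl
    have e' : WithZero.log ((L.primeBelowAt q A hA).valuation L.field (a : L.field)) = 0 := by
      have : -(WithZero.log ((L.primeBelowAt q A hA).valuation L.field (a : L.field))) = 0 := e
      exact neg_eq_zero.1 this
    have hne : (L.primeBelowAt q A hA).valuation L.field (a : L.field) ≠ 0 :=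
      (Valuation.ne_zero_iff _).2 a.ne_zero
    rw [← WithZero.exp_log hne, e']
    rfl
  · intro h
    refine IsDivS.mem_sUnitsAdd (L := L) (hdiv.congr fun q A hA hq => ?_)
    have hvT : L.primeBelowAt q A hA ∉ (L.T : Set (HeightOneSpectrum (𝓞 L.field))) := fun h' =>
      L.primeBelowAt_not_mem_T q hq A hA (Finset.mem_coe.1 h')
    have h1 := h _ hvT
    show -(WithZero.log ((L.primeBelowAt q A hA).valuation L.field (a : L.field))) = 0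
    rw [h1]
    simp

end OpenS

end Fermat.Agent.F4

namespace Fermat.Agent.S56.EC

open Fermat.Agent.F4 Fermat.Agent.S14SI

variable {S : Finset Nat.Primes} (L : OpenS S)

/-- The primes of `F = L.field` over `S`, as a set of primes stable under the automorphisms
of `F`. -/
noncomputable def cyT : GalStableSet L.field where
  carrier := (L.T : Set (HeightOneSpectrum (𝓞 L.field)))
  finite := Finset.finite_toSet _
  stable := by
    intro σ v hv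
    rw [Finset.mem_coe, L.mem_T] at hv ⊢
    obtain ⟨q, hq, hqv⟩ := hv
    refine ⟨q, hq, ?_⟩
    rw [← HeightOneSpectrum.valuation_lt_one_iff_mem (K := L.field)] at hqv ⊢
    have h := galPr_valuation σ v
      (algebraMap (𝓞 L.field) L.field (((q : ℕ) : ℕ) : 𝓞 L.field))
    have e : σ (algebraMap (𝓞 L.field) L.field (((q : ℕ) : ℕ) : 𝓞 L.field)) =
        algebraMap (𝓞 L.field) L.field (((q : ℕ) : ℕ) : 𝓞 L.field) := by
      rw [map_natCast, map_natCast]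
    rw [e] at h
    rw [h]
    exact hqv

@[simp] lemma cyT_carrier :
    (cyT L).carrier = (L.T : Set (HeightOneSpectrum (𝓞 L.field))) := rfl

/-- `E_T(F) → (ℚ_S)ˣ`, `a ↦ a`. -/
noncomputable def cyBeta : Additive ↥(sUnits L.field (cyT L).carrier) →+ QSx S where
  toFun u := L.toQS ((Additive.toMul u : ↥(sUnits L.field (cyT L).carrier)) : (L.field)ˣ)
  map_zero' := L.toQS_one
  map_add' a b := L.toQS_mul _ _

lemma cyBeta_apply (u : Additive ↥(sUnits L.field (cyT L).carrier)) :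
    cyBeta L u =
      L.toQS ((Additive.toMul u : ↥(sUnits L.field (cyT L).carrier)) : (L.field)ˣ) := rfl

lemma cyBeta_ofMul (a : ↥(sUnits L.field (cyT L).carrier)) :
    cyBeta L (Additive.ofMul a) = L.toQS (a : (L.field)ˣ) := rfl

lemma cyBeta_injective : Function.Injective (cyBeta L) := by
  intro a b h
  have h2 := L.toQS_injective h
  exact Additive.toMul.injective (Subtype.ext h2)

lemma cyBeta_mem_sUnitsAdd (u : Additive ↥(sUnits L.field (cyT L).carrier)) :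
    cyBeta L u ∈ sUnitsAdd S :=
  (L.toQS_mem_sUnitsAdd_iff _).2 (Additive.toMul u).2

lemma cyBeta_fixed (u : Additive ↥(sUnits L.field (cyT L).carrier)) (g : GQ) (hg : g ∈ L.U) :
    (QSx S).ρ g (cyBeta L u) = cyBeta L u :=
  L.toQS_fixed _ g hg

lemma cyBeta_mem_EW (u : Additive ↥(sUnits L.field (cyT L).carrier)) : cyBeta L u ∈ L.EW :=
  ⟨cyBeta_mem_sUnitsAdd L u, L.toQS_mem_Fx _⟩

/-- The range of `cyBeta` is `E^W`. -/
lemma exists_cyBeta_eq_of_mem_EW {t : QSx S} (ht : t ∈ L.EW) :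
    ∃ u : Additive ↥(sUnits L.field (cyT L).carrier), cyBeta L u = t := by
  obtain ⟨a, ha⟩ := ht.2
  have hmem : a ∈ sUnits L.field (cyT L).carrier := by
    have := (L.toQS_mem_sUnitsAdd_iff a).1 (by rw [ha]; exact ht.1)
    exact this
  exact ⟨Additive.ofMul ⟨a, hmem⟩, ha⟩

lemma range_cyBeta : (cyBeta L).range = L.EW := by
  ext t
  constructor
  · rintro ⟨u, rfl⟩
    exact cyBeta_mem_EW L u
  · intro ht
    exact exists_cyBeta_eq_of_mem_EW L ht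

/-- The range of `cyBeta` is `{t ∈ E | t fixed by W}`. -/
lemma mem_range_cyBeta_iff (t : QSx S) :
    (∃ u : Additive ↥(sUnits L.field (cyT L).carrier), cyBeta L u = t) ↔
      t ∈ sUnitsAdd S ∧ ∀ g ∈ L.U, (QSx S).ρ g t = t := by
  constructor
  · rintro ⟨u, rfl⟩
    exact ⟨cyBeta_mem_sUnitsAdd L u, fun g hg => cyBeta_fixed L u g hg⟩
  · rintro ⟨h1, h2⟩
    exact exists_cyBeta_eq_of_mem_EW L ⟨h1, (L.mem_Fx_iff t).2 h2⟩

/-- Equivariance of `cyBeta`: `u (β a) = β (u|_F a)`. -/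
lemma cyBeta_galU [Normal ℚ L.field] (u : GQ)
    (a : Additive ↥(sUnits L.field (cyT L).carrier)) :
    (QSx S).ρ u (cyBeta L a) =
      cyBeta L (galU (cyT L) (AlgEquiv.restrictNormalHom L.field u) a) := by
  apply smUnits.val_injective
  apply Units.ext
  rw [smUnits.val_ρ]
  have h := AlgEquiv.restrictNormal_commutes u L.field
    (((Additive.toMul a : ↥(sUnits L.field (cyT L).carrier)) : (L.field)ˣ) : L.field)
  exact h.symm

/-- Equivariance of `cyBeta` for any automorphism `σ` of `F` restricting `g`. -/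
lemma cyBeta_galU' (σ : L.field ≃ₐ[ℚ] L.field) (g : GQ)
    (hσ : ∀ x : L.field, ((σ x : L.field) : AlgebraicClosure ℚ) = g (x : AlgebraicClosure ℚ))
    (a : Additive ↥(sUnits L.field (cyT L).carrier)) :
    (QSx S).ρ g (cyBeta L a) = cyBeta L (galU (cyT L) σ a) := by
  apply smUnits.val_injective
  apply Units.ext
  rw [smUnits.val_ρ]
  exact (hσ _).symm

/-- `E_T(F) → E^W`. -/
noncomputable def cyUnitsHom : Additive ↥(sUnits L.field (cyT L).carrier) →+ ↥L.EW :=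
  (cyBeta L).codRestrict L.EW (cyBeta_mem_EW L)

@[simp] lemma cyUnitsHom_coe (u : Additive ↥(sUnits L.field (cyT L).carrier)) :
    ((cyUnitsHom L u : ↥L.EW) : QSx S) = cyBeta L u := rfl

/-- `E_T(F) ≃ E^W`. -/
noncomputable def cyUnitsEquiv : Additive ↥(sUnits L.field (cyT L).carrier) ≃+ ↥L.EW :=
  AddEquiv.ofBijective (cyUnitsHom L)
    ⟨fun a b h => cyBeta_injective L (congrArg Subtype.val h),
      fun e => by
        obtain ⟨u, hu⟩ := exists_cyBeta_eq_of_mem_EW L e.2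
        exact ⟨u, Subtype.ext hu⟩⟩

@[simp] lemma cyUnitsEquiv_coe (u : Additive ↥(sUnits L.field (cyT L).carrier)) :
    ((cyUnitsEquiv L u : ↥L.EW) : QSx S) = cyBeta L u := rfl

lemma cyBeta_symm (e : ↥L.EW) : cyBeta L ((cyUnitsEquiv L).symm e) = (e : QSx S) := by
  rw [← cyUnitsEquiv_coe, AddEquiv.apply_symm_apply]

end Fermat.Agent.S56.EC

namespace Fermat.Agent.F4.OpenS

variable {S : Finset Nat.Primes} (L : OpenS S)

/-- `E^W` is a finitely generated abelian group (the `S`-unit theorem). -/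
instance moduleFinite_EW : Module.Finite ℤ ↥L.EW := by
  obtain ⟨hfin, -⟩ := S14SI.sUnitRankZ L.field (Fermat.Agent.S56.EC.cyT L).carrier
    (Fermat.Agent.S56.EC.cyT L).finite
  haveI := hfin
  exact Module.Finite.equiv (Fermat.Agent.S56.EC.cyUnitsEquiv L).toIntLinearEquiv

end Fermat.Agent.F4.OpenS
end MergeWrap_S56_W2_EC_Cyclic_UnitBridge

section MergeWrap_S56_W2_EC_Cyclic_KummerObj -- from S56/W2/EC/Cyclic/KummerObj.lean

/-!
# S56 / W2 / EC / Cyclic / KummerObj : the Kummer identity (N1) for the concrete objects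
(seat CY-K = N1 of the cyclic case; helper86)

`𝒮 : CycSetup p S`, `p ∈ S`.  **(N1)** `CycSetup.kummer_K0`:

  `d(Hμ) = d(E_T / p) + d(A[p])`

for every additive `d`, with `Hμ = 𝒮.Hmu` (`HmuObj.lean`), `E_T / p = modObj (UnitMod 𝒮.T 𝒮.ρ)`
(the object of helper54's `units_K0`), `A = 𝒮.A` (`AObj.lean`).

The three presentations used in `kummer_universalQ`:
* `𝒮.kumKappa hφ : ↥(R_W) →+ Hμ`, `t ↦ (w ↦ kumZ φ t w)` (`hmuVal_kumKappa`);
* `𝒮.kumPi : ↥E^W →+ E_T / p`;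
* `𝒮.kumAl : ↥(R_W) →+ A[p]`.
-/

set_option autoImplicit false
set_option linter.unusedSectionVars false
set_option linter.style.haveILetI false

noncomputable section

open CategoryTheory groupCohomology ExtCitation

namespace Fermat.Agent.S56.EC

open Fermat.Agent.F4 Fermat.Agent.F4Cf Fermat.Agent.S14SI

namespace CycSetup

variable {p : ℕ} [Fact p.Prime] {S : Finset Nat.Primes} (𝒮 : CycSetup p S)

/-- `W` fixes the `p`-th roots of unity. -/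
lemma fix_mu : ∀ g ∈ 𝒮.L.U, ∀ t : AlgebraicClosure ℚ, t ^ p = 1 → g t = t :=
  two_fix_mu (p := p) (U := 𝒮.L.U) 𝒮.hω

/-! ### `κ : R_W → Hμ` -/

section Kappa

variable {φ : Fp1 p →+ EsRep S} (hφ : IsRootMap φ)

/-- The Kummer character of `t ∈ R_W`. -/
def kumChar (t : ↥(𝒮.L.RW p)) : ↥(cyHomW (p := p) S 𝒮.W) :=
  ⟨fun w => (kumZ φ (t : QSx S) (w : GQ) : ZMod p),
    fun w w' => 𝒮.L.kumZ_mul hφ 𝒮.fix_mu t.2 w.2 w'.2, by
      obtain ⟨V, hV, h⟩ := OpenS.kumZ_smooth hφ (t : QSx S)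
      exact ⟨V, hV, fun w hw => h (w : GQ) hw⟩⟩

lemma kumChar_apply (t : ↥(𝒮.L.RW p)) (w : ↥𝒮.W) :
    ((𝒮.kumChar hφ t : ↥(cyHomW (p := p) S 𝒮.W)) : ↥𝒮.W → Fp1 p) w =
      (kumZ φ (t : QSx S) (w : GQ) : ZMod p) := rfl

/-- **`κ : R_W → Hμ`**, `t ↦ (w ↦ kumZ φ t w)`. -/
def kumKappa : ↥(𝒮.L.RW p) →+ 𝒮.Hmu.carrier :=
  𝒮.hmuOf.comp
    { toFun := 𝒮.kumChar hφ
      map_zero' := Subtype.ext (funext fun w => by
        show (kumZ φ ((0 : ↥(𝒮.L.RW p)) : QSx S) (w : GQ) : ZMod p) = 0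
        rw [AddSubgroup.coe_zero]
        unfold kumZ
        rw [OpenS.kum_zero]
        exact kumLog_zero hφ)
      map_add' := fun t t' => Subtype.ext (funext fun w => by
        show (kumZ φ ((t + t' : ↥(𝒮.L.RW p)) : QSx S) (w : GQ) : ZMod p) =
          kumZ φ (t : QSx S) (w : GQ) + kumZ φ (t' : QSx S) (w : GQ)
        rw [AddSubgroup.coe_add]
        exact 𝒮.L.kumZ_add hφ t.2 t'.2 w.2) }

lemma hmuVal_kumKappa (t : ↥(𝒮.L.RW p)) (w : ↥𝒮.W) :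
    (𝒮.hmuVal (𝒮.kumKappa hφ t) w : ZMod p) = kumZ φ (t : QSx S) (w : GQ) := rfl

lemma kumKappa_surjective : Function.Surjective (𝒮.kumKappa hφ) := by
  classical
  intro h
  let f : GQ → ZMod p := fun g => if hg : g ∈ 𝒮.W then (𝒮.hmuVal h ⟨g, hg⟩ : ZMod p) else 0
  have hf : ∀ (g : GQ) (hg : g ∈ 𝒮.W), f g = (𝒮.hmuVal h ⟨g, hg⟩ : ZMod p) := fun g hg =>
    dif_pos hg
  obtain ⟨t, ht, htf⟩ := 𝒮.L.exists_kumZ_eq hφ 𝒮.fix_mu f (fun g hg g' hg' => by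
      rw [hf g hg, hf g' hg', hf (g * g') (𝒮.W.mul_mem hg hg')]
      exact 𝒮.hmuVal_mul h ⟨g, hg⟩ ⟨g', hg'⟩) (by
      obtain ⟨V, hV, hV0⟩ := 𝒮.hmuVal_smooth h
      refine ⟨V, hV, fun g hg hgW => ?_⟩
      rw [hf g hgW]
      exact hV0 ⟨g, hgW⟩ hg)
  refine ⟨⟨t, ht⟩, ?_⟩
  apply 𝒮.hmuVal_injective
  funext w
  show (kumZ φ t (w : GQ) : ZMod p) = (𝒮.hmuVal h w : ZMod p)
  rw [← htf (w : GQ) w.2, hf (w : GQ) w.2]

lemma kumKappa_eq_zero_iff (t : ↥(𝒮.L.RW p)) :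
    𝒮.kumKappa hφ t = 0 ↔ (t : QSx S) ∈ 𝒮.L.Fx := by
  rw [← 𝒮.L.kumZ_eq_zero_iff hφ t.2]
  constructor
  · intro h g hg
    have h1 := congrArg (fun x => (𝒮.hmuVal x ⟨g, hg⟩ : ZMod p)) h
    exact h1
  · intro h
    apply 𝒮.hmuVal_injective
    funext w
    exact h (w : GQ) w.2

lemma kumKappa_equivariant (u : ↥𝒮.U) (t t' : ↥(𝒮.L.RW p))
    (h : (t' : QSx S) = (QSx S).ρ (u : GQ) (t : QSx S)) :
    𝒮.kumKappa hφ t' = 𝒮.proj u • 𝒮.kumKappa hφ t := by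
  apply 𝒮.hmuVal_injective
  funext w
  have hw : (u : GQ)⁻¹ * (w : GQ) * (u : GQ) ∈ 𝒮.W := by
    have := 𝒮.normal_W.conj_mem w w.2 (u : GQ)⁻¹
    rwa [inv_inv] at this
  have e : (w : GQ) = (u : GQ) * ((u : GQ)⁻¹ * (w : GQ) * (u : GQ)) * (u : GQ)⁻¹ := by group
  show (kumZ φ (t' : QSx S) (w : GQ) : ZMod p) =
    ((cycloChar p (u : GQ) : (ZMod p)ˣ) : ZMod p) *
      kumZ φ (t : QSx S) ((u : GQ)⁻¹ * (w : GQ) * (u : GQ))
  rw [h, ← 𝒮.L.kumZ_conj hφ t.2 (u : GQ) hw, ← e]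

end Kappa

/-! ### `π : E^W → E_T / p` -/

/-- The subquotient `E_T / p E_T`. -/
abbrev unitQ : SubQ p 𝒮.Γ (UnitMod 𝒮.T 𝒮.ρ) := (StabSub.top 𝒮.Γ (UnitMod 𝒮.T 𝒮.ρ)).modQ p

/-- `E_T → E_T / p`. -/
def unitCls : Additive ↥(sUnits 𝒮.L.field 𝒮.T.carrier) →+
    (modObj (C := 𝒮.Γ) (UnitMod 𝒮.T 𝒮.ρ) (NeZero.ne p)).carrier :=
  𝒮.unitQ.cls.comp
    { toFun := fun a => (⟨UnitMod.of 𝒮.T 𝒮.ρ a, AddSubgroup.mem_top _⟩ : ↥𝒮.unitQ.top)
      map_zero' := rfl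
      map_add' := fun _ _ => rfl }

lemma unitCls_surjective : Function.Surjective 𝒮.unitCls := by
  intro x
  obtain ⟨y, rfl⟩ := 𝒮.unitQ.cls_surjective x
  exact ⟨UnitMod.val 𝒮.T 𝒮.ρ y.1, rfl⟩

lemma unitCls_eq_zero_iff (a : Additive ↥(sUnits 𝒮.L.field 𝒮.T.carrier)) :
    𝒮.unitCls a = 0 ↔ ∃ b : Additive ↥(sUnits 𝒮.L.field 𝒮.T.carrier), p • b = a := by
  show 𝒮.unitQ.cls _ = 0 ↔ _
  rw [SubQ.cls_eq_zero_iff]
  show UnitMod.of 𝒮.T 𝒮.ρ a ∈ pMul p (⊤ : AddSubgroup (UnitMod 𝒮.T 𝒮.ρ)) ↔ _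
  rw [mem_pMul]
  constructor
  · rintro ⟨b, -, hb⟩
    exact ⟨UnitMod.val 𝒮.T 𝒮.ρ b, hb⟩
  · rintro ⟨b, hb⟩
    exact ⟨UnitMod.of 𝒮.T 𝒮.ρ b, AddSubgroup.mem_top _, hb⟩

lemma unitCls_smul (γ : 𝒮.Γ) (a : Additive ↥(sUnits 𝒮.L.field 𝒮.T.carrier)) :
    γ • 𝒮.unitCls a = 𝒮.unitCls (galU 𝒮.T (𝒮.ρ γ) a) := rfl

/-- `E_T ≃ E^W` (`UnitBridge.lean`), for the set `𝒮.T`. -/
def unitsEquivT : Additive ↥(sUnits 𝒮.L.field 𝒮.T.carrier) ≃+ ↥𝒮.L.EW := cyUnitsEquiv 𝒮.L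

lemma unitsEquivT_coe (a : Additive ↥(sUnits 𝒮.L.field 𝒮.T.carrier)) :
    ((𝒮.unitsEquivT a : ↥𝒮.L.EW) : QSx S) =
      𝒮.L.toQS ((Additive.toMul a : ↥(sUnits 𝒮.L.field 𝒮.T.carrier)) : (𝒮.L.field)ˣ) := rfl

lemma unitsEquivT_galU (u : GQ) (a : Additive ↥(sUnits 𝒮.L.field 𝒮.T.carrier)) :
    ((𝒮.unitsEquivT (galU 𝒮.T (𝒮.res u) a) : ↥𝒮.L.EW) : QSx S) =
      (QSx S).ρ u ((𝒮.unitsEquivT a : ↥𝒮.L.EW) : QSx S) :=
  (cyBeta_galU 𝒮.L u a).symm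

/-- **`π : E^W → E_T / p`**. -/
def kumPi : ↥𝒮.L.EW →+ (modObj (C := 𝒮.Γ) (UnitMod 𝒮.T 𝒮.ρ) (NeZero.ne p)).carrier :=
  𝒮.unitCls.comp 𝒮.unitsEquivT.symm.toAddMonoidHom

lemma kumPi_apply (e : ↥𝒮.L.EW) : 𝒮.kumPi e = 𝒮.unitCls (𝒮.unitsEquivT.symm e) := rfl

lemma kumPi_unitsEquivT (a : Additive ↥(sUnits 𝒮.L.field 𝒮.T.carrier)) :
    𝒮.kumPi (𝒮.unitsEquivT a) = 𝒮.unitCls a := by
  rw [kumPi_apply, AddEquiv.symm_apply_apply]

lemma kumPi_surjective : Function.Surjective 𝒮.kumPi := by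
  intro x
  obtain ⟨a, rfl⟩ := 𝒮.unitCls_surjective x
  exact ⟨𝒮.unitsEquivT a, 𝒮.kumPi_unitsEquivT a⟩

lemma kumPi_eq_zero_iff (e : ↥𝒮.L.EW) :
    𝒮.kumPi e = 0 ↔ ∃ e' ∈ 𝒮.L.EW, p • e' = (e : QSx S) := by
  rw [kumPi_apply, unitCls_eq_zero_iff]
  constructor
  · rintro ⟨b, hb⟩
    refine ⟨((𝒮.unitsEquivT b : ↥𝒮.L.EW) : QSx S), (𝒮.unitsEquivT b).2, ?_⟩
    have h1 : p • 𝒮.unitsEquivT b = e := by
      rw [← map_nsmul, hb, AddEquiv.apply_symm_apply]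
    rw [← h1]
    rfl
  · rintro ⟨e', he', h⟩
    refine ⟨𝒮.unitsEquivT.symm ⟨e', he'⟩, ?_⟩
    rw [← map_nsmul]
    congr 1
    exact Subtype.ext h

lemma kumPi_equivariant (u : ↥𝒮.U) (e e' : ↥𝒮.L.EW)
    (h : (e' : QSx S) = (QSx S).ρ (u : GQ) (e : QSx S)) :
    𝒮.kumPi e' = 𝒮.proj u • 𝒮.kumPi e := by
  obtain ⟨a, rfl⟩ := 𝒮.unitsEquivT.surjective e
  rw [kumPi_unitsEquivT, unitCls_smul, ← kumPi_unitsEquivT]
  congr 1
  apply Subtype.ext
  rw [h]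
  exact (𝒮.unitsEquivT_galU (u : GQ) a).symm

/-! ### `α : R_W → A[p]` -/

/-- The subquotient `A[p]`. -/
abbrev torA : SubQ p 𝒮.Γ 𝒮.A := (StabSub.top 𝒮.Γ 𝒮.A).torQ p

/-- **`α : R_W → A[p]`**, `t ↦ [t]`. -/
def kumAl : ↥(𝒮.L.RW p) →+ (torObj (C := 𝒮.Γ) 𝒮.A (NeZero.ne p)).carrier :=
  𝒮.torA.cls.comp
    { toFun := fun t => (⟨(𝒮.L.kumAlpha (NeZero.ne p) t : 𝒮.A),
        mem_pTor.mpr ⟨AddSubgroup.mem_top _, 𝒮.L.nsmul_kumAlpha (NeZero.ne p) t⟩⟩ : ↥𝒮.torA.top)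
      map_zero' := Subtype.ext (map_zero (𝒮.L.kumAlpha (NeZero.ne p)))
      map_add' := fun t t' => Subtype.ext (map_add (𝒮.L.kumAlpha (NeZero.ne p)) t t') }

lemma kumAl_surjective (hpS : pPrime p ∈ S) : Function.Surjective 𝒮.kumAl := by
  intro x
  obtain ⟨y, rfl⟩ := 𝒮.torA.cls_surjective x
  obtain ⟨t, ht⟩ := 𝒮.L.exists_kumAlpha_eq hpS (NeZero.ne p) (y.1 : 𝒮.L.AQ) (mem_pTor.mp y.2).2
  refine ⟨t, ?_⟩
  show 𝒮.torA.cls _ = 𝒮.torA.cls y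
  congr 1
  exact Subtype.ext ht

lemma kumAl_eq_zero_iff (t : ↥(𝒮.L.RW p)) :
    𝒮.kumAl t = 0 ↔ (t : QSx S) ∈ 𝒮.L.RE p ⊔ 𝒮.L.Fx := by
  show 𝒮.torA.cls _ = 0 ↔ _
  rw [SubQ.cls_eq_zero_iff, ← 𝒮.L.kumAlpha_eq_zero_iff (NeZero.ne p)]
  exact AddSubgroup.mem_bot

lemma kumAl_equivariant (u : ↥𝒮.U) (t t' : ↥(𝒮.L.RW p))
    (h : (t' : QSx S) = (QSx S).ρ (u : GQ) (t : QSx S)) :
    𝒮.kumAl t' = 𝒮.proj u • 𝒮.kumAl t := by
  show 𝒮.torA.cls _ = 𝒮.proj u • 𝒮.torA.cls _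
  rw [SubQ.smul_cls]
  congr 1
  apply Subtype.ext
  exact 𝒮.proj_smul_clsA' u ⟨(t : QSx S), 𝒮.L.RW_le_TU (NeZero.ne p) t.2⟩
    ⟨(t' : QSx S), 𝒮.L.RW_le_TU (NeZero.ne p) t'.2⟩ h

/-! ### (N1) -/

/-- **(N1) The Kummer identity in `K₀`**: `d(Hμ) = d(E_T / p) + d(A[p])`. -/
theorem kummer_K0 (hpS : pPrime p ∈ S) {d : FinCMod p 𝒮.Γ → ℤ} (hd : IsAdditive d) :
    d 𝒮.Hmu = d (modObj (C := 𝒮.Γ) (UnitMod 𝒮.T 𝒮.ρ) (NeZero.ne p)) +
      d (torObj (C := 𝒮.Γ) 𝒮.A (NeZero.ne p)) := by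
  obtain ⟨φ, h1, h2, h3⟩ := exists_rootMap (p := p) (S := S) hpS
  have hφ : IsRootMap φ := ⟨h1, h2, h3⟩
  exact kummer_universalQ 𝒮.L hpS 𝒮.fix_mu 𝒮.proj 𝒮.proj_surjective 𝒮.U.subtype
    (fun u => 𝒮.mem_normalizer _) 𝒮.Hmu _ _
    (𝒮.kumKappa hφ) (𝒮.kumKappa_surjective hφ) (𝒮.kumKappa_eq_zero_iff hφ)
    (𝒮.kumKappa_equivariant hφ)
    𝒮.kumPi 𝒮.kumPi_surjective 𝒮.kumPi_eq_zero_iff 𝒮.kumPi_equivariant
    𝒮.kumAl (𝒮.kumAl_surjective hpS) 𝒮.kumAl_eq_zero_iff 𝒮.kumAl_equivariant hd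

end CycSetup

end Fermat.Agent.S56.EC
end
end MergeWrap_S56_W2_EC_Cyclic_KummerObj

section MergeWrap_S56_W2_EC_Cyclic_UnitsK0 -- from S56/W2/EC/Cyclic/UnitsK0.lean

set_option autoImplicit false
set_option linter.unusedSectionVars false
set_option linter.style.haveILetI false

noncomputable section

namespace Fermat.Agent.S56.EC

open Fermat.Agent.F4 ExtCitation NumberField IsDedekindDomain Fermat.Agent.S14SI

section General

variable {p : ℕ} [Fact p.Prime] {C : Type} [Group C]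
  {L : Type} [Field L] [NumberField L] (T : GalStableSet L) (ρ : C →* (L ≃ₐ[ℚ] L))

/-- The element of `L` under an `S`-unit. -/
def UnitMod.toL (u : UnitMod T ρ) : L :=
  (((UnitMod.val T ρ u).toMul : ↥(sUnits L T.carrier)) : Lˣ)

lemma UnitMod.toL_injective : Function.Injective (UnitMod.toL T ρ) := by
  intro u u' h
  apply UnitMod.val_injective
  apply Additive.toMul.injective
  apply Subtype.ext
  apply Units.ext
  exact h

lemma UnitMod.toL_zero : UnitMod.toL T ρ 0 = 1 := rfl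

lemma UnitMod.toL_add (u u' : UnitMod T ρ) :
    UnitMod.toL T ρ (u + u') = UnitMod.toL T ρ u * UnitMod.toL T ρ u' := rfl

lemma UnitMod.toL_smul (c : C) (u : UnitMod T ρ) :
    UnitMod.toL T ρ (c • u) = ρ c (UnitMod.toL T ρ u) := rfl

lemma UnitMod.toL_nsmul (n : ℕ) (u : UnitMod T ρ) :
    UnitMod.toL T ρ (n • u) = UnitMod.toL T ρ u ^ n := by
  induction n with
  | zero => rw [zero_nsmul, pow_zero]; rfl
  | succ n ih => rw [succ_nsmul, pow_succ, UnitMod.toL_add, ih]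

lemma UnitMod.toL_ne_zero (u : UnitMod T ρ) : UnitMod.toL T ρ u ≠ 0 :=
  Units.ne_zero _

lemma UnitMod.toL_neg (u : UnitMod T ρ) :
    UnitMod.toL T ρ (-u) = (UnitMod.toL T ρ u)⁻¹ := by
  have h : UnitMod.toL T ρ (-u) * UnitMod.toL T ρ u = 1 := by
    rw [← UnitMod.toL_add, neg_add_cancel, UnitMod.toL_zero]
  exact eq_inv_of_mul_eq_one_left h

lemma UnitMod.toL_zsmul (n : ℤ) (u : UnitMod T ρ) :
    UnitMod.toL T ρ (n • u) = UnitMod.toL T ρ u ^ n := by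
  cases n with
  | ofNat n =>
    rw [Int.ofNat_eq_natCast, natCast_zsmul, zpow_natCast, UnitMod.toL_nsmul]
  | negSucc n =>
    rw [negSucc_zsmul, zpow_negSucc, UnitMod.toL_neg, UnitMod.toL_nsmul]

/-- A root of unity of order `p`, as an `S`-unit. -/
def UnitMod.ofRoot {ζ : L} (hζ : ζ ^ p = 1) : UnitMod T ρ :=
  have hp : p ≠ 0 := (Fact.out : p.Prime).ne_zero
  UnitMod.of T ρ (Additive.ofMul
    ⟨Units.mk0 ζ (fun h => by
        rw [h, zero_pow hp] at hζ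
        exact zero_ne_one hζ),
      Fermat.Agent.F4Kum.mem_sUnits_of_pow hp T.carrier (by
        have h1 : (Units.mk0 ζ (fun h => by
            rw [h, zero_pow hp] at hζ
            exact zero_ne_one hζ) : Lˣ) ^ p = 1 := by
          apply Units.ext
          rw [Units.val_pow_eq_pow_val, Units.val_mk0, Units.val_one]
          exact hζ
        rw [h1]
        exact one_mem _)⟩)

lemma UnitMod.toL_ofRoot {ζ : L} (hζ : ζ ^ p = 1) :
    UnitMod.toL T ρ (UnitMod.ofRoot T ρ hζ) = ζ := rfl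

/-- **`E_T[p] = μ_p`** in `K₀`. -/
theorem d_torObj_unitMod (ω : C →* (ZMod p)ˣ) {ζ : L} (hζ : IsPrimitiveRoot ζ p)
    (hρ : ∀ c : C, ρ c ζ = ζ ^ ((ω c : (ZMod p)ˣ) : ZMod p).val)
    {d : FinCMod p C → ℤ} (hd : IsAdditive d) :
    d (torObj (C := C) (UnitMod T ρ) (NeZero.ne p)) = d (muObj ω) := by
  have hp : p ≠ 0 := NeZero.ne p
  have hζp : ζ ^ p = 1 := hζ.pow_eq_one
  set z : UnitMod T ρ := UnitMod.ofRoot T ρ hζp with hz
  have hzL : UnitMod.toL T ρ z = ζ := rfl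
  let f : ℤ →+ UnitMod T ρ := zmultiplesHom (UnitMod T ρ) z
  have hfL : ∀ m : ℤ, UnitMod.toL T ρ (f m) = ζ ^ m := by
    intro m
    show UnitMod.toL T ρ (m • z) = ζ ^ m
    rw [UnitMod.toL_zsmul, hzL]
  have hf : f (p : ℤ) = 0 := by
    apply UnitMod.toL_injective T ρ
    rw [hfL, zpow_natCast, hζp, UnitMod.toL_zero]
  let g : ZMod p →+ UnitMod T ρ := ZMod.lift p ⟨f, hf⟩
  have hg : ∀ m : ℤ, g (m : ZMod p) = f m := fun m => ZMod.lift_coe p ⟨f, hf⟩ m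
  have hginj : Function.Injective g := by
    rw [ZMod.lift_injective]
    intro m hm
    have h1 : ζ ^ m = 1 := by
      rw [← hfL m]
      show UnitMod.toL T ρ (f m) = 1
      rw [show f m = 0 from hm, UnitMod.toL_zero]
    rw [hζ.zpow_eq_one_iff_dvd] at h1
    exact (ZMod.intCast_zmod_eq_zero_iff_dvd m p).2 h1
  symm
  refine (hd.d_torObj_eq hp (muObj ω) (g.comp (MuMod.val ω)) ?_ ?_ ?_).symm
  · exact hginj.comp (MuMod.val_injective (ω := ω))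
  · intro c b
    obtain ⟨m, hm⟩ := ZMod.intCast_surjective (MuMod.val ω b)
    apply UnitMod.toL_injective T ρ
    have h1 : MuMod.val ω (c • b) =
        ((((((ω c : (ZMod p)ˣ) : ZMod p).val : ℕ) : ℤ) * m : ℤ) : ZMod p) := by
      have h0 : MuMod.val ω (c • b) = ((ω c : (ZMod p)ˣ) : ZMod p) * MuMod.val ω b := rfl
      rw [h0, ← hm]
      push_cast
      rw [ZMod.natCast_zmod_val]
    show UnitMod.toL T ρ (g (MuMod.val ω (c • b))) = UnitMod.toL T ρ (c • g (MuMod.val ω b))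
    rw [h1, hg, hfL, UnitMod.toL_smul, ← hm, hg, hfL, map_zpow₀, hρ, zpow_mul, zpow_natCast]
  · intro x hx
    have h1 : UnitMod.toL T ρ x ^ p = 1 := by
      rw [← UnitMod.toL_nsmul, hx, UnitMod.toL_zero]
    obtain ⟨i, -, hi⟩ := hζ.eq_pow_of_pow_eq_one h1
    refine ⟨MuMod.of ω (((i : ℤ) : ZMod p)), ?_⟩
    apply UnitMod.toL_injective T ρ
    show UnitMod.toL T ρ (g ((i : ℤ) : ZMod p)) = UnitMod.toL T ρ x
    rw [hg, hfL, zpow_natCast]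
    exact hi

end General

namespace CycSetup

variable {p : ℕ} [Fact p.Prime] {S : Finset Nat.Primes} (𝒮 : CycSetup p S)

/-- The Galois action on the `p`-th roots of unity. -/
lemma gal_root {ζ : AlgebraicClosure ℚ} (hζ : ζ ^ p = 1) (g : GQ) :
    g ζ = ζ ^ ((cycloChar p g : (ZMod p)ˣ) : ZMod p).val := by
  have hp : p ≠ 0 := (Fact.out : p.Prime).ne_zero
  have hζ0 : ζ ≠ 0 := fun h => by
    rw [h, zero_pow hp] at hζ
    exact zero_ne_one hζ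
  have hzp : (Units.mk0 ζ hζ0) ^ p = 1 := by
    apply Units.ext
    rw [Units.val_pow_eq_pow_val, Units.val_mk0, Units.val_one]
    exact hζ
  haveI : NeZero p := ⟨hp⟩
  have h := modularCyclotomicCharacter.spec (AlgebraicClosure ℚ)
    (card_rootsOfUnity_eq_self p) (g : AlgebraicClosure ℚ ≃+* AlgebraicClosure ℚ)
    (t := Units.mk0 ζ hζ0) ((mem_rootsOfUnity p _).2 hzp)
  exact h

/-- The `p`-th roots of unity are in `L`. -/
lemma root_mem_field {ζ : AlgebraicClosure ℚ} (hζ : ζ ^ p = 1) : ζ ∈ 𝒮.L.field := by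
  rw [𝒮.L.mem_field_iff]
  intro g hg
  have h1 : cycloChar p g = 1 := MonoidHom.mem_ker.mp (𝒮.hω hg)
  rw [gal_root hζ g, h1, Units.val_one, ZMod.val_one, pow_one]

/-- **`E_T[p] = μ_p`** in `K₀`, in the setting of the cyclic case. -/
theorem d_torObj_units {d : FinCMod p 𝒮.Γ → ℤ} (hd : IsAdditive d) :
    d (torObj (C := 𝒮.Γ) (UnitMod 𝒮.T 𝒮.ρ) (NeZero.ne p)) = d (muObj 𝒮.ω) := by
  have hp : p ≠ 0 := NeZero.ne p
  haveI : NeZero ((p : ℕ) : AlgebraicClosure ℚ) := ⟨by exact_mod_cast hp⟩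
  obtain ⟨ζ, hζ⟩ := HasEnoughRootsOfUnity.exists_primitiveRoot (AlgebraicClosure ℚ) p
  have hζp : ζ ^ p = 1 := hζ.pow_eq_one
  let ζL : 𝒮.L.field := ⟨ζ, 𝒮.root_mem_field hζp⟩
  have hζL : IsPrimitiveRoot ζL p :=
    IsPrimitiveRoot.of_map_of_injective (f := 𝒮.L.field.val) (by exact hζ)
      (𝒮.L.field.val.injective)
  refine d_torObj_unitMod 𝒮.T 𝒮.ρ 𝒮.ω hζL ?_ hd
  intro c
  obtain ⟨u, rfl⟩ := 𝒮.proj_surjective c
  apply Subtype.ext
  rw [𝒮.ρ_proj, 𝒮.res_apply]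
  show (u : GQ) ζ = ((ζL ^ ((𝒮.ω (𝒮.proj u) : (ZMod p)ˣ) : ZMod p).val : 𝒮.L.field) :
    AlgebraicClosure ℚ)
  rw [gal_root hζp (u : GQ)]
  rfl

/-- **(N6)** the units identity in `K₀`. -/
theorem units_K0 {d : FinCMod p 𝒮.Γ → ℤ} (hd : IsAdditive d) :
    d (modObj (C := 𝒮.Γ) (UnitMod 𝒮.T 𝒮.ρ) (NeZero.ne p)) - d (muObj 𝒮.ω) + d (trivObj p 𝒮.Γ) =
      d (permObj p 𝒮.actf) + d (permObj p 𝒮.acti) := by
  have hp : p ≠ 0 := NeZero.ne p
  have key := unit_chi hd hp 𝒮.T 𝒮.ρ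
  rw [chiTop_eq, 𝒮.d_torObj_units hd] at key
  rw [← 𝒮.d_permObj_actX hd]
  exact key

end CycSetup

end Fermat.Agent.S56.EC
end
end MergeWrap_S56_W2_EC_Cyclic_UnitsK0

section MergeWrap_S56_W2_EC_Cyclic_Final -- from S56/W2/EC/Cyclic/Final.lean

set_option autoImplicit false

namespace Fermat.Agent.S56.EC

open Fermat.Agent.F4 ExtCitation

/-- **(N4)**, the reciprocity identity of a cyclic setting:
`d(Ш¹_S(W, μ_p)) = d(D(A/p))`, `A = T_W / (E + Fˣ)`. -/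
def CycSetup.RecipField {p : ℕ} [Fact p.Prime] {S : Finset Nat.Primes} (𝒮 : CycSetup p S) : Prop :=
  ∀ d : FinCMod p 𝒮.Γ → ℤ, IsAdditive d →
    d 𝒮.ShaObj = d (dualObj 𝒮.ω (modObj (C := 𝒮.Γ) 𝒮.A (NeZero.ne p)))

/-- **(C) + (D)** from the reciprocity identity. -/
theorem psiCoindZero_of_recip {p : ℕ} [Fact p.Prime] {S : Finset Nat.Primes}
    {hpS : pPrime p ∈ S} (Pk : ECPack p S hpS)
    (hrecip : ∀ 𝒮 : CycSetup p S, 𝒮.RecipField) : PsiCoindZero S Pk.KC :=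
  psiCoindZero_of_fields Pk fun 𝒮 =>
    ⟨modObj (C := 𝒮.Γ) (UnitMod 𝒮.T 𝒮.ρ) (NeZero.ne p), 𝒮.ZObj Pk, 𝒮.ShaObj, 𝒮.A,
      inferInstance, inferInstance, inferInstance, 𝒮.zVal Pk, 𝒮.zVal_smul Pk,
      fun _ hd => 𝒮.kummer_K0 hpS hd, 𝒮.tors_field Pk, hrecip 𝒮, fun _ hd => 𝒮.units_K0 hd⟩

end Fermat.Agent.S56.EC
end MergeWrap_S56_W2_EC_Cyclic_Final
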