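import Fermat.Agent.MU.S56.W2.EC.Cyclic.K0.Toolkit

section MergeWrap_S56_W2_EC_Cyclic_RecipK0 -- from S56/W2/EC/Cyclic/RecipK0.lean

set_option autoImplicit false
set_option linter.style.haveILetI false

noncomputable section

namespace Fermat.Agent.S56.EC

variable {p : ℕ} [Fact p.Prime]

/-- `#V^* = #V` for a finite `𝔽_p`-vector space. -/
theorem recipK0_card_dual (V : Type) [AddCommGroup V] [Module (ZMod p) V] [Finite V] :
    Nat.card (V →ₗ[ZMod p] ZMod p) = Nat.card V := by
  haveI : Module.Finite (ZMod p) V := Module.Finite.of_finite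
  rw [Module.natCard_eq_pow_finrank (K := ZMod p) (V := V →ₗ[ZMod p] ZMod p),
    Module.natCard_eq_pow_finrank (K := ZMod p) (V := V)]
  congr 1
  exact Subspace.dual_finrank_eq

/-- `#Hom(V, 𝔽_p) = #V` for a finite abelian group killed by `p`. -/
theorem recipK0_card_hom (V : Type) [AddCommGroup V] [Finite V] (hV : ∀ x : V, p • x = 0) :
    Nat.card (V →+ ZMod p) = Nat.card V := by
  letI : Module (ZMod p) V := AddCommGroup.zmodModule hV
  have e : (V →+ ZMod p) ≃ (V →ₗ[ZMod p] ZMod p) :=
    { toFun := fun f => AddMonoidHom.toZModLinearMap p f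
      invFun := fun f => f.toAddMonoidHom
      left_inv := fun f => AddMonoidHom.ext fun _ => rfl
      right_inv := fun f => LinearMap.ext fun _ => rfl }
  rw [Nat.card_congr e]
  exact recipK0_card_dual V

/-- **(PK)** a perfect `ω`-equivariant pairing gives `d S = d (D A)`. -/
theorem recip_of_pairing {Γ : Type} [Group Γ] (ω : Γ →* (ZMod p)ˣ) (Sobj Aobj : FinCMod p Γ)
    (B : Sobj.carrier →+ Aobj.carrier →+ ZMod p)
    (hl : ∀ s, (∀ a, B s a = 0) → s = 0) (hr : ∀ a, (∀ s, B s a = 0) → a = 0)
    (he : ∀ (γ : Γ) (s : Sobj.carrier) (a : Aobj.carrier),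
      B (γ • s) (γ • a) = (ω γ : ZMod p) * B s a)
    {d : FinCMod p Γ → ℤ} (hd : IsAdditive d) : d Sobj = d (dualObj ω Aobj) := by
  -- the map `S → D A`
  let Φ : Sobj.carrier →+ (dualObj ω Aobj).carrier :=
    (DualMod.of ω Aobj).comp B
  have hΦ : ∀ (s : Sobj.carrier) (a : Aobj.carrier),
      DualMod.val ω Aobj (Φ s) a = B s a := fun _ _ => rfl
  have hequiv : ∀ (γ : Γ) (s : Sobj.carrier), Φ (γ • s) = γ • Φ s := by
    intro γ s
    refine DualMod.val_injective (ω := ω) (M := Aobj) ?_
    refine AddMonoidHom.ext fun a => ?_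
    show B (γ • s) a = (ω γ : ZMod p) * B s (γ⁻¹ • a)
    rw [← he, smul_inv_smul]
  have hinj : Function.Injective Φ := by
    rw [injective_iff_map_eq_zero]
    intro s hs
    refine hl s fun a => ?_
    rw [← hΦ, hs]
    rfl
  -- the transposed map `A → Hom(S, 𝔽_p)`
  have hinj' : Function.Injective (B.flip : Aobj.carrier →+ Sobj.carrier →+ ZMod p) := by
    rw [injective_iff_map_eq_zero]
    intro a ha
    refine hr a fun s => ?_
    have := congrArg (fun f : Sobj.carrier →+ ZMod p => f s) ha
    exact this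
  have hfinA : Finite (Aobj.carrier →+ ZMod p) :=
    Finite.of_injective (fun f => (f : Aobj.carrier → ZMod p)) DFunLike.coe_injective
  have hfinS : Finite (Sobj.carrier →+ ZMod p) :=
    Finite.of_injective (fun f => (f : Sobj.carrier → ZMod p)) DFunLike.coe_injective
  have hfinD : Finite (dualObj ω Aobj).carrier := (dualObj ω Aobj).isFinite
  have h1 : Nat.card Aobj.carrier ≤ Nat.card Sobj.carrier := by
    rw [← recipK0_card_hom Sobj.carrier Sobj.killed]
    exact Nat.card_le_card_of_injective _ hinj'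
  have h2 : Nat.card (dualObj ω Aobj).carrier ≤ Nat.card Sobj.carrier := by
    have h3 : Nat.card (dualObj ω Aobj).carrier = Nat.card (Aobj.carrier →+ ZMod p) := rfl
    rw [h3, recipK0_card_hom Aobj.carrier Aobj.killed]
    exact h1
  have hbij : Function.Bijective Φ := Function.Injective.bijective_of_nat_card_le hinj h2
  exact hd.eq_of_bijective Sobj (dualObj ω Aobj) Φ hequiv hbij

end Fermat.Agent.S56.EC
end
end MergeWrap_S56_W2_EC_Cyclic_RecipK0
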