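import Fermat.Agent.MU.F4.PT.Defs
import Fermat.Agent.MU.F4.DDT
import Fermat.Agent.MU.F4.PT.Abs.Sha
import Fermat.Agent.MU.F4.Dict.KappaPres
import Fermat.Agent.MU.F4.Dict.Level
import Fermat.Agent.MU.F4.UC.Quot
import Fermat.Agent.MU.F4.UC.Res
import Fermat.Agent.MU.F4.UC.Bridge
import Fermat.Agent.MU.S56.W2.EC.Pack
import Fermat.Agent.MU.F4.Dict.JH90
import Fermat.Agent.MU.F4.Cf.RecipB
import Fermat.Agent.F4.Shapiro.Hyper
import Fermat.Agent.F4.Shapiro.Module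
import Fermat.Agent.MU.S56.W2.EC.Cyclic.ShaDefs
import Fermat.Agent.F4.HyperPair
import Fermat.Agent.F4.DDT.Ext
import Fermat.Agent.MU.F4.PT.Abs.Iota

section MergeWrap_F4_PT_Abs -- from F4/PT/Abs.lean

/-!
# F4 / PT / Abs : the Poitou–Tate segment from a global datum, smooth model

Owner: see NOTES/blueprint-F4-v2.md (seat PT-ABS).  Inputs: `GlobalDatum p S` (F4/Datum.lean),
`ddt`, `ddt_inj`, `finite_H1sm_of_perm` (F4/DDT.lean), the long exact sequence (F4/HyperLES.lean),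
the pairings (F4/HyperPair.lean).

Construction.  `X = HH¹(Hom(M', KC))`, `P1 = HH¹(Hom(M', KJ))`, `β = (homCxPost M' g)_*`,
`δ = θ⁻¹ ∘ conn1` (connecting map of `0 → Hom(M', μ_p) → Hom(M', KJ) → Hom(M', KC) → 0`, followed by
`HH²(Hom(M', μ_p)) = H²(Hom(M', 𝔽_p(1))) = H²(M)` via `θ`), `α = α¹_{M'}` for `(KC, D.inv)`,
`ι = ∏_q α¹_{M'|q} ∘ ev_q ∘ res_q`.
* `exact_X` : `exact_HH1_right`-type statement of HyperLES;
* `α_bijective` : `ddt` + `ddt_inj` with `D.a2inj`, `D.a1surj`, `D.a1inj`;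
* `ι_surjective` : `D.shapiro1` + `ddt` for `((D.loc q).K, (D.loc q).inv)`;
* `compat` : `D.recip` (+ naturality of the cup product);
* `exact_H2` : `range δ = ker(HH²(Hom(M', μ_p)) → HH²(Hom(M', KJ)))` (HyperLES), and a class `x` of
  `H²(M)` dies in `HH²(Hom(M', KJ))` iff (`D.shapiro2`) it dies in every `HH²(Hom(M', K_q))` iff
  (`ddt` local: `α²` injective) `inv_q(m' ∪ x_q) = 0` for all invariant `m'` iff (`inv_ε`)
  `invAll(m' ∪ x_q) = 0` iff (`ddt` for `(locMu, invAll)`: `α²` injective at all levels) `x_q = 0` in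
  `H²` of the full local group, i.e. `x ∈ sha2sm`.
* `finite_H1` : `finite_H1sm_of_perm` + `D.finH1`.
-/

set_option autoImplicit false

open CategoryTheory Module groupCohomology ExtCitation

namespace Fermat.Agent.F4

variable {p : ℕ} [Fact p.Prime]

theorem exists_PTSegmentSm (S : Finset Nat.Primes) (D : GlobalDatum p S)
    (M M' : Rep.{0} (ZMod p) GQ) (hM : IsSmooth (levelsS S) M) (hM' : IsSmooth (levelsS S) M')
    (hfin : Module.Finite (ZMod p) M) (hfin' : Module.Finite (ZMod p) M')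
    (θ : M ≃ₗ[ZMod p] (M' →ₗ[ZMod p] Fp1 p))
    (hθ : ∀ (g : GQ) (m : M) (m' : M'),
      θ (M.ρ g m) m' = (Fp1 p).ρ g (θ m (M'.ρ g⁻¹ m'))) :
    Nonempty (PTSegmentSm S M M') :=
  ⟨{ X := HH1 (levelsS S) (homCx M' D.KC)
     P1 := HH1 (levelsS S) (homCx M' D.KJ)
     β := ptBeta D M'
     δ := ptaDelta D hM' hfin' θ hθ
     α := ptAlpha D M' hM' hfin'
     ι := ptIota D M' hM' hfin'
     finite_H1 := finite_H1sm_primeTo (levelsS S) D.finH1 M' hM' hfin'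
     exact_X := ptaExactX D hM' hfin' θ hθ
     exact_H2 := ptaExactH2 D hM' hfin' θ hθ
     α_bijective :=
      ⟨ptA1_injective _ _ _ _ _ _
          (ddt_inj_levels (levelsS S) D.KC D.smoothC D.inv D.a2inj D.a1surj D.a1inj M' hM' hfin'),
        ptA1_surjective _ _ _ _ _ _
          (ddt_primeTo (levelsS S) D.KC D.smoothC D.inv D.a2inj D.a1surj M' hM' hfin').2⟩
     ι_surjective := ptIota_surjective D M' hM' hfin'
     compat := pt_compat D M' hM' hfin' }⟩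

end Fermat.Agent.F4
end MergeWrap_F4_PT_Abs

section MergeWrap_S56_W2_EC_Cyclic_RecipA -- from S56/W2/EC/Cyclic/RecipA.lean

/-!
# S56 / W2-EC / (D) cyclic case, sub-seat N4-A (helper14)

`W` an open subgroup of `G_S`, `F = ℚ̄^W`.  The map
`T_W → C^W / (CMk(J^W) + n • C^W)`, `t ↦ CMk (diagJ t)`
is surjective, with kernel `E + Fˣ + n • T_W` (any `n : ℕ`; used with `n = p`).

* `KForm.recipA_surj`, `KForm.recipA_ker` : the abstract statements (`F4/Dict/KappaAbs.lean`);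
* `recipA_fix` : `CMk (diagJ t)` is fixed by `W` for `t ∈ T_W`;
* `recipA_equivariant` : `CMk (diagJ (g t)) = g (CMk (diagJ t))`;
* `recipA_surj` : every `c ∈ C^W` is `CMk (diagJ t) + CMk x`, `t ∈ T_W`, `x ∈ J^W`;
* `recipA_ker` : `CMk (diagJ t) ∈ CMk(J^W) + n • C^W ↔ t ∈ E + toQS(Fˣ) + n • T_W`.
-/

set_option autoImplicit false

open CategoryTheory groupCohomology ExtCitation

namespace Fermat.Agent.F4

namespace KForm

variable {G : Type} [Group G] (K : KForm G)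

/-- `pr (d t)` is fixed by `U` for `t ∈ T_U`. -/
theorem recipA_fix {U : Subgroup G} {t : K.Q} (ht : t ∈ K.TU U) :
    F4Cf.Fix K.C U (K.pr (K.d t)) := by
  have h := K.fix (K.JU U).zero_mem ht
  rwa [zero_add] at h

/-- **Surjectivity**: every element of `C^U` is `pr (d t) + pr x`, `t ∈ T_U`, `x ∈ J^U`. -/
theorem recipA_surj (𝓤 : Levels G) (hJ : IsSmooth 𝓤 K.J) (U : Subgroup G)
    (h90 : UC.H90sm (𝓤.sub U) (Rep.res U.subtype K.Q)) (c : K.C) (hc : F4Cf.Fix K.C U c) :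
    ∃ t ∈ K.TU U, ∃ x ∈ K.JU U, c = K.pr (K.d t) + K.pr x := by
  obtain ⟨x, hx, t, ht, rfl⟩ := K.pres 𝓤 hJ U h90 c hc
  exact ⟨t, ht, x, hx, by rw [K.pr_add, add_comm]⟩

/-- **Kernel**: `pr (d t) ∈ pr (J^U) + n • C^U` iff `t ∈ E + Q^U + n • T_U`. -/
theorem recipA_ker (𝓤 : Levels G) (hJ : IsSmooth 𝓤 K.J) (U : Subgroup G)
    (h90 : UC.H90sm (𝓤.sub U) (Rep.res U.subtype K.Q)) (n : ℕ) (t : K.Q) :
    (∃ x ∈ K.JU U, ∃ c' : K.C, F4Cf.Fix K.C U c' ∧ K.pr (K.d t) = K.pr x + n • c') ↔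
      ∃ e ∈ K.E, ∃ f ∈ K.QU U, ∃ t' ∈ K.TU U, t = e + f + n • t' := by
  constructor
  · rintro ⟨x, hx, c', hc', h⟩
    obtain ⟨x', hx', t', ht', rfl⟩ := K.pres 𝓤 hJ U h90 c' hc'
    have h1 : K.pr (0 + K.d t) = K.pr ((x + n • x') + K.d (n • t')) := by
      rw [zero_add, h, K.pr_add (x + n • x'), K.pr_add x, K.pr_nsmul, K.d_nsmul, K.pr_nsmul,
        K.pr_add x', nsmul_add]
      abel
    obtain ⟨ε, hε, hεe⟩ := K.pr_eq_iff.1 h1
    have hmem : K.d (ε - (t - n • t')) ∈ K.JU U := by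
      rw [← hεe, zero_sub]
      exact (K.JU U).neg_mem ((K.JU U).add_mem hx ((K.JU U).nsmul_mem hx' n))
    have hf : ε - (t - n • t') ∈ K.QU U := K.d_mem_JU_iff.1 hmem
    refine ⟨ε, hε, -(ε - (t - n • t')), (K.QU U).neg_mem hf, t', ht', ?_⟩
    abel
  · rintro ⟨e, he, f, hf, t', ht', rfl⟩
    refine ⟨K.d f, K.d_mem_JU hf, K.pr (K.d t'), K.recipA_fix ht', ?_⟩
    rw [K.d_add, K.d_add, K.pr_add, K.pr_add, K.pr_d_of_mem he, zero_add, K.d_nsmul, K.pr_nsmul]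

end KForm

section Concrete

variable {S : Finset Nat.Primes} (L : OpenS S)

/-- `CMk (diagJ t)` is fixed by `W` for `t ∈ T_W`. -/
theorem recipA_fix (hS : S.Nonempty) {t : QSx S} (ht : t ∈ L.TU) :
    F4Cf.Fix (Crep S) L.U (CMk S (diagJ S t)) :=
  (kfS S hS).recipA_fix (U := L.U) ht

/-- `t ↦ CMk (diagJ t)` is `G_ℚ`-equivariant. -/
theorem recipA_equivariant (g : GQ) (t : QSx S) :
    CMk S (diagJ S ((QSx S).ρ g t)) = (Crep S).ρ g (CMk S (diagJ S t)) := by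
  rw [diagJ_comm, CMk_comm]

/-- **N4-A, surjectivity.** -/
theorem recipA_surj (hS : S.Nonempty) (c : Crep S) (hc : F4Cf.Fix (Crep S) L.U c) :
    ∃ t ∈ L.TU, ∃ x ∈ kpJU S hS L.U, c = CMk S (diagJ S t) + CMk S x :=
  (kfS S hS).recipA_surj (levelsS S) (Jrep_smooth S) L.U (h90_QSx S L.U L.isOpen) c hc

/-- **N4-A, kernel.** -/
theorem recipA_ker (hS : S.Nonempty) (n : ℕ) (t : QSx S) :
    (∃ x ∈ kpJU S hS L.U, ∃ c' : Crep S, F4Cf.Fix (Crep S) L.U c' ∧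
        CMk S (diagJ S t) = CMk S x + n • c') ↔
      ∃ e ∈ sUnitsAdd S, ∃ a : (L.field)ˣ, ∃ t' ∈ L.TU, t = e + L.toQS a + n • t' := by
  have key := (kfS S hS).recipA_ker (levelsS S) (Jrep_smooth S) L.U
    (h90_QSx S L.U L.isOpen) n t
  constructor
  · intro h
    obtain ⟨e, he, f, hf, t', ht', h1⟩ := key.1 h
    obtain ⟨a, ha⟩ := L.exists_toQS_of_fixed f hf
    exact ⟨e, he, a, t', ht', by rw [ha]; exact h1⟩
  · rintro ⟨e, he, a, t', ht', h1⟩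
    exact key.2 ⟨e, he, L.toQS a, fun g hg => L.toQS_fixed a g hg, t', ht', h1⟩

end Concrete

end Fermat.Agent.F4
end MergeWrap_S56_W2_EC_Cyclic_RecipA

section MergeWrap_S56_W2_EC_Cyclic_RecipWAbs -- from S56/W2/EC/Cyclic/RecipWAbs.lean

/-!
# S56 / W2-EC / (D) cyclic case, sub-seat (RW), abstract part (helper14)

Universal coefficients for a restricted quotient datum.  `D : UCData p K J I Q`, `h : D.QuotHyp f E`
(`C = J / E`, `KC = K / M[0]`), `r : H →* G`.  With `DJ = D.res r`, `DC = (D.quot0 h).res r`: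

* `rw_rel1α_quot0_res` : `Rel1α` is compatible with `K|_H → KC|_H`, `J → C`;
* `rw_α1_natural`      : `g_* (α¹_J x) = α¹_C (qJ x)` for `x ∈ J^H`;
* `rw_α1_surj_of_H1p0` : `α¹` is surjective when `H¹[p] = 0` on cocycles;
* `rw_α1_eq_iff`       : `α¹ x = α¹ y ↔ x - y ∈ p • C^H`.
-/

set_option autoImplicit false
set_option linter.unusedSectionVars false

open CategoryTheory groupCohomology

namespace Fermat.Agent.S56.EC

open Fermat.Agent.F4

section Gen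

variable {G : Type} [Group G] {p : ℕ} {K : Cx (ZMod p) G} {C I Q : Rep.{0} ℤ G}
  (D : UCData p K C I Q) {𝓤 : Levels G} (hI : IsSmooth 𝓤 I)

/-- `α¹` is surjective when `H¹(C)[p] = 0` on cocycles. -/
theorem rw_α1_surj_of_H1p0 (h : UC.H1p0 p 𝓤 C) : Function.Surjective (D.α1 hI) := by
  intro y
  obtain ⟨z, rfl⟩ := HH1π_surjective 𝓤 K y
  obtain ⟨x, hx, hrel⟩ := D.exists_rel1α_of_H1p0 hI h z.2
  exact ⟨⟨x, hx⟩, D.α1_mk hI ⟨x, hx⟩ z hrel⟩

/-- `α¹ x = α¹ y` iff `x - y` is `p` times an invariant. -/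
theorem rw_α1_eq_iff (x y : ↥(UC.Inv C)) :
    D.α1 hI x = D.α1 hI y ↔ ∃ c : ↥(UC.Inv C), (x : C) = (y : C) + p • (c : C) := by
  rw [← sub_eq_zero, ← map_sub, D.α1_eq_zero_iff hI]
  constructor
  · rintro ⟨c, hc⟩
    refine ⟨c, ?_⟩
    have h1 := congrArg (fun t : ↥(UC.Inv C) => (t : C)) hc
    simp only [AddSubgroup.coe_sub] at h1
    have h2 : (((p : ℤ) • c : ↥(UC.Inv C)) : C) = p • (c : C) := by
      rw [AddSubgroup.coe_zsmul, natCast_zsmul]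
    rw [h2] at h1
    rw [← h1]
    abel
  · rintro ⟨c, hc⟩
    refine ⟨c, Subtype.ext ?_⟩
    rw [AddSubgroup.coe_sub, AddSubgroup.coe_zsmul, natCast_zsmul, hc]
    abel

end Gen

section Quot

variable {G : Type} [Group G] {p : ℕ} {K : Cx (ZMod p) G} {J I Q : Rep.{0} ℤ G}
  {D : UCData p K J I Q} {M : Rep.{0} (ZMod p) G} {f : CxHom (Cx.deg0 M) K}
  {E : AddSubgroup J} (h : D.QuotHyp f E) {H : Type} [Group H] (r : H →* G)

include h in
/-- `α¹` is compatible with the quotient maps, after restriction along `r`. -/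
lemma rw_rel1α_quot0_res {x : J} {z : T1 (K.res r)} (hrel : (D.res r).Rel1α x z) :
    ((D.quot0 h).res r).Rel1α (h.qJ x)
      ((fun g => (K.quot0Map f).f0 (z.1 g), (K.quot0Map f).f1 z.2) : T1 ((K.quot0 f).res r)) := by
  obtain ⟨s, hps, ha, hb⟩ := hrel
  have hps' : (p : ℤ) • (s : I) = D.ι x := hps
  have hb' : D.i1 z.2 = D.π s := hb
  refine ⟨h.qI s, ?_, fun g => ?_, ?_⟩
  · have e1 : (p : ℤ) • h.qI s = h.qI ((p : ℤ) • (s : I)) := (map_zsmul h.qI _ _).symm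
    have e2 : h.qI (D.ι x) = h.ι' (h.qJ x) := (h.ι'_qJ x).symm
    exact e1.trans ((congrArg h.qI hps').trans e2)
  · have ha' : D.i0 (z.1 g) = I.ρ (r g) s - s := ha g
    have e1 : h.i0' ((K.quot0Map f).f0 (z.1 g)) = h.qI (D.i0 (z.1 g)) := h.i0'_mk _
    have e2 : h.qI (I.ρ (r g) s - s) = h.IC.ρ (r g) (h.qI s) - h.qI s := by
      rw [map_sub, h.qI_comm]
    exact e1.trans ((congrArg h.qI ha').trans e2)
  · have e1 : h.π' (h.qI s) = D.π s := h.π'_qI s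
    exact hb'.trans e1.symm

variable {𝓥 : Levels H} (hI : IsSmooth 𝓥 (Rep.res r I)) (hIC : IsSmooth 𝓥 (Rep.res r h.IC))

/-- The image of a `H`-invariant of `J` in `C = J / E` is `H`-invariant. -/
lemma rw_qJ_inv (x : ↥(UC.Inv (Rep.res r J))) : h.qJ (x : J) ∈ UC.Inv (Rep.res r h.C) := by
  intro g
  show h.C.ρ (r g) (h.qJ (x : J)) = h.qJ (x : J)
  have hx : J.ρ (r g) (x : J) = (x : J) := x.2 g
  rw [← h.qJ_comm, hx]

/-- **Naturality of `α¹`**: `g_* (α¹_J x) = α¹_C (qJ x)`. -/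
theorem rw_α1_natural (gW : CxHom (K.res r) ((K.quot0 f).res r))
    (hg0 : ∀ t, gW.f0 t = (K.quot0Map f).f0 t) (hg1 : ∀ t, gW.f1 t = (K.quot0Map f).f1 t)
    (x : ↥(UC.Inv (Rep.res r J))) :
    gW.mapHH1 𝓥 ((D.res r).α1 hI x) =
      ((D.quot0 h).res r).α1 hIC ⟨h.qJ (x : J), rw_qJ_inv h r x⟩ := by
  obtain ⟨z, hz, hrel⟩ := UCData.Rel1α.exists (D.res r) hI x.2
  rw [(D.res r).α1_mk hI x ⟨z, hz⟩ hrel]
  have hrel' := rw_rel1α_quot0_res h r hrel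
  have hzz : gW.onT1 z = ((fun g => (K.quot0Map f).f0 (z.1 g), (K.quot0Map f).f1 z.2) :
      T1 ((K.quot0 f).res r)) := by
    refine Prod.ext (funext fun g => hg0 _) (hg1 _)
  rw [← hzz] at hrel'
  symm
  exact ((D.quot0 h).res r).α1_mk hIC ⟨h.qJ (x : J), rw_qJ_inv h r x⟩ (gW.mapZZ1 𝓥 ⟨z, hz⟩) hrel'

end Quot

end Fermat.Agent.S56.EC
end MergeWrap_S56_W2_EC_Cyclic_RecipWAbs

section MergeWrap_S56_W2_EC_Cyclic_RecipW -- from S56/W2/EC/Cyclic/RecipW.lean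

set_option autoImplicit false
set_option synthInstance.maxHeartbeats 400000

namespace Fermat.Agent.S56.EC

open Fermat.Agent.F4 Fermat.Agent.F4Cf ExtCitation CategoryTheory groupCohomology

variable {p : ℕ} [Fact p.Prime] {S : Finset Nat.Primes} {hpS : pPrime p ∈ S}
  (Pk : ECPack p S hpS) (L : OpenS S)

lemma cyRW_smoothIC : IsSmooth (levelsS S) Pk.quotHyp.IC :=
  Pk.quotHyp.smoothIC (smooth_piCoind (S := S) (fun q => (Pk.P q).I))

/-- `g : KJ → KC`. -/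
noncomputable abbrev cyG : CxHom Pk.KJ Pk.KC := coindG Pk.loc (isSmooth_Fp1 S hpS)

lemma cyG_eq : Pk.datum.g = cyG Pk := rfl

/-- `t ↦ CMk (diagJ t)`, as a map `T_W → C^W`. -/
noncomputable def cyDiagInv : ↥L.TU →+ ↥(UC.Inv (Rep.res L.U.subtype (Crep S))) :=
  (((CMk S).comp (diagJ S)).comp L.TU.subtype).codRestrict (UC.Inv (Rep.res L.U.subtype (Crep S)))
    fun t g => recipA_fix L ⟨_, hpS⟩ t.2 (g : GQ) g.2

lemma cyDiagInv_coe (t : ↥L.TU) :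
    ((cyDiagInv (hpS := hpS) L t : ↥(UC.Inv (Rep.res L.U.subtype (Crep S)))) : Crep S) =
      CMk S (diagJ S (t : QSx S)) := rfl

/-- `κ₀ : T_W → HH¹(W, KC|_W)`, `t ↦ α¹_W [CMk (diagJ t)]`. -/
noncomputable def cyKapW : ↥L.TU →+ HH1 ((levelsS S).sub L.U) (Pk.KC.res L.U.subtype) :=
  ((Pk.datC.res L.U.subtype).α1 (UC.isSmooth_res L.U.subtype (cyRW_smoothIC Pk))).comp
    (cyDiagInv (hpS := hpS) L)

/-- `κ₀ t` is represented by a cocycle `Rel1α`-related to `CMk (diagJ t)`. -/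
theorem cyKapW_rel (t : ↥L.TU) :
    ∃ z : ↥(ZZ1 ((levelsS S).sub L.U) (Pk.KC.res L.U.subtype)),
      cyKapW Pk L t = HH1π _ _ z ∧
        (Pk.datC.res L.U.subtype).Rel1α (CMk S (diagJ S (t : QSx S))) z.1 := by
  obtain ⟨z, hz, hrel⟩ := UCData.Rel1α.exists (Pk.datC.res L.U.subtype)
    (UC.isSmooth_res L.U.subtype (cyRW_smoothIC Pk)) (cyDiagInv (hpS := hpS) L t).2
  exact ⟨⟨z, hz⟩, (Pk.datC.res L.U.subtype).α1_mk
    (UC.isSmooth_res L.U.subtype (cyRW_smoothIC Pk)) (cyDiagInv (hpS := hpS) L t) ⟨z, hz⟩ hrel, hrel⟩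

/-- `I_J|_W` is smooth. -/
lemma cyRW_smoothIJW : IsSmooth ((levelsS S).sub L.U) (Rep.res L.U.subtype
    (cxPiRep fun q : ↥S => coInd (primeLocalToGlobal q.1) (levelsS S) (Pk.P q).I)) :=
  UC.isSmooth_res L.U.subtype (smooth_piCoind (S := S) (fun q => (Pk.P q).I))

/-- `g_* ∘ α¹_J = α¹_C ∘ CMk` over `W`. -/
lemma cyRW_natural (x : ↥(UC.Inv (Rep.res L.U.subtype (Jrep S)))) :
    (rbResHom L.U.subtype (cyG Pk)).mapHH1 ((levelsS S).sub L.U)
        ((Pk.datJ.res L.U.subtype).α1 (cyRW_smoothIJW Pk L) x) =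
      (Pk.datC.res L.U.subtype).α1 (UC.isSmooth_res L.U.subtype (cyRW_smoothIC Pk))
        ⟨CMk S (x : Jrep S), rw_qJ_inv Pk.quotHyp L.U.subtype x⟩ :=
  rw_α1_natural Pk.quotHyp L.U.subtype (cyRW_smoothIJW Pk L)
    (UC.isSmooth_res L.U.subtype (cyRW_smoothIC Pk))
    (rbResHom L.U.subtype (cyG Pk)) (fun _ => rfl) (fun _ => rfl) x

/-- **(RW, span)** every class of `HH¹(W, KC|_W)` is `κ₀ t + g_W η`. -/
theorem cyKapW_span (hL : L.U ∈ (levelsS S).sets)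
    (ξ : HH1 ((levelsS S).sub L.U) (Pk.KC.res L.U.subtype)) :
    ∃ t : ↥L.TU, ∃ η : HH1 ((levelsS S).sub L.U) (Pk.KJ.res L.U.subtype),
      ξ = cyKapW Pk L t + (rbResHom L.U.subtype (cyG Pk)).mapHH1 ((levelsS S).sub L.U) η := by
  have hS : S.Nonempty := ⟨_, hpS⟩
  have h1 : UC.H1p0 p ((levelsS S).sub L.U) (Rep.res L.U.subtype (Crep S)) :=
    (h1slack (Pk.pcf.res L.isOpen)).h1p0
  obtain ⟨c, hcξ⟩ := rw_α1_surj_of_H1p0 (Pk.datC.res L.U.subtype)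
    (UC.isSmooth_res L.U.subtype (cyRW_smoothIC Pk)) h1 ξ
  obtain ⟨t, ht, x, hx, hc⟩ := recipA_surj L hS (c : Crep S) (fun g hg => c.2 ⟨g, hg⟩)
  refine ⟨⟨t, ht⟩, (Pk.datJ.res L.U.subtype).α1 (cyRW_smoothIJW Pk L)
    ⟨x, fun g => hx g.1 g.2⟩, ?_⟩
  have hnat := cyRW_natural Pk L ⟨x, fun g => hx g.1 g.2⟩
  have hsum : c = cyDiagInv (hpS := hpS) L ⟨t, ht⟩ +
      ⟨CMk S x, rw_qJ_inv Pk.quotHyp L.U.subtype ⟨x, fun g => hx g.1 g.2⟩⟩ :=
    Subtype.ext hc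
  have e1 := congrArg ((Pk.datC.res L.U.subtype).α1
    (UC.isSmooth_res L.U.subtype (cyRW_smoothIC Pk))) hsum
  rw [map_add] at e1
  exact hcξ.symm.trans (e1.trans (congrArg (fun y => cyKapW Pk L ⟨t, ht⟩ + y) hnat.symm))

/-- **(RW, kernel)** `κ₀ t ∈ range g_W` iff `t ∈ E + Fˣ + p T_W`. -/
theorem cyKapW_range_iff (hL : L.U ∈ (levelsS S).sets) (t : ↥L.TU) :
    (∃ η : HH1 ((levelsS S).sub L.U) (Pk.KJ.res L.U.subtype),
        cyKapW Pk L t = (rbResHom L.U.subtype (cyG Pk)).mapHH1 ((levelsS S).sub L.U) η) ↔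
      ∃ e ∈ sUnitsAdd S, ∃ a : (L.field)ˣ, ∃ t' ∈ L.TU, (t : QSx S) = e + L.toQS a + p • t' := by
  have hS : S.Nonempty := ⟨_, hpS⟩
  rw [← recipA_ker L hS p (t : QSx S)]
  constructor
  · rintro ⟨η, hη⟩
    obtain ⟨x, rfl⟩ := (Pk.datJ.res L.U.subtype).α1_surjective_of_H1 (cyRW_smoothIJW Pk L)
      (h90_Jrep S L.U L.isOpen) η
    have hnat := cyRW_natural Pk L x
    have h2 : (Pk.datC.res L.U.subtype).α1 (UC.isSmooth_res L.U.subtype (cyRW_smoothIC Pk))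
        (cyDiagInv (hpS := hpS) L t) =
        (Pk.datC.res L.U.subtype).α1 (UC.isSmooth_res L.U.subtype (cyRW_smoothIC Pk))
          ⟨CMk S (x : Jrep S), rw_qJ_inv Pk.quotHyp L.U.subtype x⟩ := hη.trans hnat
    obtain ⟨c, hc⟩ := (rw_α1_eq_iff (Pk.datC.res L.U.subtype)
      (UC.isSmooth_res L.U.subtype (cyRW_smoothIC Pk)) _ _).1 h2
    exact ⟨(x : Jrep S), fun g hg => x.2 ⟨g, hg⟩, (c : Crep S), fun g hg => c.2 ⟨g, hg⟩, hc⟩
  · rintro ⟨x, hx, c', hc', h⟩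
    refine ⟨(Pk.datJ.res L.U.subtype).α1 (cyRW_smoothIJW Pk L) ⟨x, fun g => hx g.1 g.2⟩, ?_⟩
    have hnat := cyRW_natural Pk L ⟨x, fun g => hx g.1 g.2⟩
    have h2 : (Pk.datC.res L.U.subtype).α1 (UC.isSmooth_res L.U.subtype (cyRW_smoothIC Pk))
        (cyDiagInv (hpS := hpS) L t) =
        (Pk.datC.res L.U.subtype).α1 (UC.isSmooth_res L.U.subtype (cyRW_smoothIC Pk))
          ⟨CMk S x, rw_qJ_inv Pk.quotHyp L.U.subtype ⟨x, fun g => hx g.1 g.2⟩⟩ :=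
      (rw_α1_eq_iff (Pk.datC.res L.U.subtype)
        (UC.isSmooth_res L.U.subtype (cyRW_smoothIC Pk)) _ _).2
        ⟨⟨c', fun g => hc' g.1 g.2⟩, h⟩
    exact h2.trans hnat.symm

end Fermat.Agent.S56.EC
end MergeWrap_S56_W2_EC_Cyclic_RecipW

section MergeWrap_S56_W2_EC_Cyclic_ShHyper -- from S56/W2/EC/Cyclic/ShHyper.lean

set_option autoImplicit false

namespace Fermat.Agent.S56.EC

open Fermat.Agent.F4 Fermat.Agent.F4Cf

variable {k G : Type} [CommRing k] [Group G] (U : Subgroup G) [Fintype (G ⧸ U)]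
  (K : Cx k G) (𝓤 : Levels G)

/-- `shT1` as a linear map. -/
noncomputable def cyShT1 : T1 (homCx (permRep k U) K) →ₗ[k] T1 (K.res U.subtype) where
  toFun := shT1 U K
  map_add' _ _ := rfl
  map_smul' _ _ := rfl

lemma cyShT1_apply (z : T1 (homCx (permRep k U) K)) : cyShT1 U K z = shT1 U K z := rfl

/-- Shapiro on 1-cocycles. -/
noncomputable def cyShZZ1 :
    ↥(ZZ1 𝓤 (homCx (permRep k U) K)) →ₗ[k] ↥(ZZ1 (𝓤.sub U) (K.res U.subtype)) :=
  ((cyShT1 U K).comp (ZZ1 𝓤 (homCx (permRep k U) K)).subtype).codRestrict _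
    fun z => shT1_mem_ZZ1 U K 𝓤 z.2

lemma cyShZZ1_coe (z : ↥(ZZ1 𝓤 (homCx (permRep k U) K))) :
    ((cyShZZ1 U K 𝓤 z : ↥(ZZ1 (𝓤.sub U) (K.res U.subtype))) : T1 (K.res U.subtype)) =
      shT1 U K z.1 := rfl

/-- **Shapiro on classes.** -/
noncomputable def cyShHH1 :
    HH1 𝓤 (homCx (permRep k U) K) →ₗ[k] HH1 (𝓤.sub U) (K.res U.subtype) :=
  Submodule.mapQ _ _ (cyShZZ1 U K 𝓤) fun z hz => shT1_mem_BB1 U K (z := z.1) hz

lemma cyShHH1_mk (z : ↥(ZZ1 𝓤 (homCx (permRep k U) K))) :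
    cyShHH1 U K 𝓤 (HH1π _ _ z) = HH1π _ _ (cyShZZ1 U K 𝓤 z) := rfl

variable {𝓤}

theorem cyShHH1_injective : Function.Injective (cyShHH1 U K 𝓤) := by
  rw [← LinearMap.ker_eq_bot, LinearMap.ker_eq_bot']
  intro x hx
  obtain ⟨z, rfl⟩ := HH1π_surjective _ _ x
  rw [cyShHH1_mk, HH1π_eq_zero_iff] at hx
  rw [HH1π_eq_zero_iff]
  exact shapiro_inj1 U K z.2 hx

theorem cyShHH1_surjective (hU : 𝓤.IsOpen U) : Function.Surjective (cyShHH1 U K 𝓤) := by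
  intro y
  obtain ⟨y, rfl⟩ := HH1π_surjective _ _ y
  obtain ⟨z, hz, hzy⟩ := shapiro_surj1 U K hU y.2
  refine ⟨HH1π _ _ ⟨z, hz⟩, ?_⟩
  rw [cyShHH1_mk]
  congr 1
  exact Subtype.ext hzy

theorem cyShHH1_bijective (hU : 𝓤.IsOpen U) : Function.Bijective (cyShHH1 U K 𝓤) :=
  ⟨cyShHH1_injective U K, cyShHH1_surjective U K hU⟩

variable (𝓤)

/-- **Shapiro is natural in `K`.** -/
theorem cyShHH1_post {K K' : Cx k G} (φ : CxHom K K') (x : HH1 𝓤 (homCx (permRep k U) K)) :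
    cyShHH1 U K' 𝓤 ((homCxPost (permRep k U) φ).mapHH1 𝓤 x) =
      (rbResHom U.subtype φ).mapHH1 (𝓤.sub U) (cyShHH1 U K 𝓤 x) := by
  obtain ⟨z, rfl⟩ := HH1π_surjective _ _ x
  rfl

end Fermat.Agent.S56.EC
end MergeWrap_S56_W2_EC_Cyclic_ShHyper

section MergeWrap_S56_W2_EC_Cyclic_ShaPerm_Mackey -- from S56/W2/EC/Cyclic/ShaPerm/Mackey.lean

set_option autoImplicit false

open CategoryTheory groupCohomology

namespace Fermat.Agent.S56.EC

open Fermat.Agent.F4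

variable {k G : Type} [CommRing k] [Group G] (W : Subgroup G)

section Coboundary

variable {H : Type} [Group H] (r : H →* G)

/-- The orbit relation of `H` on `G ⧸ W`. -/
def cySPRel : Setoid (G ⧸ W) where
  r x y := ∃ h : H, r h • x = y
  iseqv :=
    { refl := fun x => ⟨1, by rw [map_one, one_smul]⟩
      symm := by
        rintro x y ⟨h, rfl⟩
        exact ⟨h⁻¹, by rw [map_inv, inv_smul_smul]⟩
      trans := by
        rintro x y z ⟨h, rfl⟩ ⟨h', rfl⟩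
        exact ⟨h' * h, by rw [map_mul, mul_smul]⟩ }

/-- The chosen representative of the orbit of `x`. -/
noncomputable def cySPRep (x : G ⧸ W) : G ⧸ W :=
  (Quotient.mk (cySPRel W r) x).out

lemma cySPRep_rel (x : G ⧸ W) : ∃ h : H, r h • cySPRep W r x = x :=
  Quotient.mk_out (s := cySPRel W r) x

lemma cySPRep_smul (d : H) (x : G ⧸ W) : cySPRep W r (r d • x) = cySPRep W r x := by
  unfold cySPRep
  congr 1
  exact Quotient.sound (s := cySPRel W r) ⟨d⁻¹, by rw [map_inv, inv_smul_smul]⟩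

/-- A chosen `t` with `t • rep(x) = x`. -/
noncomputable def cySPT (x : G ⧸ W) : H := Classical.choose (cySPRep_rel W r x)

lemma cySPT_spec (x : G ⧸ W) : r (cySPT W r x) • cySPRep W r x = x :=
  Classical.choose_spec (cySPRep_rel W r x)

variable {W r}

lemma cySP_cocycle {z : H → (G ⧸ W) → k}
    (hz : ∀ g h : H, z (g * h) = (permRep k W).ρ (r g) (z h) + z g) (g h : H) (x : G ⧸ W) :
    z (g * h) x = z h ((r g)⁻¹ • x) + z g x := by
  have := congrFun (hz g h) x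
  rw [this]
  rfl

lemma cySP_cocycle_one {z : H → (G ⧸ W) → k}
    (hz : ∀ g h : H, z (g * h) = (permRep k W).ρ (r g) (z h) + z g) (x : G ⧸ W) :
    z 1 x = 0 := by
  have h := cySP_cocycle hz 1 1 x
  rw [mul_one, map_one, inv_one, one_smul] at h
  exact (add_eq_right.mp h.symm)

/-- The primitive of `z`. -/
noncomputable def cySPPrim (W : Subgroup G) (r : H →* G) (z : H → (G ⧸ W) → k) :
    (G ⧸ W) → k :=
  fun x => z (cySPT W r x)⁻¹ (cySPRep W r x)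

/-- Independence of the choice of `t`. -/
lemma cySPPrim_eq {z : H → (G ⧸ W) → k}
    (hz : ∀ g h : H, z (g * h) = (permRep k W).ρ (r g) (z h) + z g)
    (hstab : ∀ (s : H) (x : G ⧸ W), r s • x = x → z s x = 0)
    (x : G ⧸ W) (t : H) (ht : r t • cySPRep W r x = x) :
    cySPPrim W r z x = z t⁻¹ (cySPRep W r x) := by
  unfold cySPPrim
  set x₀ := cySPRep W r x with hx₀
  set t₀ := cySPT W r x with ht₀
  have h0 : r t₀ • x₀ = x := cySPT_spec W r x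
  -- `t₀⁻¹ = s * t⁻¹` with `s = t₀⁻¹ * t` in the stabiliser of `x₀`
  have hs : r (t₀⁻¹ * t) • x₀ = x₀ := by
    rw [map_mul, mul_smul, ht, map_inv, inv_smul_eq_iff, h0]
  have h1 : t₀⁻¹ = (t₀⁻¹ * t) * t⁻¹ := by group
  rw [h1, cySP_cocycle hz, hstab _ _ hs, add_zero]
  congr 1
  rw [inv_smul_eq_iff, hs]

/-- **Mackey by hand**: a cocycle with values in `k[G/W]|_H` which vanishes on the stabilisers
is the coboundary of `cySPPrim`. -/
theorem cySP_coboundary {z : H → (G ⧸ W) → k}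
    (hz : ∀ g h : H, z (g * h) = (permRep k W).ρ (r g) (z h) + z g)
    (hstab : ∀ (s : H) (x : G ⧸ W), r s • x = x → z s x = 0) (d : H) :
    z d = (permRep k W).ρ (r d) (cySPPrim W r z) - cySPPrim W r z := by
  funext x
  show z d x = cySPPrim W r z ((r d)⁻¹ • x) - cySPPrim W r z x
  set x₀ := cySPRep W r x with hx₀
  set t := cySPT W r x with ht
  have h0 : r t • x₀ = x := cySPT_spec W r x
  have hrep : cySPRep W r ((r d)⁻¹ • x) = x₀ := by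
    have := cySPRep_smul W r d⁻¹ x
    rwa [map_inv] at this
  have h1 : cySPPrim W r z ((r d)⁻¹ • x) = z (d⁻¹ * t)⁻¹ x₀ := by
    have := cySPPrim_eq hz hstab ((r d)⁻¹ • x) (d⁻¹ * t)
      (by rw [hrep, map_mul, mul_smul, h0, map_inv])
    rw [this, hrep]
  have h2 : cySPPrim W r z x = z t⁻¹ x₀ := rfl
  rw [h1, h2]
  have h3 : (d⁻¹ * t)⁻¹ = t⁻¹ * d := by group
  rw [h3, cySP_cocycle hz, map_inv, inv_inv, h0]
  ring

/-- The converse: coboundaries vanish on the stabilisers. -/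
lemma cySP_stab_of_coboundary {z : H → (G ⧸ W) → k} (n : (G ⧸ W) → k)
    (hn : ∀ d : H, z d = (permRep k W).ρ (r d) n - n) (s : H) (x : G ⧸ W)
    (hs : r s • x = x) : z s x = 0 := by
  rw [hn s]
  show n ((r s)⁻¹ • x) - n x = 0
  rw [inv_smul_eq_iff.mpr hs.symm, sub_self]

end Coboundary

section Conj

/-- `y(h)(gW) = y(g⁻¹ h g)(W)` for a cocycle `y` and `g⁻¹ h g ∈ W`. -/
lemma cySP_conj {y : G → (G ⧸ W) → k}
    (hy : ∀ g h : G, y (g * h) = (permRep k W).ρ g (y h) + y g) (g h : G)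
    (hw : g⁻¹ * h * g ∈ W) :
    y h ((g : G) : G ⧸ W) = y (g⁻¹ * h * g) (shBase W) := by
  have hc : ∀ (a b : G) (x : G ⧸ W), y (a * b) x = y b (a⁻¹ • x) + y a x := fun a b x =>
    cySP_cocycle (r := MonoidHom.id G) (fun a b => hy a b) a b x
  have h1 : y 1 ((g : G) : G ⧸ W) = 0 :=
    cySP_cocycle_one (r := MonoidHom.id G) (fun a b => hy a b) _
  set w := g⁻¹ * h * g with hwdef
  have hh : h = g * (w * g⁻¹) := by rw [hwdef]; group
  have hgx : g⁻¹ • ((g : G) : G ⧸ W) = shBase W := by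
    show ((g⁻¹ * g : G) : G ⧸ W) = _
    rw [inv_mul_cancel]
    rfl
  have hwx : w⁻¹ • shBase W = shBase W := by
    show ((w⁻¹ * 1 : G) : G ⧸ W) = ((1 : G) : G ⧸ W)
    rw [mul_one, QuotientGroup.eq, inv_inv, mul_one]
    exact hw
  have h2 : y (g * g⁻¹) ((g : G) : G ⧸ W) = y g⁻¹ (shBase W) + y g ((g : G) : G ⧸ W) := by
    rw [hc, hgx]
  rw [mul_inv_cancel, h1] at h2
  rw [hh, hc, hgx, hc, hwx]
  linear_combination -h2

end Conj

end Fermat.Agent.S56.EC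
end MergeWrap_S56_W2_EC_Cyclic_ShaPerm_Mackey

section MergeWrap_S56_W2_EC_Cyclic_ShaPerm -- from S56/W2/EC/Cyclic/ShaPerm.lean

set_option autoImplicit false

open CategoryTheory groupCohomology

namespace Fermat.Agent.S56.EC

open Fermat.Agent.F4 ExtCitation

variable {p : ℕ} [Fact p.Prime] (S : Finset Nat.Primes) (W : Subgroup GQ)

/-- The Shapiro image `w ↦ y(w)(x₀)` as a function `W → μ_p`. -/
noncomputable def cyShN1 (y : GQ → permRep (ZMod p) W) : ↥W → Fp1 p := shN1 W y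

lemma cyShN1_apply (y : GQ → permRep (ZMod p) W) (w : ↥W) :
    cyShN1 W y w = (y (w : GQ) : (GQ ⧸ W) → ZMod p) (shBase W) := rfl

variable {S W}

lemma cySP_cocycle_of_mem {y : GQ → permRep (ZMod p) W}
    (hy : y ∈ Z1 (levelsS S) (permRep (ZMod p) W)) (g h : GQ) :
    y (g * h) = (permRep (ZMod p) W).ρ g (y h) + y g :=
  (mem_cocycles₁_iff y).1 hy.1 g h

/-- The Shapiro image of a smooth cocycle is a smooth character. -/
lemma cyShN1_mem_cyHomW {y : GQ → permRep (ZMod p) W}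
    (hy : y ∈ Z1 (levelsS S) (permRep (ZMod p) W)) : cyShN1 W y ∈ cyHomW S W := by
  have hZ := shN1_mem_Z1 W (levelsS S) hy
  have hc := (mem_cocycles₁_iff (shN1 W y)).1 hZ.1
  have hadd : ∀ w w' : ↥W, cyShN1 W y (w * w') = cyShN1 W y w + cyShN1 W y w' := by
    intro w w'
    have := hc w w'
    rw [add_comm]
    exact this
  refine ⟨hadd, ?_⟩
  obtain ⟨V', ⟨V, hV, rfl⟩, hV'⟩ := hZ.2
  refine ⟨V, hV, fun w hw => ?_⟩
  have h1 : cyShN1 W y 1 = 0 := by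
    have := hadd 1 1
    rw [mul_one] at this
    exact add_eq_right.mp this.symm
  have := hV' 1 w hw
  rw [one_mul] at this
  exact this.trans h1

/-- The class of `y` is locally trivial at `q` iff `y ∘ r_q` is a coboundary. -/
lemma cySP_locSm1_eq_zero_iff (y : ↥(Z1 (levelsS S) (permRep (ZMod p) W))) (q : Nat.Primes) :
    locSm1 S (permRep (ZMod p) W) q (H1smπ (levelsS S) (permRep (ZMod p) W) y) = 0 ↔
      ∃ n : (GQ ⧸ W) → ZMod p, ∀ d : primeLocalGaloisGroup q,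
        (y : GQ → permRep (ZMod p) W) (primeLocalToGlobal q d)
          = (permRep (ZMod p) W).ρ (primeLocalToGlobal q d) n - n := by
  have h1 : locSm1 S (permRep (ZMod p) W) q (H1smπ (levelsS S) (permRep (ZMod p) W) y)
      = H1smπ (locLevelsS S q) (Rep.res (primeLocalToGlobal q) (permRep (ZMod p) W))
          (Z1res (levelsS S) (permRep (ZMod p) W) (primeLocalToGlobal q) y) := rfl
  rw [h1, Submodule.mkQ_apply, Submodule.Quotient.mk_eq_zero]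
  constructor
  · rintro ⟨n, hn⟩
    refine ⟨n, fun d => ?_⟩
    have := congrFun hn d
    exact this.symm
  · rintro ⟨n, hn⟩
    refine ⟨n, ?_⟩
    funext d
    exact (hn d).symm

/-- **(SV-P)**: the class of a smooth cocycle `y` of `𝔽_p[G/W]` is locally trivial at the primes
of `S` iff its Shapiro image is a locally trivial character. -/
theorem cyShaPerm_iff (y : ↥(Z1 (levelsS S) (permRep (ZMod p) W))) :
    H1smπ (levelsS S) (permRep (ZMod p) W) y ∈ sha1sm S (permRep (ZMod p) W) ↔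
      cyShN1 W (y : GQ → permRep (ZMod p) W) ∈ cyShaV S W := by
  have hy := cySP_cocycle_of_mem y.2
  rw [sha1sm, LinearMap.mem_ker, mem_cyShaV]
  constructor
  · intro h
    refine ⟨cyShN1_mem_cyHomW y.2, fun q g d hw => ?_⟩
    have hq : locSm1 S (permRep (ZMod p) W) q.1
        (H1smπ (levelsS S) (permRep (ZMod p) W) y) = 0 := congrFun h q
    obtain ⟨n, hn⟩ := (cySP_locSm1_eq_zero_iff y q.1).1 hq
    -- `x = g⁻¹ W` is fixed by `r d`
    have hfix : primeLocalToGlobal q.1 d • (((g⁻¹ : GQ)) : GQ ⧸ W) = ((g⁻¹ : GQ) : GQ ⧸ W) := by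
      show ((primeLocalToGlobal q.1 d * g⁻¹ : GQ) : GQ ⧸ W) = _
      rw [QuotientGroup.eq]
      have : (primeLocalToGlobal q.1 d * g⁻¹)⁻¹ * g⁻¹
          = (g * primeLocalToGlobal q.1 d * g⁻¹)⁻¹ := by group
      rw [this]
      exact W.inv_mem hw
    have h0 := cySP_stab_of_coboundary (r := primeLocalToGlobal q.1)
      (z := fun d => (y : GQ → permRep (ZMod p) W) (primeLocalToGlobal q.1 d)) n hn d _ hfix
    have hw' : (g⁻¹)⁻¹ * primeLocalToGlobal q.1 d * g⁻¹ ∈ W := by rwa [inv_inv]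
    have h1 := cySP_conj W hy g⁻¹ (primeLocalToGlobal q.1 d) hw'
    rw [cyShN1_apply]
    show ((y : GQ → permRep (ZMod p) W) (g * primeLocalToGlobal q.1 d * g⁻¹) :
      (GQ ⧸ W) → ZMod p) (shBase W) = 0
    have h2 : (g⁻¹)⁻¹ * primeLocalToGlobal q.1 d * g⁻¹ = g * primeLocalToGlobal q.1 d * g⁻¹ := by
      rw [inv_inv]
    rw [h2] at h1
    rw [← h1]
    exact h0
  · rintro ⟨_, h⟩
    funext q
    refine (cySP_locSm1_eq_zero_iff y q.1).2
      ⟨cySPPrim W (primeLocalToGlobal q.1)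
        (fun d => (y : GQ → permRep (ZMod p) W) (primeLocalToGlobal q.1 d)), fun d => ?_⟩
    refine cySP_coboundary (r := primeLocalToGlobal q.1)
      (z := fun d => (y : GQ → permRep (ZMod p) W) (primeLocalToGlobal q.1 d))
      (fun a b => ?_) (fun s x hs => ?_) d
    · show (y : GQ → permRep (ZMod p) W) (primeLocalToGlobal q.1 (a * b)) = _
      rw [map_mul, hy]
    · induction x using QuotientGroup.induction_on with
      | H g =>
        have hw : g⁻¹ * primeLocalToGlobal q.1 s * g ∈ W := by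
          have h1 : ((primeLocalToGlobal q.1 s * g : GQ) : GQ ⧸ W) = ((g : GQ) : GQ ⧸ W) := hs
          rw [QuotientGroup.eq] at h1
          have h2 : g⁻¹ * primeLocalToGlobal q.1 s * g
              = ((primeLocalToGlobal q.1 s * g)⁻¹ * g)⁻¹ := by group
          rw [h2]
          exact W.inv_mem h1
        have h1 := cySP_conj W hy g (primeLocalToGlobal q.1 s) hw
        show ((y : GQ → permRep (ZMod p) W) (primeLocalToGlobal q.1 s) :
          (GQ ⧸ W) → ZMod p) ((g : GQ) : GQ ⧸ W) = 0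
        rw [h1]
        have hw' : g⁻¹ * primeLocalToGlobal q.1 s * (g⁻¹)⁻¹ ∈ W := by rwa [inv_inv]
        have h3 := h q g⁻¹ s hw'
        rw [cyShN1_apply] at h3
        have h4 : g⁻¹ * primeLocalToGlobal q.1 s * (g⁻¹)⁻¹ = g⁻¹ * primeLocalToGlobal q.1 s * g := by
          rw [inv_inv]
        simp only [h4] at h3
        exact h3

/-- A smooth character of `W` is a smooth cocycle of the trivial module. -/
lemma cySP_mem_Z1_of_cyHomW {χ : ↥W → Fp1 p} (hχ : χ ∈ cyHomW S W) :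
    (χ : ↥W → Rep.trivial (ZMod p) ↥W (ZMod p)) ∈
      Z1 ((levelsS S).sub W) (Rep.trivial (ZMod p) ↥W (ZMod p)) := by
  obtain ⟨hadd, V, hV, hVχ⟩ := hχ
  refine ⟨(mem_cocycles₁_iff _).2 fun w w' => ?_, V.comap W.subtype, ⟨V, hV, rfl⟩,
    fun g s hs => ?_⟩
  · have := hadd w w'
    rw [add_comm] at this
    exact this
  · have h1 := hadd g s
    have h2 : χ s = 0 := hVχ s hs
    rw [h2, add_zero] at h1
    exact h1

/-- **(SV-P)**, second half: every locally trivial character is the Shapiro image of the smooth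
cocycle `trN1 W χ`, whose class is locally trivial. -/
theorem cyShaPerm_exists (hW : W ∈ (levelsS S).sets) {χ : ↥W → Fp1 p} (hχ : χ ∈ cyShaV S W) :
    ∃ y : ↥(Z1 (levelsS S) (permRep (ZMod p) W)),
      (y : GQ → permRep (ZMod p) W) = trN1 W χ ∧
      cyShN1 W (y : GQ → permRep (ZMod p) W) = χ ∧
      H1smπ (levelsS S) (permRep (ZMod p) W) y ∈ sha1sm S (permRep (ZMod p) W) := by
  have hZ : trN1 W χ ∈ Z1 (levelsS S) (permRep (ZMod p) W) :=
    trN1_mem_Z1 W ((levelsS S).isOpen_of_mem hW) (cySP_mem_Z1_of_cyHomW hχ.1)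
  have hsh : cyShN1 W (trN1 W χ) = χ := shN1_trN1 W χ
  refine ⟨⟨trN1 W χ, hZ⟩, rfl, hsh, ?_⟩
  rw [cyShaPerm_iff]
  show cyShN1 W (trN1 W χ) ∈ cyShaV S W
  rw [hsh]
  exact hχ

variable (S W)

/-- The Shapiro map on smooth `H¹(G_S, 𝔽_p[G/W])`, `[y] ↦ (w ↦ y(w)(x₀))`. -/
noncomputable def cyShH1 : H1sm (levelsS S) (permRep (ZMod p) W) →ₗ[ZMod p] (↥W → Fp1 p) :=
  Submodule.liftQ _
    ({ toFun := fun y => cyShN1 W (y : GQ → permRep (ZMod p) W)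
       map_add' := fun _ _ => rfl
       map_smul' := fun _ _ => rfl } :
      ↥(Z1 (levelsS S) (permRep (ZMod p) W)) →ₗ[ZMod p] (↥W → Fp1 p))
    (by
      rintro y ⟨n, hn⟩
      rw [LinearMap.mem_ker]
      show cyShN1 W (y : GQ → permRep (ZMod p) W) = 0
      have h1 : (y : GQ → permRep (ZMod p) W) = δ0 (permRep (ZMod p) W) n := hn.symm
      rw [h1]
      exact shN1_δ0 W n)

variable {S W}

@[simp] lemma cyShH1_mk (y : ↥(Z1 (levelsS S) (permRep (ZMod p) W))) :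
    cyShH1 S W (H1smπ (levelsS S) (permRep (ZMod p) W) y)
      = cyShN1 W (y : GQ → permRep (ZMod p) W) := rfl

lemma cyShH1_injective : Function.Injective (cyShH1 (p := p) S W) := by
  rw [← LinearMap.ker_eq_bot, LinearMap.ker_eq_bot']
  intro x hx
  obtain ⟨y, rfl⟩ := Submodule.mkQ_surjective _ x
  have h1 : shN1 W (y : GQ → permRep (ZMod p) W) = 0 := hx
  have h2 := shapiroN_inj1 W y.2 h1
  exact (Submodule.Quotient.mk_eq_zero _).2 h2

lemma cyShH1_mem_cyShaV_iff (x : H1sm (levelsS S) (permRep (ZMod p) W)) :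
    cyShH1 S W x ∈ cyShaV S W ↔ x ∈ sha1sm S (permRep (ZMod p) W) := by
  obtain ⟨y, rfl⟩ := Submodule.mkQ_surjective _ x
  exact (cyShaPerm_iff y).symm

/-- **(SV-P)** as an isomorphism: `Ш¹(G_S, 𝔽_p[G/W]) ≃ cyShaV S W`, `[y] ↦ shN1 W y`. -/
noncomputable def cyShaPermEquiv (hW : W ∈ (levelsS S).sets) :
    ↥(sha1sm S (permRep (ZMod p) W)) ≃+ ↥(cyShaV (p := p) S W) :=
  AddEquiv.ofBijective
    ({ toFun := fun x => ⟨cyShH1 S W x.1, (cyShH1_mem_cyShaV_iff x.1).2 x.2⟩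
       map_zero' := Subtype.ext (map_zero (cyShH1 S W))
       map_add' := fun a b => Subtype.ext (map_add (cyShH1 S W) a.1 b.1) } :
      ↥(sha1sm S (permRep (ZMod p) W)) →+ ↥(cyShaV (p := p) S W))
    ⟨fun a b hab => Subtype.ext (cyShH1_injective (congrArg Subtype.val hab)),
      fun χ => by
        obtain ⟨y, _, hy, hsha⟩ := cyShaPerm_exists hW χ.2
        exact ⟨⟨H1smπ (levelsS S) (permRep (ZMod p) W) y, hsha⟩, Subtype.ext hy⟩⟩

@[simp] lemma cyShaPermEquiv_apply (hW : W ∈ (levelsS S).sets)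
    (x : ↥(sha1sm S (permRep (ZMod p) W))) :
    ((cyShaPermEquiv hW x : ↥(cyShaV (p := p) S W)) : ↥W → Fp1 p) = cyShH1 S W x.1 := rfl

end Fermat.Agent.S56.EC
end MergeWrap_S56_W2_EC_Cyclic_ShaPerm

section MergeWrap_S56_W2_EC_Cyclic_RecipEq -- from S56/W2/EC/Cyclic/RecipEq.lean

set_option autoImplicit false

open CategoryTheory groupCohomology

namespace Fermat.Agent.S56.EC

open Fermat.Agent.F4

section Translation

variable {k G : Type} [CommRing k] [Group G] (W : Subgroup G) (hWn : W.Normal)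

include hWn in
lemma rEq_conj_mem (γ : G) (w : ↥W) : γ⁻¹ * (w : G) * γ ∈ W := by
  have := hWn.conj_mem w w.2 γ⁻¹
  rwa [inv_inv] at this

/-- Right translation by `γ` on `G ⧸ W` (`W` normal): `g W ↦ g γ W`. -/
def rEqTr (γ : G) : G ⧸ W → G ⧸ W :=
  Quotient.map' (fun g => g * γ) (fun a b h => by
    rw [QuotientGroup.leftRel_apply] at h ⊢
    have h1 := hWn.conj_mem _ h γ⁻¹
    have h2 : (a * γ)⁻¹ * (b * γ) = γ⁻¹ * (a⁻¹ * b) * γ⁻¹⁻¹ := by group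
    rw [h2]
    exact h1)

lemma rEqTr_mk (γ g : G) : rEqTr W hWn γ ((g : G) : G ⧸ W) = ((g * γ : G) : G ⧸ W) := rfl

lemma rEqTr_smul (γ g : G) (x : G ⧸ W) : rEqTr W hWn γ (g • x) = g • rEqTr W hWn γ x := by
  induction x using QuotientGroup.induction_on with
  | H y =>
    show rEqTr W hWn γ (((g * y : G) : G ⧸ W)) = g • rEqTr W hWn γ ((y : G) : G ⧸ W)
    rw [rEqTr_mk, rEqTr_mk, mul_assoc]
    rfl

lemma rEqTr_inv_cancel (γ : G) (x : G ⧸ W) : rEqTr W hWn γ (rEqTr W hWn γ⁻¹ x) = x := by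
  induction x using QuotientGroup.induction_on with
  | H y => rw [rEqTr_mk, rEqTr_mk, inv_mul_cancel_right]

lemma rEqTr_cancel_inv (γ : G) (x : G ⧸ W) : rEqTr W hWn γ⁻¹ (rEqTr W hWn γ x) = x := by
  induction x using QuotientGroup.induction_on with
  | H y => rw [rEqTr_mk, rEqTr_mk, mul_inv_cancel_right]

lemma rEqTr_base (γ : G) : rEqTr W hWn γ (shBase W) = ((γ : G) : G ⧸ W) := by
  show rEqTr W hWn γ (((1 : G) : G) : G ⧸ W) = _
  rw [rEqTr_mk, one_mul]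

include hWn in
/-- `w • γW = γW` for `w ∈ W` (`W` normal). -/
lemma rEq_smul_mk (γ : G) {w : G} (hw : w ∈ W) : w • ((γ : G) : G ⧸ W) = ((γ : G) : G ⧸ W) :=
  smul_eq_of_mem_normal W hWn le_rfl hw _

lemma rEq_inv_smul_mk (γ : G) : γ⁻¹ • ((γ : G) : G ⧸ W) = shBase W := by
  show (((γ⁻¹ * γ : G) : G) : G ⧸ W) = _
  rw [inv_mul_cancel]
  rfl

variable (k) in
/-- The right translation `R_γ` on `k[G/W]`: `(R_γ m)(x) = m(x γ)`. -/
def rEqR (γ : G) : permRep k W →ₗ[k] permRep k W := LinearMap.funLeft k k (rEqTr W hWn γ)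

lemma rEqR_apply (γ : G) (f : permRep k W) (x : G ⧸ W) :
    (rEqR k W hWn γ f : (G ⧸ W) → k) x = (f : (G ⧸ W) → k) (rEqTr W hWn γ x) := rfl

/-- `R_γ` is `G`-equivariant. -/
lemma rEqR_comm (γ g : G) (f : permRep k W) :
    rEqR k W hWn γ ((permRep k W).ρ g f) = (permRep k W).ρ g (rEqR k W hWn γ f) := by
  funext x
  show ((permRep k W).ρ g f : (G ⧸ W) → k) (rEqTr W hWn γ x)
    = (rEqR k W hWn γ f : (G ⧸ W) → k) (g⁻¹ • x)
  rw [permRep_ρ_apply, rEqR_apply, rEqTr_smul]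

lemma rEqR_permDelta (γ : G) (x : G ⧸ W) :
    rEqR k W hWn γ (permDelta W x) = permDelta W (rEqTr W hWn γ⁻¹ x) := by
  funext y
  rw [rEqR_apply]
  by_cases h : y = rEqTr W hWn γ⁻¹ x
  · rw [h, rEqTr_inv_cancel, permDelta_self, permDelta_self]
  · rw [permDelta_of_ne W h, permDelta_of_ne W]
    intro h'
    apply h
    rw [← h', rEqTr_cancel_inv]

/-- Conjugation of functions on `W`: `(conj_γ χ)(w) = χ(γ⁻¹ w γ)`. -/
def rEqConj {X : Type*} (γ : G) (χ : ↥W → X) : ↥W → X :=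
  fun w => χ ⟨γ⁻¹ * (w : G) * γ, rEq_conj_mem W hWn γ w⟩

lemma rEqConj_apply {X : Type*} (γ : G) (χ : ↥W → X) (w : ↥W) (h : γ⁻¹ * (w : G) * γ ∈ W) :
    rEqConj W hWn γ χ w = χ ⟨γ⁻¹ * (w : G) * γ, h⟩ := rfl

lemma rEqConj_inv_conj {X : Type*} (γ : G) (χ : ↥W → X) :
    rEqConj W hWn γ⁻¹ (rEqConj W hWn γ χ) = χ := by
  funext w
  show χ ⟨γ⁻¹ * ((γ⁻¹)⁻¹ * (w : G) * γ⁻¹) * γ, _⟩ = χ w
  congr 1
  apply Subtype.ext
  show γ⁻¹ * ((γ⁻¹)⁻¹ * (w : G) * γ⁻¹) * γ = (w : G)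
  group

lemma rEqConj_conj_inv {X : Type*} (γ : G) (χ : ↥W → X) :
    rEqConj W hWn γ (rEqConj W hWn γ⁻¹ χ) = χ := by
  funext w
  show χ ⟨(γ⁻¹)⁻¹ * (γ⁻¹ * (w : G) * γ) * γ⁻¹, _⟩ = χ w
  congr 1
  apply Subtype.ext
  show (γ⁻¹)⁻¹ * (γ⁻¹ * (w : G) * γ) * γ⁻¹ = (w : G)
  group

/-- **(EQ-N)** `shN1 (R_γ ∘ y) = conj_γ (shN1 y)` for a cocycle `y` of `k[G/W]`. -/
theorem rEq_shN1 {y : G → permRep k W}
    (hy : ∀ g h : G, y (g * h) = (permRep k W).ρ g (y h) + y g) (γ : G) :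
    shN1 W (fun g => rEqR k W hWn γ (y g)) = rEqConj W hWn γ (shN1 W y) := by
  funext w
  show (rEqR k W hWn γ (y (w : G)) : (G ⧸ W) → k) (shBase W)
    = (y (γ⁻¹ * (w : G) * γ) : (G ⧸ W) → k) (shBase W)
  rw [rEqR_apply, rEqTr_base]
  have e1 := congrFun (hy (w : G) γ) ((γ : G) : G ⧸ W)
  have e2 := congrFun (hy γ (γ⁻¹ * (w : G) * γ)) ((γ : G) : G ⧸ W)
  have e3 : γ * (γ⁻¹ * (w : G) * γ) = (w : G) * γ := by group
  rw [e3] at e2
  rw [e1] at e2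
  have e4 : ((permRep k W).ρ (w : G) (y γ) : (G ⧸ W) → k) ((γ : G) : G ⧸ W)
      = (y γ : (G ⧸ W) → k) ((γ : G) : G ⧸ W) := by
    rw [permRep_ρ_apply, rEq_smul_mk W hWn γ (W.inv_mem w.2)]
  have e5 : ((permRep k W).ρ γ (y (γ⁻¹ * (w : G) * γ)) : (G ⧸ W) → k) ((γ : G) : G ⧸ W)
      = (y (γ⁻¹ * (w : G) * γ) : (G ⧸ W) → k) (shBase W) := by
    rw [permRep_ρ_apply, rEq_inv_smul_mk]
  have e6 : ((permRep k W).ρ (w : G) (y γ) : (G ⧸ W) → k) ((γ : G) : G ⧸ W)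
        + (y (w : G) : (G ⧸ W) → k) ((γ : G) : G ⧸ W)
      = ((permRep k W).ρ γ (y (γ⁻¹ * (w : G) * γ)) : (G ⧸ W) → k) ((γ : G) : G ⧸ W)
        + (y γ : (G ⧸ W) → k) ((γ : G) : G ⧸ W) := e2
  rw [e4, e5, add_comm] at e6
  exact add_right_cancel e6

end Translation

lemma rEq_aux_eq {M : Type*} [AddCommGroup M] (a X Y c : M) (h : Y + a = X + c) :
    a = X - (Y - c) := by
  have e : a = (Y + a) - Y := by abel
  rw [e, h]
  abel

section Hyper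

variable {k G : Type} [CommRing k] [Group G] (W : Subgroup G) (hWn : W.Normal) (K : Cx k G)

/-- Conjugation by `γ` on total 1-cochains of `K|_W`:
`conj_γ (a, b) = (w ↦ γ a(γ⁻¹ w γ), γ b)`. -/
def rEqConjT (γ : G) (z : T1 (K.res W.subtype)) : T1 (K.res W.subtype) :=
  (fun w => K.K0.ρ γ (z.1 ⟨γ⁻¹ * (w : G) * γ, rEq_conj_mem W hWn γ w⟩), K.K1.ρ γ z.2)

lemma rEqConjT_fst (γ : G) (z : T1 (K.res W.subtype)) (w : ↥W) :
    (rEqConjT W hWn K γ z).1 w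
      = K.K0.ρ γ (z.1 ⟨γ⁻¹ * (w : G) * γ, rEq_conj_mem W hWn γ w⟩) := rfl

lemma rEqConjT_snd (γ : G) (z : T1 (K.res W.subtype)) :
    (rEqConjT W hWn K γ z).2 = K.K1.ρ γ z.2 := rfl

/-- The translated cocycle `Z ∘ R_γ`. -/
def rEqZR (γ : G) : T1 (homCx (permRep k W) K) →ₗ[k] T1 (homCx (permRep k W) K) :=
  (homCxMap (rEqR k W hWn γ) (fun g n => rEqR_comm W hWn γ g n) K).t1

lemma rEqZR_mem_ZZ1 (𝓤 : Levels G) (γ : G) {Z : T1 (homCx (permRep k W) K)}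
    (hZ : Z ∈ ZZ1 𝓤 (homCx (permRep k W) K)) :
    rEqZR W hWn K γ Z ∈ ZZ1 𝓤 (homCx (permRep k W) K) :=
  (homCxMap (rEqR k W hWn γ) (fun g n => rEqR_comm W hWn γ g n) K).t1_mem_ZZ1 𝓤 hZ

/-- **(EQ-cup)** `cup1 (Z ∘ R_γ) y = cup1 Z (R_γ ∘ y)`. -/
lemma rEq_cup1 (γ : G) (Z : T1 (homCx (permRep k W) K)) (y : G → permRep k W) :
    cup1 (permRep k W) K (rEqZR W hWn K γ Z) y
      = cup1 (permRep k W) K Z (fun g => rEqR k W hWn γ (y g)) :=
  cup1_homCxMap K (rEqR k W hWn γ) (fun g n => rEqR_comm W hWn γ g n) Z y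

include hWn in
lemma rEq_ρ_permDelta_mk (γ : G) {w : G} (hw : w ∈ W) :
    (permRep k W).ρ w⁻¹ (permDelta W ((γ : G) : G ⧸ W)) = permDelta W ((γ : G) : G ⧸ W) := by
  rw [permRep_ρ_permDelta, rEq_smul_mk W hWn γ (W.inv_mem hw)]

lemma rEq_ρ_inv_permDelta_mk (γ : G) :
    (permRep k W).ρ γ⁻¹ (permDelta (k := k) W ((γ : G) : G ⧸ W)) = permDelta W (shBase W) := by
  rw [permRep_ρ_permDelta, rEq_inv_smul_mk]

lemma rEqR_inv_permDelta_base (γ : G) :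
    rEqR k W hWn γ⁻¹ (permDelta W (shBase W)) = permDelta W ((γ : G) : G ⧸ W) := by
  rw [rEqR_permDelta, inv_inv, rEqTr_base]

variable [Fintype (G ⧸ W)]

lemma rEq_shT1_sub (z z' : T1 (homCx (permRep k W) K)) :
    shT1 W K (z - z') = shT1 W K z - shT1 W K z' := by
  refine Prod.ext ?_ ?_
  · funext u
    exact map_sub ((coindHom W K.K0).π (shBase W)) (z.1 (u : G)) (z'.1 (u : G))
  · exact map_sub ((coindHom W K.K1).π (shBase W)) z.2 z'.2

omit [Fintype (G ⧸ W)] in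
lemma rEq_cup1_sub_left (z z' : T1 (homCx (permRep k W) K)) (y : G → permRep k W) :
    cup1 (permRep k W) K (z - z') y
      = cup1 (permRep k W) K z y - cup1 (permRep k W) K z' y := by
  have h := cup1_add_left K (permRep k W) (z - z') z' y
  rw [sub_add_cancel] at h
  rw [h]
  abel

omit [Fintype (G ⧸ W)] in
lemma rEq_cup1_sub_right (z : T1 (homCx (permRep k W) K)) (y y' : G → permRep k W) :
    cup1 (permRep k W) K z (y - y')
      = cup1 (permRep k W) K z y - cup1 (permRep k W) K z y' := by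
  have h := cup1_add_right K (permRep k W) z (y - y') y'
  rw [sub_add_cancel] at h
  rw [h]
  abel

omit [Fintype (G ⧸ W)] in
lemma rEq_shN1_sub (y y' : G → permRep k W) :
    shN1 W (y - y') = shN1 W y - shN1 W y' := by
  have h := shN1_add W (y - y') y'
  rw [sub_add_cancel] at h
  rw [h]
  abel

/-- **(EQ-T)** `shT1 (Z ∘ R_{γ⁻¹}) = conj_γ (shT1 Z) - D⁰ c`, `c = Z.1(γ)(δ_{γW})`, for a
cocycle `Z` of `Hom(k[G/W], K)`. -/
theorem rEq_shT1 (𝓤 : Levels G) {Z : T1 (homCx (permRep k W) K)}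
    (hZ : Z ∈ ZZ1 𝓤 (homCx (permRep k W) K)) (γ : G) :
    shT1 W K (rEqZR W hWn K γ⁻¹ Z)
      = rEqConjT W hWn K γ (shT1 W K Z)
        - D0 (K.res W.subtype)
            ((Z.1 γ : permRep k W →ₗ[k] K.K0) (permDelta W ((γ : G) : G ⧸ W))) := by
  refine Prod.ext ?_ ?_
  · funext w
    have E1 := ZZ1_homCx_cocycle 𝓤 K (permRep k W) hZ (w : G) γ
      (permDelta W ((γ : G) : G ⧸ W))
    have E2 := ZZ1_homCx_cocycle 𝓤 K (permRep k W) hZ γ (γ⁻¹ * (w : G) * γ)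
      (permDelta W ((γ : G) : G ⧸ W))
    have e3 : γ * (γ⁻¹ * (w : G) * γ) = (w : G) * γ := by group
    rw [e3, E1, rEq_ρ_permDelta_mk W hWn γ w.2, rEq_ρ_inv_permDelta_mk] at E2
    show (Z.1 (w : G) : permRep k W →ₗ[k] K.K0) (rEqR k W hWn γ⁻¹ (permDelta W (shBase W)))
      = K.K0.ρ γ ((Z.1 (γ⁻¹ * (w : G) * γ) : permRep k W →ₗ[k] K.K0) (permDelta W (shBase W)))
        - (K.K0.ρ (w : G) ((Z.1 γ : permRep k W →ₗ[k] K.K0) (permDelta W ((γ : G) : G ⧸ W)))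
          - (Z.1 γ : permRep k W →ₗ[k] K.K0) (permDelta W ((γ : G) : G ⧸ W)))
    rw [rEqR_inv_permDelta_base]
    exact rEq_aux_eq _ _ _ _ E2
  · have E := ZZ1_homCx_d 𝓤 K (permRep k W) hZ γ (permDelta W ((γ : G) : G ⧸ W))
    rw [rEq_ρ_inv_permDelta_mk] at E
    show (Z.2 : permRep k W →ₗ[k] K.K1) (rEqR k W hWn γ⁻¹ (permDelta W (shBase W)))
      = K.K1.ρ γ ((Z.2 : permRep k W →ₗ[k] K.K1) (permDelta W (shBase W)))
        - K.d ((Z.1 γ : permRep k W →ₗ[k] K.K0) (permDelta W ((γ : G) : G ⧸ W)))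
    rw [rEqR_inv_permDelta_base, E]
    abel

end Hyper

section UC

variable {G : Type} [Group G] (W : Subgroup G) (hWn : W.Normal) {p : ℕ}
  {K : Cx (ZMod p) G} {C I Q : Rep.{0} ℤ G} (D : UCData p K C I Q)

/-- **(EQ-UC)** `Rel1α x z ⇒ Rel1α (γ x) (conj_γ z)` for the datum restricted to `W`. -/
theorem rEq_rel1α (γ : G) {x : C} {z : T1 (K.res W.subtype)}
    (h : (D.res W.subtype).Rel1α x z) :
    (D.res W.subtype).Rel1α (C.ρ γ x) (rEqConjT W hWn K γ z) := by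
  obtain ⟨s, hp, ha, hb⟩ := h
  have key0 : ∀ (w : ↥W) (t : K.K0), D.i0 t = I.ρ (γ⁻¹ * (w : G) * γ) s - s →
      D.i0 (K.K0.ρ γ t) = I.ρ (w : G) (I.ρ γ s) - I.ρ γ s := by
    intro w t ht
    have hmul : ∀ (g h : G) (v : I), I.ρ (g * h) v = I.ρ g (I.ρ h v) := fun g h v => by
      rw [map_mul]; rfl
    have e : γ * (γ⁻¹ * (w : G) * γ) = (w : G) * γ := by group
    rw [D.i0_comm, ht, map_sub, ← hmul, e, hmul]
  have key1 : ∀ t : K.K1, D.i1 t = D.π s → D.i1 (K.K1.ρ γ t) = D.π (I.ρ γ s) := by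
    intro t ht
    rw [D.i1_comm, ht, D.π_comm]
  refine ⟨I.ρ γ s, ?_, fun w => ?_, ?_⟩
  · show (p : ℤ) • I.ρ γ s = D.ι (C.ρ γ x)
    have hp' : (p : ℤ) • s = D.ι x := hp
    rw [D.ι_comm, ← hp', map_zsmul]
  · exact key0 w _ (ha ⟨γ⁻¹ * (w : G) * γ, rEq_conj_mem W hWn γ w⟩)
  · exact key1 _ hb

end UC

section Main

variable {G : Type} [Group G] (𝓤 : Levels G) (W : Subgroup G) (hWn : W.Normal)
  [Fintype (G ⧸ W)] {p : ℕ} [Fact p.Prime] {K : Cx (ZMod p) G} {C I Q : Rep.{0} ℤ G} (D : UCData p K C I Q)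
  (inv : HH2 𝓤 K →ₗ[ZMod p] ZMod p)
  (hM : IsSmooth 𝓤 (permRep (ZMod p) W)) (hfin : Module.Finite (ZMod p) (permRep (ZMod p) W))

omit [Fact p.Prime] in
/-- If `shT1 Z ~ x` and `shT1 Z' ~ γ x` (`Rel1α`), then `Z' - Z ∘ R_{γ⁻¹}` is a coboundary. -/
theorem recipEq_sub_mem_BB1 (γ : G) (x : C)
    {Z Z' : T1 (homCx (permRep (ZMod p) W) K)}
    (hZ : Z ∈ ZZ1 𝓤 (homCx (permRep (ZMod p) W) K))
    (hZ' : Z' ∈ ZZ1 𝓤 (homCx (permRep (ZMod p) W) K))
    (hrel : (D.res W.subtype).Rel1α x (shT1 W K Z))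
    (hrel' : (D.res W.subtype).Rel1α (C.ρ γ x) (shT1 W K Z')) :
    Z' - rEqZR W hWn K γ⁻¹ Z ∈ BB1 (homCx (permRep (ZMod p) W) K) := by
  have h1 := rEq_rel1α W hWn D γ hrel
  have h2 := UCData.Rel1α.sub hrel' h1
  rw [sub_self] at h2
  have h3 : shT1 W K Z' - rEqConjT W hWn K γ (shT1 W K Z) ∈ BB1 (K.res W.subtype) :=
    UCData.Rel1α.mem_BB1 h2
  have h4 := rEq_shT1 W hWn K 𝓤 hZ γ
  have h5 := rEq_shT1_sub W K Z' (rEqZR W hWn K γ⁻¹ Z)
  refine shapiro_inj1 W K (𝓤 := 𝓤)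
    ((ZZ1 𝓤 _).sub_mem hZ' (rEqZR_mem_ZZ1 W hWn K 𝓤 γ⁻¹ hZ)) ?_
  rw [h5, h4]
  have h6 : shT1 W K Z' - (rEqConjT W hWn K γ (shT1 W K Z)
        - D0 (K.res W.subtype)
            ((Z.1 γ : permRep (ZMod p) W →ₗ[ZMod p] K.K0) (permDelta W ((γ : G) : G ⧸ W))))
      = (shT1 W K Z' - rEqConjT W hWn K γ (shT1 W K Z))
        + D0 (K.res W.subtype)
            ((Z.1 γ : permRep (ZMod p) W →ₗ[ZMod p] K.K0) (permDelta W ((γ : G) : G ⧸ W))) := by
    abel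
  rw [h6]
  exact (BB1 _).add_mem h3 ((mem_BB1_iff _ _).2 ⟨_, rfl⟩)

omit [Fintype (G ⧸ W)] in
/-- If `shN1 y' = conj_γ (shN1 y)`, then `R_{γ⁻¹} ∘ y' - y` is a coboundary. -/
theorem recipEq_sub_mem_B1 (γ : G) {y y' : G → permRep (ZMod p) W}
    (hy : y ∈ Z1 𝓤 (permRep (ZMod p) W)) (hy' : y' ∈ Z1 𝓤 (permRep (ZMod p) W))
    (h : shN1 W y' = rEqConj W hWn γ (shN1 W y)) :
    (fun g => rEqR (ZMod p) W hWn γ⁻¹ (y' g)) - y ∈ B1 (permRep (ZMod p) W) := by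
  have hR : (fun g => rEqR (ZMod p) W hWn γ⁻¹ (y' g)) ∈ Z1 𝓤 (permRep (ZMod p) W) :=
    comp_mem_Z1 𝓤 (rEqR (ZMod p) W hWn γ⁻¹) (fun g n => rEqR_comm W hWn γ⁻¹ g n) hy'
  have hc' := ((mem_Z1_iff 𝓤 _ y').1 hy').1
  have h1 := rEq_shN1 W hWn hc' γ⁻¹
  rw [h, rEqConj_inv_conj] at h1
  refine shapiroN_inj1 W (𝓤 := 𝓤) ((Z1 𝓤 _).sub_mem hR hy) ?_
  rw [rEq_shN1_sub, h1, sub_self]

/-- **(EQ)** equivariance of the reciprocity pairing, cocycle form: if `shT1 Z ~ x` and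
`shT1 Z' ~ γ x` (`Rel1α`), and `shN1 y' = conj_γ (shN1 y)`, then `inv(Z' ∪ y') = inv(Z ∪ y)`. -/
theorem recipEq_main (γ : G) (x : C)
    (Z Z' : ↥(ZZ1 𝓤 (homCx (permRep (ZMod p) W) K)))
    (hrel : (D.res W.subtype).Rel1α x (shT1 W K (Z : T1 (homCx (permRep (ZMod p) W) K))))
    (hrel' : (D.res W.subtype).Rel1α (C.ρ γ x)
      (shT1 W K (Z' : T1 (homCx (permRep (ZMod p) W) K))))
    (y y' : ↥(Z1 𝓤 (permRep (ZMod p) W)))
    (h : shN1 W (y' : G → permRep (ZMod p) W)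
      = rEqConj W hWn γ (shN1 W (y : G → permRep (ZMod p) W))) :
    inv (HH2π 𝓤 K (cupZ1 𝓤 K (permRep (ZMod p) W) hM hfin Z' y'))
      = inv (HH2π 𝓤 K (cupZ1 𝓤 K (permRep (ZMod p) W) hM hfin Z y)) := by
  refine inv_eq_of_sub_mem_BB2 inv ?_
  show cup1 (permRep (ZMod p) W) K Z'.1 y'.1 - cup1 (permRep (ZMod p) W) K Z.1 y.1 ∈ BB2 𝓤 K
  -- first difference: `Z'` against `Z ∘ R_{γ⁻¹}`
  obtain ⟨m, hm⟩ := (mem_BB1_iff _ _).1
    (recipEq_sub_mem_BB1 𝓤 W hWn D γ x Z.2 Z'.2 hrel hrel')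
  have e1 : cup1 (permRep (ZMod p) W) K Z'.1 y'.1
      - cup1 (permRep (ZMod p) W) K (rEqZR W hWn K γ⁻¹ Z.1) y'.1 ∈ BB2 𝓤 K := by
    have e0 := rEq_cup1_sub_left W K Z'.1 (rEqZR W hWn K γ⁻¹ Z.1) y'.1
    rw [← e0, ← hm]
    exact cup1_D0_mem_BB2 𝓤 K (permRep (ZMod p) W) m y'.2
  -- second difference: `R_{γ⁻¹} ∘ y'` against `y`
  have hB := recipEq_sub_mem_B1 𝓤 W hWn γ y.2 y'.2 h
  obtain ⟨n, hn⟩ := (mem_B1_iff (permRep (ZMod p) W) _).1 hB
  have e := cup1_δ0_mem_BB2 𝓤 K (permRep (ZMod p) W) hM Z.2 n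
  rw [hn] at e
  have e2 : cup1 (permRep (ZMod p) W) K Z.1 (fun g => rEqR (ZMod p) W hWn γ⁻¹ (y'.1 g))
      - cup1 (permRep (ZMod p) W) K Z.1 y.1 ∈ BB2 𝓤 K := by
    have e5 := rEq_cup1_sub_right W K Z.1 (fun g => rEqR (ZMod p) W hWn γ⁻¹ (y'.1 g)) y.1
    rw [← e5]
    exact e
  have e6 := rEq_cup1 W hWn K γ⁻¹ Z.1 y'.1
  rw [e6] at e1
  have e3 := (BB2 𝓤 K).add_mem e1 e2
  have e4 : cup1 (permRep (ZMod p) W) K Z'.1 y'.1 - cup1 (permRep (ZMod p) W) K Z.1 y.1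
      = (cup1 (permRep (ZMod p) W) K Z'.1 y'.1
          - cup1 (permRep (ZMod p) W) K Z.1 (fun g => rEqR (ZMod p) W hWn γ⁻¹ (y'.1 g)))
        + (cup1 (permRep (ZMod p) W) K Z.1 (fun g => rEqR (ZMod p) W hWn γ⁻¹ (y'.1 g))
          - cup1 (permRep (ZMod p) W) K Z.1 y.1) := by
    abel
  rw [e4]
  exact e3

omit [Fintype (G ⧸ W)] in
/-- The conjugate of a smooth character of `W` is a smooth character. -/
theorem rEqConj_mem_Z1 (hWo : 𝓤.IsOpen W) (γ : G) {χ : ↥W → Rep.trivial (ZMod p) ↥W (ZMod p)}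
    (hχ : χ ∈ Z1 (𝓤.sub W) (Rep.trivial (ZMod p) ↥W (ZMod p))) :
    rEqConj W hWn γ χ ∈ Z1 (𝓤.sub W) (Rep.trivial (ZMod p) ↥W (ZMod p)) := by
  have h1 : trN1 W χ ∈ Z1 𝓤 (permRep (ZMod p) W) := trN1_mem_Z1 W hWo hχ
  have h2 : (fun g => rEqR (ZMod p) W hWn γ (trN1 W χ g)) ∈ Z1 𝓤 (permRep (ZMod p) W) :=
    comp_mem_Z1 𝓤 (rEqR (ZMod p) W hWn γ) (fun g n => rEqR_comm W hWn γ g n) h1
  have h3 := rEq_shN1 W hWn ((mem_Z1_iff 𝓤 _ _).1 h1).1 γ
  rw [shN1_trN1] at h3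
  rw [← h3]
  exact shN1_mem_Z1 W 𝓤 h2

/-- **(EQ)**, for the cocycles `trN1 χ` and `trN1 (conj_γ χ)`. -/
theorem recipEq_trN1 (hWo : 𝓤.IsOpen W) (γ : G) (x : C)
    (Z Z' : ↥(ZZ1 𝓤 (homCx (permRep (ZMod p) W) K)))
    (hrel : (D.res W.subtype).Rel1α x (shT1 W K (Z : T1 (homCx (permRep (ZMod p) W) K))))
    (hrel' : (D.res W.subtype).Rel1α (C.ρ γ x)
      (shT1 W K (Z' : T1 (homCx (permRep (ZMod p) W) K))))
    {χ : ↥W → Rep.trivial (ZMod p) ↥W (ZMod p)}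
    (hχ : χ ∈ Z1 (𝓤.sub W) (Rep.trivial (ZMod p) ↥W (ZMod p))) :
    inv (HH2π 𝓤 K (cupZ1 𝓤 K (permRep (ZMod p) W) hM hfin Z'
        ⟨trN1 W (rEqConj W hWn γ χ), trN1_mem_Z1 W hWo (rEqConj_mem_Z1 𝓤 W hWn hWo γ hχ)⟩))
      = inv (HH2π 𝓤 K (cupZ1 𝓤 K (permRep (ZMod p) W) hM hfin Z
        ⟨trN1 W χ, trN1_mem_Z1 W hWo hχ⟩)) := by
  refine recipEq_main 𝓤 W hWn D inv hM hfin γ x Z Z' hrel hrel' _ _ ?_
  show shN1 W (trN1 W (rEqConj W hWn γ χ)) = rEqConj W hWn γ (shN1 W (trN1 W χ))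
  rw [shN1_trN1, shN1_trN1]

/-- **(EQ)**, in terms of the pairing `α¹ = ptA1` on classes. -/
theorem recipEq_ptA1 (γ : G) (x : C)
    (Z Z' : ↥(ZZ1 𝓤 (homCx (permRep (ZMod p) W) K)))
    (hrel : (D.res W.subtype).Rel1α x (shT1 W K (Z : T1 (homCx (permRep (ZMod p) W) K))))
    (hrel' : (D.res W.subtype).Rel1α (C.ρ γ x)
      (shT1 W K (Z' : T1 (homCx (permRep (ZMod p) W) K))))
    (y y' : ↥(Z1 𝓤 (permRep (ZMod p) W)))
    (h : shN1 W (y' : G → permRep (ZMod p) W)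
      = rEqConj W hWn γ (shN1 W (y : G → permRep (ZMod p) W))) :
    ptA1 𝓤 K inv (permRep (ZMod p) W) hM hfin (HH1π 𝓤 _ Z') (H1smπ 𝓤 _ y')
      = ptA1 𝓤 K inv (permRep (ZMod p) W) hM hfin (HH1π 𝓤 _ Z) (H1smπ 𝓤 _ y) := by
  rw [ptA1_mk, ptA1_mk]
  exact recipEq_main 𝓤 W hWn D inv hM hfin γ x Z Z' hrel hrel' y y' h

end Main

end Fermat.Agent.S56.EC
end MergeWrap_S56_W2_EC_Cyclic_RecipEq

section MergeWrap_S56_W2_EC_Cyclic_RecipCore -- from S56/W2/EC/Cyclic/RecipCore.lean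

set_option autoImplicit false
set_option synthInstance.maxHeartbeats 400000
set_option linter.style.haveILetI false
set_option linter.unusedSectionVars false

namespace Fermat.Agent.S56.EC

open Fermat.Agent.F4 Fermat.Agent.F4Cf ExtCitation Module

variable {p : ℕ} [Fact p.Prime] {S : Finset Nat.Primes} {hpS : pPrime p ∈ S}
  (Pk : ECPack p S hpS) (L : OpenS S)

/-- The `Fintype` structure on `G/W`. -/
@[reducible] noncomputable def cyFt : Fintype (GQ ⧸ L.U) :=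
  haveI : L.U.FiniteIndex := by
    obtain ⟨V, hV, hVU⟩ := L.isOpen
    haveI := (levelsS S).finiteIndex V hV
    exact Subgroup.finiteIndex_of_le hVU
  Fintype.ofFinite _

lemma cyM_smooth : IsSmooth (levelsS S) (permRep (ZMod p) L.U) := permRep_smooth _ L.isOpen

lemma cyM_finite : Module.Finite (ZMod p) (permRep (ZMod p) L.U) := permRep_finite _ L.isOpen

/-- Shapiro for `KC`, as a linear equivalence. -/
noncomputable def cyShE : HH1 (levelsS S) (homCx (permRep (ZMod p) L.U) Pk.KC) ≃ₗ[ZMod p]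
    HH1 ((levelsS S).sub L.U) (Pk.KC.res L.U.subtype) :=
  letI := cyFt L
  LinearEquiv.ofBijective (cyShHH1 L.U Pk.KC (levelsS S)) (cyShHH1_bijective L.U Pk.KC L.isOpen)

/-- Shapiro for `KJ`, as a linear equivalence. -/
noncomputable def cyShEJ : HH1 (levelsS S) (homCx (permRep (ZMod p) L.U) Pk.KJ) ≃ₗ[ZMod p]
    HH1 ((levelsS S).sub L.U) (Pk.KJ.res L.U.subtype) :=
  letI := cyFt L
  LinearEquiv.ofBijective (cyShHH1 L.U Pk.KJ (levelsS S)) (cyShHH1_bijective L.U Pk.KJ L.isOpen)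

/-- `κ : T_W → HH¹(G_S, Hom(M', KC))`. -/
noncomputable def cyKap : ↥L.TU →+ HH1 (levelsS S) (homCx (permRep (ZMod p) L.U) Pk.KC) :=
  (cyShE Pk L).symm.toLinearMap.toAddMonoidHom.comp (cyKapW Pk L)

lemma cyShE_cyKap (t : ↥L.TU) : cyShE Pk L (cyKap Pk L t) = cyKapW Pk L t :=
  (cyShE Pk L).apply_symm_apply _

/-- `α : HH¹(G_S, Hom(M', KC)) → H¹(G_S, M')^*`. -/
noncomputable abbrev cyAlpha : HH1 (levelsS S) (homCx (permRep (ZMod p) L.U) Pk.KC) →ₗ[ZMod p]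
    Dual (ZMod p) (H1sm (levelsS S) (permRep (ZMod p) L.U)) :=
  ptAlpha Pk.datum (permRep (ZMod p) L.U) (cyM_smooth L) (cyM_finite L)

/-- `β : HH¹(G_S, Hom(M', KJ)) → HH¹(G_S, Hom(M', KC))` (`= ptBeta Pk.datum M'`, stated with
`Pk.KJ`, `Pk.KC`). -/
noncomputable def cyBetaC : HH1 (levelsS S) (homCx (permRep (ZMod p) L.U) Pk.KJ) →ₗ[ZMod p]
    HH1 (levelsS S) (homCx (permRep (ZMod p) L.U) Pk.KC) :=
  ptBeta Pk.datum (permRep (ZMod p) L.U)

lemma cyBetaC_eq : cyBetaC Pk L = (homCxPost (permRep (ZMod p) L.U) (cyG Pk)).mapHH1 (levelsS S) :=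
  rfl

/-- `ι : HH¹(G_S, Hom(M', KJ)) → (∏_q H¹(D_q, M'))^*`. -/
noncomputable abbrev cyIota : HH1 (levelsS S) (homCx (permRep (ZMod p) L.U) Pk.KJ) →ₗ[ZMod p]
    Dual (ZMod p) ((q : ↥S) → H1sm (locLevelsS S q.1)
      (Rep.res (primeLocalToGlobal q.1) (permRep (ZMod p) L.U))) :=
  ptIota Pk.datum (permRep (ZMod p) L.U) (cyM_smooth L) (cyM_finite L)

/-- `α ∘ β = loc^* ∘ ι`. -/
lemma cyAlpha_cyBetaC (η : HH1 (levelsS S) (homCx (permRep (ZMod p) L.U) Pk.KJ))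
    (x : H1sm (levelsS S) (permRep (ZMod p) L.U)) :
    cyAlpha Pk L (cyBetaC Pk L η) x =
      cyIota Pk L η (locSm1Total S (permRep (ZMod p) L.U) x) :=
  congrArg (fun f => f η x)
    (pt_compat Pk.datum (permRep (ZMod p) L.U) (cyM_smooth L) (cyM_finite L))

/-- Shapiro intertwines `β` and `g_W`. -/
lemma cyShE_cyBetaC (η : HH1 (levelsS S) (homCx (permRep (ZMod p) L.U) Pk.KJ)) :
    cyShE Pk L (cyBetaC Pk L η) =
      (rbResHom L.U.subtype (cyG Pk)).mapHH1 ((levelsS S).sub L.U) (cyShEJ Pk L η) :=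
  letI := cyFt L
  cyShHH1_post L.U (levelsS S) (cyG Pk) η

/-- `α` is surjective. -/
theorem cyAlpha_surjective : Function.Surjective (cyAlpha Pk L) :=
  ptA1_surjective _ _ _ _ _ _
    (ddt_primeTo (levelsS S) Pk.datum.KC Pk.datum.smoothC Pk.datum.inv Pk.datum.a2inj
      Pk.datum.a1surj (permRep (ZMod p) L.U) (cyM_smooth L) (cyM_finite L)).2

/-- `α` is injective. -/
theorem cyAlpha_injective : Function.Injective (cyAlpha Pk L) :=
  ptA1_injective _ _ _ _ _ _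
    (ddt_inj_levels (levelsS S) Pk.datum.KC Pk.datum.smoothC Pk.datum.inv Pk.datum.a2inj
      Pk.datum.a1surj Pk.datum.a1inj (permRep (ZMod p) L.U) (cyM_smooth L) (cyM_finite L))

/-- `ι` is surjective. -/
theorem cyIota_surjective : Function.Surjective (cyIota Pk L) :=
  ptIota_surjective Pk.datum (permRep (ZMod p) L.U) (cyM_smooth L) (cyM_finite L)

/-- **The reciprocity pairing** `B : Ш_V(W) × T_W → 𝔽_p`. -/
noncomputable def cyB (hL : L.U ∈ (levelsS S).sets) : ↥(cyShaV (p := p) S L.U) →+ ↥L.TU →+ ZMod p :=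
  AddMonoidHom.mk' (fun χ =>
    ((cyAlpha Pk L).flip (((cyShaPermEquiv hL).symm χ :
      ↥(sha1sm S (permRep (ZMod p) L.U))) : H1sm (levelsS S) (permRep (ZMod p) L.U))
      ).toAddMonoidHom.comp (cyKap Pk L))
    (fun χ χ' => AddMonoidHom.ext fun t => by
      show (cyAlpha Pk L).flip _ _ = (cyAlpha Pk L).flip _ _ + (cyAlpha Pk L).flip _ _
      rw [map_add, Submodule.coe_add, map_add]
      rfl)

lemma cyB_apply (hL : L.U ∈ (levelsS S).sets) (χ : ↥(cyShaV (p := p) S L.U)) (t : ↥L.TU) :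
    cyB Pk L hL χ t = cyAlpha Pk L (cyKap Pk L t)
      (((cyShaPermEquiv hL).symm χ : ↥(sha1sm S (permRep (ZMod p) L.U))) :
        H1sm (levelsS S) (permRep (ZMod p) L.U)) := rfl

end Fermat.Agent.S56.EC
end MergeWrap_S56_W2_EC_Cyclic_RecipCore
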