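import Fermat.Agent.MU.S56.W2.EC.Cyclic.RecipCore
import Fermat.Agent.MU.S56.W2.EC.Cyclic.RecipCoreL

section MergeWrap_S56_W2_EC_Cyclic_RecipCoreR -- from S56/W2/EC/Cyclic/RecipCoreR.lean

set_option autoImplicit false
set_option synthInstance.maxHeartbeats 400000
set_option linter.unusedSectionVars false
set_option linter.style.haveILetI false

namespace Fermat.Agent.S56.EC

open Fermat.Agent.F4 Fermat.Agent.F4Cf ExtCitation Module

/-- A linear form vanishing on the kernel of `f` factors through `f` (group version). -/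
theorem cyBR_exists_dualMap_aux {p : ℕ} [Fact p.Prime] {V₁ V₂ : Type} [AddCommGroup V₁]
    [Module (ZMod p) V₁] [AddCommGroup V₂] [Module (ZMod p) V₂] (f : V₁ →ₗ[ZMod p] V₂)
    (φ : V₁ →ₗ[ZMod p] ZMod p) (h : ∀ x, f x = 0 → φ x = 0) :
    ∃ ψ : V₂ →ₗ[ZMod p] ZMod p, ∀ x, ψ (f x) = φ x := by
  have hmem : φ ∈ (LinearMap.ker f).dualAnnihilator := by
    rw [Submodule.mem_dualAnnihilator]
    intro x hx
    exact h x (LinearMap.mem_ker.1 hx)
  rw [← LinearMap.range_dualMap_eq_dualAnnihilator_ker] at hmem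
  obtain ⟨ψ, hψ⟩ := hmem
  exact ⟨ψ, fun x => by rw [← hψ]; rfl⟩

/-- A linear form vanishing on the kernel of `f` factors through `f`. -/
theorem cyBR_exists_dualMap {p : ℕ} [Fact p.Prime] {V₁ V₂ : Type} [AddCommMonoid V₁]
    [Module (ZMod p) V₁] [AddCommMonoid V₂] [Module (ZMod p) V₂] (f : V₁ →ₗ[ZMod p] V₂)
    (φ : V₁ →ₗ[ZMod p] ZMod p) (h : ∀ x, f x = 0 → φ x = 0) :
    ∃ ψ : V₂ →ₗ[ZMod p] ZMod p, ∀ x, ψ (f x) = φ x := by
  letI : AddCommGroup V₁ := Module.addCommMonoidToAddCommGroup (ZMod p)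
  letI : AddCommGroup V₂ := Module.addCommMonoidToAddCommGroup (ZMod p)
  exact cyBR_exists_dualMap_aux f φ h

variable {p : ℕ} [Fact p.Prime] {S : Finset Nat.Primes} {hpS : pPrime p ∈ S}
  (Pk : ECPack p S hpS) (L : OpenS S)

/-- `B(·, t) = 0` iff `κ t` comes from `KJ`. -/
theorem cyB_right_iff_beta (hL : L.U ∈ (levelsS S).sets) (t : ↥L.TU) :
    (∀ χ : ↥(cyShaV (p := p) S L.U), cyB Pk L hL χ t = 0) ↔
      ∃ η : HH1 (levelsS S) (homCx (permRep (ZMod p) L.U) Pk.KJ),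
        cyKap Pk L t = cyBetaC Pk L η := by
  constructor
  · intro h
    obtain ⟨φ, hφ⟩ := cyBR_exists_dualMap (p := p) (locSm1Total S (permRep (ZMod p) L.U))
      (cyAlpha Pk L (cyKap Pk L t)) (fun x hx => by
        have hx' : x ∈ sha1sm S (permRep (ZMod p) L.U) := hx
        have h1 := h (cyShaPermEquiv hL ⟨x, hx'⟩)
        rw [cyB_apply, AddEquiv.symm_apply_apply] at h1
        exact h1)
    obtain ⟨η, rfl⟩ := cyIota_surjective Pk L φ
    refine ⟨η, cyAlpha_injective Pk L ?_⟩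
    refine LinearMap.ext fun x => ?_
    rw [cyAlpha_cyBetaC]
    exact (hφ x).symm
  · rintro ⟨η, hκ⟩ χ
    rw [cyB_apply, hκ]
    exact cyAlpha_beta_sha Pk L η _ ((cyShaPermEquiv hL).symm χ).2

/-- **Right kernel.** -/
theorem cyB_right (hL : L.U ∈ (levelsS S).sets) (t : ↥L.TU) :
    (∀ χ : ↥(cyShaV (p := p) S L.U), cyB Pk L hL χ t = 0) ↔
      ∃ e ∈ sUnitsAdd S, ∃ a : (L.field)ˣ, ∃ t' ∈ L.TU, (t : QSx S) = e + L.toQS a + p • t' := by
  rw [← cyKapW_range_iff Pk L hL t, cyB_right_iff_beta Pk L hL t]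
  constructor
  · rintro ⟨η, hκ⟩
    refine ⟨cyShEJ Pk L η, ?_⟩
    rw [← cyShE_cyKap, hκ, cyShE_cyBetaC]
  · rintro ⟨η, h⟩
    refine ⟨(cyShEJ Pk L).symm η, (cyShE Pk L).injective ?_⟩
    rw [cyShE_cyKap, h, cyShE_cyBetaC, LinearEquiv.apply_symm_apply]

end Fermat.Agent.S56.EC
end MergeWrap_S56_W2_EC_Cyclic_RecipCoreR
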